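import Fermat.Agent.ModField.Semistable.AtP.Slope

/-!
# The orders at the branches of an eigenclass, from the width of the singular point

Only the width of the singular point in question enters.
-/

set_option autoImplicit false
set_option linter.style.haveILetI false
set_option linter.unusedSectionVars false
set_option maxHeartbeats 400000

noncomputable section

namespace FA.ModField.AtP

open AlgebraicCurve FA.Curve FA.CurveRed FA.CurveRed.ConstRed FA.Local FA.LocalDef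

local notation "Qb" => AlgebraicClosure ℚ
local notation "GQ" => AlgebraicClosure ℚ ≃ₐ[ℚ] AlgebraicClosure ℚ

variable {F k : Type*} [Field F] [Algebra Qb F] [Field k] [IsAlgClosed k]
  {Fk : Fin 2 → Type*} [∀ i, Field (Fk i)] [∀ i, Algebra k (Fk i)]
  {A : ValuationSubring Qb} {J : MultiRed Qb F k Fk A} {hF : IsFunctionField Qb F}
  {hk : ∀ i, IsFunctionField k (Fk i)} {x : F} {xb : ∀ i, Fk i}
  {H : FibreHyp J hF hk x xb}
  {hconn : ∀ c : Fin 2 → k,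
    (∀ b b' : H.Br, H.sgPt b = H.sgPt b' → c b.1.1 = c b'.1.1) → ∀ i j, c i = c j}
  {φ : GQ →* SemilinearAut Qb F} (GF : GalFibre (H.semiFibre hconn) φ) {p : ℕ}
  (hp : p.Prime) (hA : A.LiesOverPrime p)
  (hind : ∀ g ∈ A.inertiaSubgroupIn ℚ, Induced J x (φ g) (fun _ => 1) 1)
  {U : H.UnitDatum (p : Qb)} (C : ∀ s, FibreHyp.Coord U s)
  (hC : ∀ s, ∀ g ∈ A.inertiaSubgroupIn ℚ, φ g • (C s).T = (C s).T)
  (T : NormOp (H.semiFibre hconn) φ)

local notation "v" => ValuationSubring.valuation A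

variable {Hs : Subgroup GQ} (hH : Hs ≤ A.inertiaSubgroupIn ℚ)

include GF hH

include hind hC hp hA

open Classical in
/-- **Orders at the branches from the ratio of scales, given the widths.** -/
theorem dvd_branch_ord_at {π₁ : Qb} (hπp : v π₁ ^ (p - 1) = v (p : Qb)) (hπlt : v π₁ < 1)
    (hεn : ∀ s, ∃ n : ℤ, v (C s).ε = v (p : Qb) ^ n)
    (D : Divisor Qb F) (hD : ∀ g ∈ Hs, ∀ P, D (φ g • P) = D P)
    {g : F} (hg : g ≠ 0) (hgD : ∀ P, P.ord g = (p : ℤ) * D P)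
    (a : ℕ) (hm : ¬ (p : ℤ) ∣ (T.e : ℤ) - a)
    {h : F} (hh : h ≠ 0) (hTD : ∀ P, T.TD D P = (a : ℤ) * D P + P.ord h)
    (key : ∀ (h' : F) (w : Fin 2 → Qb), (∃ c : Qb, c ≠ 0 ∧ h' = algebraMap Qb F c * h) →
      (∀ g ∈ Hs, φ g • h' = h') →
      (∀ i, w i ≠ 0 ∧ (∀ g ∈ Hs, g (w i) = w i) ∧
        ∃ r, r ≠ 0 ∧ ((H.semiFibre hconn).C i).Red (algebraMap Qb F (w i)⁻¹ * h') r) →
      ∀ s, ∃ n : ℤ, v (w 1 / w 0 / tubeEps (C s) D ^ ((T.e : ℤ) - a)) = v π₁ ^ n)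
    {c : Fin 2 → Qb} {gg : Fin 2 → F} {r : ∀ i, Fk i}
    (hfg : ∀ i, g = algebraMap Qb F (c i) * gg i) (hr : ∀ i, (J.C i).Red (gg i) (r i))
    (hr0 : ∀ i, r i ≠ 0) (s : H.Sg)
    (hwid : ∀ L : ℤ, L * U.δ s = U.Δ → ¬ (p : ℤ) ∣ L) :
    (p : ℤ) ∣ (H.brPl s 0).ord (r 0) ∧ (p : ℤ) ∣ (H.brPl s 1).ord (r 1) := by
  have hc : ∀ i, c i ≠ 0 := fun i hc0 => hg (by rw [hfg i, hc0, map_zero, zero_mul])
  -- the function of the image
  have hinv : ∀ g' ∈ Hs, ∀ P : Place Qb F, (φ g' • P).ord h = P.ord h := fun g' hg' P => by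
    have h1 := hTD (φ g' • P)
    have h2 := hTD P
    have e : T.TD D (φ g' • P) = T.TD D P := by
      have e1 : φ g' • D = D := Finsupp.ext fun Q => by
        rw [SemilinearAut.divisor_smul_apply, ← hD g' hg' ((φ g')⁻¹ • Q), smul_inv_smul]
      conv_lhs => rw [← e1, T.gal g' (hH hg'), SemilinearAut.divisor_smul_apply, inv_smul_smul]
    rw [hD g' hg' P, e] at h1
    omega
  obtain ⟨ch, hch, hfix⟩ := exists_fixed_mult GF hH hh hinv
  set h' := algebraMap Qb F ch * h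
  have hh'0 : h' ≠ 0 := mul_ne_zero (by simpa using hch) hh
  choose w rw₀ hw hwfix hrw hwred using fun i => GF.exists_fixed_scale hF hk (H := (Hs : Set GQ))
    hH (τ := 1) (one_mem _) (i := i) hh'0 hfix
  obtain ⟨n, hn⟩ := key h' w ⟨ch, hch, rfl⟩ hfix
    (fun i => ⟨hw i, hwfix i, rw₀ i, hrw i, hwred i⟩) s
  -- `h ^ p` against the norm of `g`
  have hNg := T.ne_zero g hg
  have hga : g ^ a ≠ 0 := pow_ne_zero _ hg
  obtain ⟨κ, hκ, hκe⟩ := exists_const_of_ord_eq hF (pow_ne_zero p hh'0)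
    (mul_ne_zero hNg (inv_ne_zero hga)) fun P => by
      rw [place_ord_pow, P.ord_mul hNg (inv_ne_zero hga), P.ord_inv, place_ord_pow,
        P.ord_mul (by simpa using hch) hh, place_ord_algebraMap, zero_add,
        T.ord g hg ((p : ℤ) • D) (fun P => by rw [Finsupp.smul_apply, smul_eq_mul, hgD P]) P,
        map_zsmul, Finsupp.smul_apply, smul_eq_mul, hTD P, hgD]
      ring
  have hwp : ∀ i, v (w i) ^ p = v κ * v (c i) ^ ((T.e : ℤ) - a) := by
    intro i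
    obtain ⟨r', hr', hr'0, -⟩ := T.red i _ _ (hr i) (hr0 i)
    have hgg0 := (hr i).ne_zero (hr0 i)
    have h1 : ((H.semiFibre hconn).C i).Red (algebraMap Qb F (κ * (c i) ^ T.e / (c i) ^ a)⁻¹ * h' ^ p)
        (r' * (r i ^ a)⁻¹) := by
      have h2 := hr'.mul (((hr i).pow a).inv (pow_ne_zero _ (hr0 i)))
      convert h2 using 1
      conv_lhs => rw [hκe, hfg i, T.mul, T.const, mul_pow]
      have h3 := (map_ne_zero (algebraMap Qb F)).2 (hc i)
      have h4 := (map_ne_zero (algebraMap Qb F)).2 hκ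
      simp only [map_inv₀, map_div₀, map_mul, map_pow]
      field_simp
    have h5 := scale_eq (X := H.semiFibre hconn) (pow_ne_zero p (hw i))
      (div_ne_zero (mul_ne_zero hκ (pow_ne_zero _ (hc i))) (pow_ne_zero _ (hc i)))
      (pow_ne_zero p (hrw i)) (mul_ne_zero hr'0 (inv_ne_zero (pow_ne_zero _ (hr0 i))))
      (by
        have := (hwred i).pow p
        rwa [mul_pow, ← map_pow, inv_pow] at this) h1
    rw [map_pow, map_div₀, map_mul, map_pow, map_pow] at h5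
    rw [h5, zpow_sub₀ ((A.valuation.pos_iff.2 (hc i)).ne'), zpow_natCast, zpow_natCast,
      mul_div_assoc]
  -- the tube
  obtain ⟨G, d, hG0, -, hG0r, hG1r, hGord, -⟩ := exists_tube_prod (C s) D
  set ε := tubeEps (C s) D
  have hε : ε ≠ 0 := tubeEps_ne_zero (C s) D
  set εC := (C s).ε
  have hεC : εC ≠ 0 := (C s).ε_ne
  set A₀ := (H.brPl s 0).ord (r 0) - p * d with hA₀
  set g₃ := g * (G ^ p)⁻¹ * (C s).T ^ (-A₀) with hg₃
  let c₃ : Fin 2 → Qb := ![c 0, c 1 * (ε ^ p)⁻¹ * εC ^ (-A₀)]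
  let r₃ : ∀ i, Fk i := FibreHyp.mkTwo (r 0 * (((C s).t 0 ^ d) ^ p)⁻¹ * (C s).t 0 ^ (-A₀))
    (r 1 * (((-1 : Fk 1) ^ d) ^ p)⁻¹ * (C s).t 1 ^ (-A₀))
  have hgp : G ^ p ≠ 0 := pow_ne_zero p hG0
  have hg₃0 : g₃ ≠ 0 := mul_ne_zero (mul_ne_zero hg (inv_ne_zero hgp))
    (zpow_ne_zero _ (C s).T_ne)
  have hc₃ : ∀ i, c₃ i ≠ 0 := Fin.forall_fin_two.2 ⟨hc 0,
    mul_ne_zero (mul_ne_zero (hc 1) (inv_ne_zero (pow_ne_zero _ hε))) (zpow_ne_zero _ hεC)⟩
  have hr₃ : ∀ i, (J.C i).Red (algebraMap Qb F (c₃ i)⁻¹ * g₃) (r₃ i) := by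
    rw [Fin.forall_fin_two]
    constructor
    · have h := ((hr 0).mul ((hG0r.pow p).inv (pow_ne_zero _ (zpow_ne_zero _ ((C s).t_ne 0))))).mul
        (FibreHyp.red_zpow (C s).red0 ((C s).t_ne 0) (-A₀))
      convert h using 1
      conv_lhs => rw [hg₃, show c₃ 0 = c 0 from rfl, hfg 0]
      · rw [← mul_assoc, ← mul_assoc, ← mul_assoc, ← map_mul, inv_mul_cancel₀ (hc 0), map_one,
          one_mul]
      · rfl
    · have h := ((hr 1).mul ((hG1r.pow p).inv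
        (pow_ne_zero _ (zpow_ne_zero _ (neg_ne_zero.2 one_ne_zero))))).mul
        (FibreHyp.red_zpow (C s).red1 ((C s).t_ne 1) (-A₀))
      convert h using 1
      conv_lhs => rw [hg₃, show c₃ 1 = c 1 * (ε ^ p)⁻¹ * εC ^ (-A₀) from rfl, hfg 1]
      simp only [mul_inv, map_mul, map_inv₀, map_pow, inv_inv, mul_pow, inv_pow, mul_zpow,
        inv_zpow, map_zpow₀]
      have h3 := (map_ne_zero (algebraMap Qb F)).2 (hc 1)
      · field_simp
        rfl
      · rfl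
  have hr₃0 : ∀ i, r₃ i ≠ 0 := Fin.forall_fin_two.2
    ⟨mul_ne_zero (mul_ne_zero (hr0 0) (inv_ne_zero (pow_ne_zero _ (zpow_ne_zero _ ((C s).t_ne 0)))))
      (zpow_ne_zero _ ((C s).t_ne 0)),
      mul_ne_zero (mul_ne_zero (hr0 1) (inv_ne_zero (pow_ne_zero _ (zpow_ne_zero _
        (neg_ne_zero.2 one_ne_zero))))) (zpow_ne_zero _ ((C s).t_ne 1))⟩
  have hfg₃ : ∀ i, g₃ = algebraMap Qb F (c₃ i) * (algebraMap Qb F (c₃ i)⁻¹ * g₃) := fun i => by
    rw [← mul_assoc, ← map_mul, mul_inv_cancel₀ (hc₃ i), map_one, one_mul]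
  have hclean : H.CleanAt s g₃ := fun P hP => by
    rw [hg₃, P.ord_mul (mul_ne_zero hg (inv_ne_zero hgp)) (zpow_ne_zero _ (C s).T_ne),
      P.ord_mul hg (inv_ne_zero hgp), P.ord_inv, place_ord_pow, hgD, hGord P hP,
      FibreHyp.place_ord_zpow, (C s).clean P hP]
    ring
  have h00 : (H.brPl s 0).ord (r₃ 0) = 0 := by
    show (H.brPl s 0).ord (r 0 * (((C s).t 0 ^ d) ^ p)⁻¹ * (C s).t 0 ^ (-A₀)) = 0
    have hne := pow_ne_zero p (zpow_ne_zero d ((C s).t_ne 0))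
    rw [Place.ord_mul _ (mul_ne_zero (hr0 0) (inv_ne_zero hne)) (zpow_ne_zero _ ((C s).t_ne 0)),
      Place.ord_mul _ (hr0 0) (inv_ne_zero hne), Place.ord_inv, place_ord_pow,
      FibreHyp.place_ord_zpow, FibreHyp.place_ord_zpow, (C s).ord0, hA₀]
    ring
  have heq := FibreHyp.CleanAt.scale_eq hfg₃ hr₃ hr₃0 hg₃0 hclean h00
  have h11 : (H.brPl s 1).ord (r 1) + A₀ = 0 := by
    have h := (FibreHyp.CleanAt.of_eq hfg₃ hr₃ hr₃0 hg₃0 hclean heq).1 1
    change (H.brPl s 1).ord (r 1 * (((-1 : Fk 1) ^ d) ^ p)⁻¹ * (C s).t 1 ^ (-A₀)) = 0 at h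
    have hne := pow_ne_zero p (zpow_ne_zero d (neg_ne_zero.2 (one_ne_zero (α := Fk 1))))
    rw [Place.ord_mul _ (mul_ne_zero (hr0 1) (inv_ne_zero hne)) (zpow_ne_zero _ ((C s).t_ne 1)),
      Place.ord_mul _ (hr0 1) (inv_ne_zero hne), Place.ord_inv, place_ord_pow,
      FibreHyp.place_ord_zpow, FibreHyp.place_ord_zpow, (C s).ord1,
      show (-1 : Fk 1) = algebraMap k (Fk 1) (-1) by simp, place_ord_algebraMap] at h
    linarith
  -- valuations
  obtain ⟨L, hL⟩ := hεn s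
  have hLΔ : L * U.δ s = U.Δ := by
    have hlt : v (p : Qb) < 1 := valuation_p_lt_one hA
    have h1 : v (p : Qb) ^ (L * U.δ s) = v (p : Qb) ^ (U.Δ : ℤ) := by
      rw [zpow_mul, ← hL, zpow_natCast, zpow_natCast, ← map_pow, (C s).ε_pow, U.d_val]
    exact (zpow_right_strictAnti₀ (valuation_p_pos (A := A) hp) hlt).injective h1
  have hLp : ¬ (p : ℤ) ∣ L := hwid L hLΔ
  have hπ0 : 0 < v π₁ := zero_lt_iff.2 fun h0 => by
    rw [h0, zero_pow (by have := hp.two_le; omega)] at hπp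
    exact (valuation_p_pos (A := A) hp).ne hπp
  have hcc : v (c 1) / v (c 0) = v ε ^ p * v εC ^ A₀ := by
    have h := heq
    change v (c 1 * (ε ^ p)⁻¹ * εC ^ (-A₀)) = v (c 0) at h
    rw [map_mul, map_mul, map_inv₀, map_pow, map_zpow₀, zpow_neg] at h
    have := (A.valuation.pos_iff.2 hε).ne'
    have := (zpow_ne_zero A₀ (A.valuation.pos_iff.2 hεC).ne')
    rw [← h]
    have := (A.valuation.pos_iff.2 (hc 1)).ne'
    field_simp
  have hmain : v π₁ ^ (n * p) = v π₁ ^ (((p - 1 : ℕ) : ℤ) * (L * (A₀ * ((T.e : ℤ) - a)))) := by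
    rw [zpow_mul, ← hn, map_div₀, map_div₀, map_zpow₀, zpow_natCast, div_pow, div_pow,
      hwp 1, hwp 0, mul_div_mul_left _ _ (A.valuation.pos_iff.2 hκ).ne', ← div_zpow, hcc,
      mul_zpow, zpow_mul, zpow_natCast (v π₁), hπp, zpow_mul, ← hL, zpow_mul,
      ← zpow_natCast (v ε), ← zpow_mul, ← zpow_natCast (v ε ^ ((T.e : ℤ) - a)), ← zpow_mul,
      mul_comm (p : ℤ) ((T.e : ℤ) - a)]
    rw [mul_div_assoc, mul_comm (v ε ^ (((T.e : ℤ) - a) * (p : ℤ))), ← zpow_mul (v ε), div_mul_cancel₀]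
    exact zpow_ne_zero _ (A.valuation.pos_iff.2 hε).ne'
  have he := (zpow_right_strictAnti₀ hπ0 hπlt).injective hmain
  have hP := Nat.prime_iff_prime_int.1 hp
  have hA0 : (p : ℤ) ∣ A₀ := by
    have h1 : (p : ℤ) ∣ ((p - 1 : ℕ) : ℤ) * (L * (A₀ * ((T.e : ℤ) - a))) := he ▸ dvd_mul_left _ _
    rcases hP.dvd_or_dvd h1 with h1 | h1
    · exact absurd (Nat.le_of_dvd (by have := hp.two_le; omega) (Int.natCast_dvd_natCast.1 h1))
        (by have := hp.two_le; omega)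
    rcases hP.dvd_or_dvd h1 with h1 | h1
    · exact absurd h1 hLp
    rcases hP.dvd_or_dvd h1 with h1 | h1
    · exact h1
    · exact absurd h1 hm
  refine ⟨?_, ?_⟩
  · rw [show (H.brPl s 0).ord (r 0) = A₀ + p * d by rw [hA₀]; ring]
    exact dvd_add hA0 (dvd_mul_right _ _)
  · rw [show (H.brPl s 1).ord (r 1) = -A₀ by linarith]
    exact hA0.neg_right

end FA.ModField.AtP
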