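import Fermat.Agent.ModField.Semistable.AtP.WidthThree

/-!
# The widths at `3` and the invariant `j`

In characteristic `3` the series of `j` is `1/q` times a cube, so the reduction of `Δ(z) / Δ(3z)`
is a power of `j` times a cube: a crossing whose width is divisible by `3` has order of `j` prime
to `3` on both components.
-/

set_option autoImplicit false
set_option linter.style.haveILetI false
set_option linter.unusedSectionVars false
set_option synthInstance.maxHeartbeats 400000
set_option maxHeartbeats 800000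

noncomputable section

namespace FA.ModField.AtP

open ModularCurve AlgebraicCurve FA.Curve FA.CurveRed FA.CurveRed.ConstRed FA.CurveRed.Modular
  FA.JTorsion FA.Level HahnSeries

local notation "Qb" => AlgebraicClosure ℚ

/-- The series of `j` is a power of `q` times a cube. -/
theorem exists_jqModC_cube (R : Type*) [CommRing R] :
    ∃ γ : LaurentSeries R, jqModC R = single (-1 : ℤ) 1 * γ ^ 3 := by
  obtain ⟨J, hJ⟩ : ∃ J : PowerSeries ℤ, dedekindEtaUnitInv = J ^ 3 := by
    set J : PowerSeries ℤ := (etaProd ^ 8).invOfUnit 1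
    refine ⟨J, ?_⟩
    have h1 : etaProd ^ 8 * J = 1 := PowerSeries.mul_invOfUnit _ _ (by
      rw [map_pow, constantCoeff_etaProd, one_pow]; rfl)
    have h2 : dedekindEtaUnit * J ^ 3 = 1 := by
      rw [dedekindEtaUnit, show 24 = 8 * 3 from rfl, pow_mul, ← mul_pow, h1, one_pow]
    calc dedekindEtaUnitInv = dedekindEtaUnitInv * (dedekindEtaUnit * J ^ 3) := by rw [h2, mul_one]
      _ = J ^ 3 := by
        rw [← mul_assoc, mul_comm dedekindEtaUnitInv, dedekindEtaUnit_mul_inv, one_mul]
  refine ⟨ofPowerSeries ℤ R ((eisenstein4 * J).map (Int.castRingHom R)), ?_⟩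
  rw [jqModC, jNum, hJ, ← mul_pow, map_pow, map_pow]

variable [Algebra Qb ℂ] (M p : ℕ) [NeZero M] [hp : Fact p.Prime] [hp0 : NeZero p]
variable (A : ValuationSubring Qb) [IsAlgClosed (IsLocalRing.ResidueField A)]
  [CharP (IsLocalRing.ResidueField A) p] (hpM : ¬ p ∣ M)
  (harch : ∀ c : Qb, c ≠ 0 → ∃ m : ℕ, A.valuation ((p : Qb) ^ m) < A.valuation c)

local notation "kA" => IsLocalRing.ResidueField A
local notation "πA" => IsLocalRing.residue A
local notation "Fb" => modularFunctionFieldFullC (IsLocalRing.ResidueField A) M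
local notation "HH" => theFibre M p A hpM harch

/-- A function whose series is `q^n` times a cube, against `j`. -/
theorem three_dvd_ord_add (hp3 : p = 3) {r : Fb} {a b : ℕ} [NeZero a] [NeZero b]
    (hr : (r : LaurentSeries kA) = EtaQ.etaSer 12 a b 1 kA) (hr0 : r ≠ 0) {e : ℕ}
    (he : (3 : ℤ) ∣ (a : ℤ) - b - e) (Q : Place kA Fb) :
    (3 : ℤ) ∣ Q.ord r + e * Q.ord (jBar kA M) := by
  subst hp3
  obtain ⟨β, hβ⟩ := etaSer_twelve_eq a b kA
  obtain ⟨γ, hγ⟩ := exists_jqModC_cube kA
  obtain ⟨n, hn⟩ := he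
  have key : (single n (1 : kA) * (β * γ ^ e)) ^ 3 =
      ((r * jBar kA M ^ e : Fb) : LaurentSeries kA) := by
    rw [IntermediateField.coe_mul, SubmonoidClass.coe_pow, hr, hβ,
      show ((jBar kA M : Fb) : LaurentSeries kA) = jqModC kA from rfl, hγ,
      mul_pow (single (-1 : ℤ) (1 : kA)), ← pow_mul γ, mul_comm 3 e, pow_mul γ e 3,
      mul_pow, mul_pow, HahnSeries.single_pow, HahnSeries.single_pow, one_pow, one_pow,
      mul_mul_mul_comm, HahnSeries.single_mul_single, one_mul, nsmul_eq_mul, nsmul_eq_mul]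
    congr 3
    push_cast
    linarith
  have hd := dvd_ord_of_series_pow (p := 3) key Q
  have hj : jBar kA M ≠ 0 := fun h0 =>
    jBar_transcendental kA M (h0 ▸ isAlgebraic_zero)
  rwa [Place.ord_mul _ hr0 (pow_ne_zero _ hj), place_ord_pow] at hd

/-- **A crossing of width divisible by `3` has order of `j` prime to `3` on both components.** -/
theorem three_dvd_delta (hp3 : p = 3) (h : EtaQ.Adm (M * p) 12 1 1 p)
    (h' : EtaQ.Adm (M * p) 12 1 (1 * p) 1) (U : (HH).UnitDatum (p : Qb))
    (hU : U.u = EtaQ.etaElt Qb h) (s : (HH).Sg) (i : Fin 2)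
    (hj : (3 : ℤ) ∣ ((HH).brPl s i).ord (jBar kA M)) : 3 ∣ U.δ s := by
  refine Int.natCast_dvd_natCast.1 ?_
  push_cast
  revert i
  refine Fin.forall_fin_two.2 ⟨fun hj => ?_, fun hj => ?_⟩
  · obtain ⟨r₀, hr0, hred, hrs⟩ := exists_red_etaElt_series M p A hpM harch h
    have e : U.r 0 = r₀ := by
      have h0 := U.red0
      rw [hU] at h0
      exact h0.unique hred
    have h1 := three_dvd_ord_add M p A hp3 hrs hr0 (e := 4) (by subst hp3; norm_num)
      ((HH).brPl s 0)
    rw [← e, U.ord_zero] at h1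
    have := hj.mul_left ((4 : ℕ) : ℤ)
    exact (dvd_add_left this).1 h1
  · obtain ⟨d, hd, hW⟩ := EtaQ.exists_wLvl_etaElt (L := Qb) hpM (one_dvd M) h h'
    obtain ⟨r₁, hr1, hred, hrs⟩ := exists_red_etaElt_series M p A hpM harch h'
    have hd0 : d ≠ 0 := fun e0 => by
      rw [e0, zero_pow h.m_ne] at hd
      exact pow_ne_zero (12 * 1) (Nat.cast_ne_zero.2 hp.out.ne_zero) hd.symm
    have hred1 : (cZero M p A πA IsLocalRing.residue_surjective residueAt_eq_zero hpM harch).Red
        (algebraMap Qb (levelField (M * p) Qb) d⁻¹ * U.u) r₁ := by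
      rw [cZero_red, map_mul, AlgEquiv.commutes, hU, hW, ← mul_assoc, ← map_mul,
        inv_mul_cancel₀ hd0, map_one, one_mul]
      exact hred
    have h2 : (cZero M p A πA IsLocalRing.residue_surjective residueAt_eq_zero hpM harch).Red
        (algebraMap Qb (levelField (M * p) Qb) U.d⁻¹ * U.u) (U.r 1) := U.red1
    have hsplit : algebraMap Qb (levelField (M * p) Qb) U.d⁻¹ * U.u =
        algebraMap Qb (levelField (M * p) Qb) (U.d⁻¹ * d) *
          (algebraMap Qb (levelField (M * p) Qb) d⁻¹ * U.u) := by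
      rw [← mul_assoc, ← map_mul, mul_inv_cancel_right₀ hd0]
    rw [hsplit] at h2
    obtain ⟨hA', he⟩ := hred1.smul_cancel hr1 h2
    have h3 := three_dvd_ord_add M p A hp3 hrs hr1 (e := 2) (by subst hp3; norm_num)
      ((HH).brPl s 1)
    have h4 : ((HH).brPl s 1).ord (U.r 1) = ((HH).brPl s 1).ord r₁ := by
      have hne := U.r_ne 1
      rw [he] at hne ⊢
      rw [Place.ord_mul _ (left_ne_zero_of_mul hne) hr1, place_ord_algebraMap, zero_add]
    rw [← h4, U.ord_one] at h3
    have := hj.mul_left ((2 : ℕ) : ℤ)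
    exact dvd_neg.1 ((dvd_add_left this).1 h3)

/-- The width at such a crossing is prime to `3`. -/
theorem not_dvd_width_of_j (hp3 : p = 3) (h : EtaQ.Adm (M * p) 12 1 1 p)
    (h' : EtaQ.Adm (M * p) 12 1 (1 * p) 1) (U : (HH).UnitDatum (p : Qb)) (hΔ : U.Δ = 12)
    (hU : U.u = EtaQ.etaElt Qb h) (s : (HH).Sg) (i : Fin 2)
    (hj : (3 : ℤ) ∣ ((HH).brPl s i).ord (jBar kA M)) (L : ℤ) (hL : L * U.δ s = U.Δ) :
    ¬ (p : ℤ) ∣ L := by
  obtain ⟨d, hd⟩ := three_dvd_delta M p A hpM harch hp3 h h' U hU s i hj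
  rintro ⟨e, rfl⟩
  subst hp3
  rw [hΔ, hd] at hL
  push_cast at hL
  have : (3 : ℤ) ∣ 4 := ⟨e * d, by linarith⟩
  norm_num at this

end FA.ModField.AtP
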