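import Fermat.Agent.FlatModel.Hecke
import Fermat.Agent.JTorsion.ResidualAbs

/-!
# A copy of a representation in the torsion of the Jacobian

A spanning two-dimensional representation with the traces of a mod `p` system of the Hecke algebra
is found inside the classes killed by the kernel of the system.
-/

set_option autoImplicit false
set_option linter.style.haveILetI false
set_option linter.unusedSectionVars false
set_option maxHeartbeats 800000

noncomputable section

namespace FA.ModField.AtP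

open ModularCurve FA.JTorsion FA.Level FA.FlatModel Matrix

local notation "Qb" => AlgebraicClosure ℚ
local notation "GQ" => AlgebraicClosure ℚ ≃ₐ[ℚ] AlgebraicClosure ℚ

variable {p : ℕ} [hp : Fact p.Prime]

/-- A finite module with a functional over a character has a nonzero element killed by the kernel
of the character. -/
theorem exists_killed_of_functional {T Y k : Type*} [CommRing T] [AddCommGroup Y] [Module T Y]
    [Finite Y] [Field k] (ψ : T →+* k) (g : Y →+ k) (hg : ∀ t y, g (t • y) = ψ t * g y) {x : Y}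
    (hx : g x ≠ 0) : ∃ y : Y, y ≠ 0 ∧ ∀ t, ψ t = 0 → t • y = 0 := by
  classical
  haveI : Fintype Y := Fintype.ofFinite Y
  let cands := Finset.univ.filter fun y : Y => ∀ t : T, t • y = 0 → ψ t = 0
  have hne : cands.Nonempty := ⟨x, Finset.mem_filter.2 ⟨Finset.mem_univ x, fun t ht => by
    have h := hg t x
    rw [ht, map_zero] at h
    exact (mul_eq_zero.1 h.symm).resolve_right hx⟩⟩
  obtain ⟨y, hy, hmin⟩ :=
    Finset.exists_min_image cands (fun y => Nat.card (Submodule.span T {y})) hne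
  have hann := (Finset.mem_filter.1 hy).2
  have hs : ∀ z : Y, ∃ s : T, ψ s ≠ 0 ∧ ∀ t : T, ψ t = 0 → t • y = z → s • z = 0 := by
    intro z
    by_cases h : ∃ t : T, ψ t = 0 ∧ t • y = z
    · obtain ⟨t, ht, rfl⟩ := h
      by_contra hno
      push Not at hno
      have hz : t • y ∈ cands := Finset.mem_filter.2 ⟨Finset.mem_univ _, fun s hs => by
        by_contra hs'
        obtain ⟨t', -, -, h1⟩ := hno s hs'
        exact h1 hs⟩
      have hle : Submodule.span T {t • y} ≤ Submodule.span T {y} := by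
        rw [Submodule.span_singleton_le_iff_mem]
        exact Submodule.smul_mem _ t (Submodule.mem_span_singleton_self y)
      have he : Submodule.span T {t • y} = Submodule.span T {y} :=
        SetLike.coe_injective (Set.eq_of_subset_of_ncard_le hle
          (by rw [← Nat.card_coe_set_eq, ← Nat.card_coe_set_eq]; exact hmin _ hz) (Set.toFinite _))
      obtain ⟨u, hu⟩ := Submodule.mem_span_singleton.1
        (he.ge (Submodule.mem_span_singleton_self y))
      have h1 := hann (u * t - 1) (by rw [sub_smul, mul_smul, hu, one_smul, sub_self])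
      rw [map_sub, map_mul, ht, mul_zero, map_one, zero_sub, neg_eq_zero] at h1
      exact one_ne_zero h1
    · exact ⟨1, by rw [map_one]; exact one_ne_zero, fun t ht he => absurd ⟨t, ht, he⟩ h⟩
  choose s hs0 hs using hs
  refine ⟨(∏ z, s z) • y, fun h0 => ?_, fun t ht => ?_⟩
  · have h := hann _ h0
    rw [map_prod] at h
    obtain ⟨z, -, hz⟩ := Finset.prod_eq_zero_iff.1 h
    exact hs0 z hz
  · rw [smul_comm, ← Finset.prod_erase_mul Finset.univ s (Finset.mem_univ (t • y)), mul_smul,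
      hs (t • y) t ht rfl, smul_zero]

/-- A spanning representation with the quadratic relation of a nonzero module occurs in it. -/
theorem exists_matrix_embedding {Y : Type} [AddCommGroup Y] [Finite Y]
    [Nontrivial Y] (hY : ∀ y : Y, p • y = 0) (hp2 : p ≠ 2) (actY : GQ →* AddMonoid.End Y)
    (hactY : IsOpen (actY.ker : Set GQ))
    (r : GQ →* Matrix (Fin 2) (Fin 2) (ZMod p)) (hr : IsOpen (r.ker : Set GQ))
    (hspan : Submodule.span (ZMod p) (Set.range r) = ⊤) (bad : Finset ℕ) (t : ℕ → ZMod p)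
    (hfrob : ∀ ℓ : ℕ, ℓ.Prime → ℓ ∉ bad → ∀ B : ValuationSubring Qb, B.LiesOverPrime ℓ →
      ∀ τ : GQ, B.IsFrobeniusAt τ ℓ →
        (∀ y, actY τ y + ℓ • actY τ⁻¹ y = (t ℓ).val • y) ∧ (r τ).trace = t ℓ ∧
          (r τ).det = (ℓ : ZMod p)) :
    ∃ ι : (Fin 2 → ZMod p) →+ Y, Function.Injective ι ∧ ∀ σ v, ι (r σ *ᵥ v) = actY σ (ι v) := by
  classical
  haveI : Module (ZMod p) Y := AddCommGroup.zmodModule hY
  let act : GQ →* Module.End (ZMod p) Y :=
    { toFun := fun σ => AddMonoidHom.toZModLinearMap p (actY σ : Y →+ Y)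
      map_one' := LinearMap.ext fun y => by
        show actY 1 y = y
        rw [map_one]; rfl
      map_mul' := fun σ τ => LinearMap.ext fun y => by
        show actY (σ * τ) y = actY σ (actY τ y)
        rw [map_mul]; rfl }
  have hact : IsOpen (act.ker : Set GQ) := Subgroup.isOpen_mono (H₁ := actY.ker)
    (fun σ hσ => LinearMap.ext fun y => by
      show actY σ y = y
      rw [MonoidHom.mem_ker.1 hσ]; rfl) hactY
  have h2 : IsUnit (2 : ZMod p) := isUnit_iff_ne_zero.2 fun h => hp2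
    ((Nat.prime_dvd_prime_iff_eq hp.out Nat.prime_two).1
      ((ZMod.natCast_eq_zero_iff 2 p).1 (by exact_mod_cast h)))
  have hinv : ∀ {M : Type} [Monoid M] (f : GQ →* M) {η : GQ}, f η = 1 → f η⁻¹ = 1 :=
    fun f η h => by
      have h4 : f η⁻¹ * f η = 1 := by rw [← map_mul, inv_mul_cancel, map_one]
      rwa [h, mul_one] at h4
  have hrel : ∀ σ, act σ + (r σ).det • act σ⁻¹ = (r σ).trace • 1 := by
    have hK : IsOpen (((act.prod r).ker : Subgroup GQ) : Set GQ) := by
      rw [MonoidHom.ker_prod, Subgroup.coe_inf]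
      exact hact.inter hr
    refine fun σ => FA.Density.forall_of_frobenius_pow _ hK
      (fun τ => act τ + (r τ).det • act τ⁻¹ = (r τ).trace • 1) ?_ bad ?_ σ
    · intro τ η hη hτ
      obtain ⟨e1, e2⟩ := Prod.ext_iff.1 (MonoidHom.mem_ker.1 hη)
      change act η = 1 at e1
      change r η = 1 at e2
      rw [map_mul, map_mul, _root_.mul_inv_rev, map_mul, e1, e2, hinv act e1, mul_one, mul_one, one_mul]
      exact hτ
    · intro ℓ hℓ hℓS B hB τ hτ e
      obtain ⟨h0, htr, hdet⟩ := hfrob ℓ hℓ hℓS B hB τ hτ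
      have h1 : act τ + (ℓ : ZMod p) • act τ⁻¹ = t ℓ • 1 := LinearMap.ext fun y => by
        rw [LinearMap.add_apply, LinearMap.smul_apply, LinearMap.smul_apply, Module.End.one_apply,
          Nat.cast_smul_eq_nsmul, ← ZMod.natCast_zmod_val (t ℓ), Nat.cast_smul_eq_nsmul]
        exact h0 y
      have hpow := pow_add_smul_pow (u := act τ) (v := act τ⁻¹)
        (by rw [← map_mul, mul_inv_cancel, map_one]) (by rw [← map_mul, inv_mul_cancel, map_one])
        h1 e
      rw [← map_pow, ← map_pow, inv_pow] at hpow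
      rw [show r (τ ^ e) = r τ ^ e from map_pow r τ e, trace_pow_fin_two, Matrix.det_pow, htr, hdet]
      exact hpow
  obtain ⟨Ψ, hΨ⟩ := exists_matrix_action r act hspan h2 hrel
  obtain ⟨y₀, hy₀⟩ : ∃ y₀, Ψ (Matrix.single 0 0 1) y₀ ≠ 0 := by
    by_contra h
    push Not at h
    have h00 : Ψ (Matrix.single 0 0 1) = 0 := LinearMap.ext h
    have h11 : Ψ (Matrix.single 1 1 1) = 0 := by
      rw [show (Matrix.single 1 1 1 : Matrix (Fin 2) (Fin 2) (ZMod p)) =
        Matrix.single 1 0 1 * Matrix.single 0 0 1 * Matrix.single 0 1 1 by simp, map_mul, map_mul,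
        h00, mul_zero, zero_mul]
    have h1 : Ψ 1 = 0 := by
      rw [show (1 : Matrix (Fin 2) (Fin 2) (ZMod p)) = Matrix.single 0 0 1 + Matrix.single 1 1 1 by
        ext i j; fin_cases i <;> fin_cases j <;> simp, map_add, h00, h11, add_zero]
    rw [map_one] at h1
    obtain ⟨z, hz⟩ := exists_ne (0 : Y)
    exact hz (LinearMap.congr_fun h1 z)
  let ι : (Fin 2 → ZMod p) →+ Y :=
    AddMonoidHom.mk' (fun v => Ψ (colMat v) y₀) fun v w => by
      rw [map_add, map_add]; rfl
  refine ⟨ι, ?_, fun σ v => ?_⟩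
  · refine (injective_iff_map_eq_zero ι).2 fun v hv => ?_
    by_contra hne
    obtain ⟨i, hi⟩ : ∃ i, v i ≠ 0 := by
      by_contra h; push Not at h; exact hne (funext h)
    refine hy₀ ?_
    rw [show (Matrix.single 0 0 1 : Matrix (Fin 2) (Fin 2) (ZMod p)) =
      Matrix.single 0 i (v i)⁻¹ * colMat v by
      ext a b
      fin_cases a <;> fin_cases b <;> fin_cases i <;>
        simp [colMat, Matrix.mul_apply, Fin.sum_univ_two] at hi ⊢ <;> field_simp, map_mul]
    show Ψ _ (ι v) = 0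
    rw [hv, map_zero]
  · show Ψ (colMat (r σ *ᵥ v)) y₀ = act σ (Ψ (colMat v) y₀)
    rw [mul_colMat, map_mul, hΨ]
    rfl

variable [Algebra Qb ℂ] (N : ℕ) [NeZero N]

/-- **The representation inside the torsion of the Jacobian.** -/
theorem exists_eigen_embedding [NeZero p] (hp2 : p ≠ 2) (S : Finset ℕ) (hS : N.primeFactors ⊆ S)
    (hpS : p ∈ S) (a : ℕ → ZMod p) (χ : CuspForm.heckeAlgebra N 2 (↑S : Set ℕ) →+* ZMod p)
    (hχ : ∀ (ℓ : ℕ) (hℓ : ℓ.Prime) (hℓN : ¬ ℓ ∣ N) (hℓS : ℓ ∉ (↑S : Set ℕ)),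
      χ (CuspForm.heckeAlgebra.T hℓ hℓN hℓS) = a ℓ)
    (r : GQ →* Matrix (Fin 2) (Fin 2) (ZMod p)) (hr : IsOpen (r.ker : Set GQ))
    (hspan : Submodule.span (ZMod p) (Set.range r) = ⊤)
    (hfrob : ∀ ℓ : ℕ, ℓ.Prime → ℓ ∉ S → ∀ B : ValuationSubring Qb, B.LiesOverPrime ℓ →
      ∀ τ : GQ, B.IsFrobeniusAt τ ℓ → (r τ).trace = a ℓ ∧ (r τ).det = (ℓ : ZMod p)) :
    ∃ ι : (Fin 2 → ZMod p) →+ JZero N, Function.Injective ι ∧
      (∀ σ v, ι (r σ *ᵥ v) = σ • ι v) ∧
      ∀ (ℓ : ℕ) [NeZero ℓ], ℓ.Prime → ℓ ∉ S → ∀ v,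
        heckeOperatorAlong Qb N ℓ (ι v) = (a ℓ).val • ι v := by
  classical
  let T := CuspForm.heckeAlgebra N 2 (↑S : Set ℕ)
  have hNS : ∀ q : ℕ, q.Prime → q ∣ N → q ∈ S := fun q hq h =>
    hS (Nat.mem_primeFactors.2 ⟨hq, h, NeZero.ne N⟩)
  haveI : Module.Finite ℤ T := FA.Period.moduleFinite_heckeAlgebra N 2 (↑S : Set ℕ)
  haveI := modN_finite N (↑S : Set ℕ) p
  letI : Algebra T (ZMod p) := χ.toAlgebra
  haveI : Module.Finite T (LatMod N (↑S : Set ℕ)) := inferInstance
  obtain ⟨g₀, x₀, hx₀, hg₀⟩ := exists_functional_of_faithful (T := T) p (k := ZMod p)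
    (X := LatMod N (↑S : Set ℕ)) fun t h => latMod_faithful N (↑S : Set ℕ) h
  let g : ModN N (↑S : Set ℕ) p →ₗ[T] ZMod p := Submodule.liftQ _ g₀ fun z hz => by
    obtain ⟨z', rfl⟩ := (mem_nMultiples N _).1 hz
    exact hg₀ z'
  obtain ⟨y₀, hy₀, hyk⟩ := exists_killed_of_functional χ g.toAddMonoidHom
    (fun t y => by
      show g (t • y) = χ t * g y
      rw [map_smul, Algebra.smul_def]
      rfl) (x := Submodule.Quotient.mk x₀) hx₀
  let W : AddSubgroup (ModN N (↑S : Set ℕ) p) :=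
    { carrier := {y | ∀ t, χ t = 0 → t • y = 0}
      add_mem' := fun {u w} hu hw t ht => by rw [smul_add, hu t ht, hw t ht, add_zero]
      zero_mem' := fun t _ => smul_zero t
      neg_mem' := fun {u} hu t ht => by rw [smul_neg, hu t ht, neg_zero] }
  have hpW : ∀ w : W, p • w = 0 := fun w => Subtype.ext (by
    show p • (w : ModN N (↑S : Set ℕ) p) = 0
    exact toTors_injective N (↑S : Set ℕ) p (by rw [map_nsmul, nsmul_toTors, map_zero]))
  haveI : Nontrivial W := ⟨⟨⟨y₀, hyk⟩, 0, fun h => hy₀ (congrArg Subtype.val h)⟩⟩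
  let act₀ : GQ → (W →+ W) := fun σ => AddMonoidHom.mk'
    (fun w => ⟨galMod N (↑S : Set ℕ) p σ (w : ModN N (↑S : Set ℕ) p), fun t ht => by
      rw [← map_smul, w.2 t ht, map_zero]⟩)
    fun u w => Subtype.ext (map_add (galMod N (↑S : Set ℕ) p σ) (u : ModN N (↑S : Set ℕ) p) (w : ModN N (↑S : Set ℕ) p))
  let act : GQ →* AddMonoid.End W :=
    { toFun := fun σ => act₀ σ
      map_one' := AddMonoidHom.ext fun w => Subtype.ext (by
        show galMod N (↑S : Set ℕ) p 1 (w : ModN N (↑S : Set ℕ) p) = w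
        rw [map_one, Module.End.one_apply])
      map_mul' := fun σ τ => AddMonoidHom.ext fun w => Subtype.ext (by
        show galMod N (↑S : Set ℕ) p (σ * τ) (w : ModN N (↑S : Set ℕ) p) = galMod N (↑S : Set ℕ) p σ (galMod N (↑S : Set ℕ) p τ w)
        rw [map_mul, Module.End.mul_apply]) }
  have hcoe : ∀ σ (w : W), ((act σ w : W) : ModN N (↑S : Set ℕ) p) = galMod N (↑S : Set ℕ) p σ w := fun σ w => rfl
  have heig : ∀ (t : T) (w : W), t • (w : ModN N (↑S : Set ℕ) p) = (χ t).val • (w : ModN N (↑S : Set ℕ) p) := by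
    intro t w
    rw [← sub_eq_zero, ← Nat.cast_smul_eq_nsmul T, ← sub_smul]
    exact w.2 _ (by rw [map_sub, map_natCast, ZMod.natCast_zmod_val, sub_self])
  have hker : IsOpen (act.ker : Set GQ) := by
    obtain ⟨L, hL, h⟩ := exists_field_galMod N (↑S : Set ℕ) p
    haveI := hL
    refine isOpen_ker_of_field act ⟨L, hL, fun σ hσ => AddMonoidHom.ext fun w => Subtype.ext ?_⟩
    show galMod N (↑S : Set ℕ) p σ (w : ModN N (↑S : Set ℕ) p) = w
    rw [h σ hσ]; rfl
  obtain ⟨ι, hι, hισ⟩ := exists_matrix_embedding hpW hp2 act hker r hr hspan S a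
    fun ℓ hℓ hℓS B hB τ hτ => by
      have hℓN : ¬ ℓ ∣ N := fun h => hℓS (hNS ℓ hℓ h)
      have hℓp : ¬ ℓ ∣ p := fun h => hℓS ((Nat.prime_dvd_prime_iff_eq hℓ hp.out).1 h ▸ hpS)
      refine ⟨fun w => Subtype.ext ?_, hfrob ℓ hℓ hℓS B hB τ hτ⟩
      rw [AddSubgroup.coe_add, AddSubmonoidClass.coe_nsmul, AddSubmonoidClass.coe_nsmul, hcoe,
        hcoe, galMod_frobenius N (↑S : Set ℕ) p (goodRed_all N) hℓ hℓN hℓp hB (mod_cast hℓS) hτ, heig, hχ]
  refine ⟨(toTors N (↑S : Set ℕ) p).comp (W.subtype.comp ι), ?_, fun σ v => ?_, fun ℓ _ hℓ hℓS v => ?_⟩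
  · exact (toTors_injective N (↑S : Set ℕ) p).comp (Subtype.coe_injective.comp hι)
  · show toTors N (↑S : Set ℕ) p (ι (r σ *ᵥ v) : ModN N (↑S : Set ℕ) p) = σ • toTors N (↑S : Set ℕ) p (ι v : ModN N (↑S : Set ℕ) p)
    rw [hισ, hcoe, toTors_galMod]
  · have hℓN : ¬ ℓ ∣ N := fun h => hℓS (hNS ℓ hℓ h)
    have hℓS' : ℓ ∉ (↑S : Set ℕ) := mod_cast hℓS
    show heckeOperatorAlong Qb N ℓ (toTors N (↑S : Set ℕ) p (ι v : ModN N (↑S : Set ℕ) p)) =
      (a ℓ).val • toTors N (↑S : Set ℕ) p (ι v : ModN N (↑S : Set ℕ) p)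
    refine (toTors_T_smul N p hℓ hℓN hℓS' _).symm.trans ?_
    rw [heig, hχ, map_nsmul]

end FA.ModField.AtP
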