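import Fermat.Agent.ModField.Semistable.AtP.LowClass
import Fermat.Agent.Mazur.FrobFixed
import Fermat.Agent.JTorsion.Divisible.Descent
import Fermat.Agent.Deform.Frobenius
import Fermat.Agent.ModField.Semistable.Mono.Torsion
import Mathlib.Algebra.FreeAlgebra

/-!
# Eigenclasses of the norms in characteristic `p` give systems of level `M`

An integral combination of the `T_ℓ` which is zero on cusp forms kills the torsion of `J₀(M)`,
hence, the classes downstairs fixed by a power of Frobenius being finite in number and `J₀(M)`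
being divisible, kills every class after reduction.
-/

set_option autoImplicit false
set_option linter.style.haveILetI false
set_option linter.unusedSectionVars false
set_option synthInstance.maxHeartbeats 200000
set_option maxHeartbeats 3200000

noncomputable section

namespace FA.ModField.AtP

open ModularCurve AlgebraicCurve FA.Curve FA.CurveRed FA.CurveRed.Modular FA.Level FA.JTorsion
  FA.Mazur

local notation "Qb" => AlgebraicClosure ℚ
local notation "GQ" => AlgebraicClosure ℚ ≃ₐ[ℚ] AlgebraicClosure ℚ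

/-- Some power of an automorphism fixes a finite extension. -/
theorem exists_pow_fix (E : IntermediateField ℚ Qb) [FiniteDimensional ℚ E] (σ : GQ) :
    ∃ f : ℕ, 0 < f ∧ ∀ a ∈ E, (σ ^ f) a = a := by
  obtain ⟨i, j, hne, h⟩ := Finite.exists_ne_map_eq_of_infinite
    fun n : ℕ => ((σ ^ n : GQ) : Qb →ₐ[ℚ] Qb).comp E.val
  rcases Nat.lt_or_gt_of_ne hne with hlt | hlt
  · refine ⟨j - i, by omega, fun a ha => (σ ^ i).injective ?_⟩
    rw [← AlgEquiv.mul_apply, ← pow_add, Nat.add_sub_cancel' hlt.le]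
    exact (DFunLike.congr_fun h ⟨a, ha⟩).symm
  · refine ⟨i - j, by omega, fun a ha => (σ ^ j).injective ?_⟩
    rw [← AlgEquiv.mul_apply, ← pow_add, Nat.add_sub_cancel' hlt.le]
    exact DFunLike.congr_fun h ⟨a, ha⟩

variable [Algebra Qb ℂ] (M : ℕ) [NeZero M] (p : ℕ) [hp : Fact p.Prime] [hp0 : NeZero p]
variable (A : ValuationSubring Qb) [IsAlgClosed (IsLocalRing.ResidueField A)]
  [CharP (IsLocalRing.ResidueField A) p] (hA : A.LiesOverPrime p) (hpM : ¬ p ∣ M)

local notation "kA" => IsLocalRing.ResidueField A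
local notation "πA" => IsLocalRing.residue A
local notation "Fb" => modularFunctionFieldFullC (IsLocalRing.ResidueField A) M
local notation "RR" => lowRed M p A πA IsLocalRing.residue_surjective residueAt_eq_zero hpM
local notation "red" => reductionAlong A πA M

include hpM hA in
/-- A Frobenius element acts on reductions through the coefficients. -/
theorem exists_frob_equiv : ∃ σ : GQ, ∀ x : JZero M,
    red (σ • x) = coeffAut kA M (frobeniusEquiv kA p) • red x := by
  classical
  obtain ⟨σ, hσ⟩ := FA.Deform.exists_isFrobeniusAt hp.out hA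
  refine ⟨σ, fun x => ?_⟩
  have hπs : Function.Surjective πA := IsLocalRing.residue_surjective
  have hπ0 : ∀ a : A, πA a = 0 ↔ A.valuation a < 1 := residueAt_eq_zero
  have hin := lowInputs M p A πA hπs hπ0 hpM
  have hg := X0.genus_level_le M p A πA hπs hπ0 hpM
  set R := redOf M Qb hπs hπ0 hin
  set g := coeffAut kA M (frobeniusEquiv kA p)
  have hk := isFunctionField_fullC kA M
  have hσ' := inducesOn_frobenius hσ
  have hspl : ∀ P : Place Qb (levelField M Qb), IsSep M kA (R.spl P) →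
      R.spl (galAut M Qb σ • P) = g • R.spl P := fun P hP => by
    obtain ⟨u, hu⟩ := exists_values M Qb p hpM hπs hπ0 hin hP.1
    obtain ⟨-, hu'⟩ := values_gal M Qb p hpM hπs hπ0 hin hσ' hP.1 hu
    refine IsSep.eq M (isSep_smul kA M _ hP) (fun i => ?_) hu'
    have := Reduction.hasValue_smul hk g (hu i)
    rwa [coeffAut_redGen, baseAut_coeffAut] at this
  obtain ⟨D, rfl, hD⟩ := exists_clean_rep M Qb hπs hπ0 hin hg _ (finite_not_isSep M kA) x
  rw [galois_smul_pic0_def, SemilinearAut.pic0_smul_mk]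
  obtain ⟨_, e1⟩ := reductionAlong_eq_push M Qb hπs hπ0 hin D
  obtain ⟨_, e2⟩ := reductionAlong_eq_push M Qb hπs hπ0 hin
    (SemilinearAut.degZeroSMulHom (arithmeticGalois (modularFunctionFieldFull M) σ) D)
  rw [e1, e2, SemilinearAut.pic0_smul_mk]
  refine congrArg Pic0.mk (Subtype.ext ?_)
  show R.push (galAut M Qb σ • (D : Divisor Qb (levelField M Qb))) =
    g • R.push (D : Divisor Qb (levelField M Qb))
  show Finsupp.mapDomain _ (Finsupp.mapDomain _ (D : Divisor Qb (levelField M Qb))) =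
    Finsupp.mapDomain _ (Finsupp.mapDomain _ _)
  rw [← Finsupp.mapDomain_comp, ← Finsupp.mapDomain_comp]
  refine Finsupp.mapDomain_congr fun P hP => hspl P ?_
  by_contra hbad
  exact Finsupp.mem_support_iff.1 hP (hD P hbad)

include hpM hA in
/-- An equivariant endomorphism killing the torsion is zero after reduction. -/
theorem red_eq_zero_of_torsion (t : JZero M →+ JZero M)
    (hgal : ∀ (σ : GQ) x, t (σ • x) = σ • t x)
    (hkill : ∀ n : ℕ, n ≠ 0 → ∀ x : JZero M, n • x = 0 → t x = 0) (x : JZero M) :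
    red (t x) = 0 := by
  classical
  obtain ⟨σ, hσ⟩ := exists_frob_equiv M p A hA hpM
  obtain ⟨E, hE, hfix⟩ := exists_field_fix M {x} (Set.finite_singleton x)
  haveI := hE
  obtain ⟨f, hf, hfE⟩ := exists_pow_fix E σ
  have hx : (σ ^ f) • x = x := hfix _ hfE x rfl
  set g := coeffAut kA M (frobeniusEquiv kA p)
  have hpow : ∀ (i : ℕ) (y : JZero M), red ((σ ^ i) • y) = (g ^ i) • red y := by
    intro i
    induction i with
    | zero => intro y; simp
    | succ i ih => intro y; rw [pow_succ', mul_smul, hσ, ih, pow_succ', mul_smul]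
  have hbase : ∀ (i : ℕ) (a : kA), SemilinearAut.baseAut (g ^ i) a = a ^ p ^ i := by
    intro i
    induction i with
    | zero => intro a; simp
    | succ i ih =>
      intro a
      have h2 : SemilinearAut.baseAut (g ^ (i + 1)) =
          SemilinearAut.baseAut g * SemilinearAut.baseAut (g ^ i) := by
        rw [pow_succ']; rfl
      rw [h2, RingAut.mul_apply, ih, baseAut_coeffAut, frobeniusEquiv_apply,
        frobenius_def, ← pow_mul, ← pow_succ]
  have hgx : (g ^ f) • redGen M kA 0 = redGen M kA 0 := by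
    clear hx hfE hf
    induction f with
    | zero => simp
    | succ i ih => rw [pow_succ', mul_smul, ih, coeffAut_redGen]
  have hfin := finite_fixed_classes (isFunctionField_fullC kA M) (g ^ f) (q := p ^ f)
    (Nat.le_trans hp.out.two_le (Nat.le_self_pow hf.ne' p)) (hbase f)
    (redGen_zero_transcendental M (k := kA)) hgx
  let G : AddSubgroup (Pic0 kA Fb) :=
    { carrier := {z | (g ^ f) • z = z}
      add_mem' := fun {a b} ha hb => by
        show (g ^ f) • (a + b) = a + b
        rw [smul_add, show (g ^ f) • a = a from ha, show (g ^ f) • b = b from hb]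
      zero_mem' := smul_zero _
      neg_mem' := fun {a} ha => by
        show (g ^ f) • -a = -a
        rw [smul_neg, show (g ^ f) • a = a from ha] }
  haveI : Finite G := hfin.to_subtype
  set n := Nat.card G
  have hn : n ≠ 0 := Nat.card_pos.ne'
  obtain ⟨y, hyx⟩ : ∃ y : JZero M, n • y = x :=
    Divisible.pic0_exists_nsmul_eq (lvlGamma0 M) Qb hn x
  subst hyx
  have hfy : (σ ^ f) • t y = t y := by
    rw [← hgal, ← sub_eq_zero, ← map_sub]
    refine hkill n hn _ ?_
    rw [nsmul_sub, ← show (σ ^ f) • (n • y) = n • ((σ ^ f) • y) from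
      map_nsmul (DistribSMul.toAddMonoidHom (JZero M) (σ ^ f)) n y, hx, sub_self]
  have hmem : red (t y) ∈ G := by
    show (g ^ f) • red (t y) = red (t y)
    rw [← hpow, hfy]
  rw [map_nsmul, map_nsmul]
  exact congrArg Subtype.val
    (show n • (⟨red (t y), hmem⟩ : G) = 0 from card_nsmul_eq_zero')

variable (harch : ∀ c : Qb, c ≠ 0 → ∃ m : ℕ, A.valuation ((p : Qb) ^ m) < A.valuation c)

include hA in
/-- **A class of functions with orders divisible by `p`, an eigenclass of the norms, gives the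
system of eigenvalues at level `M`.** -/
theorem exists_chi_of_theta (S : Finset ℕ) (hS : M.primeFactors ⊆ S) (hpS : p ∈ S)
    (a : ℕ → ZMod p) {r : Fb} (hr : r ≠ 0) (hord : ∀ Q : Place kA Fb, (p : ℤ) ∣ Q.ord r)
    (hcls : redCls (k := kA) p r ≠ 0)
    (hθ : ∀ (ℓ : ℕ) [Fact ℓ.Prime] [NeZero ℓ] (hℓN : ¬ ℓ ∣ M * p), ℓ ∉ S →
      thetaT M p A πA IsLocalRing.residue_surjective residueAt_eq_zero hpM harch ℓ hℓN p
        (redCls p r) = (a ℓ).val • redCls p r) :
    ∃ χ : CuspForm.heckeAlgebra M 2 (↑S : Set ℕ) →+* ZMod p,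
      ∀ (ℓ : ℕ) (hℓ : ℓ.Prime) (hℓM : ¬ ℓ ∣ M) (hℓS : ℓ ∉ (↑S : Set ℕ)),
        χ (CuspForm.heckeAlgebra.T hℓ hℓM hℓS) = a ℓ := by
  classical
  have hπs : Function.Surjective πA := IsLocalRing.residue_surjective
  have hπ0 : ∀ b : A, πA b = 0 ↔ A.valuation b < 1 := residueAt_eq_zero
  have hF := isFunctionField_level Qb M
  have hk := isFunctionField_fullC kA M
  have hpne : (p : ℤ) ≠ 0 := Int.natCast_ne_zero.2 hp.out.ne_zero
  set R := RR
  -- the class
  set E : Divisor kA Fb := (divOf hk r).mapRange (fun z => z / (p : ℤ)) (Int.zero_ediv _) with hE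
  have hpE : ∀ Q, (p : ℤ) * E Q = Q.ord r := fun Q => by
    rw [hE, Finsupp.mapRange_apply, divOf_apply, Int.mul_ediv_cancel' (hord Q)]
  choose sec hsec using Reduction.spl_surjective hF hk (R := R)
  set D₀ : Divisor Qb (levelField M Qb) := Finsupp.mapDomain sec E
  have hD₀ : R.push D₀ = E := by
    rw [Reduction.push, ← Finsupp.mapDomain_comp,
      show R.spl ∘ sec = id from funext hsec, Finsupp.mapDomain_id]
  have hdeg : Divisor.degree D₀ = 0 := by
    rw [← Reduction.degree_push hF hk (R := R), hD₀]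
    have h : Divisor.degree (p • E) = 0 := by
      rw [show p • E = divOf hk r from Finsupp.ext fun Q => by
        rw [Finsupp.smul_apply, nsmul_eq_mul, divOf_apply, hpE], degree_divOf]
    rw [map_nsmul, nsmul_eq_mul] at h
    exact (mul_eq_zero.1 h).resolve_left hpne
  let D : Divisor.degZero (K := Qb) (F := levelField M Qb) := ⟨D₀, Divisor.mem_degZero.2 hdeg⟩
  set x : JZero M := Pic0.mk D with hxdef
  set xb := red x
  have hxb : xb ≠ 0 := fun h0 => by
    obtain ⟨ρ, hρ, h⟩ := exists_of_red_eq_zero M p A πA hπs hπ0 hpM (D := D) h0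
    obtain ⟨c, hc, e⟩ := exists_const_of_ord_eq hk hr (pow_ne_zero p hρ) fun Q => by
      rw [place_ord_pow, ← h, ← hpE, hD₀]
    refine hcls ((redCls_eq_zero_iff (k := kA) p hr).2 ⟨c, ρ, hc, e⟩)
  have hpx : p • xb = 0 := by
    rw [← map_nsmul, show p • x = Pic0.mk (p • D) from
      (map_nsmul (QuotientAddGroup.mk' _) p D).symm]
    refine red_eq_zero M p A πA hπs hπ0 hpM hr fun Q => ?_
    rw [AddSubmonoidClass.coe_nsmul, show R.push (p • D₀) = p • R.push D₀ from
      map_nsmul (Finsupp.mapDomain.addMonoidHom _) p D₀, hD₀, Finsupp.smul_apply, nsmul_eq_mul,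
      hpE]
  -- multiples of the class
  let ξ : ZMod p →+ Pic0 kA Fb := ZMod.lift p ⟨zmultiplesHom _ xb, by
    rw [zmultiplesHom_apply, natCast_zsmul]; exact hpx⟩
  have hξ : ∀ c : ZMod p, ξ c = c.val • xb := fun c => by
    conv_lhs => rw [← ZMod.natCast_zmod_val c, ← Int.cast_natCast]
    rw [ZMod.lift_coe]
    exact natCast_zsmul _ _
  have hξ0 : ∀ c, ξ c = 0 → c = 0 := fun c h => by
    by_contra hc
    have h1 := addOrderOf_dvd_of_nsmul_eq_zero ((hξ c).symm.trans h)
    rw [addOrderOf_eq_prime hpx hxb] at h1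
    exact hc ((ZMod.val_eq_zero c).1 (Nat.eq_zero_of_dvd_of_lt h1 (ZMod.val_lt c)))
  -- the operators
  let I := {ℓ : ℕ // ℓ.Prime ∧ ℓ ∉ S}
  have hgood : ∀ ℓ : I, ¬ ℓ.1 ∣ M * p := fun ℓ h => by
    rcases ℓ.2.1.dvd_mul.1 h with h | h
    · exact ℓ.2.2 (hS (Nat.mem_primeFactors.2 ⟨ℓ.2.1, h, NeZero.ne M⟩))
    · exact ℓ.2.2 ((Nat.prime_dvd_prime_iff_eq ℓ.2.1 hp.out).1 h ▸ hpS)
  have hgoodM : ∀ ℓ : I, ¬ ℓ.1 ∣ M := fun ℓ h => hgood ℓ (h.mul_right p)
  let op : I → Module.End ℤ (JZero M) := fun ℓ =>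
    haveI : NeZero ℓ.1 := ⟨ℓ.2.1.ne_zero⟩
    (heckeOperatorAlong Qb M ℓ.1).toIntLinearMap
  let ev : FreeAlgebra ℤ I →ₐ[ℤ] Module.End ℤ (JZero M) := FreeAlgebra.lift ℤ op
  let φ : FreeAlgebra ℤ I →ₐ[ℤ] CuspForm.heckeAlgebra M 2 (↑S : Set ℕ) :=
    FreeAlgebra.lift ℤ fun ℓ => CuspForm.heckeAlgebra.T ℓ.2.1 (hgoodM ℓ) ℓ.2.2
  let χ₀ : FreeAlgebra ℤ I →ₐ[ℤ] ZMod p := FreeAlgebra.lift ℤ fun ℓ => a ℓ.1
  have key : ∀ (t : FreeAlgebra ℤ I) (x' : JZero M) (c : ZMod p), red x' = ξ c →
      red (ev t x') = ξ (χ₀ t * c) := by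
    intro t
    induction t using FreeAlgebra.induction with
    | grade0 n =>
      intro x' c hc
      rw [AlgHom.commutes, AlgHom.commutes, Module.algebraMap_end_apply, map_zsmul, hc,
        ← map_zsmul, zsmul_eq_mul]
      rfl
    | grade1 ℓ =>
      intro x' c hc
      haveI : Fact ℓ.1.Prime := ⟨ℓ.2.1⟩
      haveI : NeZero ℓ.1 := ⟨ℓ.2.1.ne_zero⟩
      have hT : red (heckeOperatorAlong Qb M ℓ.1 x) = (a ℓ.1).val • xb :=
        red_T_of_theta M p A πA hπs hπ0 hpM harch ℓ.1 (hgood ℓ) hp.out.ne_zero x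
          ⟨D, rfl, fun Q => by
            show (p : ℤ) * R.push D₀ Q = _
            rw [hD₀, hpE]⟩ hr (hθ ℓ.1 (hgood ℓ) ℓ.2.2)
      simp only [ev, χ₀, FreeAlgebra.lift_ι_apply, op]
      show red (heckeOperatorAlong Qb M ℓ.1 x') = _
      rw [red_T_congr M p A πA hπs hπ0 hpM harch ℓ.1 (hgood ℓ) (y := c.val • x)
        (by rw [hc, hξ, map_nsmul]), map_nsmul, map_nsmul, hT, ← hξ, ← map_nsmul, nsmul_eq_mul,
        ZMod.natCast_zmod_val, mul_comm]
    | mul s t hs ht =>
      intro x' c hc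
      rw [map_mul ev, map_mul χ₀, Module.End.mul_apply, mul_assoc]
      exact hs _ _ (ht _ _ hc)
    | add s t hs ht =>
      intro x' c hc
      rw [map_add, map_add, LinearMap.add_apply, map_add, hs _ _ hc, ht _ _ hc, add_mul, map_add]
  have hcomm : ∀ (t : FreeAlgebra ℤ I) (σ : GQ) (y : JZero M), ev t (σ • y) = σ • ev t y := by
    intro t
    induction t using FreeAlgebra.induction with
    | grade0 n =>
      intro σ y
      rw [AlgHom.commutes, Module.algebraMap_end_apply, Module.algebraMap_end_apply]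
      exact (map_zsmul (DistribSMul.toAddMonoidHom (JZero M) σ) n y).symm
    | grade1 ℓ =>
      intro σ y
      haveI : NeZero ℓ.1 := ⟨ℓ.2.1.ne_zero⟩
      simp only [ev, FreeAlgebra.lift_ι_apply, op]
      exact heckeOperatorAlong_galois_smul M ℓ.1 σ y
    | mul s t hs ht => intro σ y; simp [ht, hs]
    | add s t hs ht => intro σ y; simp [ht, hs, smul_add]
  have htors : ∀ (n : ℕ) [NeZero n] (t : FreeAlgebra ℤ I) (z : ModN M (↑S : Set ℕ) n),
      ev t (toTors M (↑S : Set ℕ) n z) = toTors M (↑S : Set ℕ) n (φ t • z) := by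
    intro n _ t
    induction t using FreeAlgebra.induction with
    | grade0 m =>
      intro z
      rw [AlgHom.commutes, AlgHom.commutes, Module.algebraMap_end_apply, algebraMap_smul,
        map_zsmul]
    | grade1 ℓ =>
      intro z
      haveI : NeZero ℓ.1 := ⟨ℓ.2.1.ne_zero⟩
      simp only [ev, φ, FreeAlgebra.lift_ι_apply, op]
      exact (toTors_T_smul M n ℓ.2.1 (hgoodM ℓ) ℓ.2.2 z).symm
    | mul s t hs ht => intro z; rw [map_mul, map_mul, Module.End.mul_apply, ht, hs, mul_smul]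
    | add s t hs ht =>
      intro z; rw [map_add, map_add, LinearMap.add_apply, hs, ht, add_smul, map_add]
  have hker : ∀ t, φ t = 0 → χ₀ t = 0 := fun t ht => by
    have h0 : red ((ev t).toAddMonoidHom x) = 0 :=
      red_eq_zero_of_torsion M p A hA hpM (ev t).toAddMonoidHom (hcomm t) (fun n hn y hy => by
        haveI : NeZero n := ⟨hn⟩
        obtain ⟨y', hy'⟩ := Divisible.pic0_exists_nsmul_eq (lvlGamma0 M) Qb
          (liftExp_ne_zero (lvlGamma0 M)) y
        obtain ⟨z, rfl⟩ := exists_toTors_eq M (↑S : Set ℕ) n (mem_liftedTors_iff.2 ⟨y', by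
          rw [Pic0.mem_torsion, natCast_zsmul, mul_comm, mul_nsmul', hy']
          exact hy, hy'⟩)
        show ev t _ = 0
        rw [htors n t z, ht, zero_smul, map_zero]) x
    refine hξ0 _ ?_
    rw [← mul_one (χ₀ t), ← key t x 1 (by rw [hξ, ZMod.val_one, one_nsmul])]
    exact h0
  have hsurj : Function.Surjective φ.toRingHom := by
    rintro ⟨T, hT⟩
    suffices ∃ t, (φ t : Module.End ℂ (CuspForm (CongruenceSubgroup.Gamma0 M) 2)) = T by
      obtain ⟨t, ht⟩ := this
      exact ⟨t, Subtype.ext ht⟩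
    induction hT using Algebra.adjoin_induction with
    | mem T hT =>
      rcases hT with ⟨ℓ, hℓ, hℓM, hℓS, rfl⟩ | ⟨ℓ, hℓM, hℓ, hℓS, rfl⟩
      · exact ⟨FreeAlgebra.ι ℤ (⟨ℓ, hℓ, hℓS⟩ : I), by simp [φ]⟩
      · exact absurd (hS (Nat.mem_primeFactors.2 ⟨hℓ, hℓM, NeZero.ne M⟩)) hℓS
    | algebraMap n => exact ⟨algebraMap ℤ _ n, by rw [AlgHom.commutes]; rfl⟩
    | add T T' _ _ h h' =>
      obtain ⟨t, rfl⟩ := h; obtain ⟨t', rfl⟩ := h'
      exact ⟨t + t', by rw [map_add]; rfl⟩
    | mul T T' _ _ h h' =>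
      obtain ⟨t, rfl⟩ := h; obtain ⟨t', rfl⟩ := h'
      exact ⟨t * t', by rw [map_mul]; rfl⟩
  refine ⟨φ.toRingHom.liftOfSurjective hsurj ⟨χ₀.toRingHom, fun t ht => hker t ht⟩,
    fun ℓ hℓ hℓM hℓS => ?_⟩
  have e : φ.toRingHom (FreeAlgebra.ι ℤ (⟨ℓ, hℓ, fun h => hℓS (Finset.mem_coe.2 h)⟩ : I)) =
      CuspForm.heckeAlgebra.T hℓ hℓM hℓS := by simp [φ]
  rw [← e, RingHom.liftOfSurjective_comp_apply]
  simp [χ₀]

end FA.ModField.AtP
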