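import Fermat.Agent.ModField.Semistable.AtP.BranchOrd
import Fermat.Agent.ModField.Semistable.AtP.Embed
import Fermat.Agent.ModField.Semistable.AtP.LowFrob

/-!
# Removal of `p` from the level at `p`

A system mod `p` of level `M p`, `p ∤ M`, whose representation is finite flat at `p` with an
unramified quotient line occurs at level `M`: the representation is a plane in `J₀(M p)`; one of
its points has a reduction which is not zero, as a plane of connected classes has no invariant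
functional, and the reduction is an eigenclass at level `M` without zeros and poles modulo `p`.
-/

set_option autoImplicit false
set_option linter.style.haveILetI false
set_option linter.unusedSectionVars false
set_option synthInstance.maxHeartbeats 400000
set_option maxHeartbeats 3200000

noncomputable section

namespace FA.ModField.AtP

open ModularCurve AlgebraicCurve FA.Curve FA.CurveRed FA.JTorsion FA.Level FA.LocalDef FA.Local
  Matrix

local notation "Qb" => AlgebraicClosure ℚ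
local notation "GQ" => AlgebraicClosure ℚ ≃ₐ[ℚ] AlgebraicClosure ℚ

variable {p : ℕ} [hp : Fact p.Prime]

/-- A transvection of determinant one fixes its line. -/
theorem mulVec_line_of_det_one {R : Matrix (Fin 2) (Fin 2) (ZMod p)} {b : Fin 2 → ZMod p}
    (hR : ∀ v, R *ᵥ v - v ∈ Submodule.span (ZMod p) {b}) (hdet : R.det = 1) : R *ᵥ b = b := by
  choose c hc using fun j : Fin 2 => Submodule.mem_span_singleton.1 (hR (Pi.single j 1))
  have e : ∀ i j, R i j = c j * b i + (Pi.single j 1 : Fin 2 → ZMod p) i := fun i j => by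
    have h := congrFun (hc j) i
    rw [Matrix.mulVec_single_one] at h
    simp only [Pi.smul_apply, Pi.sub_apply, smul_eq_mul, Matrix.col_apply] at h
    rw [h, sub_add_cancel]
  have hφ : c 0 * b 0 + c 1 * b 1 = 0 := by
    rw [Matrix.det_fin_two, e, e, e, e] at hdet
    simp only [Pi.single_eq_same, ne_eq, one_ne_zero, zero_ne_one, not_false_eq_true,
      Pi.single_eq_of_ne] at hdet
    linear_combination hdet
  funext i
  have : (R *ᵥ b) i = R i 0 * b 0 + R i 1 * b 1 := by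
    simp [Matrix.mulVec, dotProduct, Fin.sum_univ_two]
  rw [this, e, e]
  fin_cases i <;> simp <;> linear_combination (b _) * hφ

/-- The functional vanishing on a line. -/
def lineDual (b : Fin 2 → ZMod p) : Module.Dual (ZMod p) (Fin 2 → ZMod p) :=
  b 0 • LinearMap.proj 1 - b 1 • LinearMap.proj 0

theorem lineDual_ne_zero {b : Fin 2 → ZMod p} (hb : b ≠ 0) : lineDual b ≠ 0 := fun h => hb (by
  funext i
  have h0 := LinearMap.congr_fun h (Pi.single 1 1)
  have h1 := LinearMap.congr_fun h (Pi.single 0 1)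
  simp [lineDual] at h0 h1
  fin_cases i <;> assumption)

theorem lineDual_eq {b : Fin 2 → ZMod p} {v w : Fin 2 → ZMod p}
    (h : v - w ∈ Submodule.span (ZMod p) {b}) : lineDual b v = lineDual b w := by
  obtain ⟨c, hc⟩ := Submodule.mem_span_singleton.1 h
  rw [← sub_eq_zero, ← map_sub, ← hc]
  simp only [lineDual, LinearMap.sub_apply, LinearMap.smul_apply, LinearMap.proj_apply, Pi.smul_apply,
    smul_eq_mul]
  ring

variable [hp0 : NeZero p] [Algebra Qb ℂ] (M : ℕ) [NeZero M] [NeZero (M * p)]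
variable (A : ValuationSubring Qb) [IsAlgClosed (IsLocalRing.ResidueField A)]
  [CharP (IsLocalRing.ResidueField A) p] (hA : A.LiesOverPrime p) (hpM : ¬ p ∣ M)

local notation "kA" => IsLocalRing.ResidueField A
local notation "πA" => IsLocalRing.residue A
local notation "Fl" => levelField (M * p) Qb
local notation "Fb" => modularFunctionFieldFullC (IsLocalRing.ResidueField A) M

include hA hpM in
/-- **Removal of `p` from the level.** -/
theorem exists_chi_lowerAtP (hp5 : 5 ≤ p) (S : Finset ℕ) (hS : M.primeFactors ⊆ S) (hpS : p ∈ S)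
    (a : ℕ → ZMod p) (r : GQ →* Matrix (Fin 2) (Fin 2) (ZMod p))
    (hr : IsOpen (r.ker : Set GQ))
    (hspan : Submodule.span (ZMod p) (Set.range r) = ⊤)
    (hfrob : ∀ ℓ : ℕ, ℓ.Prime → ℓ ∉ S → ∀ B : ValuationSubring Qb, B.LiesOverPrime ℓ →
      ∀ τ : GQ, B.IsFrobeniusAt τ ℓ → (r τ).trace = a ℓ ∧ (r τ).det = (ℓ : ZMod p))
    (hne : ∃ ℓ : ℕ, ℓ.Prime ∧ ℓ ∉ S ∧ a ℓ ≠ (ℓ : ZMod p) + 1)
    (hflat : IsFlatRes A r) (hdet : DetOmega A p r)
    {b : Fin 2 → ZMod p} (hb : b ≠ 0)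
    (hquot : ∀ σ ∈ A.inertiaSubgroupIn ℚ, ∀ v, r σ *ᵥ v - v ∈ Submodule.span (ZMod p) {b})
    (χ : CuspForm.heckeAlgebra (M * p) 2 (↑S : Set ℕ) →+* ZMod p)
    (hχ : ∀ (ℓ : ℕ) (hℓ : ℓ.Prime) (hℓN : ¬ ℓ ∣ M * p) (hℓS : ℓ ∉ (↑S : Set ℕ)),
      χ (CuspForm.heckeAlgebra.T hℓ hℓN hℓS) = a ℓ) :
    ∃ χ' : CuspForm.heckeAlgebra M 2 (↑S : Set ℕ) →+* ZMod p,
      ∀ (ℓ : ℕ) (hℓ : ℓ.Prime) (hℓM : ¬ ℓ ∣ M) (hℓS : ℓ ∉ (↑S : Set ℕ)),
        χ' (CuspForm.heckeAlgebra.T hℓ hℓM hℓS) = a ℓ := by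
  classical
  haveI : Algebra.IsAlgebraic ℚ Qb := AlgebraicClosure.isAlgebraic ℚ
  have harch : ∀ c : Qb, c ≠ 0 → ∃ m : ℕ, A.valuation ((p : Qb) ^ m) < A.valuation c :=
    fun c hc => exists_pow_lt_valuation hp.out hA c hc
  have hS' : (M * p).primeFactors ⊆ S := by
    rw [Nat.primeFactors_mul (NeZero.ne M) hp.out.ne_zero, hp.out.primeFactors]
    exact Finset.union_subset hS (Finset.singleton_subset_iff.2 hpS)
  have hgood : ∀ ℓ : ℕ, ℓ.Prime → ℓ ∉ S → ¬ ℓ ∣ M * p := fun ℓ hℓ hℓS h =>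
    hℓS (hS' (Nat.mem_primeFactors.2 ⟨hℓ, h, NeZero.ne (M * p)⟩))
  have hp2 : p ≠ 2 := by omega
  obtain ⟨ι, hι, hισ, hιT⟩ :=
    exists_eigen_embedding (M * p) hp2 S hS' hpS a χ hχ r hr hspan hfrob
  obtain ⟨Mo, heq⟩ := hflat
  obtain ⟨ζ, hζ⟩ := FA.LocalDef.exists_zeta hp.out
  let act : GQ → (Fin 2 → ZMod p) →+ (Fin 2 → ZMod p) := fun σ =>
    AddMonoidHom.mk' (fun v => r σ *ᵥ v) fun v w => Matrix.mulVec_add _ _ _
  obtain ⟨E₀, hE₀fin, hE₀⟩ := exists_fixingSubgroup_le hr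
  haveI := hE₀fin
  have hline : ∀ σ ∈ A.inertiaSubgroupIn ℚ, σ ζ = ζ →
      act σ b = b ∧ ∀ z, ∃ c : ZMod p, act σ z = z + c • b := fun σ hσ hσζ => by
    refine ⟨mulVec_line_of_det_one (hquot σ hσ) ?_, fun z => ?_⟩
    · rw [hdet σ (inertia_le_decomposition hσ) 1 fun μ hμ => ?_, Nat.cast_one]
      obtain ⟨i, -, rfl⟩ := hζ.eq_pow_of_pow_eq_one hμ
      rw [map_pow, hσζ, pow_one]
    · obtain ⟨c, hc⟩ := Submodule.mem_span_singleton.1 (hquot σ hσ z)
      exact ⟨c, by rw [hc]; exact (add_sub_cancel z _).symm⟩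
  let xt : (Fin 2 → ZMod p) →+ Pic0.torsion Qb Fl p := ι.codRestrict _ fun v =>
    Pic0.mem_torsion.2 ((natCast_zsmul (ι v) p).trans (by
      rw [← map_nsmul, show p • v = 0 from funext fun i => by simp, map_zero]))
  obtain ⟨ℓ₀, hℓ₀, hℓ₀S, haℓ₀⟩ := hne
  haveI : Fact ℓ₀.Prime := ⟨hℓ₀⟩
  haveI : NeZero ℓ₀ := ⟨hℓ₀.ne_zero⟩
  have hne' : ¬ (p : ℤ) ∣ ((ℓ₀ + 1 : ℕ) : ℤ) - (a ℓ₀).val := fun h => haℓ₀ (by
    rw [← ZMod.intCast_zmod_eq_zero_iff_dvd] at h
    push_cast at h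
    rw [ZMod.natCast_zmod_val, sub_eq_zero] at h
    exact h.symm)
  have hord : ∀ v i Q, ordMod kA Fb p Q (redTor p (isFunctionField_level Qb (M * p))
      ((theSemi M p A hpM harch).scaled i) (xt v)) = 0 := fun v =>
    ordMod_redTor_eq_zero M p A hA hpM harch hp5 Mo hζ act
      (fun σ _ τ _ z => by
        show r (σ * τ) *ᵥ z = r σ *ᵥ (r τ *ᵥ z)
        rw [map_mul, Matrix.mulVec_mulVec])
      (fun σ hσ => heq σ (inertia_le_decomposition hσ)) E₀
      (fun σ _ hσ z => by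
        show r σ *ᵥ z = z
        rw [MonoidHom.mem_ker.1 (hE₀ hσ), Matrix.one_mulVec])
      b hline ι (fun σ _ z => hισ σ z) ℓ₀ (hgood ℓ₀ hℓ₀ hℓ₀S) (a ℓ₀).val hne'
      (hιT ℓ₀ hℓ₀ hℓ₀S) v (xt v) rfl
  by_cases hall : ∀ v i, redTor p (isFunctionField_level Qb (M * p))
      ((theSemi M p A hpM harch).scaled i) (xt v) = 0
  · exfalso
    have hV : ∀ n : ℕ, n = p → ∀ v, ∃ y : (theSemi M p A hpM harch).toricKer
        (isFunctionField_level Qb (M * p)) n,
        ((y : Pic0.torsion Qb Fl n) : JZero (M * p)) = ι v := by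
      rintro n rfl v
      exact ⟨⟨xt v, (SemiFibre.mem_toricKer _).2 (hall v)⟩, rfl⟩
    have hconn := (fibreData M p A πA IsLocalRing.residue_surjective residueAt_eq_zero hpM
      harch).hasConnModel hA 1 ι hι (hV (p ^ 1) (pow_one p)) (fun σ v => r σ *ᵥ v)
      fun σ _ v => hισ σ v
    obtain ⟨Mc, hMc, hMc0⟩ := hconn
    refine lineDual_ne_zero hb (Model.functional_eq_zero Mc hA hp2 (fun σ v => r σ *ᵥ v)
      (fun σ _ v => ⟨r σ⁻¹ *ᵥ v, by
        show r σ *ᵥ (r σ⁻¹ *ᵥ v) = v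
        rw [Matrix.mulVec_mulVec, ← map_mul, mul_inv_cancel, map_one, Matrix.one_mulVec]⟩)
      hMc hMc0 _ fun σ hσ v => lineDual_eq (hquot σ hσ v))
  push Not at hall
  obtain ⟨v, i, hy0⟩ := hall
  obtain ⟨r₀, hr₀, hr₀e⟩ := exists_redCls (k := kA) (n := p)
    (redTor p (isFunctionField_level Qb (M * p)) ((theSemi M p A hpM harch).scaled i) (xt v))
  refine exists_chi_of_theta M p A hA hpM harch S hS hpS a hr₀ (fun Q => ?_)
    (by rw [hr₀e]; exact hy0) fun ℓ _ _ hℓN hℓS => ?_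
  · have h := hord v i Q
    rw [← hr₀e, ordMod_redCls p Q hr₀, ZMod.intCast_zmod_eq_zero_iff_dvd] at h
    exact h
  rw [hr₀e, ← map_nsmul, ← map_nsmul]
  have hy : ((xt ((a ℓ).val • v) : Pic0.torsion Qb Fl p) : Pic0 Qb Fl) =
      heckeOperatorAlong Qb (M * p) ℓ ((xt v : Pic0.torsion Qb Fl p) : Pic0 Qb Fl) := by
    show ι ((a ℓ).val • v) = heckeOperatorAlong Qb (M * p) ℓ (ι v)
    rw [map_nsmul, hιT ℓ Fact.out hℓS]
  revert i
  refine Fin.forall_fin_two.2 ⟨fun _ _ => ?_, fun _ _ => ?_⟩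
  · exact (redTorInf_T M p A πA IsLocalRing.residue_surjective residueAt_eq_zero hpM harch ℓ hℓN p
      (xt v) (xt ((a ℓ).val • v)) hy).symm
  · exact (redTorZero_T M p A πA IsLocalRing.residue_surjective residueAt_eq_zero hpM harch ℓ hℓN p
      (xt v) (xt ((a ℓ).val • v)) hy).symm

end FA.ModField.AtP
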