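import Fermat.Agent.CurveRed.Ext
import Mathlib.Data.Nat.Choose.Dvd
import Mathlib.Algebra.CharP.Lemmas

/-!
# Scales of `p`-th powers of functions near one

With `h - 1` at the scale `d`, `h ^ p - 1` is at the scale `d ^ p` with reduction the `p`-th power
when `d ^ (p - 1)` is bigger than `p`, and at the scale `p d` with the same reduction when it is
smaller.
-/

set_option autoImplicit false
set_option linter.style.haveILetI false
set_option linter.unusedSectionVars false

noncomputable section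

namespace FA.CurveRed.ConstRed

variable {K F k Fk : Type*} [Field K] [Field F] [Algebra K F] [Field k] [Field Fk] [Algebra k Fk]
  {A : ValuationSubring K} {C : ConstRed K F k Fk A}

/-- Products near one at the same scale. -/
theorem Red.mul_sub_one {d : K} (hd0 : d ≠ 0) (hd : A.valuation d < 1) {u w : F} {s t : Fk}
    (hu : C.Red (algebraMap K F d⁻¹ * (u - 1)) s) (hw : C.Red (algebraMap K F d⁻¹ * (w - 1)) t) :
    C.Red (algebraMap K F d⁻¹ * (u * w - 1)) (s + t) := by
  have hdA : d ∈ A := (A.valuation_le_one_iff d).1 hd.le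
  have h1 := (hu.add hw).add ((red_const (C := C) ⟨d, hdA⟩).mul (hu.mul hw))
  rw [(C.π_eq_zero ⟨d, hdA⟩).2 hd, map_zero, zero_mul, add_zero] at h1
  convert h1 using 1
  have : algebraMap K F d ≠ 0 := by simpa using hd0
  show algebraMap K F d⁻¹ * (u * w - 1) = _ + algebraMap K F d * _
  rw [map_inv₀]
  field_simp
  ring_nf

/-- Inverses near one at the same scale. -/
theorem Red.inv_sub_one {d : K} (hd0 : d ≠ 0) (hd : A.valuation d < 1) {u : F} {s : Fk}
    (hu : C.Red (algebraMap K F d⁻¹ * (u - 1)) s) :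
    C.Red (algebraMap K F d⁻¹ * (u⁻¹ - 1)) (-s) := by
  have hdA : d ∈ A := (A.valuation_le_one_iff d).1 hd.le
  have h1 := ((red_const (C := C) ⟨d, hdA⟩).mul hu).add (red_one (C := C))
  rw [(C.π_eq_zero ⟨d, hdA⟩).2 hd, map_zero, zero_mul, zero_add, ← mul_assoc, ← map_mul,
    mul_inv_cancel₀ hd0, map_one, one_mul, sub_add_cancel] at h1
  have hu0 := h1.ne_zero one_ne_zero
  have h2 := (hu.neg).mul (h1.inv one_ne_zero)
  rw [inv_one, mul_one] at h2
  convert h2 using 1
  field_simp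
  ring_nf

/-- The binomial expansion around one. -/
theorem exists_pow_sub_one {p : ℕ} (hp : p.Prime) {y : F} {s : Fk} (hy : C.Red y s) :
    ∃ (R : F) (R' : Fk), C.Red R R' ∧
      (1 + y) ^ p - 1 = y ^ p + (p : F) * y + (p : F) * y ^ 2 * R := by
  refine ⟨∑ j ∈ Finset.range (p - 2), ((p.choose (j + 2) / p : ℕ) : F) * y ^ j,
    ∑ j ∈ Finset.range (p - 2), algebraMap k Fk (C.π ((p.choose (j + 2) / p : ℕ) : A)) * s ^ j,
    red_sum fun j _ => ?_, ?_⟩
  · have h := (red_const (C := C) ((p.choose (j + 2) / p : ℕ) : A)).mul (hy.pow j)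
    rwa [show ((((p.choose (j + 2) / p : ℕ) : A)) : K) = ((p.choose (j + 2) / p : ℕ) : K) from
      map_natCast A.subtype _, map_natCast] at h
  obtain ⟨m, hm⟩ : ∃ m, p = m + 2 := ⟨p - 2, by have := hp.two_le; omega⟩
  rw [add_comm (1 : F), add_pow, hm, Finset.sum_range_succ, Finset.sum_range_succ',
    Finset.sum_range_succ', Finset.mul_sum, show m + 2 - 2 = m by omega]
  simp only [one_pow, mul_one, pow_zero, Nat.choose_zero_right, Nat.cast_one, zero_add, pow_one,
    Nat.choose_one_right, Nat.choose_self]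
  rw [show ∑ i ∈ Finset.range m, y ^ (i + 1 + 1) * ((m + 2).choose (i + 1 + 1) : F) =
      ∑ i ∈ Finset.range m, ((m + 2 : ℕ) : F) * y ^ 2 *
        ((((m + 2).choose (i + 2) / (m + 2) : ℕ) : F) * y ^ i) from Finset.sum_congr rfl fun i hi => by
    have hdvd : m + 2 ∣ (m + 2).choose (i + 2) :=
      (hm ▸ hp).dvd_choose_self (by omega) (by have := Finset.mem_range.1 hi; omega)
    conv_lhs => rw [show i + 1 + 1 = i + 2 from rfl, ← Nat.mul_div_cancel' hdvd, Nat.cast_mul]
    ring]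
  push_cast
  ring_nf

/-- **The scale of a `p`-th power above the threshold.** -/
theorem Red.pow_sub_one_big {p : ℕ} (hp : p.Prime) {d : K} (hd0 : d ≠ 0) (hd : A.valuation d < 1)
    (hpd : A.valuation (p : K) < A.valuation d ^ (p - 1)) {h : F} {s : Fk}
    (hh : C.Red (algebraMap K F d⁻¹ * (h - 1)) s) :
    C.Red (algebraMap K F (d ^ p)⁻¹ * (h ^ p - 1)) (s ^ p) := by
  have hdA : d ∈ A := (A.valuation_le_one_iff d).1 hd.le
  set Y := algebraMap K F d⁻¹ * (h - 1) with hY
  obtain ⟨R, R', hR, he⟩ := exists_pow_sub_one hp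
    ((red_const (C := C) ⟨d, hdA⟩).mul hh)
  have hpos : (0 : _) < A.valuation d ^ (p - 1) := pow_pos (A.valuation.pos_iff.2 hd0) _
  have hcA : A.valuation ((p : K) / d ^ (p - 1)) < 1 := by
    rw [map_div₀, map_pow, div_lt_one₀ hpos]; exact hpd
  set c : A := ⟨(p : K) / d ^ (p - 1), (A.valuation_le_one_iff _).1 hcA.le⟩ with hc
  have h1 := ((hh.pow p).add ((red_const (C := C) c).mul hh)).add
    (((red_const (C := C) c).mul (red_const (C := C) ⟨d, hdA⟩)).mul ((hh.pow 2).mul hR))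
  rw [(C.π_eq_zero c).2 hcA, map_zero, zero_mul, zero_mul, zero_mul, add_zero, add_zero] at h1
  convert h1 using 1
  have h1' : h = 1 + algebraMap K F d * Y := by
    rw [hY, ← mul_assoc, ← map_mul, mul_inv_cancel₀ hd0, map_one, one_mul, add_sub_cancel]
  conv_lhs => rw [h1']
  show algebraMap K F (d ^ p)⁻¹ * ((1 + algebraMap K F ((⟨d, hdA⟩ : A) : K) * Y) ^ p - 1) = _
  rw [he]
  obtain ⟨m, rfl⟩ : ∃ m, p = m + 1 := ⟨p - 1, by have := hp.one_le; omega⟩
  have : algebraMap K F d ≠ 0 := by simpa using hd0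
  simp only [c, map_inv₀, map_pow, map_div₀, map_natCast, Nat.add_sub_cancel]
  field_simp
  ring_nf

/-- **The scale of a `p`-th power below the threshold.** -/
theorem Red.pow_sub_one_small {p : ℕ} (hp : p.Prime) {d : K} (hd0 : d ≠ 0)
    (hd : A.valuation d < 1) (hp0 : (p : K) ≠ 0) (hpA : A.valuation (p : K) ≤ 1)
    (hdp : A.valuation d ^ (p - 1) < A.valuation (p : K)) {h : F} {s : Fk}
    (hh : C.Red (algebraMap K F d⁻¹ * (h - 1)) s) :
    C.Red (algebraMap K F ((p : K) * d)⁻¹ * (h ^ p - 1)) s := by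
  have hdA : d ∈ A := (A.valuation_le_one_iff d).1 hd.le
  set Y := algebraMap K F d⁻¹ * (h - 1) with hY
  obtain ⟨R, R', hR, he⟩ := exists_pow_sub_one hp
    ((red_const (C := C) ⟨d, hdA⟩).mul hh)
  have hcA : A.valuation (d ^ (p - 1) / (p : K)) < 1 := by
    rw [map_div₀, map_pow, div_lt_one₀ (A.valuation.pos_iff.2 hp0)]; exact hdp
  set c : A := ⟨d ^ (p - 1) / (p : K), (A.valuation_le_one_iff _).1 hcA.le⟩ with hc
  have h1 := (((red_const (C := C) c).mul (hh.pow p)).add hh).add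
    ((red_const (C := C) ⟨d, hdA⟩).mul ((hh.pow 2).mul hR))
  rw [(C.π_eq_zero c).2 hcA, (C.π_eq_zero ⟨d, hdA⟩).2 hd, map_zero, zero_mul, zero_mul, zero_add,
    add_zero] at h1
  convert h1 using 1
  have h1' : h = 1 + algebraMap K F d * Y := by
    rw [hY, ← mul_assoc, ← map_mul, mul_inv_cancel₀ hd0, map_one, one_mul, add_sub_cancel]
  conv_lhs => rw [h1']
  show algebraMap K F ((p : K) * d)⁻¹ *
    ((1 + algebraMap K F ((⟨d, hdA⟩ : A) : K) * Y) ^ p - 1) = _
  rw [he]
  obtain ⟨m, rfl⟩ : ∃ m, p = m + 1 := ⟨p - 1, by have := hp.one_le; omega⟩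
  have h2 : algebraMap K F d ≠ 0 := by simpa using hd0
  have h3 : ((m + 1 : ℕ) : F) ≠ 0 := by
    rw [← map_natCast (algebraMap K F)]; exact (map_ne_zero _).2 hp0
  simp only [c, mul_inv, map_mul, map_inv₀, map_pow, map_div₀, map_natCast, Nat.add_sub_cancel]
  field_simp
  ring_nf

/-- **A `p`-th power near one has a `p`-th power reduction above the threshold.** -/
theorem exists_pow_of_red_big (hC : C.Scaled) {p : ℕ} (hp : p.Prime) [CharP Fk p] {d : K}
    (hd0 : d ≠ 0) (hd : A.valuation d < 1) (hpd : A.valuation (p : K) < A.valuation d ^ (p - 1))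
    {h : F} (h1 : C.Red h 1) {r : Fk} (hr : C.Red (algebraMap K F (d ^ p)⁻¹ * (h ^ p - 1)) r) :
    ∃ s, r = s ^ p := by
  rcases eq_or_ne (h - 1) 0 with h0 | h0
  · refine ⟨0, hr.unique ?_⟩
    rw [sub_eq_zero.1 h0, one_pow, sub_self, mul_zero, zero_pow hp.ne_zero]
    exact red_zero
  obtain ⟨c, g, s, e, hg, hs⟩ := hC (h - 1) trivial h0
  have hc0 : c ≠ 0 := fun hc => h0 (by rw [e, hc, map_zero, zero_mul])
  by_cases hle : A.valuation c ≤ A.valuation d
  · have hm : d⁻¹ * c ∈ A := (A.valuation_le_one_iff _).1 (by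
      rw [map_mul, map_inv₀, inv_mul_le_one₀ (A.valuation.pos_iff.2 hd0)]; exact hle)
    have h2 := (red_const (C := C) ⟨_, hm⟩).mul hg
    rw [show algebraMap K F ((⟨d⁻¹ * c, hm⟩ : A) : K) * g = algebraMap K F d⁻¹ * (h - 1) by
      rw [e, ← mul_assoc, ← map_mul]] at h2
    exact ⟨_, hr.unique (h2.pow_sub_one_big hp hd0 hd hpd)⟩
  rw [not_le] at hle
  have hc1 : A.valuation c < 1 := by
    by_contra hge
    rw [not_lt] at hge
    have hci : c⁻¹ ∈ A := (A.valuation_le_one_iff _).1 (by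
      rw [map_inv₀]; exact inv_le_one_of_one_le₀ hge)
    have h2 := (red_const (C := C) ⟨_, hci⟩).mul (h1.sub (red_one (C := C)))
    rw [sub_self, mul_zero] at h2
    rw [show algebraMap K F ((⟨c⁻¹, hci⟩ : A) : K) * (h - 1) = g by
      rw [e, ← mul_assoc, ← map_mul, inv_mul_cancel₀ hc0, map_one, one_mul]] at h2
    exact hs (hg.unique h2)
  exfalso
  have hg' : C.Red (algebraMap K F c⁻¹ * (h - 1)) s := by
    rwa [e, ← mul_assoc, ← map_mul, inv_mul_cancel₀ hc0, map_one, one_mul]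
  have h2 := hg'.pow_sub_one_big hp hc0 hc1
    (hpd.trans_le (pow_le_pow_left₀ zero_le hle.le _))
  have hv : A.valuation ((c ^ p)⁻¹ * d ^ p) < 1 := by
    rw [map_mul, map_inv₀, map_pow, map_pow, inv_mul_lt_one₀ (pow_pos (A.valuation.pos_iff.2 hc0) p)]
    exact pow_lt_pow_left₀ hle zero_le hp.ne_zero
  have h3 := (red_const (C := C) ⟨_, (A.valuation_le_one_iff _).1 hv.le⟩).mul hr
  rw [(C.π_eq_zero ⟨_, (A.valuation_le_one_iff _).1 hv.le⟩).2 hv, map_zero, zero_mul, ← mul_assoc,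
    ← map_mul, show (c ^ p)⁻¹ * d ^ p * (d ^ p)⁻¹ = (c ^ p)⁻¹ from
      mul_inv_cancel_right₀ (pow_ne_zero p hd0) _] at h3
  exact hs (eq_zero_of_pow_eq_zero (h2.unique h3))

end FA.CurveRed.ConstRed
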