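import Fermat.Agent.ModField.Semistable.AtP.NormSmall
import Fermat.Agent.ModField.Semistable.AtP.PowerScale
import Fermat.Agent.ModField.Semistable.X0.Base
import Fermat.Agent.ModField.Semistable.PushCompat

/-!
# Classes with trivial pushforward at a scale above that of `ζ - 1`

The norm along `β` moves a function near one on the component of `∞` beyond the scale, so for a
class with trivial pushforward to level `M` the reduction of the function at that scale is the
reduction of a `p`-th power near one, so a `p`-th power.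
-/

set_option autoImplicit false
set_option linter.style.haveILetI false
set_option linter.unusedSectionVars false
set_option synthInstance.maxHeartbeats 400000
set_option maxHeartbeats 1600000

noncomputable section

namespace FA.ModField.AtP

open ModularCurve AlgebraicCurve FA.Curve FA.CurveRed FA.CurveRed.ConstRed FA.Level FA.JTorsion

local notation "Qb" => AlgebraicClosure ℚ

/-- Products of congruent factors to second order. -/
theorem exists_prod_eq_add_sum {R ι : Type*} [CommRing R] [DecidableEq ι] (s : Finset ι) (c : R)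
    (a b : ι → R) :
    ∃ w, ∏ i ∈ s, (a i + c * b i) =
      ∏ i ∈ s, a i + c * ((∑ i ∈ s, b i * ∏ j ∈ s.erase i, a j) + c * w) := by
  induction s using Finset.induction_on with
  | empty => exact ⟨0, by simp⟩
  | insert i s his ih =>
    obtain ⟨w, hw⟩ := ih
    refine ⟨a i * w + b i * ((∑ l ∈ s, b l * ∏ j ∈ s.erase l, a j) + c * w), ?_⟩
    rw [Finset.prod_insert his, Finset.prod_insert his, hw, Finset.sum_insert his,
      Finset.erase_insert his, show ∑ l ∈ s, b l * ∏ j ∈ (insert i s).erase l, a j =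
        a i * ∑ l ∈ s, b l * ∏ j ∈ s.erase l, a j by
      rw [Finset.mul_sum]
      refine Finset.sum_congr rfl fun l hl => ?_
      rw [Finset.erase_insert_of_ne (fun h => his (by rwa [h])), Finset.prod_insert
        (fun h => his (Finset.mem_of_mem_erase h))]
      ring]
    ring

variable [Algebra Qb ℂ] (M q : ℕ) [NeZero M] [hq : Fact q.Prime] [hq0 : NeZero q]
variable (A : ValuationSubring Qb) [IsAlgClosed (IsLocalRing.ResidueField A)]
  [CharP (IsLocalRing.ResidueField A) q] (hqM : ¬ q ∣ M)
  (harch : ∀ c : Qb, c ≠ 0 → ∃ m : ℕ, A.valuation ((q : Qb) ^ m) < A.valuation c)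

local notation "kA" => IsLocalRing.ResidueField A
local notation "πA" => IsLocalRing.residue A
local notation "Fl" => levelField (M * q) Qb
local notation "Fb" => modularFunctionFieldFullC (IsLocalRing.ResidueField A) M
local notation "CI" => cInf M q A πA IsLocalRing.residue_surjective residueAt_eq_zero hqM harch

/-- **The norm along `β` moves functions near one beyond their scale.** -/
theorem red_normBeta_sub_one {e : Qb} (he0 : e ≠ 0) (he : A.valuation e < 1) {y : Fl} {r : Fb}
    (h : (CI).Red (algebraMap Qb Fl e⁻¹ * (y - 1)) r) :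
    (CI).Red (algebraMap Qb Fl e⁻¹ * (normBeta M q Qb (heckeAlphaBar Qb (M * q) q y) - 1)) 0 := by
  classical
  set a : A := ⟨e, (A.valuation_le_one_iff e).1 he.le⟩
  have hπa : πA a = 0 := (residueAt_eq_zero a).2 he
  obtain ⟨Y, Y', hY, hY', hne, hfe, -⟩ :=
    (cInf_red M q A πA IsLocalRing.residue_surjective residueAt_eq_zero hqM harch).1 h
  set g := algebraMap Qb Fl e⁻¹ * (y - 1)
  set u' : Fl := ⟨_, hY'⟩
  set u : Fl := ⟨_, hY⟩
  have hgu : g * u' = u := Subtype.ext hfe
  have hyu : y * u' = u' + algebraMap Qb Fl e * u := by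
    rw [← hgu]
    have : algebraMap Qb Fl e ≠ 0 := by simpa using he0
    simp only [g, map_inv₀]
    field_simp
    ring
  obtain ⟨ζ, hζC, hζπ⟩ := exists_zeta_val q Qb A πA
  set ζL : Qbˣ := Units.map (A.subtype : A →+* Qb).toMonoidHom ζ
  have hζ : IsPrimitiveRoot (ζL : Qb) q := by
    refine IsPrimitiveRoot.of_map_of_injective ?_ (algebraMap Qb ℂ).injective
    show IsPrimitiveRoot (algebraMap Qb ℂ ((ζ : A) : Qb)) q
    rw [hζC]
    exact zetaN_prim q
  obtain ⟨Z', hZ', hZk'⟩ := exists_normBeta_series M q Qb hqM A πA Y'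
    (heckeAlphaBar Qb (M * q) q u') (coe_heckeAlphaBar (M * q) q u').symm
  have hne' : coeffMap πA Z' ≠ 0 := fun h0 => hne
    (coeffMap_injective' (frobenius kA q).injective ((hZk'.symm.trans h0).trans (map_zero _).symm))
  obtain ⟨w, hw⟩ := exists_prod_eq_add_sum Finset.univ (HahnSeries.C a : LaurentSeries A)
    (fun b : Fin q => twist (ζ ^ (b : ℕ)) Y') (fun b : Fin q => twist (ζ ^ (b : ℕ)) Y)
  set W := (∑ b : Fin q, twist (ζ ^ (b : ℕ)) Y *
    ∏ j ∈ Finset.univ.erase b, twist (ζ ^ (j : ℕ)) Y') + HahnSeries.C a * w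
  have hW0 : coeffMap πA W = 0 := by
    have htw : ∀ (b : Fin q) (S : LaurentSeries A),
        coeffMap πA (twist (ζ ^ (b : ℕ)) S) = coeffMap πA S := fun b S => by
      rw [coeffMap_twist, map_pow, show Units.map (πA : A →* kA) ζ = 1 from Units.ext hζπ,
        one_pow, twist_one_apply]
    haveI : CharP (LaurentSeries kA) q :=
      charP_of_injective_ringHom (f := (HahnSeries.C : kA →+* LaurentSeries kA))
        HahnSeries.C_injective q
    simp only [W, map_add, map_sum, map_mul, map_prod, htw, Finset.prod_const, Finset.sum_const,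
      Finset.card_erase_of_mem (Finset.mem_univ _), Finset.card_univ, Fintype.card_fin,
      nsmul_eq_mul, CharP.cast_eq_zero, zero_mul, zero_add]
    rw [coeffMap_C', hπa, map_zero, zero_mul]
  set z : Fl := algebraMap Qb Fl e⁻¹ *
    (normBeta M q Qb (heckeAlphaBar Qb (M * q) q (y * u')) -
      normBeta M q Qb (heckeAlphaBar Qb (M * q) q u'))
  have hC : ∀ b : Qb, ((algebraMap Qb Fl b : Fl) : LaurentSeries Qb) = HahnSeries.C b := fun b => by
    rw [HahnSeries.C_apply, ← algebraMap_laurentSeries_eq_single]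
    rfl
  have hsub : ∀ (b : Fin q) (S : LaurentSeries A),
      coeffMap (A.subtype : A →+* Qb) (twist (ζ ^ (b : ℕ)) S) =
        twist (ζL ^ (b : ℕ)) (coeffMap (A.subtype : A →+* Qb) S) := fun b S => by
    rw [coeffMap_twist, map_pow]
    rfl
  have hz : coeffMap (A.subtype : A →+* Qb) W = qExpand Qb q (z : LaurentSeries Qb) := by
    have hw' := congrArg (coeffMap (A.subtype : A →+* Qb)) hw
    rw [map_prod, map_add, map_mul, map_prod, coeffMap_C'] at hw'
    simp only [map_add, map_mul, hsub, coeffMap_C'] at hw'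
    have htC : ∀ b : Fin q, twist (ζL ^ (b : ℕ)) (HahnSeries.C (A.subtype a)) =
        HahnSeries.C (A.subtype a) := fun b => twist_C _ _
    have e1 : qExpand Qb q (normBeta M q Qb (heckeAlphaBar Qb (M * q) q (y * u')) :
          LaurentSeries Qb) =
        qExpand Qb q (normBeta M q Qb (heckeAlphaBar Qb (M * q) q u') : LaurentSeries Qb) +
          HahnSeries.C e * coeffMap (A.subtype : A →+* Qb) W := by
      rw [qExpand_normBeta M q Qb hqM hζ, qExpand_normBeta M q Qb hqM hζ]
      refine (Finset.prod_congr rfl fun b _ => ?_).trans (hw'.trans ?_)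
      · rw [coe_heckeAlphaBar, hyu, AddMemClass.coe_add, MulMemClass.coe_mul, hC, map_add,
          map_mul, twist_C]
        rfl
      · simp only [W, map_add, map_mul, coeffMap_C', coe_heckeAlphaBar]
        rfl
    rw [show (z : LaurentSeries Qb) = HahnSeries.C e⁻¹ *
        ((normBeta M q Qb (heckeAlphaBar Qb (M * q) q (y * u')) : LaurentSeries Qb) -
          (normBeta M q Qb (heckeAlphaBar Qb (M * q) q u') : LaurentSeries Qb)) by
      rw [← hC]; rfl]
    rw [map_mul, map_sub, qExpand_C, e1, add_sub_cancel_left, ← mul_assoc, ← map_mul, inv_mul_cancel₀ he0, map_one, one_mul]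
  obtain ⟨Z, hZ, hZW⟩ := exists_qExpand_of_coeffMap (ℓ := q) A.subtype_injective hz
  obtain ⟨r1, hr1, h1⟩ := X0.cInf_series M q A πA IsLocalRing.residue_surjective residueAt_eq_zero
    hqM harch Z (f := z) hZ
  have hr10 : r1 = 0 := by
    refine Subtype.ext (hr1.trans (qExpand_injective q ?_))
    rw [← coeffMap_qExpand, hZW, hW0, ZeroMemClass.coe_zero, map_zero]
  subst hr10
  obtain ⟨r2, hr2, h2⟩ := X0.cInf_series M q A πA IsLocalRing.residue_surjective residueAt_eq_zero
    hqM harch Z' (f := normBeta M q Qb (heckeAlphaBar Qb (M * q) q u')) hZ'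
  have hr20 : r2 ≠ 0 := fun h0 => hne' (by rw [← hr2, h0]; rfl)
  have h3 := h1.mul (h2.inv hr20)
  rw [zero_mul] at h3
  convert h3 using 1
  have hu0 := h2.ne_zero hr20
  simp only [z, map_mul, normBeta_mul]
  field_simp

/-- **Trivial pushforward gives `p`-th powers above the threshold.** -/
theorem exists_pow_of_pushLvl_eq_zero {D : Divisor.degZero (K := Qb) (F := Fl)} {g : Fl}
    (hg : g ≠ 0) (hgD : ∀ P, P.ord g = (q : ℤ) * (D : Divisor Qb Fl) P)
    (hpush : pushLvl M q (Pic0.mk D) = 0) {d : Qb} (hd0 : d ≠ 0) (hd : A.valuation d < 1)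
    (hqd : A.valuation (q : Qb) < A.valuation d ^ (q - 1)) {r r' : Fb}
    (h0 : (CI).Red (algebraMap Qb Fl (d ^ q)⁻¹ * (g - 1)) r)
    (h1 : (CI).Red (algebraMap Qb Fl (d ^ q)⁻¹ * (wLvl M q Qb hqM g - 1)) r') :
    ∃ u, r = u ^ q := by
  haveI : CharP Fb q := charP_of_injective_algebraMap (algebraMap kA Fb).injective q
  have hFM := isFunctionField_level Qb M
  have hFN := isFunctionField_level Qb (M * q)
  have he : A.valuation (d ^ q) < 1 := by
    rw [map_pow]; exact pow_lt_one₀ zero_le hd hq.out.ne_zero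
  have he0 := pow_ne_zero q hd0
  obtain ⟨h, hh, hhD⟩ := pushDown_principal M q hpush
  have hfinM := finiteAlong hFM hFN (heckeAlphaBar Qb M q)
  obtain ⟨hng, hngD⟩ := ord_norm_push (heckeAlphaBar Qb M q)
    (isIntegral_toRingHom hFM hFN (heckeAlphaBar Qb M q)) hfinM
    (normFormulaAlong hFM hFN (heckeAlphaBar Qb M q) hfinM) (n := (q : ℤ))
    (D := (D : Divisor Qb Fl)) hg fun P => (hgD P).symm
  change normDownAlpha M q Qb g ≠ 0 at hng
  obtain ⟨c, hc, hch⟩ := exists_const_of_ord_eq hFM hng (pow_ne_zero q hh) fun P => by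
    rw [FA.ModField.place_ord_pow, ← hhD P]
    exact (hngD P).symm
  obtain ⟨μ, hμ⟩ := IsAlgClosed.exists_pow_nat_eq c hq.out.pos
  set H : Fl := algebraMap Qb Fl μ * heckeAlphaBar Qb M q h
  have hHG : H ^ q = normBeta M q Qb (heckeAlphaBar Qb (M * q) q (wLvl M q Qb hqM g)) * g := by
    have e1 : heckeAlphaBar Qb M q (normDownBeta M q Qb (wLvl M q Qb hqM g)) =
        normBeta M q Qb (heckeAlphaBar Qb (M * q) q (wLvl M q Qb hqM g)) * g := by
      apply Subtype.ext
      rw [coe_heckeAlphaBar, coe_normDownBeta M q Qb hqM, wLvl_wLvl]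
      rfl
    rw [← e1, normDownBeta_wLvl, hch, map_mul, map_pow, AlgHom.commutes, mul_pow, ← map_pow, hμ]
  have hG := (red_normBeta_sub_one M q A hqM harch he0 he h1).mul_sub_one he0 he h0
  rw [zero_add] at hG
  rw [← hHG] at hG
  have hG1 : (CI).Red (H ^ q) 1 := by
    have heA : d ^ q ∈ A := (A.valuation_le_one_iff _).1 he.le
    have h2 := ((ConstRed.red_const (C := CI) ⟨_, heA⟩).mul hG).add (ConstRed.red_one (C := CI))
    rw [((CI).π_eq_zero ⟨_, heA⟩).2 he, map_zero, zero_mul, zero_add, ← mul_assoc, ← map_mul,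
      mul_inv_cancel₀ he0, map_one, one_mul, sub_add_cancel] at h2
    exact h2
  have hH0 : H ≠ 0 := fun h' => by
    have := hG1.ne_zero one_ne_zero
    rw [h', zero_pow hq.out.ne_zero] at this
    exact this rfl
  obtain ⟨b, g₁, s, e, hg₁, hs⟩ :=
    scaled_cInf M q A πA IsLocalRing.residue_surjective residueAt_eq_zero hqM harch H trivial hH0
  rw [e, mul_pow, ← map_pow] at hG1
  obtain ⟨hbA, hb1⟩ := (hg₁.pow q).smul_cancel (pow_ne_zero q hs) hG1
  have hbA' : b ∈ A := (A.valuation_le_one_iff _).1 ((pow_le_one_iff_of_nonneg zero_le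
    hq.out.ne_zero).1 (by rw [← map_pow]; exact (A.valuation_le_one_iff _).2 hbA))
  have hH1 : (CI).Red H 1 := by
    have h2 := (ConstRed.red_const (C := CI) ⟨b, hbA'⟩).mul hg₁
    rw [show algebraMap Qb Fl ((⟨b, hbA'⟩ : A) : Qb) * g₁ = H from e.symm] at h2
    convert h2 using 1
    rw [eq_comm, ← sub_eq_zero]
    refine eq_zero_of_pow_eq_zero (n := q) ?_
    rw [sub_pow_char, one_pow, mul_pow, ← map_pow, ← map_pow, hb1, sub_eq_zero]
    rfl
  exact exists_pow_of_red_big
    (scaled_cInf M q A πA IsLocalRing.residue_surjective residueAt_eq_zero hqM harch)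
    hq.out hd0 hd hqd hH1 hG

end FA.ModField.AtP
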