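import Fermat.Agent.ModField.Semistable.AtP.LowFrob

/-!
# Systems from torsion classes

A nonzero class killed by `p` which is an eigenclass of the good Hecke operators gives a mod `p`
system of the Hecke algebra.
-/

set_option autoImplicit false
set_option linter.style.haveILetI false
set_option linter.unusedSectionVars false
set_option maxHeartbeats 800000

noncomputable section

namespace FA.ModField.AtP

open ModularCurve AlgebraicCurve FA.JTorsion FA.Level FA.Mazur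

local notation "Qb" => AlgebraicClosure ℚ

variable [Algebra Qb ℂ] (N : ℕ) [NeZero N] (p : ℕ) [hp : Fact p.Prime] [hp0 : NeZero p]

/-- **A system from an eigenclass killed by `p`.** -/
theorem exists_chi_of_torsion (S : Finset ℕ) (hS : N.primeFactors ⊆ S) (a : ℕ → ZMod p)
    {x : JZero N} (hx : p • x = 0) (hx0 : x ≠ 0)
    (heig : ∀ (ℓ : ℕ) [NeZero ℓ], ℓ.Prime → ℓ ∉ S →
      heckeOperatorAlong Qb N ℓ x = (a ℓ).val • x) :
    ∃ χ : CuspForm.heckeAlgebra N 2 (↑S : Set ℕ) →+* ZMod p,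
      ∀ (ℓ : ℕ) (hℓ : ℓ.Prime) (hℓN : ¬ ℓ ∣ N) (hℓS : ℓ ∉ (↑S : Set ℕ)),
        χ (CuspForm.heckeAlgebra.T hℓ hℓN hℓS) = a ℓ := by
  classical
  obtain ⟨y', hy'⟩ := Divisible.pic0_exists_nsmul_eq (lvlGamma0 N) Qb
    (liftExp_ne_zero (lvlGamma0 N)) x
  obtain ⟨z, hz⟩ := exists_toTors_eq N (↑S : Set ℕ) p (mem_liftedTors_iff.2 ⟨y', by
    rw [Pic0.mem_torsion, natCast_zsmul, mul_comm, mul_nsmul', hy']
    exact hx, hy'⟩)
  haveI : Module (ZMod p) (ModN N (↑S : Set ℕ) p) := AddCommGroup.zmodModule fun q =>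
    toTors_injective N (↑S : Set ℕ) p (by rw [map_nsmul, nsmul_toTors, map_zero])
  have hz0 : z ≠ 0 := fun h => hx0 (by rw [← hz, h, map_zero])
  have hscal : ∀ t : CuspForm.heckeAlgebra N 2 (↑S : Set ℕ), ∃ c : ZMod p, t • z = c • z := by
    rintro ⟨T, hT⟩
    induction hT using Algebra.adjoin_induction with
    | mem T hT =>
      rcases hT with ⟨ℓ, hℓ, hℓN, hℓS, rfl⟩ | ⟨ℓ, hℓN, hℓ, hℓS, rfl⟩
      · haveI : NeZero ℓ := ⟨hℓ.ne_zero⟩
        refine ⟨a ℓ, toTors_injective N (↑S : Set ℕ) p ?_⟩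
        rw [← ZMod.natCast_zmod_val (a ℓ), Nat.cast_smul_eq_nsmul, map_nsmul, hz]
        refine (toTors_T_smul N p hℓ hℓN hℓS z).trans ?_
        rw [hz]
        exact heig ℓ hℓ fun h => hℓS (Finset.mem_coe.2 h)
      · exact absurd (hS (Nat.mem_primeFactors.2 ⟨hℓ, hℓN, NeZero.ne N⟩)) hℓS
    | algebraMap n =>
      refine ⟨(n : ZMod p), ?_⟩
      rw [Int.cast_smul_eq_zsmul]
      exact algebraMap_smul (CuspForm.heckeAlgebra N 2 (↑S : Set ℕ)) n z
    | add T T' hT hT' h h' =>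
      obtain ⟨c, hc⟩ := h
      obtain ⟨c', hc'⟩ := h'
      refine ⟨c + c', ?_⟩
      rw [show (⟨T + T', add_mem hT hT'⟩ : CuspForm.heckeAlgebra N 2 (↑S : Set ℕ)) =
        ⟨T, hT⟩ + ⟨T', hT'⟩ from rfl, add_smul, add_smul, hc, hc']
    | mul T T' hT hT' h h' =>
      obtain ⟨c, hc⟩ := h
      obtain ⟨c', hc'⟩ := h'
      refine ⟨c * c', ?_⟩
      rw [show (⟨T * T', mul_mem hT hT'⟩ : CuspForm.heckeAlgebra N 2 (↑S : Set ℕ)) =
        ⟨T, hT⟩ * ⟨T', hT'⟩ from rfl, mul_smul, hc', ← ZMod.natCast_zmod_val c',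
        Nat.cast_smul_eq_nsmul, ← Nat.cast_smul_eq_nsmul (CuspForm.heckeAlgebra N 2 (↑S : Set ℕ)),
        smul_comm, hc, Nat.cast_smul_eq_nsmul, ← Nat.cast_smul_eq_nsmul (ZMod p), smul_smul,
        mul_comm]
  choose c hc using hscal
  have hinj : ∀ {u w : ZMod p}, u • z = w • z → u = w := fun h => smul_left_injective _ hz0 h
  let χ : CuspForm.heckeAlgebra N 2 (↑S : Set ℕ) →+* ZMod p :=
    { toFun := c
      map_one' := hinj (by rw [← hc, one_smul, one_smul])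
      map_mul' := fun s t => hinj (by
        rw [← hc, mul_smul, hc t, ← ZMod.natCast_zmod_val (c t), Nat.cast_smul_eq_nsmul,
          ← Nat.cast_smul_eq_nsmul (CuspForm.heckeAlgebra N 2 (↑S : Set ℕ)), smul_comm, hc s,
          Nat.cast_smul_eq_nsmul, ← Nat.cast_smul_eq_nsmul (ZMod p), smul_smul, mul_comm])
      map_zero' := hinj (by rw [← hc, zero_smul, zero_smul])
      map_add' := fun s t => hinj (by rw [← hc, add_smul, add_smul, ← hc, ← hc]) }
  refine ⟨χ, fun ℓ hℓ hℓN hℓS => hinj ?_⟩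
  show c _ • z = _
  haveI : NeZero ℓ := ⟨hℓ.ne_zero⟩
  rw [← hc]
  refine toTors_injective N (↑S : Set ℕ) p ?_
  rw [← ZMod.natCast_zmod_val (a ℓ), Nat.cast_smul_eq_nsmul, map_nsmul, hz]
  refine (toTors_T_smul N p hℓ hℓN hℓS z).trans ?_
  rw [hz]
  exact heig ℓ hℓ fun h => hℓS (Finset.mem_coe.2 h)

end FA.ModField.AtP
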