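import Fermat.Agent.ModField.Semistable.AtP.DiscPlane
import Fermat.Agent.ModField.Semistable.AtP.PushScale
import Fermat.Agent.ModField.Semistable.AtP.TorsChi
import Fermat.Agent.ModField.Semistable.AtP.LowerAtP

/-!
# Removal of `p` from the level for planes moved in two directions by inertia

A plane in `J₀(M p)` spanned by its displacements by inertia consists of classes with zero
reductions; inertia does not act on it by the cyclotomic character, so one of its classes or its
transform by `w_p` has nonzero pushforward to level `M`, and gives the system there.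
-/

set_option autoImplicit false
set_option linter.style.haveILetI false
set_option linter.unusedSectionVars false
set_option synthInstance.maxHeartbeats 400000
set_option maxHeartbeats 3200000

noncomputable section

namespace FA.ModField.AtP

open ModularCurve AlgebraicCurve FA.Curve FA.CurveRed FA.JTorsion FA.Level FA.LocalDef FA.Local
  Matrix

local notation "Qb" => AlgebraicClosure ℚ
local notation "GQ" => AlgebraicClosure ℚ ≃ₐ[ℚ] AlgebraicClosure ℚ

/-- The quadratic relation of a matrix of size two. -/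
theorem mulVec_mulVec_add {R : Type*} [CommRing R] (B : Matrix (Fin 2) (Fin 2) R) (v : Fin 2 → R) :
    B *ᵥ (B *ᵥ v) + B.det • v = B.trace • (B *ᵥ v) := by
  funext i
  simp only [Matrix.mulVec, dotProduct, Fin.sum_univ_two, Matrix.det_fin_two,
    Matrix.trace_fin_two, Pi.add_apply, Pi.smul_apply, smul_eq_mul]
  fin_cases i <;> simp <;> ring

variable [Algebra Qb ℂ] {p : ℕ} [hp : Fact p.Prime] [hp0 : NeZero p] (M : ℕ) [NeZero M]
  [NeZero (M * p)]
variable (A : ValuationSubring Qb) [IsAlgClosed (IsLocalRing.ResidueField A)]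
  [CharP (IsLocalRing.ResidueField A) p] (hA : A.LiesOverPrime p) (hpM : ¬ p ∣ M)

local notation "kA" => IsLocalRing.ResidueField A
local notation "πA" => IsLocalRing.residue A
local notation "Fl" => levelField (M * p) Qb
local notation "Fb" => modularFunctionFieldFullC (IsLocalRing.ResidueField A) M

omit hp hp0 [IsAlgClosed (IsLocalRing.ResidueField A)] [CharP (IsLocalRing.ResidueField A) p] in
/-- The involution commutes with the Galois action. -/
theorem wAut_comm_gal [hp : Fact p.Prime] [NeZero p] (hpM : ¬ p ∣ M) (σ : GQ) :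
    wAut M p Qb hpM * galAut (M * p) Qb σ = galAut (M * p) Qb σ * wAut M p Qb hpM :=
  Subtype.ext (Prod.ext (RingEquiv.ext fun f => wLvl_gal M p hpM σ f)
    (RingEquiv.ext fun _ => rfl))

include hA hpM in
/-- **Removal of `p` for planes spanned by the displacements of inertia.** -/
theorem exists_chi_lowerAtP_plane (hp2 : p ≠ 2) (S : Finset ℕ) (hS : M.primeFactors ⊆ S)
    (hpS : p ∈ S) (a : ℕ → ZMod p) (r : GQ →* Matrix (Fin 2) (Fin 2) (ZMod p))
    (hr : IsOpen (r.ker : Set GQ))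
    (hspan : Submodule.span (ZMod p) (Set.range r) = ⊤)
    (hfrob : ∀ ℓ : ℕ, ℓ.Prime → ℓ ∉ S → ∀ B : ValuationSubring Qb, B.LiesOverPrime ℓ →
      ∀ τ : GQ, B.IsFrobeniusAt τ ℓ → (r τ).trace = a ℓ ∧ (r τ).det = (ℓ : ZMod p))
    (hdet : DetOmega A p r)
    (hfull : Submodule.span (ZMod p)
      {w | ∃ σ ∈ A.inertiaSubgroupIn ℚ, ∃ v, w = r σ *ᵥ v - v} = ⊤)
    (χ : CuspForm.heckeAlgebra (M * p) 2 (↑S : Set ℕ) →+* ZMod p)
    (hχ : ∀ (ℓ : ℕ) (hℓ : ℓ.Prime) (hℓN : ¬ ℓ ∣ M * p) (hℓS : ℓ ∉ (↑S : Set ℕ)),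
      χ (CuspForm.heckeAlgebra.T hℓ hℓN hℓS) = a ℓ) :
    ∃ χ' : CuspForm.heckeAlgebra M 2 (↑S : Set ℕ) →+* ZMod p,
      ∀ (ℓ : ℕ) (hℓ : ℓ.Prime) (hℓM : ¬ ℓ ∣ M) (hℓS : ℓ ∉ (↑S : Set ℕ)),
        χ' (CuspForm.heckeAlgebra.T hℓ hℓM hℓS) = a ℓ := by
  classical
  haveI : Algebra.IsAlgebraic ℚ Qb := AlgebraicClosure.isAlgebraic ℚ
  have harch : ∀ c : Qb, c ≠ 0 → ∃ m : ℕ, A.valuation ((p : Qb) ^ m) < A.valuation c :=
    fun c hc => exists_pow_lt_valuation hp.out hA c hc
  have hS' : (M * p).primeFactors ⊆ S := by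
    rw [Nat.primeFactors_mul (NeZero.ne M) hp.out.ne_zero, hp.out.primeFactors]
    exact Finset.union_subset hS (Finset.singleton_subset_iff.2 hpS)
  obtain ⟨ι, hι, hισ, -⟩ :=
    exists_eigen_embedding (M * p) hp2 S hS' hpS a χ hχ r hr hspan hfrob
  obtain ⟨ζ, hζ⟩ := FA.LocalDef.exists_zeta hp.out
  have hFl := isFunctionField_level Qb (M * p)
  set X := theSemi M p A hpM harch
  set D₀ := fibreData M p A πA IsLocalRing.residue_surjective residueAt_eq_zero hpM harch
  let xt : (Fin 2 → ZMod p) →+ Pic0.torsion Qb Fl p := ι.codRestrict _ fun v =>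
    Pic0.mem_torsion.2 ((natCast_zsmul (ι v) p).trans (by
      rw [← map_nsmul, show p • v = 0 from funext fun i => by simp, map_zero]))
  have hker : ∀ v, xt v ∈ X.toricKer hFl p := by
    intro v
    have hv : v ∈ Submodule.span (ZMod p)
        {w | ∃ σ ∈ A.inertiaSubgroupIn ℚ, ∃ v, w = r σ *ᵥ v - v} := hfull ▸ Submodule.mem_top
    induction hv using Submodule.span_induction with
    | mem w hw =>
      obtain ⟨σ, hσ, u, rfl⟩ := hw
      have e : xt (r σ *ᵥ u - u) = galAut (M * p) Qb σ • xt u - xt u := Subtype.ext (by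
        show ι (r σ *ᵥ u - u) =
          ((galAut (M * p) Qb σ • xt u - xt u : Pic0.torsion Qb Fl p) : Pic0 Qb Fl)
        rw [map_sub, hισ, AddSubgroupClass.coe_sub, SemilinearAut.coe_torsion_smul,
          galois_smul_pic0_def]
        rfl)
      rw [e]
      exact D₀.smul_sub_mem_toricKer_inertia p hσ (xt u)
    | zero => rw [map_zero]; exact zero_mem _
    | add u w _ _ hu hw => rw [map_add]; exact add_mem hu hw
    | smul c w _ hw =>
      rw [← ZMod.natCast_zmod_val c, Nat.cast_smul_eq_nsmul, map_nsmul]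
      exact nsmul_mem hw _
  -- some class has a nonzero image
  suffices hne : ∃ y : (Fin 2 → ZMod p) →+ JZero M,
      (∀ σ v, y (r σ *ᵥ v) = σ • y v) ∧ ∃ v, y v ≠ 0 by
    obtain ⟨y, hy, v, hv⟩ := hne
    refine exists_chi_of_torsion M p S hS a (x := y v)
      (by rw [← map_nsmul, show p • v = 0 from funext fun i => by simp, map_zero]) hv
      fun ℓ _ hℓ hℓS => ?_
    obtain ⟨B, hB⟩ := FA.Deform.exists_liesOverPrime hℓ
    obtain ⟨σ, hσ⟩ := FA.Deform.exists_isFrobeniusAt hℓ hB
    obtain ⟨htr, hd⟩ := hfrob ℓ hℓ hℓS B hB σ hσ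
    have hℓM : ¬ ℓ ∣ M := fun h => hℓS (hS (Nat.mem_primeFactors.2 ⟨hℓ, h, NeZero.ne M⟩))
    have hℓp : ¬ ℓ ∣ p := fun h => hℓS ((Nat.prime_dvd_prime_iff_eq hℓ hp.out).1 h ▸ hpS)
    obtain ⟨u, rfl⟩ : ∃ u, r σ *ᵥ u = v := ⟨r σ⁻¹ *ᵥ v, by
      rw [Matrix.mulVec_mulVec, ← map_mul, mul_inv_cancel, map_one, Matrix.one_mulVec]⟩
    have hfr := (goodRed_all M).frobenius ℓ hℓ hℓM B hB σ hσ p hℓp (y u)
      (by rw [← map_nsmul, show p • u = 0 from funext fun i => by simp, map_zero])
    rw [← hy, ← hy, ← map_nsmul, sub_add_eq_add_sub, ← map_add, sub_eq_zero] at hfr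
    rw [← hfr, ← map_nsmul, ← Nat.cast_smul_eq_nsmul (ZMod p), ← hd, mulVec_mulVec_add, htr,
      ← Nat.cast_smul_eq_nsmul (ZMod p), ZMod.natCast_zmod_val]
  let y₀ : (Fin 2 → ZMod p) →+ JZero M := (pushLvl M p).comp ι
  let y₁ : (Fin 2 → ZMod p) →+ JZero M := (pushLvl M p).comp
    ((DistribSMul.toAddMonoidHom (JZero (M * p)) (wAut M p Qb hpM)).comp ι)
  have hy₀ : ∀ σ v, y₀ (r σ *ᵥ v) = σ • y₀ v := fun σ v => by
    show pushLvl M p (ι (r σ *ᵥ v)) = σ • pushLvl M p (ι v)
    rw [hισ, pushLvl_gal]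
  have hy₁ : ∀ σ v, y₁ (r σ *ᵥ v) = σ • y₁ v := fun σ v => by
    show pushLvl M p (wAut M p Qb hpM • ι (r σ *ᵥ v)) = σ • pushLvl M p (wAut M p Qb hpM • ι v)
    rw [hισ, galois_smul_pic0_def, ← mul_smul,
      show wAut M p Qb hpM * arithmeticGalois (modularFunctionFieldFull (M * p)) σ =
        arithmeticGalois (modularFunctionFieldFull (M * p)) σ * wAut M p Qb hpM from
        wAut_comm_gal M hpM σ, mul_smul, ← galois_smul_pic0_def, pushLvl_gal]
  by_contra hno
  push Not at hno
  have h0 := hno y₀ hy₀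
  have h1 := hno y₁ hy₁
  rcases (galFibre M p A hA hpM harch).dichotomy_connected hFl
      (fun _ => isFunctionField_fullC kA M) hA hζ
      (fun g hg hclean hpush => FibreHyp.exists_red_one _ hg
        (fun s P hP => by
          rw [← divOf_apply hFl]
          exact hclean P ((theFibre M p A hpM harch).tubeAt_iff_none.2 ⟨s, hP⟩))
        (fun i Q _ => by
          show X.push (divOf hFl g) i Q = 0
          rw [hpush]
          rfl))
      (fun v => funext fun i => by simp) ι hι (fun v => ⟨⟨xt v, hker v⟩, rfl⟩) with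
    ⟨v, D, g, d, rr, hD, hg, hgD, hd0, hd1, hpd, hrr, i, hi⟩ | hscal
  · have hCI := hrr 0
    have hCZ := hrr 1
    change (cInf M p A πA IsLocalRing.residue_surjective residueAt_eq_zero hpM harch).Red _ _ at hCI
    change (cZero M p A πA IsLocalRing.residue_surjective residueAt_eq_zero hpM harch).Red _ _ at hCZ
    rw [cZero_red, map_mul, AlgEquiv.commutes, map_sub, map_one] at hCZ
    revert i
    refine Fin.forall_fin_two.2 ⟨fun hi => ?_, fun hi => ?_⟩
    · obtain ⟨u, hu⟩ := exists_pow_of_pushLvl_eq_zero M p A hpM harch hg hgD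
        (by rw [hD]; exact h0 v) hd0 hd1 hpd hCI hCZ
      exact hi u hu
    · obtain ⟨u, hu⟩ := exists_pow_of_pushLvl_eq_zero M p A hpM harch
        (D := SemilinearAut.degZeroSMulHom (wAut M p Qb hpM) D) (g := wLvl M p Qb hpM g)
        ((map_ne_zero_iff _ (wLvl M p Qb hpM).injective).2 hg)
        (fun P => by
          rw [SemilinearAut.coe_degZeroSMulHom, SemilinearAut.divisor_smul_apply, ← hgD]
          have := SemilinearAut.ord_smul (wAut M p Qb hpM) ((wAut M p Qb hpM)⁻¹ • P) g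
          rw [smul_inv_smul] at this
          exact this)
        (by rw [← SemilinearAut.pic0_smul_mk, hD]; exact h1 v) hd0 hd1 hpd hCZ
        (by rw [wLvl_wLvl]; exact hCI)
      exact hi u hu
  · obtain ⟨σ, hσ, hσζ⟩ := exists_inertia_zeta hp.out hA hζ (m := 2)
      (fun h => hp2 ((Nat.prime_dvd_prime_iff_eq hp.out Nat.prime_two).1 h))
    have hval : ∀ v, r σ *ᵥ v = 2 • v := fun v =>
      hscal σ hσ 2 hσζ v (r σ *ᵥ v) (by rw [hισ, galois_smul_pic0_def])
    have hrσ : r σ = (2 : ZMod p) • (1 : Matrix (Fin 2) (Fin 2) (ZMod p)) := by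
      refine Matrix.ext_of_mulVec_single fun i => ?_
      rw [hval, Matrix.smul_mulVec, Matrix.one_mulVec, ← Nat.cast_smul_eq_nsmul (ZMod p),
        Nat.cast_ofNat]
    have h := det_eq_natCast hζ hdet (inertia_le_decomposition hσ) hσζ
    rw [hrσ, Matrix.det_smul, Matrix.det_one, Fintype.card_fin, mul_one, Nat.cast_ofNat] at h
    have h2 : ((2 : ℕ) : ZMod p) = 0 := by push_cast; linear_combination h
    rw [ZMod.natCast_eq_zero_iff] at h2
    exact hp2 ((Nat.prime_dvd_prime_iff_eq hp.out Nat.prime_two).1 h2)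

end FA.ModField.AtP
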