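import Fermat.Agent.ModField.Semistable.AtP.BranchOrd
import Fermat.Agent.ModField.Semistable.AtP.SlopeW

/-!
# The orders of an eigenplane at the crossings, from the widths
-/

set_option autoImplicit false
set_option linter.style.haveILetI false
set_option linter.unusedSectionVars false
set_option synthInstance.maxHeartbeats 400000
set_option maxHeartbeats 3200000

noncomputable section

namespace FA.ModField.AtP

open ModularCurve AlgebraicCurve FA.Curve FA.CurveRed FA.JTorsion FA.Level FA.LocalDef FA.Local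

local notation "Qb" => AlgebraicClosure ℚ
local notation "GQ" => AlgebraicClosure ℚ ≃ₐ[ℚ] AlgebraicClosure ℚ

variable [Algebra Qb ℂ]

variable (M p : ℕ) [NeZero M] [hp : Fact p.Prime] [hp0 : NeZero p]
variable (A : ValuationSubring Qb) [IsAlgClosed (IsLocalRing.ResidueField A)]
  [CharP (IsLocalRing.ResidueField A) p] (hA : A.LiesOverPrime p) (hpM : ¬ p ∣ M)
  (harch : ∀ c : Qb, c ≠ 0 → ∃ m : ℕ, A.valuation ((p : Qb) ^ m) < A.valuation c)

local notation "kA" => IsLocalRing.ResidueField A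
local notation "πA" => IsLocalRing.residue A
local notation "Fl" => levelField (M * p) Qb
local notation "Fb" => modularFunctionFieldFullC (IsLocalRing.ResidueField A) M
local notation "HH" => theFibre M p A hpM harch
local notation "XX" => theSemi M p A hpM harch
local notation "φφ" => arithmeticGalois (modularFunctionFieldFull (M * p)) (L := Qb)

variable {V : Type} [AddCommGroup V] [Module (ZMod p) V] [Fintype V]

include hA in
/-- **Orders at the branches of the reductions of a point of an eigenplane, given widths prime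
to `p`.** -/
theorem ordMod_redTor_eq_zero_of_widths (U : (HH).UnitDatum (p : Qb))
    (hwid : ∀ (s : (HH).Sg) (L : ℤ), L * U.δ s = U.Δ → ¬ (p : ℤ) ∣ L) (Mo : Model A.valuation V) {ζ : Qb}
    (hζ : IsPrimitiveRoot ζ p) (act : GQ → V →+ V)
    (hmul : ∀ σ ∈ A.inertiaSubgroupIn ℚ, ∀ τ ∈ A.inertiaSubgroupIn ℚ, ∀ z,
      act (σ * τ) z = act σ (act τ z))
    (heq : ∀ σ ∈ A.inertiaSubgroupIn ℚ, ∀ i z, σ (Mo.a i z) = Mo.a i (act σ z))
    (E₀ : IntermediateField ℚ Qb) [FiniteDimensional ℚ E₀]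
    (hE₀ : ∀ σ ∈ A.inertiaSubgroupIn ℚ, σ ∈ E₀.fixingSubgroup → ∀ z, act σ z = z)
    (l₀ : V)
    (hline : ∀ σ ∈ A.inertiaSubgroupIn ℚ, σ ζ = ζ →
      act σ l₀ = l₀ ∧ ∀ z, ∃ c : ZMod p, act σ z = z + c • l₀)
    (ι : V →+ JZero (M * p))
    (hι : ∀ σ ∈ A.inertiaSubgroupIn ℚ, ∀ z, ι (act σ z) = σ • ι z)
    (ℓ : ℕ) [Fact ℓ.Prime] [NeZero ℓ] (hℓN : ¬ ℓ ∣ M * p) (a : ℕ)
    (hne : ¬ (p : ℤ) ∣ ((ℓ + 1 : ℕ) : ℤ) - a)
    (hT : ∀ z, heckeOperatorAlong Qb (M * p) ℓ (ι z) = a • ι z)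
    (x : V) (xt : Pic0.torsion Qb Fl p) (hxt : (xt : Pic0 Qb Fl) = ι x)
    (i : Fin 2) (Q : Place kA Fb) :
    ordMod kA Fb p Q (redTor p (isFunctionField_level Qb (M * p)) ((XX).scaled i) xt) = 0 := by
  classical
  have hP : p.Prime := hp.out
  have hF := isFunctionField_level Qb (M * p)
  have hk : ∀ _ : Fin 2, IsFunctionField kA Fb := fun _ => isFunctionField_fullC kA M
  have GF : GalFibre XX φφ := galFibre M p A hA hpM harch
  have hind : ∀ g ∈ A.inertiaSubgroupIn ℚ, Induced (X0.joint M p A πA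
      IsLocalRing.residue_surjective residueAt_eq_zero hpM harch) (X0.xX M p) (φφ g)
      (fun _ => 1) 1 := fun g hg => induced_inert M p A hA hpM harch ⟨g, hg, rfl⟩
  choose C hC hεn using fun s => exists_fixed_coord GF hP hA hind U s
  obtain ⟨Λ, hN, hΛπ, -⟩ := exists_cyclo_layer hP hA hζ
  have hmem : ∀ σ, σ ∈ Λ.N ↔ σ ∈ A.inertiaSubgroupIn ℚ ∧ σ ζ = ζ := fun σ => by rw [hN]; rfl
  set π₁ : Qb := 1 - ζ
  have hπv : A.valuation Λ.π = A.valuation π₁ := by rw [hΛπ]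
  have hπlt : A.valuation π₁ < 1 := hπv ▸ Λ.π_lt_one
  have hπ0 : π₁ ≠ 0 := A.valuation.pos_iff.1 (hπv ▸ Λ.π_pos)
  have hπp : A.valuation π₁ ^ (p - 1) = A.valuation (p : Qb) := pow_map_one_sub A.valuation hP hζ
  set Hs : Subgroup GQ := Λ.N ⊓ MulAction.stabilizer GQ (ι x)
  have hH : Hs ≤ A.inertiaSubgroupIn ℚ := fun g hg => ((hmem g).1 hg.1).1
  -- a fixed representative
  obtain ⟨D₀, hD₀⟩ := Pic0.mk_surjective (ι x : Pic0 Qb Fl)
  obtain ⟨O, -, hO⟩ := SemiFibre.exists_fixed_place (X := XX) hF GF.fixed (1 : Fl)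
  obtain ⟨D, hDc, hDfix⟩ := exists_fixed_rep hF (φφ '' (Hs : Set GQ))
    (O := O) (by rintro _ ⟨g, hg, rfl⟩; exact hO _ ⟨g, hH hg, rfl⟩) D₀ (by
      rintro _ ⟨g, hg, rfl⟩
      rw [hD₀, ← galois_smul_pic0_def]
      exact hg.2)
  rw [hD₀] at hDc
  have hD : ∀ g ∈ Hs, ∀ P, (D : Divisor Qb Fl) (φφ g • P) = (D : Divisor Qb Fl) P :=
    fun g hg P => hDfix _ ⟨g, hg, rfl⟩ P
  obtain ⟨g, hg, hgD⟩ := exists_fn_of_nsmul (n := p) (D := D) (by
    rw [hDc, ← hxt]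
    exact (natCast_zsmul _ _).symm.trans (Pic0.mem_torsion.1 xt.2))
  obtain ⟨h, hh, hTD⟩ := exists_fn_T (M * p) ℓ D a (by rw [hDc]; exact hT x)
  let T := normOp M p A hpM harch ℓ hℓN
  -- the ratio of scales
  have key : ∀ (h' : Fl) (w : Fin 2 → Qb), (∃ c : Qb, c ≠ 0 ∧ h' = algebraMap Qb Fl c * h) →
      (∀ g ∈ Hs, φφ g • h' = h') →
      (∀ i, w i ≠ 0 ∧ (∀ g ∈ Hs, g (w i) = w i) ∧
        ∃ r, r ≠ 0 ∧ ((XX).C i).Red (algebraMap Qb Fl (w i)⁻¹ * h') r) →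
      ∀ s, ∃ n : ℤ, A.valuation (w 1 / w 0 / tubeEps (C s) (D : Divisor Qb Fl) ^
        ((T.e : ℤ) - a)) = A.valuation π₁ ^ n := by
    intro h' w hh' hfix hw s
    by_cases hall : ∀ τ ∈ Λ.N, τ • ι x = ι x
    · obtain ⟨n, hn⟩ := Λ.exists_zpow (z := w 1 / w 0 / tubeEps (C s) (D : Divisor Qb Fl) ^
          ((T.e : ℤ) - a)) (fun τ hτ => by
        have hτH : τ ∈ Hs := ⟨hτ, hall τ hτ⟩
        rw [map_div₀, map_div₀, map_zpow₀, (hw 1).2.1 τ hτH, (hw 0).2.1 τ hτH,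
          tubeEps_fixed GF hind (C s) (hC s) (hH hτH) (hD τ hτH)])
        (div_ne_zero (div_ne_zero (hw 1).1 (hw 0).1) (zpow_ne_zero _ (tubeEps_ne_zero (C s) _)))
      exact ⟨n, by rw [hn, hπv]⟩
    push Not at hall
    obtain ⟨τ, hτN, hτx⟩ := hall
    obtain ⟨hτI, hτζ⟩ := (hmem τ).1 hτN
    obtain ⟨hτl, hτc⟩ := hline τ hτI hτζ
    obtain ⟨c₀, hc₀⟩ := hτc x
    set l := c₀ • l₀
    have hl : l ≠ 0 := fun h0 => hτx (by rw [← hι τ hτI, hc₀, h0, add_zero])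
    have hc₀0 : c₀ ≠ 0 := fun h0 => hl (by simp [l, h0])
    have hfixl : ∀ σ ∈ A.inertiaSubgroupIn ℚ, σ ζ = ζ → act σ l = l := fun σ hσ hσζ => by
      show act σ (c₀ • l₀) = c₀ • l₀
      rw [ZMod.map_smul (act σ) c₀ l₀, (hline σ hσ hσζ).1]
    obtain ⟨η, hpeu⟩ := exists_peu hA Mo hζ act hmul heq E₀ hE₀ x l hl hτI hτζ hc₀
      fun σ hσ hσζ => ⟨hfixl σ hσ hσζ, by
        obtain ⟨c, hc⟩ := (hline σ hσ hσζ).2 x
        exact ⟨c * c₀⁻¹, by rw [hc, smul_smul, inv_mul_cancel_right₀ hc₀0]⟩⟩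
    -- the connected class
    have hιl : (ι l : Pic0 Qb Fl) = φφ τ • (ι x : Pic0 Qb Fl) - ι x := by
      rw [← galois_smul_pic0_def, ← hι τ hτI, hc₀, map_add, add_sub_cancel_left]
    have hyt : ∃ y : (XX).toricKer hF p,
        ((y : Pic0.torsion Qb Fl p) : Pic0 Qb Fl) = ι l := by
      refine ⟨⟨φφ τ • xt - xt, (fibreData M p A πA IsLocalRing.residue_surjective
        residueAt_eq_zero hpM harch).smul_sub_mem_toricKer_inertia p hτI xt⟩, ?_⟩
      rw [hιl, ← hxt]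
      rfl
    obtain ⟨y, hy⟩ := hyt
    obtain ⟨E, hEc, hEclean, hE0, hEfix⟩ := SemiFibre.exists_disc_rep hF hk (X := XX)
      (T := φφ '' (Λ.N : Set GQ)) (n := p) hP.ne_zero
      (fun b hb => by
        have h : (b - 1) ^ p = 0 := by rw [sub_pow_char, hb, one_pow, sub_self]
        exact sub_eq_zero.1 ((pow_eq_zero_iff hP.ne_zero).1 h))
      (by rintro _ ⟨σ, hσ, rfl⟩; exact GF.stable σ (Λ.le hσ))
      (fun i => (GF.fixed i).mono fun Q hQ => ⟨hQ.1, hQ.2.choose, hQ.2.choose_spec.1,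
        fun S hS => hQ.2.choose_spec.2 S (Set.image_mono Λ.le hS)⟩)
      y (by
        rintro _ ⟨σ, hσ, rfl⟩
        obtain ⟨hσI, hσζ⟩ := (hmem σ).1 hσ
        rw [hy, ← galois_smul_pic0_def, ← hι σ hσI, hfixl σ hσI hσζ])
    rw [hy] at hEc
    obtain ⟨gE, hgE, hgEd⟩ := exists_fn_of_nsmul (n := p) (D := E) (by
      rw [hEc, ← hy]
      exact (natCast_zsmul _ _).symm.trans (Pic0.mem_torsion.1 (y : Pic0.torsion Qb Fl p).2))
    obtain ⟨kk, hkk, hTE⟩ := exists_fn_T (M * p) ℓ E a (by rw [hEc]; exact hT l)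
    have h3 : Pic0.mk (SemilinearAut.degZeroSMulHom (φφ τ) D) =
        Pic0.mk (D + E : Divisor.degZero (K := Qb) (F := Fl)) := by
      have h4 : Pic0.mk (D + E : Divisor.degZero (K := Qb) (F := Fl)) = Pic0.mk D + Pic0.mk E :=
        map_add (QuotientAddGroup.mk' _) D E
      rw [← SemilinearAut.pic0_smul_mk, h4, hDc, hEc, hιl, add_sub_cancel]
    obtain ⟨f, hf, hfd⟩ := exists_fn_of_mk_eq h3
    have hsubH : ∀ σ, σ ∈ A.inertiaSubgroupIn ℚ ∧ σ ζ = ζ ∧ act σ x = x → σ ∈ Hs := fun σ hσ =>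
      ⟨(hmem σ).2 ⟨hσ.1, hσ.2.1⟩, show σ • ι x = ι x by rw [← hι σ hσ.1, hσ.2.2]⟩
    have hg1 : A.valuation π₁ < A.valuation η := hpeu.η_gt
    have hg2 : A.valuation η < 1 := hpeu.η_lt
    have hkey := key_of_near_const GF hP hA hind C hC T hH hτI (π₁ := π₁) (η := η) hπ0
    refine hkey hg1 hg2
      (fun b hb hb1 => hpeu.sub_lt b (fun σ hσ => hb σ (hsubH σ hσ)) hb1)
      (N₀ := Λ.N) Λ.le (fun c hc hc1 => hπv ▸ Λ.le_of_lt_one hc hc1)
      (fun z hz hzfix hlt => hpeu.exists_zpow z hz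
        (fun σ hσ => hzfix σ (hsubH σ hσ)) hlt)
      (fun b hb => by
        have h : (b - 1) ^ p = 0 := by rw [sub_pow_char, hb, one_pow, sub_self]
        exact sub_eq_zero.1 ((pow_eq_zero_iff hP.ne_zero).1 h))
      (D : Divisor Qb Fl) (E : Divisor Qb Fl) hD
      (fun σ hσ P => by
        conv_lhs => rw [← hEfix _ ⟨σ, hσ, rfl⟩]
        rw [SemilinearAut.divisor_smul_apply, inv_smul_smul])
      hEclean hE0 hgE hgEd hf (fun P => ?_) a hh hTD hkk hTE h' w hh' hfix hw s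
    · rw [hfd, SemilinearAut.coe_degZeroSMulHom, AddSubgroup.coe_add, Finsupp.add_apply,
        SemilinearAut.divisor_smul_apply]
      ring
  -- the scaled function
  choose c gg r hc hfg hr hr0 using fun i => exists_scaled ((XX).scaled i) hg
  refine (HH).forall_place (P := fun i Q => ordMod kA Fb p Q
      (redTor p hF ((XX).scaled i) xt) = 0)
    (fun i Q hb => (XX).ordMod_redTor_off hF p xt hb) (fun s i => ?_) i Q
  obtain ⟨h0, h1⟩ := dvd_branch_ord_of_widths GF hP hA hind C hC T hH hπp hπlt hwid hεn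
    (D : Divisor Qb Fl) hD hg hgD a hne hh hTD key hfg hr hr0 s
  rw [redTor_mk p hF _ xt (hDc.trans hxt.symm) hg (fun P => (hgD P).symm),
    redFn_eq p (hc i) (hfg i) (hr i) (hr0 i), ordMod_redCls p _ (hr0 i),
    ZMod.intCast_zmod_eq_zero_iff_dvd]
  revert i
  exact Fin.forall_fin_two.2 ⟨h0, h1⟩

end FA.ModField.AtP
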