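import Fermat.Agent.ModField.Semistable.AtP.CubeDown
import Fermat.Agent.ModField.Semistable.Mono.Count

/-!
# The widths at `3`

With a prime `r ≡ 2 (mod 3)` in the level, the orders at the branches of the reduction of
`Δ(z) / Δ(3z)` are divisible by `3`: its product with the square of that of `Δ(rz) / Δ(z)`, which
has order `0` at every branch, is a cube downstairs.
-/

set_option autoImplicit false
set_option linter.style.haveILetI false
set_option linter.unusedSectionVars false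
set_option synthInstance.maxHeartbeats 400000
set_option maxHeartbeats 800000

noncomputable section

namespace FA.ModField.AtP

open ModularCurve AlgebraicCurve FA.Curve FA.CurveRed FA.CurveRed.ConstRed FA.JTorsion FA.Level
  HahnSeries

local notation "Qb" => AlgebraicClosure ℚ

variable [Algebra Qb ℂ] (M p : ℕ) [NeZero M] [hp : Fact p.Prime] [hp0 : NeZero p]
variable (A : ValuationSubring Qb) [IsAlgClosed (IsLocalRing.ResidueField A)]
  [CharP (IsLocalRing.ResidueField A) p] (hpM : ¬ p ∣ M)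
  (harch : ∀ c : Qb, c ≠ 0 → ∃ m : ℕ, A.valuation ((p : Qb) ^ m) < A.valuation c)

local notation "kA" => IsLocalRing.ResidueField A
local notation "πA" => IsLocalRing.residue A
local notation "Fb" => modularFunctionFieldFullC (IsLocalRing.ResidueField A) M
local notation "CI" => cInf M p A πA IsLocalRing.residue_surjective residueAt_eq_zero hpM harch
local notation "HH" => theFibre M p A hpM harch

/-- The reduction on the component of `∞` of an eta quotient has the reduced series. -/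
theorem exists_red_etaElt_series {w m a b : ℕ} [NeZero a] [NeZero b]
    (h : EtaQ.Adm (M * p) w m a b) :
    ∃ r : Fb, r ≠ 0 ∧ (CI).Red (EtaQ.etaElt Qb h) r ∧
      (r : LaurentSeries kA) = EtaQ.etaSer w a b m kA := by
  obtain ⟨r, hr, hred⟩ := X0.cInf_series M p A πA IsLocalRing.residue_surjective residueAt_eq_zero
    hpM harch (EtaQ.etaSer w a b m A) (f := EtaQ.etaElt Qb h)
    (EtaQ.coeffMap_etaSer w a b m _)
  refine ⟨r, fun h0 => EtaQ.etaSer_ne_zero w a b m kA ?_, hred,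
    hr.trans (EtaQ.coeffMap_etaSer w a b m πA)⟩
  rw [← EtaQ.coeffMap_etaSer w a b m πA, ← hr, h0]
  rfl

/-- `Δ(rz) / Δ(z)` comes from level `M`. -/
theorem alpha_etaElt {w m a b : ℕ} [NeZero a] [NeZero b] (hM : EtaQ.Adm M w m a b)
    (h : EtaQ.Adm (M * p) w m a b) :
    heckeAlphaBar Qb M p (EtaQ.etaElt Qb hM) = EtaQ.etaElt Qb h :=
  Subtype.ext ((coe_heckeAlphaBar M p _).trans
    ((EtaQ.coe_etaElt hM).trans (EtaQ.coe_etaElt h).symm))

/-- The reduction on the component of `0` of an eta quotient from level `M`. -/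
theorem exists_red_zero_etaElt {w m a b : ℕ} [NeZero a] [NeZero b] (hM : EtaQ.Adm M w m a b)
    (h : EtaQ.Adm (M * p) w m a b) :
    ∃ r : Fb, r ≠ 0 ∧
      (cZero M p A πA IsLocalRing.residue_surjective residueAt_eq_zero hpM harch).Red
        (EtaQ.etaElt Qb h) r := by
  obtain ⟨v, hv, hvred⟩ := X0.cInf_series M p A πA IsLocalRing.residue_surjective residueAt_eq_zero
    hpM harch (qExpand A p (EtaQ.etaSer w a b m A))
    (f := heckeBetaBar Qb M p (EtaQ.etaElt Qb hM)) (by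
      rw [coeffMap_qExpand, coe_heckeBetaBar, EtaQ.coe_etaElt, EtaQ.coeffMap_etaSer])
  refine ⟨v, fun h0 => ?_, ?_⟩
  · rw [h0, ZeroMemClass.coe_zero, coeffMap_qExpand, EtaQ.coeffMap_etaSer] at hv
    exact EtaQ.etaSer_ne_zero w a b m kA (qExpand_injective p (hv.symm.trans (map_zero _).symm))
  · rw [cZero_red, ← alpha_etaElt M p hM h, X0.wLvl_alpha M p hpM]
    exact hvred

/-- A function clean at a singular point with equal scales on the two components has no zero or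
pole there. -/
theorem ord_eq_zero_of_clean {F k : Type*} [Field F] [Algebra Qb F] [Field k] [IsAlgClosed k]
    {Fk : Fin 2 → Type*} [∀ i, Field (Fk i)] [∀ i, Algebra k (Fk i)] {B : ValuationSubring Qb}
    {J : MultiRed Qb F k Fk B} {hF : IsFunctionField Qb F} {hk : ∀ i, IsFunctionField k (Fk i)}
    {x : F} {xb : ∀ i, Fk i} (H : FibreHyp J hF hk x xb) {s : H.Sg} {f : F} (hf : f ≠ 0)
    (hcl : H.CleanAt s f) {u : Fk 0} {v : Fk 1} (hu0 : u ≠ 0) (hv0 : v ≠ 0)
    (hu : (J.C 0).Red f u) (hv : (J.C 1).Red f v) : (H.brPl s 0).ord u = 0 :=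
  (FibreHyp.CleanAt.of_eq (c := fun _ => (1 : Qb)) (r := FibreHyp.mkTwo u v)
    (fun i => by rw [map_one, one_mul]) (Fin.forall_fin_two.2 ⟨hu, hv⟩)
    (Fin.forall_fin_two.2 ⟨hu0, hv0⟩) hf hcl rfl).1 0

/-- **The orders of the reduction of `Δ(z) / Δ(3z)` are divisible by `3`.** -/
theorem three_dvd_branch_ord {r : ℕ} [NeZero r] (hp3 : p = 3) (hr : r ∣ M) (hr2 : r % 3 = 2)
    (h : EtaQ.Adm (M * p) 12 1 1 p) (U : (HH).UnitDatum (p : Qb)) (hU : U.u = EtaQ.etaElt Qb h)
    (s : (HH).Sg) : 3 ∣ U.δ s := by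
  subst hp3
  have hrM : EtaQ.Adm M 12 1 r 1 := ⟨rfl, Or.inl rfl, hr, one_dvd _, one_dvd _,
    Nat.coprime_one_right _⟩
  have hrN : EtaQ.Adm (M * 3) 12 1 r 1 := ⟨rfl, Or.inl rfl, hr.mul_right 3, one_dvd _, one_dvd _,
    Nat.coprime_one_right _⟩
  obtain ⟨u, hu0, hured, hus⟩ := exists_red_etaElt_series M 3 A hpM harch hrN
  obtain ⟨v, hv0, hvred⟩ := exists_red_zero_etaElt M 3 A hpM harch hrM hrN
  have hu : ((theFibre M 3 A hpM harch).brPl s 0).ord u = 0 :=
    ord_eq_zero_of_clean (theFibre M 3 A hpM harch) (EtaQ.etaElt_ne_zero hrN)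
      (clean_etaElt M 3 A hpM harch hrN s) hu0 hv0 hured hvred
  obtain ⟨r₀, hr0, hred, hrs⟩ := exists_red_etaElt_series M 3 A hpM harch h
  have e : U.r 0 = r₀ := by
    have h0 := U.red0
    rw [hU] at h0
    exact h0.unique hred
  obtain ⟨β₁, hβ₁⟩ := etaSer_twelve_eq 1 3 kA
  obtain ⟨β₂, hβ₂⟩ := etaSer_twelve_eq r 1 kA
  obtain ⟨n, hn⟩ : (3 : ℤ) ∣ ((1 : ℕ) : ℤ) - (3 : ℕ) + 2 * ((r : ℤ) - (1 : ℕ)) :=
    ⟨2 * (r / 3 : ℕ), by omega⟩
  have key : (single n (1 : kA) * (β₁ * β₂ ^ 2)) ^ 3 =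
      ((U.r 0 * u ^ 2 : Fb) : LaurentSeries kA) := by
    rw [IntermediateField.coe_mul, SubmonoidClass.coe_pow, e, hrs, hus, hβ₁, hβ₂, mul_pow, mul_pow,
      HahnSeries.single_pow, mul_pow (single (((r : ℕ) : ℤ) - ((1 : ℕ) : ℤ)) (1 : kA)),
      HahnSeries.single_pow, one_pow, one_pow, mul_mul_mul_comm, HahnSeries.single_mul_single,
      one_mul, nsmul_eq_mul, nsmul_eq_mul, ← pow_mul, ← pow_mul]
    congr 2
    push_cast at hn ⊢
    rw [hn]
  have hd := dvd_ord_of_series_pow (p := 3) key ((theFibre M 3 A hpM harch).brPl s 0)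
  rw [Place.ord_mul _ (U.r_ne 0) (pow_ne_zero 2 hu0), place_ord_pow, hu, mul_zero, add_zero,
    U.ord_zero] at hd
  exact Int.natCast_dvd_natCast.1 hd

/-- **The widths are prime to `3`.** -/
theorem not_dvd_width_three {r : ℕ} [NeZero r] (hp3 : p = 3) (hr : r ∣ M) (hr2 : r % 3 = 2)
    (h : EtaQ.Adm (M * p) 12 1 1 p) (U : (HH).UnitDatum (p : Qb)) (hΔ : U.Δ = 12)
    (hU : U.u = EtaQ.etaElt Qb h) (s : (HH).Sg) (L : ℤ) (hL : L * U.δ s = U.Δ) :
    ¬ (p : ℤ) ∣ L := by
  obtain ⟨d, hd⟩ := three_dvd_branch_ord M p A hpM harch hp3 hr hr2 h U hU s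
  rintro ⟨e, rfl⟩
  subst hp3
  rw [hΔ, hd] at hL
  push_cast at hL
  have : (3 : ℤ) ∣ 4 := ⟨e * d, by linarith⟩
  norm_num at this

end FA.ModField.AtP
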