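import Fermat.Agent.ModField.Semistable.AtP.LowerAtP
import Fermat.Agent.ModField.Semistable.AtP.ConnPlane
import Fermat.Agent.ModField.Semistable.AtP.BranchOrdW
import Fermat.Agent.ModField.Semistable.AtP.WidthThree

/-!
# Removal of `p` from the level, any odd `p`

A finite flat plane is either spanned by its displacements by inertia or has an unramified quotient
line; in the second case the widths of the singular points must be prime to `p`, which for `p = 3`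
is given by a prime `r ≡ 2 (mod 3)` in the level.
-/

set_option autoImplicit false
set_option linter.style.haveILetI false
set_option linter.unusedSectionVars false
set_option synthInstance.maxHeartbeats 400000
set_option maxHeartbeats 3200000

noncomputable section

namespace FA.ModField.AtP

open ModularCurve AlgebraicCurve FA.Curve FA.CurveRed FA.JTorsion FA.Level FA.LocalDef FA.Local
  Matrix

local notation "Qb" => AlgebraicClosure ℚ
local notation "GQ" => AlgebraicClosure ℚ ≃ₐ[ℚ] AlgebraicClosure ℚ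

variable {p : ℕ} [hp : Fact p.Prime]

/-- A proper subspace of the plane lies in a line. -/
theorem exists_line_of_ne_top {W : Submodule (ZMod p) (Fin 2 → ZMod p)} (hW : W ≠ ⊤) :
    ∃ b : Fin 2 → ZMod p, b ≠ 0 ∧ W ≤ Submodule.span (ZMod p) {b} := by
  rcases eq_or_ne W ⊥ with rfl | hne
  · exact ⟨Pi.single 0 1, by simp, bot_le⟩
  obtain ⟨b, hb, hb0⟩ := Submodule.exists_mem_ne_zero_of_ne_bot hne
  refine ⟨b, hb0, le_of_eq (Submodule.eq_of_le_of_finrank_le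
    ((Submodule.span_singleton_le_iff_mem b W).2 hb) ?_).symm⟩
  have h1 := Submodule.finrank_lt hW
  rw [Module.finrank_fin_fun] at h1
  rw [finrank_span_singleton hb0]
  omega

variable [hp0 : NeZero p] [Algebra Qb ℂ] (M : ℕ) [NeZero M] [NeZero (M * p)]
variable (A : ValuationSubring Qb) [IsAlgClosed (IsLocalRing.ResidueField A)]
  [CharP (IsLocalRing.ResidueField A) p] (hA : A.LiesOverPrime p) (hpM : ¬ p ∣ M)

local notation "kA" => IsLocalRing.ResidueField A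
local notation "πA" => IsLocalRing.residue A
local notation "Fl" => levelField (M * p) Qb
local notation "Fb" => modularFunctionFieldFullC (IsLocalRing.ResidueField A) M

omit hp0 in
include hA in
/-- A unit with widths prime to `p`. -/
theorem exists_unit_widths [NeZero p]
    (hpM : ¬ p ∣ M) (harch : ∀ c : Qb, c ≠ 0 → ∃ m : ℕ, A.valuation ((p : Qb) ^ m) < A.valuation c)
    (hp2 : p ≠ 2) (hr3 : p = 3 → ∃ r : ℕ, r ∣ M ∧ r % 3 = 2) :
    ∃ U : (theFibre M p A hpM harch).UnitDatum (p : Qb),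
      ∀ (s : (theFibre M p A hpM harch).Sg) (L : ℤ), L * U.δ s = U.Δ → ¬ (p : ℤ) ∣ L := by
  have h : EtaQ.Adm (M * p) 12 1 1 p := ⟨rfl, Or.inl rfl, one_dvd _, dvd_mul_left p M,
    one_dvd _, Nat.coprime_one_right 1⟩
  have h' : EtaQ.Adm (M * p) 12 1 (1 * p) 1 := ⟨rfl, Or.inl rfl,
    by rw [one_mul]; exact dvd_mul_left p M, one_dvd _, one_dvd _, Nat.coprime_one_right _⟩
  obtain ⟨U, hU, hu⟩ := exists_unitDatum M p A hpM harch (r := 1) (one_dvd M) h h' (by norm_num)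
  refine ⟨U, fun s L hL hd => ?_⟩
  by_cases hp3 : p = 3
  · obtain ⟨r, hr, hr2⟩ := hr3 hp3
    haveI : NeZero r := ⟨fun e => by simp [e] at hr2⟩
    exact not_dvd_width_three M p A hpM harch hp3 hr hr2 h U hU hu s L hL hd
  have h12 : p ∣ 2 * 2 * 3 := by
    have h1 : (p : ℤ) ∣ (U.Δ : ℤ) := hL ▸ hd.mul_right _
    rw [hU] at h1
    exact Int.natCast_dvd_natCast.1 h1
  rcases hp.out.dvd_mul.1 h12 with h2 | h2
  · rcases hp.out.dvd_mul.1 h2 with h3 | h3 <;>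
      exact hp2 ((Nat.prime_dvd_prime_iff_eq hp.out Nat.prime_two).1 h3)
  · exact hp3 ((Nat.prime_dvd_prime_iff_eq hp.out Nat.prime_three).1 h2)

include hA hpM in
/-- **Removal of `p` from the level for a plane with an unramified quotient line.** -/
theorem exists_chi_lowerAtP_line (hp2 : p ≠ 2) (hr3 : p = 3 → ∃ r : ℕ, r ∣ M ∧ r % 3 = 2) (S : Finset ℕ) (hS : M.primeFactors ⊆ S) (hpS : p ∈ S)
    (a : ℕ → ZMod p) (r : GQ →* Matrix (Fin 2) (Fin 2) (ZMod p))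
    (hr : IsOpen (r.ker : Set GQ))
    (hspan : Submodule.span (ZMod p) (Set.range r) = ⊤)
    (hfrob : ∀ ℓ : ℕ, ℓ.Prime → ℓ ∉ S → ∀ B : ValuationSubring Qb, B.LiesOverPrime ℓ →
      ∀ τ : GQ, B.IsFrobeniusAt τ ℓ → (r τ).trace = a ℓ ∧ (r τ).det = (ℓ : ZMod p))
    (hne : ∃ ℓ : ℕ, ℓ.Prime ∧ ℓ ∉ S ∧ a ℓ ≠ (ℓ : ZMod p) + 1)
    (hflat : IsFlatRes A r) (hdet : DetOmega A p r)
    {b : Fin 2 → ZMod p} (hb : b ≠ 0)
    (hquot : ∀ σ ∈ A.inertiaSubgroupIn ℚ, ∀ v, r σ *ᵥ v - v ∈ Submodule.span (ZMod p) {b})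
    (χ : CuspForm.heckeAlgebra (M * p) 2 (↑S : Set ℕ) →+* ZMod p)
    (hχ : ∀ (ℓ : ℕ) (hℓ : ℓ.Prime) (hℓN : ¬ ℓ ∣ M * p) (hℓS : ℓ ∉ (↑S : Set ℕ)),
      χ (CuspForm.heckeAlgebra.T hℓ hℓN hℓS) = a ℓ) :
    ∃ χ' : CuspForm.heckeAlgebra M 2 (↑S : Set ℕ) →+* ZMod p,
      ∀ (ℓ : ℕ) (hℓ : ℓ.Prime) (hℓM : ¬ ℓ ∣ M) (hℓS : ℓ ∉ (↑S : Set ℕ)),
        χ' (CuspForm.heckeAlgebra.T hℓ hℓM hℓS) = a ℓ := by
  classical
  haveI : Algebra.IsAlgebraic ℚ Qb := AlgebraicClosure.isAlgebraic ℚ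
  have harch : ∀ c : Qb, c ≠ 0 → ∃ m : ℕ, A.valuation ((p : Qb) ^ m) < A.valuation c :=
    fun c hc => exists_pow_lt_valuation hp.out hA c hc
  have hS' : (M * p).primeFactors ⊆ S := by
    rw [Nat.primeFactors_mul (NeZero.ne M) hp.out.ne_zero, hp.out.primeFactors]
    exact Finset.union_subset hS (Finset.singleton_subset_iff.2 hpS)
  have hgood : ∀ ℓ : ℕ, ℓ.Prime → ℓ ∉ S → ¬ ℓ ∣ M * p := fun ℓ hℓ hℓS h =>
    hℓS (hS' (Nat.mem_primeFactors.2 ⟨hℓ, h, NeZero.ne (M * p)⟩))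
  obtain ⟨U, hwid⟩ := exists_unit_widths M A hA hpM harch hp2 hr3
  obtain ⟨ι, hι, hισ, hιT⟩ :=
    exists_eigen_embedding (M * p) hp2 S hS' hpS a χ hχ r hr hspan hfrob
  obtain ⟨Mo, heq⟩ := hflat
  obtain ⟨ζ, hζ⟩ := FA.LocalDef.exists_zeta hp.out
  let act : GQ → (Fin 2 → ZMod p) →+ (Fin 2 → ZMod p) := fun σ =>
    AddMonoidHom.mk' (fun v => r σ *ᵥ v) fun v w => Matrix.mulVec_add _ _ _
  obtain ⟨E₀, hE₀fin, hE₀⟩ := exists_fixingSubgroup_le hr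
  haveI := hE₀fin
  have hline : ∀ σ ∈ A.inertiaSubgroupIn ℚ, σ ζ = ζ →
      act σ b = b ∧ ∀ z, ∃ c : ZMod p, act σ z = z + c • b := fun σ hσ hσζ => by
    refine ⟨mulVec_line_of_det_one (hquot σ hσ) ?_, fun z => ?_⟩
    · rw [hdet σ (inertia_le_decomposition hσ) 1 fun μ hμ => ?_, Nat.cast_one]
      obtain ⟨i, -, rfl⟩ := hζ.eq_pow_of_pow_eq_one hμ
      rw [map_pow, hσζ, pow_one]
    · obtain ⟨c, hc⟩ := Submodule.mem_span_singleton.1 (hquot σ hσ z)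
      exact ⟨c, by rw [hc]; exact (add_sub_cancel z _).symm⟩
  let xt : (Fin 2 → ZMod p) →+ Pic0.torsion Qb Fl p := ι.codRestrict _ fun v =>
    Pic0.mem_torsion.2 ((natCast_zsmul (ι v) p).trans (by
      rw [← map_nsmul, show p • v = 0 from funext fun i => by simp, map_zero]))
  obtain ⟨ℓ₀, hℓ₀, hℓ₀S, haℓ₀⟩ := hne
  haveI : Fact ℓ₀.Prime := ⟨hℓ₀⟩
  haveI : NeZero ℓ₀ := ⟨hℓ₀.ne_zero⟩
  have hne' : ¬ (p : ℤ) ∣ ((ℓ₀ + 1 : ℕ) : ℤ) - (a ℓ₀).val := fun h => haℓ₀ (by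
    rw [← ZMod.intCast_zmod_eq_zero_iff_dvd] at h
    push_cast at h
    rw [ZMod.natCast_zmod_val, sub_eq_zero] at h
    exact h.symm)
  have hord : ∀ v i Q, ordMod kA Fb p Q (redTor p (isFunctionField_level Qb (M * p))
      ((theSemi M p A hpM harch).scaled i) (xt v)) = 0 := fun v =>
    ordMod_redTor_eq_zero_of_widths M p A hA hpM harch U hwid Mo hζ act
      (fun σ _ τ _ z => by
        show r (σ * τ) *ᵥ z = r σ *ᵥ (r τ *ᵥ z)
        rw [map_mul, Matrix.mulVec_mulVec])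
      (fun σ hσ => heq σ (inertia_le_decomposition hσ)) E₀
      (fun σ _ hσ z => by
        show r σ *ᵥ z = z
        rw [MonoidHom.mem_ker.1 (hE₀ hσ), Matrix.one_mulVec])
      b hline ι (fun σ _ z => hισ σ z) ℓ₀ (hgood ℓ₀ hℓ₀ hℓ₀S) (a ℓ₀).val hne'
      (hιT ℓ₀ hℓ₀ hℓ₀S) v (xt v) rfl
  by_cases hall : ∀ v i, redTor p (isFunctionField_level Qb (M * p))
      ((theSemi M p A hpM harch).scaled i) (xt v) = 0
  · exfalso
    have hV : ∀ n : ℕ, n = p → ∀ v, ∃ y : (theSemi M p A hpM harch).toricKer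
        (isFunctionField_level Qb (M * p)) n,
        ((y : Pic0.torsion Qb Fl n) : JZero (M * p)) = ι v := by
      rintro n rfl v
      exact ⟨⟨xt v, (SemiFibre.mem_toricKer _).2 (hall v)⟩, rfl⟩
    have hconn := (fibreData M p A πA IsLocalRing.residue_surjective residueAt_eq_zero hpM
      harch).hasConnModel hA 1 ι hι (hV (p ^ 1) (pow_one p)) (fun σ v => r σ *ᵥ v)
      fun σ _ v => hισ σ v
    obtain ⟨Mc, hMc, hMc0⟩ := hconn
    refine lineDual_ne_zero hb (Model.functional_eq_zero Mc hA hp2 (fun σ v => r σ *ᵥ v)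
      (fun σ _ v => ⟨r σ⁻¹ *ᵥ v, by
        show r σ *ᵥ (r σ⁻¹ *ᵥ v) = v
        rw [Matrix.mulVec_mulVec, ← map_mul, mul_inv_cancel, map_one, Matrix.one_mulVec]⟩)
      hMc hMc0 _ fun σ hσ v => lineDual_eq (hquot σ hσ v))
  push Not at hall
  obtain ⟨v, i, hy0⟩ := hall
  obtain ⟨r₀, hr₀, hr₀e⟩ := exists_redCls (k := kA) (n := p)
    (redTor p (isFunctionField_level Qb (M * p)) ((theSemi M p A hpM harch).scaled i) (xt v))
  refine exists_chi_of_theta M p A hA hpM harch S hS hpS a hr₀ (fun Q => ?_)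
    (by rw [hr₀e]; exact hy0) fun ℓ _ _ hℓN hℓS => ?_
  · have h := hord v i Q
    rw [← hr₀e, ordMod_redCls p Q hr₀, ZMod.intCast_zmod_eq_zero_iff_dvd] at h
    exact h
  rw [hr₀e, ← map_nsmul, ← map_nsmul]
  have hy : ((xt ((a ℓ).val • v) : Pic0.torsion Qb Fl p) : Pic0 Qb Fl) =
      heckeOperatorAlong Qb (M * p) ℓ ((xt v : Pic0.torsion Qb Fl p) : Pic0 Qb Fl) := by
    show ι ((a ℓ).val • v) = heckeOperatorAlong Qb (M * p) ℓ (ι v)
    rw [map_nsmul, hιT ℓ Fact.out hℓS]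
  revert i
  refine Fin.forall_fin_two.2 ⟨fun _ _ => ?_, fun _ _ => ?_⟩
  · exact (redTorInf_T M p A πA IsLocalRing.residue_surjective residueAt_eq_zero hpM harch ℓ hℓN p
      (xt v) (xt ((a ℓ).val • v)) hy).symm
  · exact (redTorZero_T M p A πA IsLocalRing.residue_surjective residueAt_eq_zero hpM harch ℓ hℓN p
      (xt v) (xt ((a ℓ).val • v)) hy).symm

include hA hpM in
/-- **Removal of `p` from the level, any odd `p`.** -/
theorem exists_chi_lowerAtP_any (hp2 : p ≠ 2) (hr3 : p = 3 → ∃ r : ℕ, r ∣ M ∧ r % 3 = 2)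
    (S : Finset ℕ) (hS : M.primeFactors ⊆ S) (hpS : p ∈ S)
    (a : ℕ → ZMod p) (r : GQ →* Matrix (Fin 2) (Fin 2) (ZMod p))
    (hr : IsOpen (r.ker : Set GQ))
    (hspan : Submodule.span (ZMod p) (Set.range r) = ⊤)
    (hfrob : ∀ ℓ : ℕ, ℓ.Prime → ℓ ∉ S → ∀ B : ValuationSubring Qb, B.LiesOverPrime ℓ →
      ∀ τ : GQ, B.IsFrobeniusAt τ ℓ → (r τ).trace = a ℓ ∧ (r τ).det = (ℓ : ZMod p))
    (hne : ∃ ℓ : ℕ, ℓ.Prime ∧ ℓ ∉ S ∧ a ℓ ≠ (ℓ : ZMod p) + 1)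
    (hflat : IsFlatRes A r) (hdet : DetOmega A p r)
    (χ : CuspForm.heckeAlgebra (M * p) 2 (↑S : Set ℕ) →+* ZMod p)
    (hχ : ∀ (ℓ : ℕ) (hℓ : ℓ.Prime) (hℓN : ¬ ℓ ∣ M * p) (hℓS : ℓ ∉ (↑S : Set ℕ)),
      χ (CuspForm.heckeAlgebra.T hℓ hℓN hℓS) = a ℓ) :
    ∃ χ' : CuspForm.heckeAlgebra M 2 (↑S : Set ℕ) →+* ZMod p,
      ∀ (ℓ : ℕ) (hℓ : ℓ.Prime) (hℓM : ¬ ℓ ∣ M) (hℓS : ℓ ∉ (↑S : Set ℕ)),
        χ' (CuspForm.heckeAlgebra.T hℓ hℓM hℓS) = a ℓ := by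
  by_cases hfull : Submodule.span (ZMod p)
      {w | ∃ σ ∈ A.inertiaSubgroupIn ℚ, ∃ v, w = r σ *ᵥ v - v} = ⊤
  · exact exists_chi_lowerAtP_plane M A hA hpM hp2 S hS hpS a r hr hspan hfrob hdet hfull χ hχ
  obtain ⟨b, hb, hle⟩ := exists_line_of_ne_top hfull
  exact exists_chi_lowerAtP_line M A hA hpM hp2 hr3 S hS hpS a r hr hspan hfrob hne hflat hdet hb
    (fun σ hσ v => hle (Submodule.subset_span ⟨σ, hσ, v, rfl⟩)) χ hχ

end FA.ModField.AtP
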