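import Fermat.Agent.ModField.Semistable.Push
import Fermat.Agent.Level.EllipticPair

/-!
# `T_ℓ` of an elliptic point of order three

For `ℓ ≡ 1 (mod 3)` the image of such a point of level `M` under `T_ℓ` is twice the point modulo
`3`: the points above it of ramification prime to `3` have it as their other image, and the
ramification indices add up to `ℓ + 1`.
-/

set_option autoImplicit false
set_option linter.style.haveILetI false
set_option linter.unusedSectionVars false
set_option synthInstance.maxHeartbeats 200000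
set_option maxHeartbeats 800000

noncomputable section

namespace FA.ModField.AtP

open ModularCurve AlgebraicCurve FA.Curve FA.CurveRed FA.Level

variable (M ℓ : ℕ) [NeZero M] [hℓ : Fact ℓ.Prime] [hℓ0 : NeZero ℓ] (hℓM : ¬ ℓ ∣ M)
variable (L : Type) [Field L] [Algebra ℚ L] [Algebra L ℂ] [IsAlgClosed L]

/-- `j` of level `M ℓ` is the image of `j` of level `M` along `α`. -/
theorem levelJ_eq_alpha : levelJ (M * ℓ) L = heckeAlphaBar L M ℓ (levelJ M L) := by
  apply Subtype.ext
  rw [coe_heckeAlphaBar M ℓ (levelJ M L), coe_levelJ, coe_levelJ]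

include hℓM in
/-- A place of level `M ℓ` above an elliptic point of order three along `β` whose ramification is
prime to three maps to the same point along `α`. -/
theorem restrict_alpha_eq_of_not_dvd (hℓ2 : ℓ ≠ 2) {P : Place L (levelField M L)}
    (hpos : 0 < P.ord (levelJ M L)) (h3 : ¬ (3 : ℤ) ∣ P.ord (levelJ M L))
    (w : Place L (levelField (M * ℓ) L))
    (hwP : w.restrictAlong (heckeBetaBar L M ℓ)
      (isIntegral_toRingHom (isFunctionField_level L M) (isFunctionField_level L (M * ℓ)) _) = P)
    (he : ¬ (3 : ℤ) ∣ w.ord (heckeBetaBar L M ℓ (levelJ M L))) :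
    w.restrictAlong (heckeAlphaBar L M ℓ)
      (isIntegral_toRingHom (isFunctionField_level L M) (isFunctionField_level L (M * ℓ)) _) = P := by
  have hF := isFunctionField_level L M
  have hF' := isFunctionField_level L (M * ℓ)
  have hα := isIntegral_toRingHom hF hF' (heckeAlphaBar L M ℓ)
  have hβ := isIntegral_toRingHom hF hF' (heckeBetaBar L M ℓ)
  set W := wAut M ℓ L hℓM
  -- the transported place
  have htr : ∀ f : levelField M L,
      (W • w).ord (heckeBetaBar L M ℓ f) = w.ord (heckeAlphaBar L M ℓ f) ∧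
      (W • w).ord (heckeAlphaBar L M ℓ f) = w.ord (heckeBetaBar L M ℓ f) := fun f => by
    constructor
    · rw [← wLvl_alpha M ℓ L hℓM f, ← wAut_smul, SemilinearAut.ord_smul]
    · rw [← wLvl_beta M ℓ L hℓM f, ← wAut_smul, SemilinearAut.ord_smul]
  have hj := levelJ_eq_alpha M ℓ L
  have hwpos : 0 < w.ord (heckeBetaBar L M ℓ (levelJ M L)) := by
    refine lt_of_le_of_ne ?_ fun h0 => he (h0 ▸ dvd_zero _)
    rw [Place.ord_restrictAlong (heckeBetaBar L M ℓ) hβ, hwP]
    exact mul_nonneg (Int.natCast_nonneg _) hpos.le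
  have key : ∀ f : levelField M L,
      w.ord (heckeAlphaBar L M ℓ f) = w.ord (heckeBetaBar L M ℓ f) := fun f => by
    have h := FA.Level.ord_beta_eq_ord_alpha M ℓ L hℓ2 (W • w)
      (by rw [hj, (htr _).2]; exact hwpos) (by rw [hj, (htr _).2]; exact he) f
    rwa [(htr f).1, (htr f).2] at h
  rw [← hwP]
  refine Place.ext (SetLike.ext fun f => ?_)
  have h1 : f ∈ (w.restrictAlong (heckeAlphaBar L M ℓ) hα).toValuationSubring ↔
      0 ≤ w.ord (heckeAlphaBar L M ℓ f) := by
    letI := algebraAlong (heckeAlphaBar L M ℓ)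
    haveI := isScalarTower_along (heckeAlphaBar L M ℓ)
    haveI := isIntegral_along (heckeAlphaBar L M ℓ) hα
    exact (Place.mem_restrict_iff w).trans (mem_place_iff w)
  have h2 : f ∈ (w.restrictAlong (heckeBetaBar L M ℓ) hβ).toValuationSubring ↔
      0 ≤ w.ord (heckeBetaBar L M ℓ f) := by
    letI := algebraAlong (heckeBetaBar L M ℓ)
    haveI := isScalarTower_along (heckeBetaBar L M ℓ)
    haveI := isIntegral_along (heckeBetaBar L M ℓ) hβ
    exact (Place.mem_restrict_iff w).trans (mem_place_iff w)
  rw [h1, h2, key]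

open Classical in
include hℓM in
/-- **`T_ℓ` of an elliptic point of order three is twice the point modulo three.** -/
theorem three_dvd_heckeDiv_sub (hℓ3 : ℓ % 3 = 1) {P : Place L (levelField M L)}
    (hpos : 0 < P.ord (levelJ M L)) (h3 : ¬ (3 : ℤ) ∣ P.ord (levelJ M L))
    (Q : Place L (levelField M L)) :
    (3 : ℤ) ∣ heckeDiv M L ℓ (Finsupp.single P 1) Q - 2 * Finsupp.single P (1 : ℤ) Q := by
  have hℓ2 : ℓ ≠ 2 := fun h => by rw [h] at hℓ3; norm_num at hℓ3
  have hF := isFunctionField_level L M
  have hF' := isFunctionField_level L (M * ℓ)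
  haveI := hasPrincipalDivisors hF'
  set φα := heckeAlphaBar L M ℓ
  set φβ := heckeBetaBar L M ℓ
  have hα := isIntegral_toRingHom hF hF' φα
  have hβ := isIntegral_toRingHom hF hF' φβ
  set D := Divisor.pullbackAlong φβ hβ (Finsupp.single P 1)
  have hdeg : Divisor.degree D = (ℓ + 1 : ℕ) := by
    rw [Divisor.degree_pullbackAlong φβ hβ (fundamentalIdentityAlong hF hF' φβ hβ),
      Divisor.degree_single, hF.deg_eq_one, finrank_beta_down M ℓ L hℓM]
    simp
  set c : ℤ := Finsupp.single P (1 : ℤ) Q
  let Φ : Divisor L (levelField (M * ℓ) L) →+ ℤ :=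
    (Finsupp.applyAddHom Q).comp (Divisor.pushforwardAlong φα hα) - c • Divisor.degree
  have hΦ : (3 : ℤ) ∣ Φ D := by
    rw [← Finsupp.sum_single D, map_finsuppSum]
    refine Finset.dvd_sum fun w _ => ?_
    show (3 : ℤ) ∣ Φ (Finsupp.single w (D w))
    have hsingle : Φ (Finsupp.single w (D w)) =
        D w * (Finsupp.single (w.restrictAlong φα hα) (1 : ℤ) Q - c) := by
      show Divisor.pushforwardAlong φα hα (Finsupp.single w (D w)) Q -
        c • Divisor.degree (Finsupp.single w (D w)) = _
      rw [Divisor.pushforwardAlong_single, Divisor.degree_single, hF'.deg_eq_one,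
        show w.inertiaDegAlong φα hα = 1 from by
          letI := algebraAlong φα
          haveI := isScalarTower_along φα
          haveI := isIntegral_along φα hα
          exact inertiaDeg_eq_one hF' w]
      by_cases hQ : w.restrictAlong φα hα = Q
      · simp [hQ, mul_sub, mul_comm c]
      · simp [Finsupp.single_eq_of_ne' hQ, mul_comm c]
    rw [hsingle]
    by_cases h0 : (3 : ℤ) ∣ D w
    · exact h0.mul_right _
    have hD : D w = w.ramificationIndexAlong φβ * Finsupp.single P (1 : ℤ) (w.restrictAlong φβ hβ) := by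
      letI := algebraAlong φβ
      haveI := isScalarTower_along φβ
      haveI := isIntegral_along φβ hβ
      exact Divisor.pullback_apply _ w
    have hwP : w.restrictAlong φβ hβ = P := by
      by_contra hne
      exact h0 (by rw [hD, Finsupp.single_eq_of_ne hne, mul_zero]; exact dvd_zero _)
    rw [hwP, Finsupp.single_eq_same, mul_one] at hD
    have he : ¬ (3 : ℤ) ∣ w.ord (φβ (levelJ M L)) := by
      rw [Place.ord_restrictAlong φβ hβ, hwP, ← hD]
      intro hd
      rcases (Int.prime_three).dvd_or_dvd hd with h | h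
      · exact h0 h
      · exact h3 h
    rw [restrict_alpha_eq_of_not_dvd M ℓ hℓM L hℓ2 hpos h3 w hwP he, sub_self, mul_zero]
    exact dvd_zero _
  have hval : Φ D = heckeDiv M L ℓ (Finsupp.single P 1) Q - c * (ℓ + 1 : ℕ) := by
    show Divisor.pushforwardAlong φα hα D Q - c • Divisor.degree D = _
    rw [hdeg, smul_eq_mul]
    rfl
  obtain ⟨m, hm⟩ : ∃ m : ℕ, ℓ = 3 * m + 1 := ⟨ℓ / 3, by omega⟩
  obtain ⟨k, hk⟩ := hΦ
  rw [hval] at hk
  refine ⟨k + c * m, ?_⟩
  subst hm
  push_cast at hk
  linear_combination hk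

end FA.ModField.AtP
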