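import Fermat.Agent.ModField.Semistable.AtP.LowClass
import Fermat.Agent.ModField.Semistable.AtP.WildHecke

/-!
# The orders of an eigenclass at the wild zeros of `j`

If the orders of a function downstairs are divisible by `3` outside the zeros of `j` of order
prime to `3` and its class modulo cubes is an eigenclass of `T_ℓ`, `ℓ ≡ 1 (mod 3)`, with
eigenvalue not `2`, then all its orders are divisible by `3`: those zeros lift to elliptic points
of order three, on which `T_ℓ` is multiplication by `2` modulo `3`.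
-/

set_option autoImplicit false
set_option linter.style.haveILetI false
set_option linter.unusedSectionVars false
set_option synthInstance.maxHeartbeats 200000
set_option maxHeartbeats 1600000

noncomputable section

namespace FA.ModField.AtP

open ModularCurve AlgebraicCurve FA.Curve FA.CurveRed FA.CurveRed.Modular FA.Level

section Lift

variable {K F k Fk : Type*} [Field K] [IsAlgClosed K] [Field F] [Algebra K F] [Field k]
  [IsAlgClosed k] [Field Fk] [Algebra k Fk] {A : ValuationSubring K}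
  {R : Reduction K F k Fk A} (hF : IsFunctionField K F) (hk : IsFunctionField k Fk)

open Classical in
include hF hk in
/-- A function with orders at least zero at finitely many places lifts to a function whose zeros in
their discs are concentrated at chosen points. -/
theorem exists_lift_concentrated (hg : genus K F ≤ genus k Fk) (S : Finset (Place k Fk))
    (sel : Place k Fk → Place K F) (hsel : ∀ Q ∈ S, R.spl (sel Q) = Q) {ρ : Fk} (hρ : ρ ≠ 0)
    (h0 : ∀ Q ∈ S, 0 ≤ Q.ord ρ) :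
    ∃ h, R.Red h ρ ∧ ∀ P, R.spl P ∈ S →
      P.ord h = if P = sel (R.spl P) then (R.spl P).ord ρ else 0 := by
  obtain ⟨c₁, hc₁⟩ := exists_threshold hF
  obtain ⟨c₂, hc₂⟩ := exists_threshold hk
  obtain ⟨c₃, hc₃⟩ := MultiRed.exists_exact hk
  haveI := infinite_places hk
  obtain ⟨Q₁, hQ₁⟩ := (S.finite_toSet.union (FA.Curve.finite_support hk ρ)).infinite_compl.nonempty
  simp only [Set.mem_compl_iff, Set.mem_union, Finset.mem_coe, Set.mem_ofPred_eq, not_or,
    not_not] at hQ₁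
  obtain ⟨hQ₁S, hQ₁ρ⟩ := hQ₁
  set Z := poleDiv hk ρ
  set m : ℤ := ∑ Q ∈ S, Q.ord ρ
  obtain ⟨n, hn⟩ : ∃ n : ℕ, max (max c₁ c₂ + max m 0) (c₃ + Divisor.degree Z) ≤ (n : ℤ) :=
    ⟨(max (max c₁ c₂ + max m 0) (c₃ + Divisor.degree Z)).toNat, Int.self_le_toNat _⟩
  obtain ⟨P₁, hP₁⟩ := Reduction.spl_surjective hF hk (R := R) Q₁
  set E : Divisor K F := ∑ Q ∈ S, Finsupp.single (sel Q) (Q.ord ρ)
  set D₁ : Divisor K F := Finsupp.single P₁ (n : ℤ) - E
  set D₂ : Divisor K F := Finsupp.single P₁ (n : ℤ)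
  have hEsel : ∀ P, R.spl P ∈ S → E P = if P = sel (R.spl P) then (R.spl P).ord ρ else 0 :=
    fun P hP => by
    simp only [E, Finset.sum_apply', Finsupp.single_apply]
    rw [Finset.sum_eq_single_of_mem (R.spl P) hP (fun Q hQ hne => by
      refine if_neg fun e => hne ?_
      rw [← e, hsel Q hQ])]
    exact if_congr ⟨Eq.symm, Eq.symm⟩ rfl rfl
  have hpushE : R.push E = ∑ Q ∈ S, Finsupp.single Q (Q.ord ρ) := by
    simp only [E, Reduction.push, Finsupp.mapDomain_finsetSum, Finsupp.mapDomain_single]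
    exact Finset.sum_congr rfl fun Q hQ => by rw [hsel Q hQ]
  have hpush₂ : R.push D₂ = Finsupp.single Q₁ (n : ℤ) := by
    rw [Reduction.push, Finsupp.mapDomain_single, hP₁]
  have hpush₁ : R.push D₁ = Finsupp.single Q₁ (n : ℤ) - ∑ Q ∈ S, Finsupp.single Q (Q.ord ρ) := by
    rw [← hpushE, ← hpush₂, Reduction.push, Reduction.push, Reduction.push, Finsupp.mapDomain_sub]
  have hdeg₂ : Divisor.degree D₂ = n := by
    rw [Divisor.degree_single, hF.deg_eq_one]; simp
  have hdeg₁ : Divisor.degree D₁ = n - m := by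
    rw [map_sub, map_sum, hdeg₂]
    simp only [Divisor.degree_single, hF.deg_eq_one, Nat.cast_one, mul_one, m]
  have hell : ∀ D : Divisor K F, max c₁ c₂ ≤ Divisor.degree D → ell (R.push D) ≤ ell D := fun D hD => by
    have hd := Reduction.degree_push hF hk (R := R) D
    rw [hc₂ _ (by rw [hd]; exact le_trans (le_max_right _ _) hD),
      hc₁ _ (le_trans (le_max_left _ _) hD), hd]
    omega
  obtain ⟨ρ₂, hρ₂, hρ₂0, hord⟩ := hc₃ (Finsupp.single Q₁ (n : ℤ) - Z) (by
    rw [map_sub, Divisor.degree_single, hk.deg_eq_one]; push_cast; omega) S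
  have h2S : ∀ Q ∈ S, Q.ord ρ₂ = 0 := fun Q hQ => by
    have hne : Q ≠ Q₁ := fun h => hQ₁S (h ▸ hQ)
    rw [hord Q hQ, Finsupp.sub_apply, Finsupp.single_eq_of_ne hne, poleDiv_apply,
      max_eq_left (by have := h0 Q hQ; omega)]
    simp
  have hm2 : ρ₂ ∈ riemannRochSpace (R.push D₂) := by
    rw [hpush₂]
    exact riemannRochSpace_mono (sub_le_self _ (poleDiv_nonneg hk ρ)) hρ₂
  have hm1 : ρ * ρ₂ ∈ riemannRochSpace (R.push D₁) := by
    rw [hpush₁, FA.Curve.mem_riemannRochSpace]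
    intro v
    refine Or.inr ?_
    have h1 := (atLeast_iff hρ₂0).1 (FA.Curve.mem_riemannRochSpace.1 hρ₂ v)
    rw [Finsupp.sub_apply, poleDiv_apply] at h1
    rw [v.ord_mul hρ hρ₂0, Finsupp.sub_apply, Finset.sum_apply']
    simp only [Finsupp.single_apply, Finset.sum_ite_eq']
    by_cases hv : v ∈ S
    · rw [if_pos hv, h2S v hv, if_neg (fun e : Q₁ = v => hQ₁S (e ▸ hv))]
      omega
    · rw [if_neg hv]
      simp only [Finsupp.single_apply] at h1
      omega
  obtain ⟨f₁, hf₁, hr₁⟩ := Reduction.exists_lift hF hk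
    (hell D₁ (by rw [hdeg₁]; omega)) hm1
  obtain ⟨f₂, hf₂, hr₂⟩ := Reduction.exists_lift hF hk
    (hell D₂ (by rw [hdeg₂]; omega)) hm2
  have h20 := hr₂.ne_zero hρ₂0
  have h10 := hr₁.ne_zero (mul_ne_zero hρ hρ₂0)
  have hP₁S : ∀ P, R.spl P ∈ S → P ≠ P₁ := fun P hP e => hQ₁S (by rw [← hP₁, ← e]; exact hP)
  have hlow₁ : ∀ P, R.spl P ∈ S →
      (if P = sel (R.spl P) then (R.spl P).ord ρ else 0) ≤ P.ord f₁ := fun P hP => by
    have h1 := (atLeast_iff h10).1 (FA.Curve.mem_riemannRochSpace.1 hf₁ P)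
    rw [Finsupp.sub_apply, Finsupp.single_eq_of_ne (hP₁S P hP), hEsel P hP] at h1
    omega
  have hlow₂ : ∀ P, R.spl P ∈ S → 0 ≤ P.ord f₂ := fun P hP => by
    have h1 := (atLeast_iff h20).1 (FA.Curve.mem_riemannRochSpace.1 hf₂ P)
    rw [Finsupp.single_eq_of_ne (hP₁S P hP)] at h1
    omega
  have hz₂ : ∀ P, R.spl P ∈ S → P.ord f₂ = 0 := fun P hP => by
    have h1 := Reduction.sum_le_ord hF hr₂ hρ₂0 (Q := R.spl P) (fun P' hP' =>
      (atLeast_iff h20).2 (hlow₂ P' (hP'.symm ▸ hP))) {P} (by simp)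
    rw [Finset.sum_singleton, h2S _ hP] at h1
    have := hlow₂ P hP
    omega
  have hz₁ : ∀ P, R.spl P ∈ S →
      P.ord f₁ = if P = sel (R.spl P) then (R.spl P).ord ρ else 0 := fun P hP => by
    have hnn : ∀ P', R.spl P' = R.spl P → 0 ≤ P'.ord f₁ := fun P' hP' => by
      refine le_trans ?_ (hlow₁ P' (hP'.symm ▸ hP))
      split_ifs
      · rw [hP']; exact h0 _ hP
      · exact le_rfl
    have h1 := Reduction.sum_le_ord hF hr₁ (mul_ne_zero hρ hρ₂0) (Q := R.spl P)
      (fun P' hP' => (atLeast_iff h10).2 (hnn P' hP')) {P, sel (R.spl P)} (by simp [hsel _ hP])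
    rw [Place.ord_mul _ hρ hρ₂0, h2S _ hP, add_zero] at h1
    have hs := hlow₁ (sel (R.spl P)) (by rw [hsel _ hP]; exact hP)
    rw [hsel _ hP, if_pos rfl] at hs
    have hl := hlow₁ P hP
    by_cases he : P = sel (R.spl P)
    · rw [if_pos he]
      rw [← he, Finset.pair_eq_singleton, Finset.sum_singleton] at h1
      rw [if_pos he] at hl
      omega
    · rw [if_neg he]
      rw [Finset.sum_pair he] at h1
      rw [if_neg he] at hl
      omega
  have hmem : R.Red (f₁ / f₂) ρ := by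
    obtain ⟨t, ht, ht'⟩ := Reduction.mem_of_mul_mem hr₂ hρ₂0 (g := f₁ / f₂) (s := ρ * ρ₂)
      (by rwa [mul_div_cancel₀ _ h20])
    rwa [show t = ρ from mul_left_cancel₀ hρ₂0 (ht'.trans (mul_comm _ _))] at ht
  refine ⟨f₁ / f₂, hmem, fun P hP => ?_⟩
  rw [div_eq_mul_inv, P.ord_mul h10 (inv_ne_zero h20), P.ord_inv, hz₁ P hP, hz₂ P hP, neg_zero,
    add_zero]

end Lift

variable (M : ℕ) [NeZero M] (q : ℕ) [hq : Fact q.Prime] [hq0 : NeZero q]
variable {L : Type} [Field L] [Algebra ℚ L] [Algebra L ℂ] [IsAlgClosed L]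
variable (A : ValuationSubring L) {k : Type} [Field k] [IsAlgClosed k] [CharP k q] (π : A →+* k)
  (hπs : Function.Surjective π) (hπ0 : ∀ a : A, π a = 0 ↔ A.valuation a < 1) (hqM : ¬ q ∣ M)
  (harch : ∀ c : L, c ≠ 0 → ∃ m : ℕ, A.valuation ((q : L) ^ m) < A.valuation c)
  (ℓ : ℕ) [hℓ : Fact ℓ.Prime] [hℓ0 : NeZero ℓ] (hℓN : ¬ ℓ ∣ M * q)

local notation "Fb" => modularFunctionFieldFullC k M
local notation "RR" => lowRed M q A π hπs hπ0 hqM

include hπs hπ0 hqM in
/-- A place downstairs with order of `j` prime to three comes from such a place upstairs. -/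
theorem exists_wild_lift {Q : Place k Fb} (h3 : ¬ (3 : ℤ) ∣ Q.ord (jBar k M))
    (hpos : 0 < Q.ord (jBar k M)) :
    ∃ P, (RR).spl P = Q ∧ 0 < P.ord (levelJ M L) ∧ ¬ (3 : ℤ) ∣ P.ord (levelJ M L) := by
  classical
  have hin := lowInputs M q A π hπs hπ0 hqM
  have hF := isFunctionField_level L M
  have hred : (RR).Red (levelJ M L) (jBar k M) := by
    have h1 := red_levelGen M L hπs hπ0 hin 0
    rw [levelGen_zero, redGen_zero] at h1
    exact h1
  have hj : jBar k M ≠ 0 := fun h0 => jBar_transcendental k M (h0 ▸ isAlgebraic_zero)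
  have hnn : ∀ P, (RR).spl P = Q → 0 ≤ P.ord (levelJ M L) := fun P hP =>
    (atLeast_iff fun h0 : levelJ M L = 0 => levelJ_transcendental M L (h0 ▸ isAlgebraic_zero)).1
      (regular_levelJ M q hqM L hπs hπ0 hin (show AtLeast ((RR).spl P) 0 (redGen M k 0) by
        rw [hP, redGen_zero]; exact (atLeast_iff hj).2 hpos.le))
  by_contra hno
  push Not at hno
  refine h3 ?_
  rw [← Reduction.push_divOf hF hred hj, Reduction.push_apply]
  refine Finset.dvd_sum fun P _ => ?_
  split_ifs with hP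
  · rw [divOf_apply]
    rcases (hnn P hP).eq_or_lt with h0 | h0
    · rw [← h0]; exact dvd_zero _
    · exact hno P hP h0
  · exact dvd_zero _

include hℓN in
/-- **The orders of an eigenclass at the wild zeros of `j`.** -/
theorem three_dvd_ord_of_theta (hℓ3 : ℓ % 3 = 1) {r : Fb} (hr : r ≠ 0) {a : ℕ}
    (ha : ¬ (3 : ℤ) ∣ (a : ℤ) - 2)
    (hθ : thetaT M q A π hπs hπ0 hqM harch ℓ hℓN 3 (redCls 3 r) = a • redCls 3 r)
    (hwild : ∀ Q : Place k Fb, (3 : ℤ) ∣ Q.ord r ∨
      (¬ (3 : ℤ) ∣ Q.ord (jBar k M) ∧ 0 < Q.ord (jBar k M)))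
    (Q₀ : Place k Fb) : (3 : ℤ) ∣ Q₀.ord r := by
  classical
  have hF := isFunctionField_level L M
  have hk := isFunctionField_fullC k M
  have hℓM := not_dvd_low M q ℓ hℓN
  obtain ⟨S, hS, hcongr⟩ := exists_push_congr M q A π hπs hπ0 hqM harch ℓ hℓN
  set T : Finset (Place k Fb) :=
    (hS.union (FA.Curve.finite_support hk r)).toFinset with hT
  have hTS : ∀ Q ∈ S, Q ∈ T := fun Q hQ => by simp [hT, hQ]
  have hTr : ∀ Q ∉ T, Q.ord r = 0 := fun Q hQ => by
    by_contra h0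
    exact hQ (by simp [hT, h0])
  -- orders in `{0, 1, 2}`
  obtain ⟨c, hc⟩ := MultiRed.exists_exact hk
  haveI := infinite_places hk
  obtain ⟨Q₁, hQ₁⟩ := T.finite_toSet.infinite_compl.nonempty
  obtain ⟨n, hn⟩ : ∃ n : ℕ, c - (∑ Q ∈ T, Q.ord r / 3) ≤ (n : ℤ) :=
    ⟨(c - ∑ Q ∈ T, Q.ord r / 3).toNat, Int.self_le_toNat _⟩
  obtain ⟨u, -, hu, hord⟩ := hc (Finsupp.single Q₁ (n : ℤ) + ∑ Q ∈ T, Finsupp.single Q (Q.ord r / 3))
    (by
      rw [map_add, map_sum]
      simp only [Divisor.degree_single, hk.deg_eq_one, Nat.cast_one, mul_one]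
      omega) T
  set r₁ := r * u ^ 3
  have hr₁ : r₁ ≠ 0 := mul_ne_zero hr (pow_ne_zero 3 hu)
  have hcls : redCls (k := k) 3 r₁ = redCls 3 r := by
    rw [redCls_mul 3 hr (pow_ne_zero 3 hu), redCls_pow]
    exact add_zero (redCls 3 r : RedTarget k Fb 3)
  have hmod : ∀ Q : Place k Fb, (3 : ℤ) ∣ Q.ord r₁ - Q.ord r := fun Q => by
    rw [Q.ord_mul hr (pow_ne_zero 3 hu), place_ord_pow, add_sub_cancel_left]
    exact dvd_mul_right _ _
  have hsmall : ∀ Q ∈ T, 0 ≤ Q.ord r₁ ∧ Q.ord r₁ < 3 := fun Q hQ => by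
    rw [Q.ord_mul hr (pow_ne_zero 3 hu), place_ord_pow, hord Q hQ, Finsupp.add_apply,
      Finsupp.single_eq_of_ne (fun e : Q = Q₁ => hQ₁ (e ▸ hQ)), Finset.sum_apply']
    simp only [Finsupp.single_apply, Finset.sum_ite_eq', if_pos hQ]
    push_cast
    omega
  -- the chosen points
  have hsurj := fun Q => Reduction.spl_surjective hF hk (R := RR) Q
  choose sec hsec using hsurj
  let sel : Place k Fb → Place L (levelField M L) := fun Q =>
    if hQ : ¬ (3 : ℤ) ∣ Q.ord (jBar k M) ∧ 0 < Q.ord (jBar k M) then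
      (exists_wild_lift M q A π hπs hπ0 hqM hQ.1 hQ.2).choose else sec Q
  have hsel : ∀ Q, (RR).spl (sel Q) = Q := fun Q => by
    by_cases hQ : ¬ (3 : ℤ) ∣ Q.ord (jBar k M) ∧ 0 < Q.ord (jBar k M)
    · simp only [sel, dif_pos hQ]
      exact (exists_wild_lift M q A π hπs hπ0 hqM hQ.1 hQ.2).choose_spec.1
    · simp only [sel, dif_neg hQ]
      exact hsec Q
  obtain ⟨h, hh, hhT⟩ := exists_lift_concentrated hF hk (X0.genus_level_le M q A π hπs hπ0 hqM)
    T sel (fun Q _ => hsel Q) hr₁ (fun Q hQ => (hsmall Q hQ).1) (R := RR)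
  have hh0 := hh.ne_zero hr₁
  set D' : Divisor L (levelField M L) := ∑ Q ∈ T, Finsupp.single (sel Q) (Q.ord r₁)
  have hD' : ∀ P, D' P = if (RR).spl P ∈ T ∧ P = sel ((RR).spl P) then ((RR).spl P).ord r₁ else 0 :=
    fun P => by
    simp only [D', Finset.sum_apply', Finsupp.single_apply]
    by_cases hP : (RR).spl P ∈ T
    · rw [Finset.sum_eq_single_of_mem ((RR).spl P) hP (fun Q _ hne => by
        refine if_neg fun e => hne ?_
        rw [← e, hsel Q])]
      simp only [hP, true_and]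
      exact if_congr ⟨Eq.symm, Eq.symm⟩ rfl rfl
    · rw [if_neg (fun h' => hP h'.1)]
      exact Finset.sum_eq_zero fun Q hQ => if_neg fun e => hP (by rw [← e, hsel Q]; exact hQ)
  set E := divOf hF h - D'
  have hES : ∀ P, (RR).spl P ∈ S → E P = 0 := fun P hP => by
    have hPT := hTS _ hP
    rw [Finsupp.sub_apply, divOf_apply, hhT P hPT, hD']
    simp only [hPT, true_and, sub_self]
  have hpushD' : ∀ Q, (RR).push D' Q = if Q ∈ T then Q.ord r₁ else 0 := fun Q => by
    simp only [D', Reduction.push, Finsupp.mapDomain_finsetSum, Finsupp.mapDomain_single,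
      Finset.sum_apply', Finsupp.single_apply, hsel, Finset.sum_ite_eq']
  have hpushE : ∀ Q, (3 : ℤ) ∣ (RR).push E Q := fun Q => by
    rw [Reduction.push, Finsupp.mapDomain_sub, Finsupp.sub_apply, ← Reduction.push,
      ← Reduction.push, Reduction.push_divOf hF hh hr₁, hpushD']
    by_cases hQ : Q ∈ T
    · rw [if_pos hQ, sub_self]; exact dvd_zero _
    · rw [if_neg hQ, sub_zero]
      have := hmod Q
      rwa [hTr Q hQ, sub_zero] at this
  -- a multiple of three with the same specialisation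
  set E₀ : Divisor L (levelField M L) :=
    ((RR).push E).sum fun Q m => Finsupp.single (sec Q) (m / 3)
  have hpushE₀ : (RR).push ((3 : ℤ) • E₀) = (RR).push E := by
    refine Finsupp.ext fun Q => ?_
    rw [Reduction.push, Finsupp.mapDomain_smul, Finsupp.smul_apply]
    simp only [E₀, Finsupp.sum, Finsupp.mapDomain_finsetSum, Finsupp.mapDomain_single, hsec,
      Finset.sum_apply']
    rw [Finset.sum_eq_single Q]
    · rw [Finsupp.single_eq_same, smul_eq_mul]
      exact Int.mul_ediv_cancel' (hpushE Q)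
    · exact fun b _ hb => Finsupp.single_eq_of_ne' hb
    · intro hQ
      rw [Finsupp.notMem_support_iff.1 hQ]; simp
  have hE₀S : ∀ P, (RR).spl P ∈ S → ((3 : ℤ) • E₀) P = 0 := fun P hP => by
    rw [Finsupp.smul_apply, show E₀ P = 0 from ?_, smul_zero]
    rw [show E₀ = ((RR).push E).sum fun Q m => Finsupp.single (sec Q) (m / 3) from rfl,
      Finsupp.sum_apply, Finsupp.sum]
    refine Finset.sum_eq_zero fun Q hQ => ?_
    refine Finsupp.single_eq_of_ne fun e => Finsupp.mem_support_iff.1 hQ ?_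
    have hQS : Q ∈ S := by rw [← hsec Q, ← e]; exact hP
    rw [Reduction.push_apply]
    refine Finset.sum_eq_zero fun P' _ => ?_
    split_ifs with h'
    · exact hES P' (h' ▸ hQS)
    · rfl
  have hTE := hcongr E ((3 : ℤ) • E₀) hES hE₀S hpushE₀.symm
  -- `T_ℓ` on the chosen points
  have hT2 : ∀ Q, (3 : ℤ) ∣ (RR).push (heckeDiv M L ℓ D') Q - 2 * (RR).push D' Q := by
    intro Q
    have hdvd : ∀ P, (3 : ℤ) ∣ (heckeDiv M L ℓ D' - (2 : ℤ) • D') P := fun P => by
      rw [show D' = ∑ Q ∈ T, Finsupp.single (sel Q) (Q.ord r₁) from rfl, map_sum, Finset.smul_sum,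
        ← Finset.sum_sub_distrib, Finset.sum_apply']
      refine Finset.dvd_sum fun Q hQ => ?_
      rw [show Finsupp.single (sel Q) (Q.ord r₁) = Q.ord r₁ • Finsupp.single (sel Q) (1 : ℤ) by simp,
        map_zsmul, smul_comm (2 : ℤ), ← smul_sub, Finsupp.smul_apply, smul_eq_mul,
        Finsupp.sub_apply, Finsupp.smul_apply, smul_eq_mul]
      by_cases hz : (3 : ℤ) ∣ Q.ord r₁
      · exact hz.mul_right _
      have hQw : ¬ (3 : ℤ) ∣ Q.ord (jBar k M) ∧ 0 < Q.ord (jBar k M) :=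
        (hwild Q).resolve_left fun h' => hz (by simpa using (hmod Q).add h')
      have hspec := (exists_wild_lift M q A π hπs hπ0 hqM hQw.1 hQw.2).choose_spec
      refine Dvd.dvd.mul_left (three_dvd_heckeDiv_sub M ℓ hℓM L hℓ3 ?_ ?_ P) _
      · simp only [sel, dif_pos hQw]; exact hspec.2.1
      · simp only [sel, dif_pos hQw]; exact hspec.2.2
    have h1 : (3 : ℤ) ∣ (RR).push (heckeDiv M L ℓ D' - (2 : ℤ) • D') Q := by
      rw [Reduction.push_apply]
      refine Finset.dvd_sum fun P _ => ?_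
      split_ifs
      · exact hdvd P
      · exact dvd_zero _
    rwa [Reduction.push, Finsupp.mapDomain_sub, Finsupp.mapDomain_smul, Finsupp.sub_apply,
      Finsupp.smul_apply, smul_eq_mul] at h1
  -- the norm
  obtain ⟨ρ', hρ', hNh, hrel⟩ := exists_red_normT M q A π hπs hπ0 hqM ℓ hℓN hh hr₁ harch
  have hdivN : heckeDiv M L ℓ (divOf hF h) = divOf hF (normT M ℓ L h) := Finsupp.ext fun P => by
    rw [divOf_apply, ord_normT M q ℓ hℓN hh0 (divOf hF h) (fun P => divOf_apply hF h P)]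
  rw [← hcls, thetaT_redCls M q A π hπs hπ0 hqM harch ℓ hℓN 3 hrel hr₁,
    ← redCls_pow_left 3 r₁ hr₁] at hθ
  obtain ⟨cst, v, hcst, hv⟩ := exists_div_eq_of_redCls (k := k) hρ' (pow_ne_zero a hr₁) hθ
  have hv0 : v ≠ 0 := fun h0 => by
    rw [h0, zero_pow three_ne_zero, mul_zero] at hv
    exact div_ne_zero hρ' (pow_ne_zero a hr₁) hv
  have h2 := congrArg Q₀.ord hv
  rw [div_eq_mul_inv, Q₀.ord_mul hρ' (inv_ne_zero (pow_ne_zero a hr₁)), Q₀.ord_inv, place_ord_pow,
    Q₀.ord_mul (by simpa using hcst) (pow_ne_zero 3 hv0), place_ord_algebraMap, zero_add,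
    place_ord_pow] at h2
  have h3 : Q₀.ord ρ' = (RR).push (heckeDiv M L ℓ D') Q₀ +
      (3 : ℤ) * (RR).push (heckeDiv M L ℓ E₀) Q₀ := by
    rw [← Reduction.push_divOf hF hNh hρ', ← hdivN,
      show divOf hF h = D' + E by simp [E], map_add, Reduction.push_add, Finsupp.add_apply, hTE,
      map_zsmul, Reduction.push, Reduction.push, Finsupp.mapDomain_smul, Finsupp.smul_apply,
      smul_eq_mul]
    rfl
  by_cases hQ : Q₀ ∈ T
  swap
  · rw [hTr Q₀ hQ]; exact dvd_zero _
  obtain ⟨e, he⟩ := hT2 Q₀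
  rw [hpushD', if_pos hQ] at he
  obtain ⟨d, hd⟩ := hmod Q₀
  have key : (3 : ℤ) ∣ ((a : ℤ) - 2) * Q₀.ord r₁ :=
    ⟨e + (RR).push (heckeDiv M L ℓ E₀) Q₀ - Q₀.ord v, by push_cast at h2; linear_combination -h2 + he + h3⟩
  rcases (Int.prime_three).dvd_or_dvd key with h' | h'
  · exact absurd h' ha
  · obtain ⟨x, hx⟩ := h'
    exact ⟨x - d, by linarith⟩

end FA.ModField.AtP
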