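import Fermat.Agent.ModField.Semistable.AtP.FixedPart
import Fermat.Agent.ModField.Semistable.Mono.Core

/-!
# Coordinates fixed by inertia

Uniformisers of smooth points and coordinates of tubes can be taken fixed by inertia; the scale of
a coordinate then has the valuation of an integral power of `p`.
-/

set_option autoImplicit false
set_option linter.style.haveILetI false
set_option linter.unusedSectionVars false

noncomputable section

namespace FA.ModField.AtP

open AlgebraicCurve FA.Curve FA.CurveRed FA.CurveRed.ConstRed FA.Local FA.LocalDef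

local notation "Qb" => AlgebraicClosure ℚ
local notation "GQ" => AlgebraicClosure ℚ ≃ₐ[ℚ] AlgebraicClosure ℚ

section Smooth

variable {F k : Type*} [Field F] [Algebra Qb F] [Field k] [IsAlgClosed k] {ι : Type*} [Fintype ι]
  [Nonempty ι] {Fk : ι → Type*} [∀ i, Field (Fk i)] [∀ i, Algebra k (Fk i)]
  {A : ValuationSubring Qb} {β σ : Type*} [Fintype β] [Fintype σ]
  {X : SemiFibre Qb F k Fk A β σ} {φ : GQ →* SemilinearAut Qb F} (GF : GalFibre X φ)
  (hF : IsFunctionField Qb F) (hk : ∀ i, IsFunctionField k (Fk i)) {p : ℕ}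

include GF hF hk

/-- A fixed uniformiser of a smooth point without poles over it. -/
theorem GalFibre.exists_fixed_unif (hp : p.Prime) (hA : A.LiesOverPrime p) {i : ι}
    {Q : Place k (Fk i)} (hQ : ∀ b, X.br b ≠ ⟨i, Q⟩) :
    ∃ (z : F) (zb : Fk i), (∀ g ∈ A.inertiaSubgroupIn ℚ, φ g • z = z) ∧ (X.C i).Red z zb ∧
      zb ≠ 0 ∧ Q.ord zb = 1 ∧ X.NoPole ⟨i, Q⟩ z := by
  classical
  obtain ⟨N, hN⟩ := exists_big_bound X.br hk
  obtain ⟨S, hS, -, hdeg⟩ := X.exists_points hk (N + 2) ∅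
  obtain ⟨P, -, hc, hpush⟩ := X.exists_over hk hS
  set E := ∑ x : S, Finsupp.single (P x) (1 : ℤ)
  obtain ⟨PQ, hPQ⟩ := X.spl_surj ⟨i, Q⟩ hQ
  have hav : ∀ m : ℤ, Avoids X.br (Function.update (X.push E) i
      (X.push E i - Finsupp.single Q m)) := fun m b => by
    have hav := X.avoids_push E b
    have hbQ := hQ b
    revert hav hbQ
    generalize X.br b = y
    obtain ⟨i', Q'⟩ := y
    intro hav hbQ
    rcases eq_or_ne i' i with rfl | hi
    · rw [Function.update_self, Finsupp.sub_apply, hav,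
        Finsupp.single_eq_of_ne fun he : Q' = Q => hbQ (by rw [he]), sub_zero]
    · rw [Function.update_of_ne hi]; exact hav
  have hbig : ∀ m : ℤ, m ≤ 2 → IsBig X.br (Function.update (X.push E) i
      (X.push E i - Finsupp.single Q m)) := fun m hm => hN _ (hav m) fun j => by
    have h1 := hdeg j
    rw [← hpush] at h1
    push_cast at h1
    rcases eq_or_ne j i with rfl | hj
    · rw [Function.update_self, map_sub, Divisor.degree_single, (hk j).deg_eq_one]
      push_cast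
      omega
    · rw [Function.update_of_ne hj]; omega
  have hT0 : Function.update (X.push E) i (X.push E i - Finsupp.single Q 0) = X.push E := by
    rw [Finsupp.single_zero, sub_zero, Function.update_eq_self]
  have hbigE : IsBig X.br (X.push E) := hT0 ▸ hbig 0 (by norm_num)
  obtain ⟨H₀, hH₀, hH₀0, hord₀⟩ := X.exists_exact hk hQ hbigE (hbig 1 (by norm_num))
  set T₁ := Function.update (X.push E) i (X.push E i - Finsupp.single Q 1) with hT₁
  have hT₁' : Function.update T₁ i (T₁ i - Finsupp.single Q 1) =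
      Function.update (X.push E) i (X.push E i - Finsupp.single Q 2) := by
    rw [hT₁, Function.update_idem, Function.update_self, sub_sub, ← Finsupp.single_add]
    norm_num
  obtain ⟨H₁, hH₁, hH₁0, hord₁⟩ := X.exists_exact hk hQ (hbig 1 (by norm_num))
    (show IsBig X.br (Function.update T₁ i (T₁ i - Finsupp.single Q 1)) by
      rw [hT₁']; exact hbig 2 le_rfl)
  have hH₁' : H₁ ∈ X.gluedSpace (X.push E) := by
    refine ⟨fun j => riemannRochSpace_mono ?_ (hH₁.1 j), hH₁.2⟩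
    rcases eq_or_ne j i with rfl | hj
    · rw [Function.update_self]
      exact sub_le_self _ (Finsupp.single_nonneg.2 zero_le_one)
    · rw [Function.update_of_ne hj]
  obtain ⟨u, hu, hur⟩ := X.exists_lift hF hk hc hbigE hH₀
  obtain ⟨w, hw, hwr⟩ := X.exists_lift hF hk hc hbigE hH₁'
  have hu0 := (hur i).ne_zero hH₀0
  have hw0 := (hwr i).ne_zero hH₁0
  have hcl : ∀ R, X.spl R = some ⟨i, Q⟩ → R.ord u + E R = 0 := by
    intro R hR
    have h1 : 0 ≤ divOf hF u + E := Finsupp.le_def.2 fun R => by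
      have := (atLeast_iff hu0).1 (FA.Curve.mem_riemannRochSpace.1 hu R)
      simp only [Finsupp.coe_zero, Pi.zero_apply, Finsupp.add_apply, divOf_apply]
      omega
    have h2 : X.push (divOf hF u + E) i Q = 0 := by
      rw [X.push_add, Finsupp.add_apply, X.push_divOf hF (hur i) hH₀0 hQ, hord₀]
      ring
    rw [SemiFibre.push_apply, X.mapDomain_spl,
      Finset.sum_eq_zero_iff_of_nonneg fun P' _ => by
        split_ifs
        · exact Finsupp.le_def.1 h1 P'
        · exact le_rfl] at h2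
    by_contra hne
    have h3 : R ∈ (divOf hF u + E).support := Finsupp.mem_support_iff.2 (by
      rwa [Finsupp.add_apply, divOf_apply])
    have h4 := h2 R h3
    rw [if_pos hR, Finsupp.add_apply, divOf_apply] at h4
    exact hne h4
  have hT₁Q : T₁ i Q = X.push E i Q - 1 := by
    rw [hT₁, Function.update_self, Finsupp.sub_apply, Finsupp.single_eq_same]
  obtain ⟨z, hzfix, hzreg, hzred⟩ := GF.exists_fixed_part hF hk hp hA (w * u⁻¹)
  obtain ⟨zb, hzb, hzb'⟩ := hzred i 1 (H₁ i * (H₀ i)⁻¹) one_ne_zero (by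
    rw [inv_one, map_one, one_mul]; exact (hwr i).mul ((hur i).inv hH₀0))
  rw [inv_one, map_one, one_mul, hzb' rfl] at hzb
  have hne : H₁ i * (H₀ i)⁻¹ ≠ 0 := mul_ne_zero hH₁0 (inv_ne_zero hH₀0)
  refine ⟨z, _, hzfix, hzb, hne, ?_, fun R hR => hzreg R fun g hg => ?_⟩
  · rw [Q.ord_mul hH₁0 (inv_ne_zero hH₀0), Q.ord_inv, hord₀, hord₁, hT₁Q]
    ring
  · have hgR := (GF.stable g hg).spl_smul hF hk hR
    have h1 := (atLeast_iff hw0).1 (FA.Curve.mem_riemannRochSpace.1 hw (φ g • R))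
    have h2 := hcl _ hgR
    refine Or.inr ?_
    rw [(φ g • R).ord_mul hw0 (inv_ne_zero hu0), (φ g • R).ord_inv]
    omega

end Smooth

section Tube

variable {F k : Type*} [Field F] [Algebra Qb F] [Field k] [IsAlgClosed k]
  {Fk : Fin 2 → Type*} [∀ i, Field (Fk i)] [∀ i, Algebra k (Fk i)]
  {A : ValuationSubring Qb} {J : MultiRed Qb F k Fk A} {hF : IsFunctionField Qb F}
  {hk : ∀ i, IsFunctionField k (Fk i)} {x : F} {xb : ∀ i, Fk i}
  {H : FibreHyp J hF hk x xb}
  {hconn : ∀ c : Fin 2 → k,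
    (∀ b b' : H.Br, H.sgPt b = H.sgPt b' → c b.1.1 = c b'.1.1) → ∀ i j, c i = c j}
  {φ : GQ →* SemilinearAut Qb F} (GF : GalFibre (H.semiFibre hconn) φ) {p : ℕ} {ϖ : Qb}

local notation "v" => ValuationSubring.valuation A

include GF in
/-- **A coordinate fixed by inertia.** -/
theorem exists_fixed_coord (hp : p.Prime) (hA : A.LiesOverPrime p)
    (hind : ∀ g ∈ A.inertiaSubgroupIn ℚ, Induced J x (φ g) (fun _ => 1) 1)
    (U : H.UnitDatum ϖ) (s : H.Sg) :
    ∃ C : FibreHyp.Coord U s, (∀ g ∈ A.inertiaSubgroupIn ℚ, φ g • C.T = C.T) ∧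
      ∃ n : ℤ, v C.ε = v (p : Qb) ^ n := by
  classical
  obtain ⟨C⟩ := FibreHyp.nonempty_coord hconn U s
  obtain ⟨f, hfix, hreg, hred⟩ := GF.exists_fixed_part hF hk hp hA C.T
  obtain ⟨r0, hr0, hr0'⟩ := hred 0 1 (C.t 0) one_ne_zero (by
    rw [inv_one, map_one, one_mul]; exact C.red0)
  rw [inv_one, map_one, one_mul, hr0' rfl, H.semiFibre_C hconn] at hr0
  obtain ⟨r1, hr1, -⟩ := hred 1 C.ε (C.t 1) C.ε_ne C.red1
  rw [H.semiFibre_C hconn] at hr1
  have hf0 : f ≠ 0 := hr0.ne_zero (C.t_ne 0)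
  have hnp : ∀ P, H.TubeAt s P → AtLeast P 0 f := fun P hP => hreg P fun g hg => by
    refine C.clean.atLeast (FibreHyp.tubeAt_smul (hind g hg) ?_ hP)
    rw [← map_inv]
    exact hind _ (inv_mem hg)
  set δ := U.δ s
  have hδ0 : 0 < δ := U.δ_pos s
  have hcmp : J.Red (f ^ δ * U.u⁻¹)
      (FibreHyp.mkTwo (C.t 0 ^ δ * (U.r 0)⁻¹) (r1 ^ δ * (U.r 1)⁻¹)) := by
    intro i
    revert i
    rw [Fin.forall_fin_two]
    refine ⟨(hr0.pow δ).mul (U.red0.inv (U.r_ne 0)), ?_⟩
    have h := (hr1.pow δ).mul (U.red1.inv (U.r_ne 1))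
    rwa [show (algebraMap Qb F C.ε⁻¹ * f) ^ δ * (algebraMap Qb F U.d⁻¹ * U.u)⁻¹ = f ^ δ * U.u⁻¹ by
      rw [mul_pow, mul_inv, ← map_pow, inv_pow, C.ε_pow, ← map_inv₀, inv_inv, mul_mul_mul_comm,
        ← map_mul, inv_mul_cancel₀ U.d_ne, map_one, one_mul]] at h
  have hnp' : ∀ P, H.TubeAt s P → AtLeast P 0 (f ^ δ * U.u⁻¹) := fun P hP => by
    have h := (atLeast_pow (hnp P hP) δ).mul (atLeast_ord U.u⁻¹ : AtLeast P (P.ord U.u⁻¹) U.u⁻¹)
    rwa [P.ord_inv, U.clean s P hP, mul_zero, neg_zero, add_zero] at h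
  obtain ⟨w, hw1, hw2⟩ := H.value_at hcmp s hnp'
  have hb0 := hw1 _ (H.sgPt_brAt s 0)
  have hb1 := hw1 _ (H.sgPt_brAt s 1)
  change HasValue (H.brPl s 0) (C.t 0 ^ δ * (U.r 0)⁻¹) w at hb0
  change HasValue (H.brPl s 1) (r1 ^ δ * (U.r 1)⁻¹) w at hb1
  have hz0 : (H.brPl s 0).ord (C.t 0 ^ δ * (U.r 0)⁻¹) = 0 := by
    rw [Place.ord_mul _ (pow_ne_zero _ (C.t_ne 0)) (inv_ne_zero (U.r_ne 0)), place_ord_pow,
      Place.ord_inv, C.ord0, U.ord_zero]
    ring
  have hw : w ≠ 0 := by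
    rintro rfl
    rw [hasValue_zero_iff, atLeast_iff (mul_ne_zero (pow_ne_zero _ (C.t_ne 0))
      (inv_ne_zero (U.r_ne 0))), hz0] at hb0
    omega
  obtain ⟨hne, hwo⟩ := hb1.ord_eq_zero hw
  have hr1ne : r1 ≠ 0 := fun h => hne (by rw [h, zero_pow hδ0.ne', zero_mul])
  rw [Place.ord_mul _ (pow_ne_zero _ hr1ne) (inv_ne_zero (U.r_ne 1)), place_ord_pow,
    Place.ord_inv, U.ord_one] at hwo
  have ho1 : (H.brPl s 1).ord r1 = -1 := by
    have h2 : (δ : ℤ) * ((H.brPl s 1).ord r1 + 1) = 0 := by rw [mul_add, mul_one]; omega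
    rcases mul_eq_zero.1 h2 with h | h <;> omega
  have hclean : H.CleanAt s f := fun P hP => by
    obtain ⟨a, ha⟩ := exists_hasValue hF (hnp' P hP)
    obtain ⟨haA, ha2⟩ := hw2 P hP a ha
    have ha0 : a ≠ 0 := fun h => hw (by
      rw [← ha2, show (⟨a, haA⟩ : A) = 0 from Subtype.ext h, map_zero])
    have h3 := (ha.ord_eq_zero ha0).2
    rw [P.ord_mul (pow_ne_zero _ hf0) (inv_ne_zero U.u_ne), place_ord_pow, P.ord_inv,
      U.clean s P hP, neg_zero, add_zero] at h3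
    rcases mul_eq_zero.1 h3 with h | h
    · omega
    · exact h
  refine ⟨⟨f, C.ε, FibreHyp.mkTwo (C.t 0) r1, C.ε_pow, hf0,
    Fin.forall_fin_two.2 ⟨C.t_ne 0, hr1ne⟩, hr0, hr1, C.ord0, ho1, hclean⟩, hfix, ?_⟩
  obtain ⟨a, r, ha, hafix, hr, har⟩ := GF.exists_fixed_scale hF hk
    (H := (A.inertiaSubgroupIn ℚ : Set GQ)) subset_rfl (τ := 1) (one_mem _) (i := 1) hf0 hfix
  obtain ⟨n, hn⟩ := exists_zpow_of_mem_kur hp hA (mem_kur.2 fun g hg => hafix g hg) ha
  refine ⟨n, ?_⟩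
  show v C.ε = _
  rw [← hn]
  rcases lt_trichotomy (v C.ε) (v a) with h | h | h
  · obtain ⟨t, ht, ht0⟩ := SmallAt.of_le (X := H.semiFibre hconn) C.ε_ne ha h.le
      (show ((H.semiFibre hconn).C 1).Red (algebraMap Qb F C.ε⁻¹ * f) r1 from hr1)
    exact absurd (har.unique (ht0 h ▸ ht)) hr
  · exact h
  · obtain ⟨t, ht, ht0⟩ := SmallAt.of_le (X := H.semiFibre hconn) ha C.ε_ne h.le har
    exact absurd ((show ((H.semiFibre hconn).C 1).Red (algebraMap Qb F C.ε⁻¹ * f) r1 from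
      hr1).unique (ht0 h ▸ ht)) hr1ne

end Tube

end FA.ModField.AtP
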