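import Fermat.Agent.ModField.Semistable.AtP.LowPush
import Fermat.Agent.ModField.Congruence.Pic
import Fermat.Agent.ModField.Semistable.Mono.HeckeTors

/-!
# `T_ℓ` on the reduction of classes of level `M`

It preserves the kernel of the reduction, and on a class given by a function whose orders are
divisible by `n` it is given by the norm of that function.
-/

set_option autoImplicit false
set_option linter.style.haveILetI false
set_option linter.unusedSectionVars false
set_option synthInstance.maxHeartbeats 200000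
set_option maxHeartbeats 1600000

noncomputable section

namespace FA.ModField.AtP

open ModularCurve AlgebraicCurve FA.Curve FA.CurveRed FA.CurveRed.Modular FA.Level

section Avoid

variable {K F k Fk : Type*} [Field K] [IsAlgClosed K] [Field F] [Algebra K F] [Field k]
  [IsAlgClosed k] [Field Fk] [Algebra k Fk] {A : ValuationSubring K}
  {R : Reduction K F k Fk A} (hF : IsFunctionField K F) (hk : IsFunctionField k Fk)

include hF hk

/-- Functions without zeros and poles at finitely many places lift to such functions. -/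
theorem exists_lift_avoid (hg : genus K F ≤ genus k Fk) {S : Set (Place k Fk)} (hS : S.Finite)
    {ρ : Fk} (hρ : ρ ≠ 0) (h0 : ∀ Q ∈ S, Q.ord ρ = 0) :
    ∃ h, R.Red h ρ ∧ ∀ P, R.spl P ∈ S → P.ord h = 0 := by
  classical
  obtain ⟨c₁, hc₁⟩ := exists_threshold hF
  obtain ⟨c₂, hc₂⟩ := exists_threshold hk
  obtain ⟨c₃, hc₃⟩ := MultiRed.exists_exact hk
  haveI := infinite_places hk
  obtain ⟨Q₁, hQ₁⟩ := (hS.union (FA.Curve.finite_support hk ρ)).infinite_compl.nonempty
  simp only [Set.mem_compl_iff, Set.mem_union, Set.mem_ofPred_eq, not_or, not_not] at hQ₁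
  obtain ⟨hQ₁S, hQ₁ρ⟩ := hQ₁
  set Z := poleDiv hk ρ
  obtain ⟨n, hn⟩ : ∃ n : ℕ, max (max c₁ c₂) (c₃ + Divisor.degree Z) ≤ (n : ℤ) :=
    ⟨(max (max c₁ c₂) (c₃ + Divisor.degree Z)).toNat, Int.self_le_toNat _⟩
  obtain ⟨P₁, hP₁⟩ := Reduction.spl_surjective hF hk (R := R) Q₁
  set D : Divisor K F := Finsupp.single P₁ (n : ℤ)
  have hpush : R.push D = Finsupp.single Q₁ (n : ℤ) := by
    rw [Reduction.push, Finsupp.mapDomain_single, hP₁]
  have hdeg : Divisor.degree (Finsupp.single Q₁ (n : ℤ)) = n := by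
    rw [Divisor.degree_single, hk.deg_eq_one]; simp
  have hdegD : Divisor.degree D = n := by
    rw [Divisor.degree_single, hF.deg_eq_one]; simp
  have hell : ell (R.push D) ≤ ell D := by
    rw [hpush, hc₂ _ (by rw [hdeg]; omega), hc₁ _ (by rw [hdegD]; omega), hdeg, hdegD]
    omega
  obtain ⟨ρ₂, hρ₂, hρ₂0, hord⟩ := hc₃ (Finsupp.single Q₁ (n : ℤ) - Z) (by
    rw [map_sub, hdeg]; omega) hS.toFinset
  have h2S : ∀ Q ∈ S, Q.ord ρ₂ = 0 := fun Q hQ => by
    have hne : Q ≠ Q₁ := fun h => hQ₁S (h ▸ hQ)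
    rw [hord Q (hS.mem_toFinset.2 hQ), Finsupp.sub_apply, Finsupp.single_eq_of_ne hne,
      poleDiv_apply, h0 Q hQ]
    simp
  have hm2 : ρ₂ ∈ riemannRochSpace (R.push D) := by
    rw [hpush]
    exact riemannRochSpace_mono (sub_le_self _ (poleDiv_nonneg hk ρ)) hρ₂
  have hm1 : ρ * ρ₂ ∈ riemannRochSpace (R.push D) := by
    rw [hpush, FA.Curve.mem_riemannRochSpace]
    intro v
    refine Or.inr ?_
    have h1 := (atLeast_iff hρ₂0).1 (FA.Curve.mem_riemannRochSpace.1 hρ₂ v)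
    rw [Finsupp.sub_apply, poleDiv_apply] at h1
    rw [v.ord_mul hρ hρ₂0]
    omega
  obtain ⟨f₁, hf₁, hr₁⟩ := Reduction.exists_lift hF hk hell hm1
  obtain ⟨f₂, hf₂, hr₂⟩ := Reduction.exists_lift hF hk hell hm2
  have hz : ∀ {f : F} {r : Fk}, f ∈ riemannRochSpace D → R.Red f r → r ≠ 0 →
      (∀ Q ∈ S, Q.ord r = 0) → ∀ P, R.spl P ∈ S → P.ord f = 0 := by
    intro f r hf hr hr0 hrS P hP
    have hnp : Reduction.NoPole R (R.spl P) f := fun P' hP' => by
      have h1 := FA.Curve.mem_riemannRochSpace.1 hf P'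
      rw [show D P' = 0 from Finsupp.single_eq_of_ne fun h => hQ₁S (by
        rw [← hP₁, ← h, hP']; exact hP), neg_zero] at h1
      exact h1
    have h1 := Reduction.sum_le_ord hF hr hr0 hnp {P} (by simp)
    rw [Finset.sum_singleton, hrS _ hP] at h1
    have h2 := (atLeast_iff (hr.ne_zero hr0)).1 (hnp P rfl)
    omega
  have h20 := hr₂.ne_zero hρ₂0
  have h10 := hr₁.ne_zero (mul_ne_zero hρ hρ₂0)
  have hmem : R.Red (f₁ / f₂) ρ := by
    obtain ⟨t, ht, ht'⟩ := Reduction.mem_of_mul_mem hr₂ hρ₂0 (g := f₁ / f₂) (s := ρ * ρ₂)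
      (by rwa [mul_div_cancel₀ _ h20])
    rwa [show t = ρ from mul_left_cancel₀ hρ₂0 (ht'.trans (mul_comm _ _))] at ht
  refine ⟨f₁ / f₂, hmem, fun P hP => ?_⟩
  rw [div_eq_mul_inv, P.ord_mul h10 (inv_ne_zero h20), P.ord_inv,
    hz hf₁ hr₁ (mul_ne_zero hρ hρ₂0) (fun Q hQ => by
      rw [Q.ord_mul hρ hρ₂0, h0 Q hQ, h2S Q hQ, add_zero]) P hP,
    hz hf₂ hr₂ hρ₂0 h2S P hP]
  norm_num

end Avoid

/-- Functions of the same class differ by a constant and a power. -/
theorem exists_div_eq_of_redCls {k Fk : Type*} [Field k] [Field Fk] [Algebra k Fk] {n : ℕ}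
    {r s : Fk} (hr : r ≠ 0) (hs : s ≠ 0) (h : redCls (k := k) n r = redCls n s) :
    ∃ (c : k) (v : Fk), c ≠ 0 ∧ r / s = algebraMap k Fk c * v ^ n := by
  refine (redCls_eq_zero_iff (k := k) n (div_ne_zero hr hs)).1 ?_
  have h1 := redCls_mul (k := k) n (div_ne_zero hr hs) hs
  rw [div_mul_cancel₀ _ hs, h] at h1
  calc redCls (k := k) n (r / s) = redCls (k := k) n (r / s) + redCls n s - redCls n s := by abel
    _ = 0 := by rw [← h1]; abel

variable (M : ℕ) [NeZero M] (q : ℕ) [hq : Fact q.Prime] [hq0 : NeZero q]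
variable {L : Type} [Field L] [Algebra ℚ L] [Algebra L ℂ] [IsAlgClosed L]
variable (A : ValuationSubring L) {k : Type} [Field k] [IsAlgClosed k] [CharP k q] (π : A →+* k)
  (hπs : Function.Surjective π) (hπ0 : ∀ a : A, π a = 0 ↔ A.valuation a < 1) (hqM : ¬ q ∣ M)
  (harch : ∀ c : L, c ≠ 0 → ∃ m : ℕ, A.valuation ((q : L) ^ m) < A.valuation c)
  (ℓ : ℕ) [hℓ : Fact ℓ.Prime] [hℓ0 : NeZero ℓ] (hℓN : ¬ ℓ ∣ M * q)

local notation "Fb" => modularFunctionFieldFullC k M
local notation "RR" => lowRed M q A π hπs hπ0 hqM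
local notation "red" => reductionAlong A π M

include hℓN in
/-- The divisor of the norm of `T_ℓ`. -/
theorem ord_normT {g : levelField M L} (hg : g ≠ 0) (D : Divisor L (levelField M L))
    (hgD : ∀ P, D P = P.ord g) (P : Place L (levelField M L)) :
    P.ord (normT M ℓ L g) = heckeDiv M L ℓ D P := by
  obtain ⟨hα, hβ, hP, hfin, hFI, hN⟩ := heckeInputs_level (L := L) M ℓ
  haveI := hP
  obtain ⟨-, h1⟩ := ord_norm_correspondence (heckeBetaBar L M ℓ) (heckeAlphaBar L M ℓ) hβ hα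
    hfin hN hg (n := 1) (D := D) (fun Q => by rw [one_mul, hgD])
  rw [← one_mul (heckeDiv M L ℓ D P)]
  exact (h1 P).symm

include hℓN harch in
/-- Divisors outside the bad discs with the same specialisation have images with the same
specialisation. -/
theorem exists_push_congr :
    ∃ S : Set (Place k Fb), S.Finite ∧ ∀ D D' : Divisor L (levelField M L),
      (∀ P, (RR).spl P ∈ S → D P = 0) → (∀ P, (RR).spl P ∈ S → D' P = 0) →
      (RR).push D = (RR).push D' → (RR).push (heckeDiv M L ℓ D) = (RR).push (heckeDiv M L ℓ D') := by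
  classical
  obtain ⟨S, hS, hcongr⟩ := exists_push_heckeDiv_congr M q A π hπs hπ0 hqM harch ℓ hℓN
  refine ⟨S, hS, fun D D' hD hD' h => ?_⟩
  let Ψ : Place k Fb → Divisor k Fb := fun Q =>
    if hQ : ∃ P, (RR).spl P = Q then (RR).push (heckeDiv M L ℓ (Finsupp.single hQ.choose 1)) else 0
  have key : ∀ E : Divisor L (levelField M L), (∀ P, (RR).spl P ∈ S → E P = 0) →
      (RR).push (heckeDiv M L ℓ E) = Finsupp.sum ((RR).push E) fun Q n => n • Ψ Q := by
    intro E hE
    rw [Reduction.push, Reduction.push,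
      Finsupp.sum_mapDomain_index (h := fun Q n => n • Ψ Q) (fun Q => zero_smul ℤ (Ψ Q))
        (fun Q a b => add_smul a b (Ψ Q))]
    conv_lhs => rw [← Finsupp.sum_single E]
    let φ : Divisor L (levelField M L) →+ Divisor k Fb :=
      (Finsupp.mapDomain.addMonoidHom (RR).spl).comp (heckeDiv M L ℓ)
    show φ (E.sum Finsupp.single) = _
    rw [map_finsuppSum]
    refine Finsupp.sum_congr fun P hP => ?_
    rw [show Finsupp.single P (E P) = E P • Finsupp.single P (1 : ℤ) by simp, map_zsmul]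
    congr 1
    have hex : ∃ P', (RR).spl P' = (RR).spl P := ⟨P, rfl⟩
    simp only [Ψ, dif_pos hex]
    exact (hcongr _ _ hex.choose_spec (fun hmem =>
      Finsupp.mem_support_iff.1 hP (hE P (hex.choose_spec ▸ hmem)))).symm
  rw [key D hD, key D' hD', h]

include hℓN harch in
/-- The image of a divisor whose specialisation is that of a function. -/
theorem exists_push_T_principal :
    ∃ S : Set (Place k Fb), S.Finite ∧ ∀ (D : Divisor L (levelField M L)) (ρ : Fb),
      (∀ P, (RR).spl P ∈ S → D P = 0) → ρ ≠ 0 → (∀ Q, (RR).push D Q = Q.ord ρ) →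
      ∃ ρ', ConjRel M A π ℓ ρ ρ' ∧ ρ' ≠ 0 ∧ ∀ Q, (RR).push (heckeDiv M L ℓ D) Q = Q.ord ρ' := by
  classical
  obtain ⟨S, hS, hcongr⟩ := exists_push_congr M q A π hπs hπ0 hqM harch ℓ hℓN
  refine ⟨S, hS, fun D ρ hD hρ hDρ => ?_⟩
  have hF := isFunctionField_level L M
  have hk := isFunctionField_fullC k M
  have h0 : ∀ Q ∈ S, Q.ord ρ = 0 := fun Q hQ => by
    rw [← hDρ]
    rw [Reduction.push_apply]
    refine Finset.sum_eq_zero fun P _ => ?_
    split_ifs with hP
    · exact hD P (hP ▸ hQ)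
    · rfl
  obtain ⟨h, hh, hhS⟩ := exists_lift_avoid hF hk (X0.genus_level_le M q A π hπs hπ0 hqM) hS hρ h0
    (R := RR)
  obtain ⟨ρ', hρ', hNh, hrel⟩ := exists_red_normT M q A π hπs hπ0 hqM ℓ hℓN hh hρ harch
  refine ⟨ρ', hrel, hρ', fun Q => ?_⟩
  have hne := hh.ne_zero hρ
  rw [hcongr D (divOf hF h) hD (fun P hP => by rw [divOf_apply, hhS P hP])
    (Finsupp.ext fun Q' => by rw [hDρ, Reduction.push_divOf hF hh hρ]),
    show heckeDiv M L ℓ (divOf hF h) = divOf hF (normT M ℓ L h) from Finsupp.ext fun P => by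
      rw [divOf_apply, ord_normT M q ℓ hℓN hne (divOf hF h) (fun P => divOf_apply hF h P)],
    Reduction.push_divOf hF hNh hρ']

/-- A principal specialisation gives a zero reduction. -/
theorem red_eq_zero {D : Divisor.degZero (K := L) (F := levelField M L)} {ρ : Fb} (hρ : ρ ≠ 0)
    (h : ∀ Q, (RR).push (D : Divisor L (levelField M L)) Q = Q.ord ρ) : red (Pic0.mk D) = 0 := by
  obtain ⟨hd, e⟩ := reductionAlong_eq_push M L hπs hπ0 (lowInputs M q A π hπs hπ0 hqM) D
  rw [e, Pic0.mk, QuotientAddGroup.eq_zero_iff, AddSubgroup.mem_addSubgroupOf]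
  exact ⟨ρ, hρ, h⟩

theorem exists_of_red_eq_zero {D : Divisor.degZero (K := L) (F := levelField M L)}
    (h : red (Pic0.mk D) = 0) :
    ∃ ρ : Fb, ρ ≠ 0 ∧ ∀ Q, (RR).push (D : Divisor L (levelField M L)) Q = Q.ord ρ := by
  obtain ⟨hd, e⟩ := reductionAlong_eq_push M L hπs hπ0 (lowInputs M q A π hπs hπ0 hqM) D
  rw [e, Pic0.mk, QuotientAddGroup.eq_zero_iff, AddSubgroup.mem_addSubgroupOf] at h
  exact h

include hℓN harch hπs hπ0 hqM in
/-- **`T_ℓ` preserves the kernel of the reduction.** -/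
theorem red_T_eq_zero {x : Pic0 L (levelField M L)} (hx : red x = 0) :
    red (heckeOperatorAlong L M ℓ x) = 0 := by
  obtain ⟨S, hS, hT⟩ := exists_push_T_principal M q A π hπs hπ0 hqM harch ℓ hℓN
  obtain ⟨D, rfl, hD⟩ := exists_clean_rep M L hπs hπ0 (lowInputs M q A π hπs hπ0 hqM)
    (X0.genus_level_le M q A π hπs hπ0 hqM) S hS x
  obtain ⟨ρ, hρ, hDρ⟩ := exists_of_red_eq_zero M q A π hπs hπ0 hqM hx
  obtain ⟨ρ', -, hρ', h⟩ := hT _ ρ hD hρ hDρ
  obtain ⟨hd, e⟩ := heckeOperatorAlong_mk M L ℓ D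
  rw [e]
  exact red_eq_zero M q A π hπs hπ0 hqM hρ' h

include hℓN harch hπs hπ0 hqM in
/-- `T_ℓ` on classes with the same reduction. -/
theorem red_T_congr {x y : Pic0 L (levelField M L)} (h : red x = red y) :
    red (heckeOperatorAlong L M ℓ x) = red (heckeOperatorAlong L M ℓ y) := by
  rw [← sub_eq_zero, ← map_sub, ← map_sub]
  exact red_T_eq_zero M q A π hπs hπ0 hqM harch ℓ hℓN (by rw [map_sub, h, sub_self])

include hℓN in
/-- **An eigenclass of the norm is an eigenclass of `T_ℓ`.** -/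
theorem red_T_of_theta {n a : ℕ} (hn : n ≠ 0) (x : Pic0 L (levelField M L)) {r : Fb}
    (hx : ∃ D : Divisor.degZero (K := L) (F := levelField M L), Pic0.mk D = x ∧
      ∀ Q, (n : ℤ) * (RR).push (D : Divisor L (levelField M L)) Q = Q.ord r) (hr : r ≠ 0)
    (hθ : thetaT M q A π hπs hπ0 hqM harch ℓ hℓN n (redCls n r) = a • redCls n r) :
    red (heckeOperatorAlong L M ℓ x) = a • red x := by
  classical
  obtain ⟨S, hS, hT⟩ := exists_push_T_principal M q A π hπs hπ0 hqM harch ℓ hℓN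
  have hF := isFunctionField_level L M
  have hk := isFunctionField_fullC k M
  obtain ⟨D₀, rfl, hD₀⟩ := hx
  obtain ⟨D, hD, hDS⟩ := exists_clean_rep M L hπs hπ0 (lowInputs M q A π hπs hπ0 hqM)
    (X0.genus_level_le M q A π hπs hπ0 hqM) S hS (Pic0.mk D₀)
  have hred : red (Pic0.mk (D - D₀)) = 0 := by
    rw [show Pic0.mk (D - D₀) = Pic0.mk D - Pic0.mk D₀ from map_sub (QuotientAddGroup.mk' _) D D₀,
      hD, sub_self, map_zero]
  obtain ⟨u, hu, huD⟩ := exists_of_red_eq_zero M q A π hπs hπ0 hqM hred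
  set r₁ := r * u ^ n
  have hr₁ : r₁ ≠ 0 := mul_ne_zero hr (pow_ne_zero n hu)
  have hD₁ : ∀ Q, (n : ℤ) * (RR).push (D : Divisor L (levelField M L)) Q = Q.ord r₁ := fun Q => by
    have h1 := huD Q
    rw [AddSubgroupClass.coe_sub, Reduction.push, Finsupp.mapDomain_sub, Finsupp.sub_apply] at h1
    rw [Q.ord_mul hr (pow_ne_zero n hu), place_ord_pow, ← hD₀, ← h1, Reduction.push,
      Reduction.push]
    ring
  have hcls : redCls (k := k) n r₁ = redCls n r := by
    rw [redCls_mul n hr (pow_ne_zero n hu), redCls_pow]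
    exact add_zero (redCls n r : RedTarget k Fb n)
  obtain ⟨ρ', hrel, hρ', hTρ⟩ := hT ((n : ℤ) • (D : Divisor L (levelField M L))) r₁
    (fun P hP => by rw [Finsupp.smul_apply, hDS P hP, smul_zero]) hr₁ (fun Q => by
      rw [Reduction.push, Finsupp.mapDomain_smul, Finsupp.smul_apply, smul_eq_mul]
      exact hD₁ Q)
  rw [← hcls, thetaT_redCls M q A π hπs hπ0 hqM harch ℓ hℓN n hrel hr₁,
    ← redCls_pow_left n r₁ hr₁] at hθ
  have hpow := pow_ne_zero a hr₁
  have hdiv := div_ne_zero hρ' hpow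
  obtain ⟨c, v, hc, hv⟩ := exists_div_eq_of_redCls (k := k) hρ' hpow hθ
  have hv0 : v ≠ 0 := fun h0 => hdiv (by rw [hv, h0, zero_pow hn, mul_zero])
  obtain ⟨hd, eT⟩ := heckeOperatorAlong_mk M L ℓ D
  rw [← hD, eT, ← map_nsmul, ← sub_eq_zero, ← map_sub,
    show Pic0.mk ⟨_, hd⟩ - a • Pic0.mk D = Pic0.mk (⟨_, hd⟩ - a • D) from by
      rw [show ∀ E E', Pic0.mk (E - E') = Pic0.mk E - Pic0.mk (K := L) (F := levelField M L) E'
        from fun E E' => map_sub (QuotientAddGroup.mk' _) E E']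
      exact congrArg _ (map_nsmul (QuotientAddGroup.mk' _) a D).symm]
  refine red_eq_zero M q A π hπs hπ0 hqM hv0 fun Q => ?_
  refine mul_left_cancel₀ (Int.natCast_ne_zero.2 hn) ?_
  have h1 := hTρ Q
  rw [map_zsmul, Reduction.push, Finsupp.mapDomain_smul, Finsupp.smul_apply, smul_eq_mul] at h1
  have h2 := congrArg Q.ord hv
  rw [div_eq_mul_inv, Q.ord_mul hρ' (inv_ne_zero hpow), Q.ord_inv, place_ord_pow,
    Q.ord_mul (by simpa using hc) (pow_ne_zero n hv0), place_ord_algebraMap, zero_add,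
    place_ord_pow, ← hD₁] at h2
  rw [AddSubgroupClass.coe_sub, AddSubmonoidClass.coe_nsmul, Reduction.push,
    Finsupp.mapDomain_sub, Finsupp.sub_apply, Finsupp.mapDomain_smul, Finsupp.smul_apply,
    nsmul_eq_mul, mul_sub, h1, ← h2, Reduction.push]
  ring

end FA.ModField.AtP
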