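import Fermat.Agent.ModField.Semistable.Mono.Fixed
import Fermat.Agent.LocalDef.TotRam
import Fermat.Agent.Curve.TraceLocal

/-!
# Functions small compared to a constant on a component

For a special fibre with an action of inertia at `A`, `SmallAt η i h` says that `h` is a constant
smaller than `η` times an integral function on the component `i`.  Values at fixed places detect
it; ratios of a fixed function under an automorphism moving fixed integers by less than `η` are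
the ratios of its scales up to such functions.
-/

set_option autoImplicit false
set_option linter.style.haveILetI false
set_option linter.unusedSectionVars false

noncomputable section

namespace FA.ModField.AtP

open AlgebraicCurve FA.Curve FA.CurveRed FA.CurveRed.ConstRed FA.Local

local notation "Qb" => AlgebraicClosure ℚ
local notation "GQ" => AlgebraicClosure ℚ ≃ₐ[ℚ] AlgebraicClosure ℚ

variable {F k : Type*} [Field F] [Algebra Qb F] [Field k] [IsAlgClosed k] {ι : Type*} [Fintype ι]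
  [Nonempty ι] {Fk : ι → Type*} [∀ i, Field (Fk i)] [∀ i, Algebra k (Fk i)]
  {A : ValuationSubring Qb} {β σ : Type*} [Fintype β] [Fintype σ]

local notation "v" => ValuationSubring.valuation A

/-- A special fibre with an action of inertia at `A`. -/
structure GalFibre (X : SemiFibre Qb F k Fk A β σ) (φ : GQ →* SemilinearAut Qb F) : Prop where
  base : ∀ g c, SemilinearAut.baseAut (φ g) c = g c
  stable : ∀ g ∈ A.inertiaSubgroupIn ℚ, X.Stable (φ g)
  fixed : ∀ i, (X.fixGood (φ '' (A.inertiaSubgroupIn ℚ : Set GQ)) i).Infinite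
  cont : ∀ f : F, ∃ E : IntermediateField ℚ Qb, FiniteDimensional ℚ E ∧
    ∀ g ∈ E.fixingSubgroup, φ g • f = f

variable (X : SemiFibre Qb F k Fk A β σ)

/-- `h` is less than `η` on the component `i`. -/
def SmallAt (η : Qb) (i : ι) (h : F) : Prop :=
  ∃ a : Qb, a ≠ 0 ∧ v a < v η ∧ ∃ r, (X.C i).Red (algebraMap Qb F a⁻¹ * h) r

namespace SmallAt

variable {X} {η : Qb} {i : ι}

theorem cast_eq {a : Qb} (ha : a ≠ 0) (h : F) :
    algebraMap Qb F a * (algebraMap Qb F a⁻¹ * h) = h := by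
  rw [← mul_assoc, ← map_mul, mul_inv_cancel₀ ha, map_one, one_mul]

theorem of_le {a b : Qb} (ha : a ≠ 0) (hb : b ≠ 0) (hab : v a ≤ v b) {h : F} {r : Fk i}
    (hr : (X.C i).Red (algebraMap Qb F a⁻¹ * h) r) :
    ∃ s, (X.C i).Red (algebraMap Qb F b⁻¹ * h) s ∧ (v a < v b → s = 0) := by
  have hm : b⁻¹ * a ∈ A := by
    rw [← A.valuation_le_one_iff, map_mul, map_inv₀,
      inv_mul_le_one₀ (A.valuation.pos_iff.2 hb)]
    exact hab
  have h1 := (X.red_const i ⟨_, hm⟩).mul hr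
  rw [show algebraMap Qb F ((⟨b⁻¹ * a, hm⟩ : A) : Qb) * (algebraMap Qb F a⁻¹ * h) =
      algebraMap Qb F b⁻¹ * h by
    rw [map_mul, mul_assoc, cast_eq ha]] at h1
  refine ⟨_, h1, fun hlt => ?_⟩
  rw [(X.π_eq_zero _).2 (show v (b⁻¹ * a) < 1 by
    rw [map_mul, map_inv₀, inv_mul_lt_one₀ (A.valuation.pos_iff.2 hb)]
    exact hlt), map_zero, zero_mul]

theorem zero {a : Qb} (ha : a ≠ 0) (h : v a < v η) : SmallAt X η i 0 :=
  ⟨a, ha, h, 0, by rw [mul_zero]; exact ConstRed.red_zero⟩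

theorem add {h h' : F} (hh : SmallAt X η i h) (hh' : SmallAt X η i h') :
    SmallAt X η i (h + h') := by
  obtain ⟨a, ha, hav, r, hr⟩ := hh
  obtain ⟨b, hb, hbv, s, hs⟩ := hh'
  rcases le_total (v a) (v b) with hab | hab
  · obtain ⟨r', hr', -⟩ := of_le ha hb hab hr
    exact ⟨b, hb, hbv, r' + s, by rw [mul_add]; exact hr'.add hs⟩
  · obtain ⟨s', hs', -⟩ := of_le hb ha hab hs
    exact ⟨a, ha, hav, r + s', by rw [mul_add]; exact hr.add hs'⟩

theorem neg {h : F} (hh : SmallAt X η i h) : SmallAt X η i (-h) := by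
  obtain ⟨a, ha, hav, r, hr⟩ := hh
  exact ⟨a, ha, hav, -r, by rw [mul_neg]; exact hr.neg⟩

theorem sub {h h' : F} (hh : SmallAt X η i h) (hh' : SmallAt X η i h') :
    SmallAt X η i (h - h') := by
  rw [sub_eq_add_neg]; exact hh.add hh'.neg

theorem mul_red {h g : F} {r : Fk i} (hh : SmallAt X η i h) (hg : (X.C i).Red g r) :
    SmallAt X η i (g * h) := by
  obtain ⟨a, ha, hav, s, hs⟩ := hh
  exact ⟨a, ha, hav, r * s, by rw [mul_left_comm]; exact hg.mul hs⟩

theorem smul {h : F} (hh : SmallAt X η i h) {c : Qb} (hc : v c ≤ 1) :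
    SmallAt X η i (algebraMap Qb F c * h) :=
  hh.mul_red (X.red_const i ⟨c, (A.valuation_le_one_iff c).1 hc⟩)

theorem const {c a : Qb} (ha : a ≠ 0) (hav : v a < v η) (hc : v c < v η) :
    SmallAt X η i (algebraMap Qb F c) := by
  rcases eq_or_ne c 0 with rfl | hc0
  · rw [map_zero]; exact zero ha hav
  · exact ⟨c, hc0, hc, 1, by
      rw [← map_mul, inv_mul_cancel₀ hc0, map_one]; exact ConstRed.red_one⟩

theorem red_div {h : F} (hh : SmallAt X η i h) {b : Qb} (hb : v η ≤ v b) :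
    (X.C i).Red (algebraMap Qb F b⁻¹ * h) 0 := by
  obtain ⟨a, ha, hav, r, hr⟩ := hh
  have hb0 : b ≠ 0 := fun h0 => by
    rw [h0, map_zero] at hb
    exact not_lt_zero (hav.trans_le hb)
  obtain ⟨s, hs, hs0⟩ := of_le ha hb0 (hav.trans_le hb).le hr
  rwa [hs0 (hav.trans_le hb)] at hs

theorem red_zero {h : F} (hh : SmallAt X η i h) (hη : v η ≤ 1) : (X.C i).Red h 0 := by
  have := hh.red_div (b := 1) (by rwa [map_one])
  rwa [inv_one, map_one, one_mul] at this

theorem red_one {h : F} (hh : SmallAt X η i (h - 1)) (hη : v η ≤ 1) : (X.C i).Red h 1 := by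
  have := (hh.red_zero hη).add (ConstRed.red_one (C := X.C i))
  rwa [sub_add_cancel, zero_add] at this

theorem of_const {c : Qb} (hh : SmallAt X η i (algebraMap Qb F c)) : v c < v η := by
  by_contra hle
  rw [not_lt] at hle
  rcases eq_or_ne c 0 with rfl | hc0
  · obtain ⟨a, ha, hav, -⟩ := hh
    rw [map_zero] at hle
    exact not_lt_zero (hav.trans_le hle)
  · have h1 := hh.red_div hle
    rw [← map_mul, inv_mul_cancel₀ hc0, map_one] at h1
    exact one_ne_zero (ConstRed.red_one.unique h1)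

/-- Products of functions near `1`. -/
theorem mul_sub_one {h h' : F} (hh : SmallAt X η i (h - 1)) (hh' : SmallAt X η i (h' - 1))
    (hη : v η ≤ 1) : SmallAt X η i (h * h' - 1) := by
  have e : h * h' - 1 = (h' - 1) + h' * (h - 1) := by ring
  rw [e]
  exact hh'.add (hh.mul_red (hh'.red_one hη))

theorem inv_sub_one {h : F} (hh : SmallAt X η i (h - 1)) (hη : v η ≤ 1) :
    SmallAt X η i (h⁻¹ - 1) := by
  have hr := hh.red_one hη
  have h0 := hr.ne_zero one_ne_zero
  have e : h⁻¹ - 1 = -(h⁻¹ * (h - 1)) := by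
    rw [mul_sub, inv_mul_cancel₀ h0, mul_one, neg_sub]
  rw [e]
  exact (hh.mul_red (hr.inv one_ne_zero)).neg

end SmallAt

variable {X} {φ : GQ →* SemilinearAut Qb F} (GF : GalFibre X φ)
  (hF : IsFunctionField Qb F) (hk : ∀ i, IsFunctionField k (Fk i))

include GF in
theorem GalFibre.hasValue {g : GQ} {P : Place Qb F} {f : F} {c : Qb} (h : HasValue P f c) :
    HasValue (φ g • P) (φ g • f) (g c) := by
  have := SemiFibre.hasValue_smul' (φ g) h
  rwa [GF.base] at this

include GF hF hk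

/-- A fixed place over a good point where a function on the component `i` has a unit value. -/
theorem GalFibre.exists_good_place {i : ι} {h : F} {r : Fk i} (hr : (X.C i).Red h r)
    (hr0 : r ≠ 0) (avoid : Finset (Option (Σ i, Place k (Fk i)))) :
    ∃ (P : Place Qb F) (Q : Place k (Fk i)) (c : Qb), X.spl P = some ⟨i, Q⟩ ∧
      some ⟨i, Q⟩ ∉ avoid ∧ (∀ g ∈ A.inertiaSubgroupIn ℚ, φ g • P = P) ∧
      HasValue P h c ∧ v c = 1 := by
  classical
  have hinj : Function.Injective fun Q : Place k (Fk i) => some (⟨i, Q⟩ : Σ i, Place k (Fk i)) :=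
    fun _ _ h => eq_of_heq (Sigma.mk.inj (Option.some_injective _ h)).2
  obtain ⟨Q, ⟨hQb, P, hP, hfix⟩, hQ⟩ := (GF.fixed i).exists_notMem_finset
    (((avoid ∪ (FA.Curve.finite_support hF h).toFinset.image X.spl).preimage _
      (hinj.injOn)) ∪ (FA.Curve.finite_support (hk i) r).toFinset)
  rw [Finset.mem_union, not_or, Finset.mem_preimage, Finset.mem_union, not_or] at hQ
  have hzero : ∀ P', X.spl P' = some ⟨i, Q⟩ → P'.ord h = 0 := fun P' hP' => by
    by_contra hne
    exact hQ.1.2 (Finset.mem_image.2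
      ⟨P', (FA.Curve.finite_support hF h).mem_toFinset.2 hne, hP'⟩)
  have hQr : Q.ord r = 0 := by
    by_contra hne
    exact hQ.2 ((FA.Curve.finite_support (hk i) r).mem_toFinset.2 hne)
  have hnp : X.NoPole ⟨i, Q⟩ h := fun P' hP' => Or.inr (hzero P' hP').ge
  obtain ⟨c, hc⟩ := exists_hasValue hF (hnp P hP)
  obtain ⟨hcA, hcv⟩ := X.hasValue_red hF hr hQb hnp hP hc
  refine ⟨P, Q, c, hP, hQ.1.1, fun g hg => hfix _ ⟨g, hg, rfl⟩, hc,
    le_antisymm ((A.valuation_le_one_iff c).2 hcA) (le_of_not_gt fun hlt => ?_)⟩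
  rw [(X.π_eq_zero ⟨c, hcA⟩).2 hlt, hasValue_zero_iff, atLeast_iff hr0, hQr] at hcv
  omega

/-- Values below `η` at fixed places give smallness. -/
theorem GalFibre.small_of_value {η : Qb} {i : ι} {h : F} {a : Qb} (ha : a ≠ 0) (hav : v a < v η)
    (avoid : Finset (Option (Σ i, Place k (Fk i))))
    (hval : ∀ P Q, X.spl P = some ⟨i, Q⟩ → some ⟨i, Q⟩ ∉ avoid →
      (∀ g ∈ A.inertiaSubgroupIn ℚ, φ g • P = P) → ∀ c, HasValue P h c → v c < v η) :
    SmallAt X η i h := by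
  rcases eq_or_ne h 0 with rfl | h0
  · exact SmallAt.zero ha hav
  obtain ⟨w, g, r, hw, rfl, hg, hr⟩ := exists_scaled (X.scaled i) h0
  obtain ⟨P, Q, c, hP, hQ, hfix, hc, hc1⟩ := GF.exists_good_place hF hk hg hr avoid
  have h1 := hval P Q hP hQ hfix _ (hc.smul w)
  rw [map_mul, hc1, mul_one] at h1
  exact ⟨w, hw, h1, r, by rw [← mul_assoc, ← map_mul, inv_mul_cancel₀ hw, map_one, one_mul]; exact hg⟩

/-- Fixed integral functions vanishing on a component are small there. -/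
theorem GalFibre.small_of_fixed {η : Qb} {π₁ : Qb} (hπ₁ : π₁ ≠ 0) (hη : v π₁ < v η)
    {N : Set GQ} (hN : N ⊆ A.inertiaSubgroupIn ℚ)
    (hle : ∀ c : Qb, (∀ g ∈ N, g c = c) → v c < 1 → v c ≤ v π₁)
    {i : ι} {h : F} (hh : ∀ g ∈ N, φ g • h = h) (hr : (X.C i).Red h 0) : SmallAt X η i h := by
  classical
  refine GF.small_of_value hF hk hπ₁ hη
    ((FA.Curve.finite_support hF h).toFinset.image X.spl ∪
      Finset.univ.image fun b => some (X.br b)) fun P Q hP hQ hfix c hc => ?_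
  rw [Finset.mem_union, not_or] at hQ
  have hnp : X.NoPole ⟨i, Q⟩ h := fun P' hP' => Or.inr (le_of_eq (by
    by_contra hne
    exact hQ.1 (Finset.mem_image.2
      ⟨P', (FA.Curve.finite_support hF h).mem_toFinset.2 (Ne.symm hne), hP'⟩)))
  obtain ⟨hcA, hcv⟩ := X.hasValue_red hF hr
    (fun b hb => hQ.2 (Finset.mem_image.2 ⟨b, Finset.mem_univ b, by rw [hb]⟩)) hnp hP hc
  have hfx : ∀ g ∈ N, g c = c := fun g hg => by
    have := GF.hasValue (g := g) hc
    rw [hfix g (hN hg), hh g hg] at this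
    exact this.unique hc
  have hc0 : X.π ⟨c, hcA⟩ = 0 :=
    hcv.unique (by simpa using hasValue_algebraMap Q (0 : k))
  exact (hle c hfx ((X.π_eq_zero _).1 hc0)).trans_lt hη

variable {H : Set GQ} (hH : H ⊆ A.inertiaSubgroupIn ℚ) {τ : GQ} (hτ : τ ∈ A.inertiaSubgroupIn ℚ)
  {η : Qb}

include hH hτ

/-- Ratios of fixed functions with nonzero reduction are near `1`. -/
theorem GalFibre.small_ratio
    (hsub : ∀ a : Qb, (∀ g ∈ H, g a = a) → v a ≤ 1 → v (τ a - a) < v η)
    {a₀ : Qb} (ha₀ : a₀ ≠ 0) (hav : v a₀ < v η)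
    {i : ι} {g : F} {r : Fk i} (hg : ∀ s ∈ H, φ s • g = g) (hr : (X.C i).Red g r) (hr0 : r ≠ 0) :
    SmallAt X η i (φ τ • g * g⁻¹ - 1) := by
  classical
  have hg0 := hr.ne_zero hr0
  refine GF.small_of_value hF hk ha₀ hav ((FA.Curve.finite_support hF g).toFinset.image X.spl ∪
    (Finset.univ.image fun b => some (X.br b)) ∪
    (FA.Curve.finite_support (hk i) r).toFinset.image fun Q => some ⟨i, Q⟩)
    fun P Q hP hQ hfix c hc => ?_
  rw [Finset.mem_union, not_or, Finset.mem_union, not_or] at hQ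
  obtain ⟨⟨hQg, hQb⟩, hQr⟩ := hQ
  have hord : ∀ P', X.spl P' = some ⟨i, Q⟩ → P'.ord g = 0 := fun P' hP' => by
    by_contra hne
    exact hQg (Finset.mem_image.2 ⟨P', (FA.Curve.finite_support hF g).mem_toFinset.2 hne, hP'⟩)
  have hnp : X.NoPole ⟨i, Q⟩ g := fun P' hP' => Or.inr (hord P' hP').ge
  obtain ⟨b, hb⟩ := exists_hasValue hF (hnp P hP)
  obtain ⟨hbA, hbv⟩ := X.hasValue_red hF hr
    (fun b hb => hQb (Finset.mem_image.2 ⟨b, Finset.mem_univ b, by rw [hb]⟩)) hnp hP hb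
  have hb1 : v b = 1 := by
    refine le_antisymm ((A.valuation_le_one_iff b).2 hbA) (le_of_not_gt fun hlt => hQr ?_)
    rw [(X.π_eq_zero ⟨b, hbA⟩).2 hlt, hasValue_zero_iff, atLeast_iff hr0] at hbv
    exact Finset.mem_image.2 ⟨Q, (FA.Curve.finite_support (hk i) r).mem_toFinset.2
      (show Q.ord r ≠ 0 by omega), rfl⟩
  have hbfix : ∀ s ∈ H, s b = b := fun s hs => by
    have := GF.hasValue (g := s) hb
    rw [hfix s (hH hs), hg s hs] at this
    exact this.unique hb
  have hb0 : b ≠ 0 := fun h0 => by rw [h0, map_zero] at hb1; exact zero_ne_one hb1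
  have hτb := GF.hasValue (g := τ) hb
  rw [hfix τ hτ] at hτb
  obtain ⟨hg0', hgo⟩ := hb.ord_eq_zero hb0
  obtain ⟨b', hb'⟩ := exists_hasValue hF (Or.inr (by rw [P.ord_inv, hgo]; rfl) : AtLeast P 0 g⁻¹)
  have hbb : b * b' = 1 := (hb.mul hb').unique (by
    rw [mul_inv_cancel₀ hg0]; simpa using hasValue_algebraMap P (1 : Qb))
  have hval : HasValue P (φ τ • g * g⁻¹ - 1) (τ b * b⁻¹ - 1) := by
    have := (hτb.mul hb').sub (hasValue_algebraMap P (1 : Qb))
    rwa [eq_inv_of_mul_eq_one_right hbb, map_one] at this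
  rw [hc.unique hval, ← mul_inv_cancel₀ hb0, ← sub_mul, map_mul, map_inv₀, hb1, inv_one, mul_one]
  exact hsub b hbfix hb1.le

/-- The scales of fixed functions can be chosen fixed. -/
theorem GalFibre.exists_fixed_scale {i : ι} {g : F} (hg0 : g ≠ 0) (hg : ∀ s ∈ H, φ s • g = g) :
    ∃ (w : Qb) (r : Fk i), w ≠ 0 ∧ (∀ s ∈ H, s w = w) ∧ r ≠ 0 ∧
      (X.C i).Red (algebraMap Qb F w⁻¹ * g) r := by
  obtain ⟨c, g', r, hc, rfl, hg', hr⟩ := exists_scaled (X.scaled i) hg0
  obtain ⟨P, Q, b, hP, -, hfix, hb, hb1⟩ := GF.exists_good_place hF hk hg' hr ∅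
  have hb0 : b ≠ 0 := fun h0 => by rw [h0, map_zero] at hb1; exact zero_ne_one hb1
  refine ⟨c * b, algebraMap k (Fk i) (X.π ⟨b⁻¹, (A.valuation_le_one_iff _).1
    (by rw [map_inv₀, hb1, inv_one])⟩) * r, mul_ne_zero hc hb0, fun s hs => ?_,
    mul_ne_zero ?_ hr, ?_⟩
  · have := GF.hasValue (g := s) (hb.smul c)
    rw [hfix s (hH hs), hg s hs] at this
    exact this.unique (hb.smul c)
  · rw [ne_eq, map_eq_zero, X.π_eq_zero]
    show ¬ v b⁻¹ < 1
    rw [map_inv₀, hb1, inv_one]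
    exact lt_irrefl 1
  · rw [← mul_assoc, ← map_mul, mul_inv, mul_comm c⁻¹, mul_assoc, inv_mul_cancel₀ hc, mul_one]
    exact (X.red_const i ⟨b⁻¹, _⟩).mul hg'

/-- The ratio of a fixed function is the ratio of its scale up to small functions. -/
theorem GalFibre.small_ratio_scale
    (hsub : ∀ a : Qb, (∀ g ∈ H, g a = a) → v a ≤ 1 → v (τ a - a) < v η) (hη : v η ≤ 1)
    {a₀ : Qb} (ha₀ : a₀ ≠ 0) (hav : v a₀ < v η)
    {i : ι} {g : F} {w : Qb} {r : Fk i} (hg : ∀ s ∈ H, φ s • g = g) (hw : ∀ s ∈ H, s w = w)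
    (hw0 : w ≠ 0) (hr : (X.C i).Red (algebraMap Qb F w⁻¹ * g) r) (hr0 : r ≠ 0) :
    SmallAt X η i (φ τ • g * g⁻¹ - algebraMap Qb F (τ w / w)) ∧ v (τ w / w) = 1 := by
  have hvτ : v (τ w) = v w := (inert_of_mem_inertiaSubgroupIn A hτ).map_eq w
  have hu : v (τ w / w) = 1 := by
    rw [map_div₀, hvτ, div_self ((A.valuation.pos_iff.2 hw0).ne')]
  refine ⟨?_, hu⟩
  have h1 := GF.small_ratio hF hk hH hτ hsub ha₀ hav
    (g := algebraMap Qb F w⁻¹ * g)
    (fun s hs => by rw [smul_mul', SemilinearAut.smul_algebraMap, GF.base, map_inv₀, hw s hs,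
      hg s hs]) hr hr0
  have h2 := h1.smul (c := τ w / w) hu.le
  have hτw : τ w ≠ 0 := by simpa using hw0
  rwa [show algebraMap Qb F (τ w / w) * (φ τ • (algebraMap Qb F w⁻¹ * g) *
      (algebraMap Qb F w⁻¹ * g)⁻¹ - 1) = φ τ • g * g⁻¹ - algebraMap Qb F (τ w / w) by
    rw [smul_mul', SemilinearAut.smul_algebraMap, GF.base, mul_sub, mul_one, mul_inv,
      ← map_inv₀, inv_inv, mul_mul_mul_comm, ← mul_assoc, ← map_mul, ← map_mul, map_inv₀ τ,
      show τ w / w * ((τ w)⁻¹ * w) = 1 by field_simp, map_one, one_mul]] at h2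

end FA.ModField.AtP
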