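import Fermat.Agent.ModField.Semistable.Formal.Conn
import Fermat.Agent.ModField.Semistable.AtP.Small
import Fermat.Agent.ModField.Semistable.Mono.Scale
import Fermat.Agent.ModField.Semistable.Joint.Build
import Fermat.Agent.ModField.Semistable.Formal.Lift

/-!
# Fixed representatives of fixed connected classes

A class of `n`-torsion killed by the reductions, `n` a power of the residue characteristic, fixed by
automorphisms, has a fixed divisor outside the tubes specialising to zero; the function of such a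
class reduces to one constant on both components.
-/

set_option autoImplicit false
set_option linter.style.haveILetI false
set_option linter.unusedSectionVars false
set_option maxHeartbeats 800000

noncomputable section

namespace FA.ModField.SemiFibre

open AlgebraicCurve FA.Curve FA.CurveRed

variable {K F k : Type*} [Field K] [Field F] [Algebra K F] [Field k] {ι : Type*} [Fintype ι]
  {Fk : ι → Type*} [∀ i, Field (Fk i)] [∀ i, Algebra k (Fk i)] {A : ValuationSubring K}
  {β σ : Type*} [Fintype β] [Fintype σ] {X : SemiFibre K F k Fk A β σ}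

variable [IsAlgClosed K] [IsAlgClosed k] [Nonempty ι] (hF : IsFunctionField K F)
  (hk : ∀ i, IsFunctionField k (Fk i)) {T : Set (SemilinearAut K F)}

include hF hk

/-- **A fixed representative of a fixed connected class.** -/
theorem exists_disc_rep {n : ℕ} (hn : n ≠ 0) (hroot : ∀ a : k, a ^ n = 1 → a = 1)
    (hT : ∀ τ ∈ T, X.Stable τ) (hlift : ∀ i, (X.fixGood T i).Infinite)
    (y : X.toricKer hF n)
    (hy : ∀ τ ∈ T, τ • ((y : Pic0.torsion K F n) : Pic0 K F) =
      ((y : Pic0.torsion K F n) : Pic0 K F)) :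
    ∃ E : Divisor.degZero (K := K) (F := F),
      Pic0.mk E = ((y : Pic0.torsion K F n) : Pic0 K F) ∧ X.Clean (E : Divisor K F) ∧
      (∀ i, X.push (E : Divisor K F) i = 0) ∧
      ∀ τ ∈ T, τ • (E : Divisor K F) = (E : Divisor K F) := by
  classical
  obtain ⟨G, -, -, av₀, hoff⟩ := exists_ambient hF hk hT hlift
  obtain ⟨C, -, P₀, hP₀, hfix⟩ := exists_fixed_chart hF hk G hlift av₀ hoff
  set E₁ := ∑ Q, Finsupp.single (P₀ Q) (1 : ℤ)
  have hE₁ : X.DiscDiv C.S E₁ := ⟨P₀, hP₀, rfl⟩
  obtain ⟨D₀, g, hD₀, hg, hgD⟩ := exists_torsion_fn n (y : Pic0.torsion K F n)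
  obtain ⟨t, htD, ht⟩ := exists_glued_twist hF hk hn (toricHom_eq_zero hF hk hn hroot y) hD₀ hg hgD
  obtain ⟨P, f, hP, hf, he⟩ := exists_disc_divisor hF hk hn ht C.smooth C.card_S C.rigid hP₀
    hE₁.clean hE₁.push_eq
  set D := ∑ Q, Finsupp.single (P Q) (1 : ℤ)
  have hD : X.DiscDiv C.S D := ⟨P, hP, rfl⟩
  have hdeg : D - E₁ ∈ Divisor.degZero (K := K) (F := F) := by
    show Divisor.degree _ = 0
    rw [map_sub, hD.degree hF, hE₁.degree hF, sub_self]
  have hcls : Pic0.mk ⟨D - E₁, hdeg⟩ = ((y : Pic0.torsion K F n) : Pic0 K F) := by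
    rw [← hD₀, Pic0.mk, Pic0.mk, QuotientAddGroup.eq, AddSubgroup.mem_addSubgroupOf]
    refine ⟨f⁻¹, inv_ne_zero hf, fun v => ?_⟩
    have := congrArg (fun D : Divisor K F => D v) he
    simp only [Finsupp.add_apply, divOf_apply, htD] at this
    simp only [AddSubgroup.coe_add, AddSubgroup.coe_neg, Finsupp.add_apply, Finsupp.neg_apply,
      Finsupp.sub_apply, v.ord_inv, D, E₁] at this ⊢
    omega
  refine ⟨⟨D - E₁, hdeg⟩, hcls, fun R hR => ?_, fun i => ?_, fun τ hτ => ?_⟩
  · show (D - E₁ : Divisor K F) R = 0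
    rw [Finsupp.sub_apply, hD.clean R hR, hE₁.clean R hR, sub_zero]
  · show X.push (D - E₁) i = 0
    have h := congrFun hD.push_eq i
    rw [← congrFun hE₁.push_eq i] at h
    rw [show X.push (D - E₁) i = X.push D i - X.push E₁ i by
      rw [eq_sub_iff_add_eq, ← X.push_add, sub_add_cancel], h, sub_self]
  · have hτE : τ • E₁ = E₁ := by
      simp only [E₁, Finset.smul_sum]
      exact Finset.sum_congr rfl fun Q _ => by rw [SemilinearAut.smul_single, hfix τ hτ]
    have hτD : X.DiscDiv C.S (τ • D) := by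
      refine ⟨fun Q => τ • P Q, fun Q => (hT τ hτ).spl_smul hF hk (hP Q), ?_⟩
      rw [Finset.smul_sum]
      exact Finset.sum_congr rfl fun Q _ => SemilinearAut.smul_single _ _ _
    have hcoe : (SemilinearAut.degZeroSMulHom τ ⟨D - E₁, hdeg⟩ : Divisor K F) = τ • D - E₁ := by
      rw [SemilinearAut.coe_degZeroSMulHom, smul_sub, hτE]
    have hsame : Pic0.mk (⟨D - E₁, hdeg⟩ : Divisor.degZero (K := K) (F := F)) =
        Pic0.mk (SemilinearAut.degZeroSMulHom τ ⟨D - E₁, hdeg⟩) := by
      rw [← SemilinearAut.pic0_smul_mk, hcls, hy τ hτ]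
    rw [Pic0.mk, Pic0.mk, QuotientAddGroup.eq, AddSubgroup.mem_addSubgroupOf] at hsame
    obtain ⟨z, hz, hzv⟩ := hsame
    have he' : ∀ v, (τ • D : Divisor K F) v = D v + v.ord z := fun v => by
      have h1 := hzv v
      simp only [AddSubgroup.coe_add, AddSubgroup.coe_neg, hcoe, Finsupp.add_apply,
        Finsupp.neg_apply, Finsupp.sub_apply] at h1
      omega
    have hzD : z ∈ riemannRochSpace D := by
      rw [FA.Curve.mem_riemannRochSpace]
      intro v
      refine Or.inr ?_
      have h2 := Finsupp.le_def.1 hτD.nonneg v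
      have h1 := he' v
      simp only [Finsupp.coe_zero, Pi.zero_apply] at h2
      omega
    have h1D : (1 : F) ∈ riemannRochSpace D := by
      rw [FA.Curve.mem_riemannRochSpace]
      intro v
      refine Or.inr ?_
      rw [v.ord_one]
      have := Finsupp.le_def.1 hD.nonneg v
      simp only [Finsupp.coe_zero, Pi.zero_apply] at this
      omega
    haveI := finite_riemannRochSpace hF D
    have heq := Submodule.eq_of_le_of_finrank_le
      ((Submodule.span_singleton_le_iff_mem (R := K) _ _).2 h1D) (by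
      rw [finrank_span_singleton (K := K) (one_ne_zero : (1 : F) ≠ 0)]
      have := ell_discDiv_le hF hk C.rigid hD
      rw [ell] at this
      omega)
    rw [← heq, Submodule.mem_span_singleton] at hzD
    obtain ⟨a, rfl⟩ := hzD
    have hDD : (τ • D : Divisor K F) = D := Finsupp.ext fun v => by
      rw [he' v, Algebra.smul_def, mul_one, place_ord_algebraMap, add_zero]
    show τ • (D - E₁) = D - E₁
    rw [smul_sub, hτE, hDD]

end FA.ModField.SemiFibre

namespace FA.ModField.FibreHyp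

open AlgebraicCurve FA.Curve FA.CurveRed FA.CurveRed.ConstRed

variable {K F k : Type*} [Field K] [IsAlgClosed K] [Field F] [Algebra K F] [Field k]
  [IsAlgClosed k] {Fk : Fin 2 → Type*} [∀ i, Field (Fk i)] [∀ i, Algebra k (Fk i)]
  {A : ValuationSubring K} {J : MultiRed K F k Fk A} {hF : IsFunctionField K F}
  {hk : ∀ i, IsFunctionField k (Fk i)} {x : F} {xb : ∀ i, Fk i} {H : FibreHyp J hF hk x xb}
  (hconn : ∀ c : Fin 2 → k,
    (∀ b b' : H.Br, H.sgPt b = H.sgPt b' → c b.1.1 = c b'.1.1) → ∀ i j, c i = c j)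

/-- A function without zeros and poles in the tubes and specialising to divisor zero reduces to
one constant on both components. -/
theorem exists_red_one {g : F} (hg : g ≠ 0) (hclean : ∀ s, H.CleanAt s g)
    (hpush : ∀ i, ∀ Q : Place k (Fk i), (∀ b : H.Br, b.1 ≠ ⟨i, Q⟩) →
      (H.semiFibre hconn).push (divOf hF g) i Q = 0) :
    ∃ b : K, b ≠ 0 ∧ ∀ i, (J.C i).Red (algebraMap K F b⁻¹ * g) 1 := by
  classical
  choose c gg r hc hfg hr hr0 using fun i => exists_scaled (J.scaled i) hg
  have hsm : ∀ i (Q : Place k (Fk i)), (∀ b : H.Br, b.1 ≠ ⟨i, Q⟩) → Q.ord (r i) = 0 := fun i Q hQ => by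
    have hne := (hr i).ne_zero (hr0 i)
    have h := hpush i Q hQ
    rw [show divOf hF g = divOf hF (gg i) from Finsupp.ext fun P => by
      rw [divOf_apply, divOf_apply, hfg i,
        P.ord_mul (by simpa using hc i) hne, place_ord_algebraMap, zero_add]] at h
    rwa [(H.semiFibre hconn).push_divOf hF (hr i) (hr0 i) hQ] at h
  have hb : ∀ i (Q : Place k (Fk i)), (∀ s, Q ≠ H.brPl s i) → ∀ b : H.Br, b.1 ≠ ⟨i, Q⟩ := by
    intro i Q hQ b e
    obtain ⟨⟨l, R⟩, hR⟩ := b
    obtain ⟨rfl, e2⟩ := Sigma.mk.inj e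
    obtain rfl := eq_of_heq e2
    exact hQ (H.sgPt ⟨⟨l, R⟩, hR⟩) (InCls.subsingleton H ⟨hR, rfl⟩ (H.brPl_spec _ l))
  have hdeg : ∀ i, (∀ s, 0 < (H.brPl s i).ord (r i)) → False := fun i hpos => by
    obtain ⟨b, hb'⟩ := SemiFibre.exists_branch (X := H.semiFibre hconn) i
    have hnn : 0 ≤ divOf (hk i) (r i) := Finsupp.le_def.2 fun Q => by
      rw [divOf_apply, Finsupp.coe_zero, Pi.zero_apply]
      by_cases hQ : ∃ s, Q = H.brPl s i
      · obtain ⟨s, rfl⟩ := hQ; exact (hpos s).le
      · push Not at hQ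
        rw [hsm i Q (hb i Q hQ)]
    have h0 := degree_divOf (hk i) (r i)
    have hle : Finsupp.single (H.brPl (H.sgPt b) i) ((H.brPl (H.sgPt b) i).ord (r i)) ≤
        divOf (hk i) (r i) := Finsupp.le_def.2 fun Q => by
      rw [Finsupp.single_apply]
      split_ifs with h
      · rw [← h, divOf_apply]
      · exact Finsupp.le_def.1 hnn Q
    have h1 := degree_mono (hk i) hle
    rw [Divisor.degree_single, (hk i).deg_eq_one, h0] at h1
    have := hpos (H.sgPt b)
    push_cast at h1
    omega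
  have heq : A.valuation (c 1) = A.valuation (c 0) := by
    rcases lt_trichotomy (A.valuation (c 1)) (A.valuation (c 0)) with h | h | h
    · exact (hdeg 0 fun s => (CleanAt.of_lt hfg hr hr0 hg (hclean s) 0 h).1).elim
    · exact h
    · exact (hdeg 1 fun s => (CleanAt.of_lt hfg hr hr0 hg (hclean s) 1 h).1).elim
  have hconst : ∀ i, ∃ a, r i = algebraMap k (Fk i) a := fun i => by
    by_contra hno
    push Not at hno
    obtain ⟨Q, hQ⟩ := exists_ord_neg (hk i) (transcendental_of_not_const hno)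
    by_cases h : ∃ s, Q = H.brPl s i
    · obtain ⟨s, rfl⟩ := h
      rw [(CleanAt.of_eq hfg hr hr0 hg (hclean s) heq).1 i] at hQ
      exact lt_irrefl _ hQ
    · push Not at h
      rw [hsm i Q (hb i Q h)] at hQ
      exact lt_irrefl _ hQ
  choose a ha using hconst
  have hA : ∀ i, c i / c 0 ∈ A := fun i => by
    rw [← A.valuation_le_one_iff, map_div₀, div_le_one₀ (A.valuation.pos_iff.2 (hc 0))]
    fin_cases i
    · exact le_rfl
    · exact heq.le
  have hred : ∀ i, (J.C i).Red (algebraMap K F (c 0)⁻¹ * g)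
      (algebraMap k (Fk i) (J.π ⟨_, hA i⟩ * a i)) := fun i => by
    rw [map_mul, ← ha i]
    exact red_div_scale hfg hr hg 0 i (hA i)
  have ha0 : a 0 ≠ 0 := fun h => hr0 0 (by rw [ha 0, h, map_zero])
  have hπ0 : J.π ⟨_, hA 0⟩ = 1 := by
    rw [show (⟨c 0 / c 0, hA 0⟩ : A) = 1 from Subtype.ext (div_self (hc 0)), map_one]
  have hval : ∀ i, J.π ⟨_, hA i⟩ * a i = a 0 := fun i => by
    obtain ⟨b, -⟩ := SemiFibre.exists_branch (X := H.semiFibre hconn) i
    obtain ⟨w, hw, -⟩ := H.value_at hred (H.sgPt b) fun P hP => (hclean _).atLeast hP |>.smul _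
    have h0 := hw _ (H.sgPt_brAt (H.sgPt b) 0)
    have hi := hw _ (H.sgPt_brAt (H.sgPt b) i)
    change HasValue (H.brPl (H.sgPt b) 0)
      (algebraMap k (Fk 0) (J.π ⟨_, hA 0⟩ * a 0)) w at h0
    change HasValue (H.brPl (H.sgPt b) i)
      (algebraMap k (Fk i) (J.π ⟨_, hA i⟩ * a i)) w at hi
    rw [hπ0, one_mul] at h0
    rw [(hasValue_algebraMap _ _).unique hi, (hasValue_algebraMap _ _).unique h0]
  obtain ⟨a', ha'⟩ := J.π_surjective (a 0)
  have ha'0 : (a' : K) ≠ 0 := fun h => ha0 (by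
    rw [← ha', show a' = 0 from Subtype.ext h, map_zero])
  have hu : A.valuation (a' : K) = 1 := by
    refine le_antisymm ((A.valuation_le_one_iff _).2 a'.2) (le_of_not_gt fun h => ha0 ?_)
    rw [← ha', (J.π_eq_zero a').2 h]
  have hinv : (a' : K)⁻¹ ∈ A := (A.valuation_le_one_iff _).1 (by rw [map_inv₀, hu, inv_one])
  refine ⟨c 0 * a', mul_ne_zero (hc 0) ha'0, fun i => ?_⟩
  have h := (J.red_const_at i ⟨_, hinv⟩).mul (hred i)
  rw [hval i, ← map_mul, show J.π ⟨_, hinv⟩ * a 0 = 1 by
    rw [← ha', ← map_mul, show (⟨(a' : K)⁻¹, hinv⟩ : A) * a' = 1 from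
      Subtype.ext (inv_mul_cancel₀ ha'0), map_one], map_one] at h
  convert h using 1
  show _ = algebraMap K F (a' : K)⁻¹ * _
  rw [mul_inv_rev, map_mul, mul_assoc]

end FA.ModField.FibreHyp
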