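import Fermat.Agent.ModField.Semistable.AtP.Maximum
import Fermat.Agent.ModField.Semistable.AtP.Disc

/-!
# The orders at the branches of an eigenclass

For a class fixed by an open subgroup of inertia and an eigenclass of an operator given by a norm
on functions, with eigenvalue not congruent to the degree of the norm, the orders at the branches
of the reductions of its function are divisible by `p`, once a suitable ratio of scales is known
to have the valuation of a power of `ζ - 1`.  The maximum principle gives the latter for a class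
moved by an element of inertia by a connected class.
-/

set_option autoImplicit false
set_option linter.style.haveILetI false
set_option linter.unusedSectionVars false
set_option maxHeartbeats 400000

noncomputable section

namespace FA.ModField.AtP

open AlgebraicCurve FA.Curve FA.CurveRed FA.CurveRed.ConstRed FA.Local FA.LocalDef

local notation "Qb" => AlgebraicClosure ℚ
local notation "GQ" => AlgebraicClosure ℚ ≃ₐ[ℚ] AlgebraicClosure ℚ

section Cong

variable {A : ValuationSubring Qb} {η : Qb}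

local notation "v" => ValuationSubring.valuation A

theorem cong_unit {a : Qb} (h : v (a - 1) < v η) (hη : v η ≤ 1) : v a = 1 := by
  have := A.valuation.map_add_eq_of_lt_right (x := a - 1) (y := 1)
    (by rw [map_one]; exact h.trans_le hη)
  rwa [sub_add_cancel, map_one] at this

theorem cong_mul {a b : Qb} (ha : v (a - 1) < v η) (hb : v (b - 1) < v η) (hη : v η ≤ 1) :
    v (a * b - 1) < v η := by
  rw [show a * b - 1 = a * (b - 1) + (a - 1) by ring]
  exact A.valuation.map_add_lt (by rwa [map_mul, cong_unit ha hη, one_mul]) ha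

theorem cong_inv {a : Qb} (ha : v (a - 1) < v η) (hη : v η ≤ 1) : v (a⁻¹ - 1) < v η := by
  have h1 := cong_unit ha hη
  have ha0 : a ≠ 0 := fun h => by rw [h, map_zero] at h1; exact zero_ne_one h1
  rw [show a⁻¹ - 1 = -(a⁻¹ * (a - 1)) by rw [mul_sub, inv_mul_cancel₀ ha0, mul_one, neg_sub],
    A.valuation.map_neg, map_mul, map_inv₀, h1, inv_one, one_mul]
  exact ha

theorem cong_zpow {a : Qb} (ha : v (a - 1) < v η) (hη : v η ≤ 1) (n : ℤ) :
    v (a ^ n - 1) < v η := by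
  have key : ∀ m : ℕ, v (a ^ m - 1) < v η := fun m => by
    induction m with
    | zero => rw [pow_zero, sub_self, map_zero]; exact lt_of_le_of_lt zero_le ha
    | succ m ih => rw [pow_succ]; exact cong_mul ih ha hη
  obtain ⟨m, rfl | rfl⟩ := Int.eq_nat_or_neg n
  · rw [zpow_natCast]; exact key m
  · rw [zpow_neg, zpow_natCast]; exact cong_inv (key m) hη

end Cong

section Op

variable {F k : Type*} [Field F] [Algebra Qb F] [Field k] [IsAlgClosed k] {ι : Type*} [Fintype ι]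
  [Nonempty ι] {Fk : ι → Type*} [∀ i, Field (Fk i)] [∀ i, Algebra k (Fk i)]
  {A : ValuationSubring Qb} {β σ : Type*} [Fintype β] [Fintype σ]

/-- An operator given by a norm on functions. -/
structure NormOp (X : SemiFibre Qb F k Fk A β σ) (φ : GQ →* SemilinearAut Qb F) where
  /-- the norm -/
  N : F → F
  /-- the degree -/
  e : ℕ
  /-- the correspondence -/
  TD : Divisor Qb F →+ Divisor Qb F
  mul : ∀ f g, N (f * g) = N f * N g
  ne_zero : ∀ f, f ≠ 0 → N f ≠ 0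
  const : ∀ c, N (algebraMap Qb F c) = algebraMap Qb F (c ^ e)
  ord : ∀ f, f ≠ 0 → ∀ D : Divisor Qb F, (∀ P, D P = P.ord f) → ∀ P, P.ord (N f) = TD D P
  gal : ∀ g ∈ A.inertiaSubgroupIn ℚ, ∀ D, TD (φ g • D) = φ g • TD D
  red : ∀ i f r, (X.C i).Red f r → r ≠ 0 →
    ∃ r', (X.C i).Red (N f) r' ∧ r' ≠ 0 ∧ (r = 1 → r' = 1)
  small : ∀ (η : Qb), A.valuation η < 1 → ∀ i f, SmallAt X η i (f - 1) →
    SmallAt X η i (N f - 1)

variable {X : SemiFibre Qb F k Fk A β σ}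

/-- Scales are unique up to units. -/
theorem scale_eq {i : ι} {f : F} {a b : Qb} {r s : Fk i} (ha : a ≠ 0) (hb : b ≠ 0) (hr0 : r ≠ 0)
    (hs0 : s ≠ 0) (hr : (X.C i).Red (algebraMap Qb F a⁻¹ * f) r)
    (hs : (X.C i).Red (algebraMap Qb F b⁻¹ * f) s) :
    A.valuation a = A.valuation b := by
  rcases lt_trichotomy (A.valuation a) (A.valuation b) with h | h | h
  · obtain ⟨t, ht, ht0⟩ := SmallAt.of_le ha hb h.le hr
    exact absurd (hs.unique (ht0 h ▸ ht)) hs0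
  · exact h
  · obtain ⟨t, ht, ht0⟩ := SmallAt.of_le hb ha h.le hs
    exact absurd (hr.unique (ht0 h ▸ ht)) hr0

end Op

variable {F k : Type*} [Field F] [Algebra Qb F] [Field k] [IsAlgClosed k]
  {Fk : Fin 2 → Type*} [∀ i, Field (Fk i)] [∀ i, Algebra k (Fk i)]
  {A : ValuationSubring Qb} {J : MultiRed Qb F k Fk A} {hF : IsFunctionField Qb F}
  {hk : ∀ i, IsFunctionField k (Fk i)} {x : F} {xb : ∀ i, Fk i}
  {H : FibreHyp J hF hk x xb}
  {hconn : ∀ c : Fin 2 → k,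
    (∀ b b' : H.Br, H.sgPt b = H.sgPt b' → c b.1.1 = c b'.1.1) → ∀ i j, c i = c j}
  {φ : GQ →* SemilinearAut Qb F} (GF : GalFibre (H.semiFibre hconn) φ) {p : ℕ}
  (hp : p.Prime) (hA : A.LiesOverPrime p)
  (hind : ∀ g ∈ A.inertiaSubgroupIn ℚ, Induced J x (φ g) (fun _ => 1) 1)
  {U : H.UnitDatum (p : Qb)} (C : ∀ s, FibreHyp.Coord U s)
  (hC : ∀ s, ∀ g ∈ A.inertiaSubgroupIn ℚ, φ g • (C s).T = (C s).T)
  (T : NormOp (H.semiFibre hconn) φ)

local notation "v" => ValuationSubring.valuation A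

variable {Hs : Subgroup GQ} (hH : Hs ≤ A.inertiaSubgroupIn ℚ)

include GF hH

/-- A function with invariant divisor, made fixed. -/
theorem exists_fixed_mult {h : F} (h0 : h ≠ 0)
    (hinv : ∀ g ∈ Hs, ∀ P : Place Qb F, (φ g • P).ord h = P.ord h) :
    ∃ c : Qb, c ≠ 0 ∧ ∀ g ∈ Hs, φ g • (algebraMap Qb F c * h) = algebraMap Qb F c * h := by
  obtain ⟨P, hP, hfix⟩ := SemiFibre.exists_fixed_place (X := H.semiFibre hconn) hF GF.fixed h
  obtain ⟨c, hc, hcc⟩ := exists_fixed_fn hF (φ '' (Hs : Set GQ)) h0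
    (by rintro _ ⟨g, hg, rfl⟩ Q; exact hinv g hg Q) (P₁ := P)
    (by rintro _ ⟨g, hg, rfl⟩; exact hfix _ ⟨g, hH hg, rfl⟩) hP
  exact ⟨c, hc, fun g hg => hcc _ ⟨g, hg, rfl⟩⟩

include hind hC hp hA

open Classical in
/-- **Orders at the branches from the ratio of scales.** -/
theorem dvd_branch_ord {π₁ : Qb} (hπp : v π₁ ^ (p - 1) = v (p : Qb)) (hπlt : v π₁ < 1)
    (hΔ : ¬ p ∣ U.Δ) (hεn : ∀ s, ∃ n : ℤ, v (C s).ε = v (p : Qb) ^ n)
    (D : Divisor Qb F) (hD : ∀ g ∈ Hs, ∀ P, D (φ g • P) = D P)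
    {g : F} (hg : g ≠ 0) (hgD : ∀ P, P.ord g = (p : ℤ) * D P)
    (a : ℕ) (hm : ¬ (p : ℤ) ∣ (T.e : ℤ) - a)
    {h : F} (hh : h ≠ 0) (hTD : ∀ P, T.TD D P = (a : ℤ) * D P + P.ord h)
    (key : ∀ (h' : F) (w : Fin 2 → Qb), (∃ c : Qb, c ≠ 0 ∧ h' = algebraMap Qb F c * h) →
      (∀ g ∈ Hs, φ g • h' = h') →
      (∀ i, w i ≠ 0 ∧ (∀ g ∈ Hs, g (w i) = w i) ∧
        ∃ r, r ≠ 0 ∧ ((H.semiFibre hconn).C i).Red (algebraMap Qb F (w i)⁻¹ * h') r) →
      ∀ s, ∃ n : ℤ, v (w 1 / w 0 / tubeEps (C s) D ^ ((T.e : ℤ) - a)) = v π₁ ^ n)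
    {c : Fin 2 → Qb} {gg : Fin 2 → F} {r : ∀ i, Fk i}
    (hfg : ∀ i, g = algebraMap Qb F (c i) * gg i) (hr : ∀ i, (J.C i).Red (gg i) (r i))
    (hr0 : ∀ i, r i ≠ 0) (s : H.Sg) :
    (p : ℤ) ∣ (H.brPl s 0).ord (r 0) ∧ (p : ℤ) ∣ (H.brPl s 1).ord (r 1) := by
  have hc : ∀ i, c i ≠ 0 := fun i hc0 => hg (by rw [hfg i, hc0, map_zero, zero_mul])
  -- the function of the image
  have hinv : ∀ g' ∈ Hs, ∀ P : Place Qb F, (φ g' • P).ord h = P.ord h := fun g' hg' P => by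
    have h1 := hTD (φ g' • P)
    have h2 := hTD P
    have e : T.TD D (φ g' • P) = T.TD D P := by
      have e1 : φ g' • D = D := Finsupp.ext fun Q => by
        rw [SemilinearAut.divisor_smul_apply, ← hD g' hg' ((φ g')⁻¹ • Q), smul_inv_smul]
      conv_lhs => rw [← e1, T.gal g' (hH hg'), SemilinearAut.divisor_smul_apply, inv_smul_smul]
    rw [hD g' hg' P, e] at h1
    omega
  obtain ⟨ch, hch, hfix⟩ := exists_fixed_mult GF hH hh hinv
  set h' := algebraMap Qb F ch * h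
  have hh'0 : h' ≠ 0 := mul_ne_zero (by simpa using hch) hh
  choose w rw₀ hw hwfix hrw hwred using fun i => GF.exists_fixed_scale hF hk (H := (Hs : Set GQ))
    hH (τ := 1) (one_mem _) (i := i) hh'0 hfix
  obtain ⟨n, hn⟩ := key h' w ⟨ch, hch, rfl⟩ hfix
    (fun i => ⟨hw i, hwfix i, rw₀ i, hrw i, hwred i⟩) s
  -- `h ^ p` against the norm of `g`
  have hNg := T.ne_zero g hg
  have hga : g ^ a ≠ 0 := pow_ne_zero _ hg
  obtain ⟨κ, hκ, hκe⟩ := exists_const_of_ord_eq hF (pow_ne_zero p hh'0)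
    (mul_ne_zero hNg (inv_ne_zero hga)) fun P => by
      rw [place_ord_pow, P.ord_mul hNg (inv_ne_zero hga), P.ord_inv, place_ord_pow,
        P.ord_mul (by simpa using hch) hh, place_ord_algebraMap, zero_add,
        T.ord g hg ((p : ℤ) • D) (fun P => by rw [Finsupp.smul_apply, smul_eq_mul, hgD P]) P,
        map_zsmul, Finsupp.smul_apply, smul_eq_mul, hTD P, hgD]
      ring
  have hwp : ∀ i, v (w i) ^ p = v κ * v (c i) ^ ((T.e : ℤ) - a) := by
    intro i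
    obtain ⟨r', hr', hr'0, -⟩ := T.red i _ _ (hr i) (hr0 i)
    have hgg0 := (hr i).ne_zero (hr0 i)
    have h1 : ((H.semiFibre hconn).C i).Red (algebraMap Qb F (κ * (c i) ^ T.e / (c i) ^ a)⁻¹ * h' ^ p)
        (r' * (r i ^ a)⁻¹) := by
      have h2 := hr'.mul (((hr i).pow a).inv (pow_ne_zero _ (hr0 i)))
      convert h2 using 1
      conv_lhs => rw [hκe, hfg i, T.mul, T.const, mul_pow]
      have h3 := (map_ne_zero (algebraMap Qb F)).2 (hc i)
      have h4 := (map_ne_zero (algebraMap Qb F)).2 hκ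
      simp only [map_inv₀, map_div₀, map_mul, map_pow]
      field_simp
    have h5 := scale_eq (X := H.semiFibre hconn) (pow_ne_zero p (hw i))
      (div_ne_zero (mul_ne_zero hκ (pow_ne_zero _ (hc i))) (pow_ne_zero _ (hc i)))
      (pow_ne_zero p (hrw i)) (mul_ne_zero hr'0 (inv_ne_zero (pow_ne_zero _ (hr0 i))))
      (by
        have := (hwred i).pow p
        rwa [mul_pow, ← map_pow, inv_pow] at this) h1
    rw [map_pow, map_div₀, map_mul, map_pow, map_pow] at h5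
    rw [h5, zpow_sub₀ ((A.valuation.pos_iff.2 (hc i)).ne'), zpow_natCast, zpow_natCast,
      mul_div_assoc]
  -- the tube
  obtain ⟨G, d, hG0, -, hG0r, hG1r, hGord, -⟩ := exists_tube_prod (C s) D
  set ε := tubeEps (C s) D
  have hε : ε ≠ 0 := tubeEps_ne_zero (C s) D
  set εC := (C s).ε
  have hεC : εC ≠ 0 := (C s).ε_ne
  set A₀ := (H.brPl s 0).ord (r 0) - p * d with hA₀
  set g₃ := g * (G ^ p)⁻¹ * (C s).T ^ (-A₀) with hg₃
  let c₃ : Fin 2 → Qb := ![c 0, c 1 * (ε ^ p)⁻¹ * εC ^ (-A₀)]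
  let r₃ : ∀ i, Fk i := FibreHyp.mkTwo (r 0 * (((C s).t 0 ^ d) ^ p)⁻¹ * (C s).t 0 ^ (-A₀))
    (r 1 * (((-1 : Fk 1) ^ d) ^ p)⁻¹ * (C s).t 1 ^ (-A₀))
  have hgp : G ^ p ≠ 0 := pow_ne_zero p hG0
  have hg₃0 : g₃ ≠ 0 := mul_ne_zero (mul_ne_zero hg (inv_ne_zero hgp))
    (zpow_ne_zero _ (C s).T_ne)
  have hc₃ : ∀ i, c₃ i ≠ 0 := Fin.forall_fin_two.2 ⟨hc 0,
    mul_ne_zero (mul_ne_zero (hc 1) (inv_ne_zero (pow_ne_zero _ hε))) (zpow_ne_zero _ hεC)⟩
  have hr₃ : ∀ i, (J.C i).Red (algebraMap Qb F (c₃ i)⁻¹ * g₃) (r₃ i) := by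
    rw [Fin.forall_fin_two]
    constructor
    · have h := ((hr 0).mul ((hG0r.pow p).inv (pow_ne_zero _ (zpow_ne_zero _ ((C s).t_ne 0))))).mul
        (FibreHyp.red_zpow (C s).red0 ((C s).t_ne 0) (-A₀))
      convert h using 1
      conv_lhs => rw [hg₃, show c₃ 0 = c 0 from rfl, hfg 0]
      · rw [← mul_assoc, ← mul_assoc, ← mul_assoc, ← map_mul, inv_mul_cancel₀ (hc 0), map_one,
          one_mul]
      · rfl
    · have h := ((hr 1).mul ((hG1r.pow p).inv
        (pow_ne_zero _ (zpow_ne_zero _ (neg_ne_zero.2 one_ne_zero))))).mul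
        (FibreHyp.red_zpow (C s).red1 ((C s).t_ne 1) (-A₀))
      convert h using 1
      conv_lhs => rw [hg₃, show c₃ 1 = c 1 * (ε ^ p)⁻¹ * εC ^ (-A₀) from rfl, hfg 1]
      simp only [mul_inv, map_mul, map_inv₀, map_pow, inv_inv, mul_pow, inv_pow, mul_zpow,
        inv_zpow, map_zpow₀]
      have h3 := (map_ne_zero (algebraMap Qb F)).2 (hc 1)
      · field_simp
        rfl
      · rfl
  have hr₃0 : ∀ i, r₃ i ≠ 0 := Fin.forall_fin_two.2
    ⟨mul_ne_zero (mul_ne_zero (hr0 0) (inv_ne_zero (pow_ne_zero _ (zpow_ne_zero _ ((C s).t_ne 0)))))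
      (zpow_ne_zero _ ((C s).t_ne 0)),
      mul_ne_zero (mul_ne_zero (hr0 1) (inv_ne_zero (pow_ne_zero _ (zpow_ne_zero _
        (neg_ne_zero.2 one_ne_zero))))) (zpow_ne_zero _ ((C s).t_ne 1))⟩
  have hfg₃ : ∀ i, g₃ = algebraMap Qb F (c₃ i) * (algebraMap Qb F (c₃ i)⁻¹ * g₃) := fun i => by
    rw [← mul_assoc, ← map_mul, mul_inv_cancel₀ (hc₃ i), map_one, one_mul]
  have hclean : H.CleanAt s g₃ := fun P hP => by
    rw [hg₃, P.ord_mul (mul_ne_zero hg (inv_ne_zero hgp)) (zpow_ne_zero _ (C s).T_ne),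
      P.ord_mul hg (inv_ne_zero hgp), P.ord_inv, place_ord_pow, hgD, hGord P hP,
      FibreHyp.place_ord_zpow, (C s).clean P hP]
    ring
  have h00 : (H.brPl s 0).ord (r₃ 0) = 0 := by
    show (H.brPl s 0).ord (r 0 * (((C s).t 0 ^ d) ^ p)⁻¹ * (C s).t 0 ^ (-A₀)) = 0
    have hne := pow_ne_zero p (zpow_ne_zero d ((C s).t_ne 0))
    rw [Place.ord_mul _ (mul_ne_zero (hr0 0) (inv_ne_zero hne)) (zpow_ne_zero _ ((C s).t_ne 0)),
      Place.ord_mul _ (hr0 0) (inv_ne_zero hne), Place.ord_inv, place_ord_pow,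
      FibreHyp.place_ord_zpow, FibreHyp.place_ord_zpow, (C s).ord0, hA₀]
    ring
  have heq := FibreHyp.CleanAt.scale_eq hfg₃ hr₃ hr₃0 hg₃0 hclean h00
  have h11 : (H.brPl s 1).ord (r 1) + A₀ = 0 := by
    have h := (FibreHyp.CleanAt.of_eq hfg₃ hr₃ hr₃0 hg₃0 hclean heq).1 1
    change (H.brPl s 1).ord (r 1 * (((-1 : Fk 1) ^ d) ^ p)⁻¹ * (C s).t 1 ^ (-A₀)) = 0 at h
    have hne := pow_ne_zero p (zpow_ne_zero d (neg_ne_zero.2 (one_ne_zero (α := Fk 1))))
    rw [Place.ord_mul _ (mul_ne_zero (hr0 1) (inv_ne_zero hne)) (zpow_ne_zero _ ((C s).t_ne 1)),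
      Place.ord_mul _ (hr0 1) (inv_ne_zero hne), Place.ord_inv, place_ord_pow,
      FibreHyp.place_ord_zpow, FibreHyp.place_ord_zpow, (C s).ord1,
      show (-1 : Fk 1) = algebraMap k (Fk 1) (-1) by simp, place_ord_algebraMap] at h
    linarith
  -- valuations
  obtain ⟨L, hL⟩ := hεn s
  have hLΔ : L * U.δ s = U.Δ := by
    have hlt : v (p : Qb) < 1 := valuation_p_lt_one hA
    have h1 : v (p : Qb) ^ (L * U.δ s) = v (p : Qb) ^ (U.Δ : ℤ) := by
      rw [zpow_mul, ← hL, zpow_natCast, zpow_natCast, ← map_pow, (C s).ε_pow, U.d_val]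
    exact (zpow_right_strictAnti₀ (valuation_p_pos (A := A) hp) hlt).injective h1
  have hLp : ¬ (p : ℤ) ∣ L := fun hd => hΔ (Int.natCast_dvd_natCast.1
    (hLΔ ▸ dvd_mul_of_dvd_left hd _))
  have hπ0 : 0 < v π₁ := zero_lt_iff.2 fun h0 => by
    rw [h0, zero_pow (by have := hp.two_le; omega)] at hπp
    exact (valuation_p_pos (A := A) hp).ne hπp
  have hcc : v (c 1) / v (c 0) = v ε ^ p * v εC ^ A₀ := by
    have h := heq
    change v (c 1 * (ε ^ p)⁻¹ * εC ^ (-A₀)) = v (c 0) at h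
    rw [map_mul, map_mul, map_inv₀, map_pow, map_zpow₀, zpow_neg] at h
    have := (A.valuation.pos_iff.2 hε).ne'
    have := (zpow_ne_zero A₀ (A.valuation.pos_iff.2 hεC).ne')
    rw [← h]
    have := (A.valuation.pos_iff.2 (hc 1)).ne'
    field_simp
  have hmain : v π₁ ^ (n * p) = v π₁ ^ (((p - 1 : ℕ) : ℤ) * (L * (A₀ * ((T.e : ℤ) - a)))) := by
    rw [zpow_mul, ← hn, map_div₀, map_div₀, map_zpow₀, zpow_natCast, div_pow, div_pow,
      hwp 1, hwp 0, mul_div_mul_left _ _ (A.valuation.pos_iff.2 hκ).ne', ← div_zpow, hcc,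
      mul_zpow, zpow_mul, zpow_natCast (v π₁), hπp, zpow_mul, ← hL, zpow_mul,
      ← zpow_natCast (v ε), ← zpow_mul, ← zpow_natCast (v ε ^ ((T.e : ℤ) - a)), ← zpow_mul,
      mul_comm (p : ℤ) ((T.e : ℤ) - a)]
    rw [mul_div_assoc, mul_comm (v ε ^ (((T.e : ℤ) - a) * (p : ℤ))), ← zpow_mul (v ε), div_mul_cancel₀]
    exact zpow_ne_zero _ (A.valuation.pos_iff.2 hε).ne'
  have he := (zpow_right_strictAnti₀ hπ0 hπlt).injective hmain
  have hP := Nat.prime_iff_prime_int.1 hp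
  have hA0 : (p : ℤ) ∣ A₀ := by
    have h1 : (p : ℤ) ∣ ((p - 1 : ℕ) : ℤ) * (L * (A₀ * ((T.e : ℤ) - a))) := he ▸ dvd_mul_left _ _
    rcases hP.dvd_or_dvd h1 with h1 | h1
    · exact absurd (Nat.le_of_dvd (by have := hp.two_le; omega) (Int.natCast_dvd_natCast.1 h1))
        (by have := hp.two_le; omega)
    rcases hP.dvd_or_dvd h1 with h1 | h1
    · exact absurd h1 hLp
    rcases hP.dvd_or_dvd h1 with h1 | h1
    · exact h1
    · exact absurd h1 hm
  refine ⟨?_, ?_⟩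
  · rw [show (H.brPl s 0).ord (r 0) = A₀ + p * d by rw [hA₀]; ring]
    exact dvd_add hA0 (dvd_mul_right _ _)
  · rw [show (H.brPl s 1).ord (r 1) = -A₀ by linarith]
    exact hA0.neg_right

variable {τ : GQ} (hτ : τ ∈ A.inertiaSubgroupIn ℚ) {η π₁ : Qb} (hπ₁ : π₁ ≠ 0)
  (hπη : A.valuation π₁ < A.valuation η) (hη : A.valuation η < 1)
  (hsub : ∀ a : Qb, (∀ g ∈ Hs, g a = a) → A.valuation a ≤ 1 → A.valuation (τ a - a) < A.valuation η)
  {N₀ : Subgroup GQ} (hN₀ : N₀ ≤ A.inertiaSubgroupIn ℚ)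
  (hle : ∀ c : Qb, (∀ g ∈ N₀, g c = c) → A.valuation c < 1 → A.valuation c ≤ A.valuation π₁)

include hτ hπ₁ hπη hη hsub hN₀ hle

open Classical in
/-- **The ratio of scales from the maximum principle.** -/
theorem key_of_near_const
    (hzp : ∀ z : Qb, z ≠ 0 → (∀ g ∈ Hs, g z = z) → v (τ z - z) < v η * v z →
      ∃ n : ℤ, v z = v π₁ ^ n)
    (hroot : ∀ b : k, b ^ p = 1 → b = 1)
    (D E : Divisor Qb F) (hD : ∀ g ∈ Hs, ∀ P, D (φ g • P) = D P)
    (hE : ∀ g ∈ N₀, ∀ P, E (φ g • P) = E P) (hEc : (H.semiFibre hconn).Clean E)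
    (hE0 : ∀ i, (H.semiFibre hconn).push E i = 0)
    {gE : F} (hgE : gE ≠ 0) (hgEd : ∀ P, P.ord gE = (p : ℤ) * E P)
    {f : F} (hf : f ≠ 0) (hfd : ∀ P, P.ord f = D ((φ τ)⁻¹ • P) - D P - E P)
    (a : ℕ) {h : F} (hh : h ≠ 0) (hTD : ∀ P, T.TD D P = (a : ℤ) * D P + P.ord h)
    {kk : F} (hkk : kk ≠ 0) (hTE : ∀ P, T.TD E P = (a : ℤ) * E P + P.ord kk)
    (h' : F) (w : Fin 2 → Qb) (hh' : ∃ c : Qb, c ≠ 0 ∧ h' = algebraMap Qb F c * h)
    (hfix : ∀ g ∈ Hs, φ g • h' = h')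
    (hw : ∀ i, w i ≠ 0 ∧ (∀ g ∈ Hs, g (w i) = w i) ∧
        ∃ r, r ≠ 0 ∧ ((H.semiFibre hconn).C i).Red (algebraMap Qb F (w i)⁻¹ * h') r)
    (s : H.Sg) :
    ∃ n : ℤ, v (w 1 / w 0 / tubeEps (C s) D ^ ((T.e : ℤ) - a)) = v π₁ ^ n := by
  obtain ⟨c, hc, hcs⟩ := exists_near_const GF hp hA hind C hC hH hτ hπ₁ hπη hη hsub hN₀ hle D E hD
    hE hEc hE0 hf hfd
  obtain ⟨ch, hch, hh'e⟩ := hh'
  have hh'0 : h' ≠ 0 := by rw [hh'e]; exact mul_ne_zero (by simpa using hch) hh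
  -- the function of the connected class
  obtain ⟨kc, hkc, hkfix⟩ := exists_fixed_mult GF hN₀ hkk fun g hg P => by
    have h1 := hTE (φ g • P)
    have h2 := hTE P
    have e : T.TD E (φ g • P) = T.TD E P := by
      have e1 : φ g • E = E := Finsupp.ext fun Q => by
        rw [SemilinearAut.divisor_smul_apply, ← hE g hg ((φ g)⁻¹ • Q), smul_inv_smul]
      conv_lhs => rw [← e1, T.gal g (hN₀ hg), SemilinearAut.divisor_smul_apply, inv_smul_smul]
    rw [hE g hg P, e] at h1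
    omega
  set k₁ := algebraMap Qb F kc * kk
  have hk₁ : k₁ ≠ 0 := mul_ne_zero (by simpa using hkc) hkk
  obtain ⟨b, hb, hbr⟩ := FibreHyp.exists_red_one hconn hgE
    (fun t P hP => by rw [hgEd, hEc P (H.tubeAt_iff_none.2 ⟨t, hP⟩), mul_zero])
    (fun i Q _ => by
      rw [show divOf hF gE = p • E from Finsupp.ext fun P => by
        rw [divOf_apply, hgEd, Finsupp.smul_apply, nsmul_eq_mul], SemiFibre.push_nsmul, hE0,
        smul_zero]
      rfl)
  have hNE := T.ne_zero gE hgE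
  have hEa : gE ^ a ≠ 0 := pow_ne_zero _ hgE
  obtain ⟨κ, hκ, hκe⟩ := exists_const_of_ord_eq hF (pow_ne_zero p hk₁)
    (mul_ne_zero hNE (inv_ne_zero hEa)) fun P => by
      rw [place_ord_pow, P.ord_mul hNE (inv_ne_zero hEa), P.ord_inv, place_ord_pow,
        P.ord_mul (by simpa using hkc) hkk, place_ord_algebraMap, zero_add,
        T.ord gE hgE ((p : ℤ) • E) (fun P => by rw [Finsupp.smul_apply, smul_eq_mul, hgEd P]) P,
        map_zsmul, Finsupp.smul_apply, smul_eq_mul, hTE P, hgEd]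
      ring
  obtain ⟨μ, hμ⟩ := IsAlgClosed.exists_pow_nat_eq (κ * b ^ T.e / b ^ a) hp.pos
  have hμ0 : μ ≠ 0 := fun h0 => by
    rw [h0, zero_pow hp.ne_zero] at hμ
    exact div_ne_zero (mul_ne_zero hκ (pow_ne_zero _ hb)) (pow_ne_zero _ hb) hμ.symm
  have hk1 : ∀ i, ((H.semiFibre hconn).C i).Red (algebraMap Qb F μ⁻¹ * k₁) 1 := by
    intro i
    obtain ⟨r', hr', -, hr'1⟩ := T.red i _ _ (hbr i) one_ne_zero
    rw [hr'1 rfl] at hr'
    have h1 := hr'.mul (((hbr i).pow a).inv (by simp))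
    rw [one_pow, inv_one, mul_one] at h1
    have h2 : ((H.semiFibre hconn).C i).Red ((algebraMap Qb F μ⁻¹ * k₁) ^ p) 1 := by
      convert h1 using 1
      rw [mul_pow, ← map_pow, inv_pow, hμ, hκe, T.mul, T.const, mul_pow]
      have h3 := (map_ne_zero (algebraMap Qb F)).2 hb
      have h4 := (map_ne_zero (algebraMap Qb F)).2 hκ
      simp only [map_inv₀, map_div₀, map_mul, map_pow]
      field_simp
      simp only [← mul_pow, mul_one_div, div_self h3, one_pow]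
    obtain ⟨r, hr, hrp⟩ := exists_red_of_pow ((H.semiFibre hconn).scaled i) hp.ne_zero h2 one_ne_zero
    obtain ⟨z, rfl⟩ := exists_const_of_pow (hk i) hp.ne_zero
      (hrp.trans (map_one (algebraMap k (Fk i))).symm)
    rw [← map_pow, ← map_one (algebraMap k (Fk i))] at hrp
    rwa [hroot z ((algebraMap k (Fk i)).injective hrp), map_one] at hr
  obtain ⟨P, Q, b₀, hP, hQ, hPfix, hb₀, hb₀1⟩ := GF.exists_good_place hF hk (hk1 0) one_ne_zero
    ((FA.Curve.finite_support hF k₁).toFinset.image (H.semiFibre hconn).spl ∪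
      Finset.univ.image fun t => some ((H.semiFibre hconn).br t))
  rw [Finset.mem_union, not_or] at hQ
  have hb₀0 : b₀ ≠ 0 := fun h0 => by rw [h0, map_zero] at hb₀1; exact zero_ne_one hb₀1
  have hμk : algebraMap Qb F μ⁻¹ * k₁ ≠ 0 := mul_ne_zero (by simpa using hμ0) hk₁
  obtain ⟨hb₀A, hb₀v⟩ := (H.semiFibre hconn).hasValue_red hF (hk1 0)
    (fun t ht => hQ.2 (Finset.mem_image.2 ⟨t, Finset.mem_univ t, by rw [ht]⟩))
    (fun P' hP' => Or.inr (le_of_eq (by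
      rw [P'.ord_mul (by simpa using hμ0) hk₁, place_ord_algebraMap, zero_add]
      by_contra hne
      exact hQ.1 (Finset.mem_image.2
        ⟨P', (FA.Curve.finite_support hF k₁).mem_toFinset.2 (Ne.symm hne), hP'⟩))))
    hP hb₀
  set k₀ := μ * b₀
  have hk₀ : k₀ ≠ 0 := mul_ne_zero hμ0 hb₀0
  have hk₀fix : ∀ g ∈ N₀, g k₀ = k₀ := fun g hg => by
    have h1 : HasValue P k₁ k₀ := by
      have := hb₀.smul μ
      rwa [← mul_assoc, ← map_mul, mul_inv_cancel₀ hμ0, map_one, one_mul] at this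
    have h2 := GF.hasValue (g := g) h1
    rw [hPfix g (hN₀ hg), hkfix g hg] at h2
    exact h2.unique h1
  have hkr : ∀ i, ((H.semiFibre hconn).C i).Red (algebraMap Qb F k₀⁻¹ * k₁) 1 := by
    intro i
    have hinv : b₀⁻¹ ∈ A := (A.valuation_le_one_iff _).1 (by rw [map_inv₀, hb₀1, inv_one])
    have h1 := ((H.semiFibre hconn).red_const i ⟨_, hinv⟩).mul (hk1 i)
    rw [mul_one, show algebraMap k (Fk i) ((H.semiFibre hconn).π ⟨_, hinv⟩) = 1 by
      have e : (H.semiFibre hconn).π ⟨b₀, hb₀A⟩ = 1 := hb₀v.unique (by simpa using hasValue_algebraMap Q (1 : k))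
      have e2 : (H.semiFibre hconn).π ⟨_, hinv⟩ * (H.semiFibre hconn).π ⟨b₀, hb₀A⟩ = 1 := by
        rw [← map_mul, show (⟨b₀⁻¹, hinv⟩ : A) * ⟨b₀, hb₀A⟩ = 1 from
          Subtype.ext (inv_mul_cancel₀ hb₀0), map_one]
      rw [e, mul_one] at e2
      rw [e2, map_one]] at h1
    convert h1 using 1
    show _ = algebraMap Qb F b₀⁻¹ * _
    rw [show k₀⁻¹ = b₀⁻¹ * μ⁻¹ from mul_inv_rev μ b₀, map_mul, mul_assoc]
  have hksmall : ∀ i, SmallAt (H.semiFibre hconn) η i (algebraMap Qb F k₀⁻¹ * k₁ - 1) := fun i =>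
    GF.small_of_fixed hF hk hπ₁ hπη (N := (N₀ : Set GQ)) hN₀ hle
      (fun g hg => by
        rw [smul_sub, smul_mul', SemilinearAut.smul_algebraMap, GF.base, map_inv₀,
          hk₀fix g hg, hkfix g hg, smul_one])
      (by simpa using (hkr i).sub (ConstRed.red_one (C := (H.semiFibre hconn).C i)))
  -- the norm of `f`
  have hτh : φ τ • h' ≠ 0 := fun e => hh'0 (MulAction.injective (φ τ) (e.trans (smul_zero _).symm))
  have hNf := T.ne_zero f hf
  set Φ := f ^ a * (φ τ • h' * h'⁻¹) * k₁⁻¹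
  have hΦ : Φ ≠ 0 := mul_ne_zero (mul_ne_zero (pow_ne_zero _ hf)
    (mul_ne_zero hτh (inv_ne_zero hh'0))) (inv_ne_zero hk₁)
  obtain ⟨C₀, hC₀, hC₀e⟩ := exists_const_of_ord_eq hF hNf hΦ fun R => by
    have hdiv : ∀ R, (φ τ • D - D - E) R = R.ord f := fun R => by
      rw [hfd, Finsupp.sub_apply, Finsupp.sub_apply, SemilinearAut.divisor_smul_apply]
    rw [T.ord f hf _ hdiv R, map_sub, map_sub, T.gal τ hτ, Finsupp.sub_apply, Finsupp.sub_apply,
      SemilinearAut.divisor_smul_apply, hTD, hTD, hTE]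
    have e1 := SemilinearAut.ord_smul (φ τ) ((φ τ)⁻¹ • R) h'
    rw [smul_inv_smul] at e1
    have e2 : ∀ R : Place Qb F, R.ord h' = R.ord h := fun R => by
      rw [hh'e, R.ord_mul (by simpa using hch) hh, place_ord_algebraMap, zero_add]
    rw [R.ord_mul (mul_ne_zero (pow_ne_zero _ hf) (mul_ne_zero hτh (inv_ne_zero hh'0)))
      (inv_ne_zero hk₁), R.ord_mul (pow_ne_zero _ hf) (mul_ne_zero hτh (inv_ne_zero hh'0)),
      R.ord_mul hτh (inv_ne_zero hh'0), R.ord_inv, R.ord_inv, place_ord_pow, e1, e2, e2,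
      R.ord_mul (by simpa using hkc) hkk, place_ord_algebraMap, hfd]
    ring
  set u : Fin 2 → Qb := fun i => τ (w i) / w i
  have hu : ∀ i, v (u i) = 1 ∧ SmallAt (H.semiFibre hconn) η i (algebraMap Qb F (u i)⁻¹ * (φ τ • h' * h'⁻¹) - 1) := by
    intro i
    obtain ⟨hw0, hwfix, r, hr0, hr⟩ := hw i
    obtain ⟨h1, h2⟩ := GF.small_ratio_scale hF hk (H := (Hs : Set GQ)) hH hτ hsub hη.le hπ₁ hπη
      hfix hwfix hw0 hr hr0
    refine ⟨h2, ?_⟩
    have hui : u i ≠ 0 := fun h0 => by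
      have : v (u i) = 1 := h2
      rw [h0, map_zero] at this; exact zero_ne_one this
    have h3 := h1.smul (c := (u i)⁻¹) (by rw [map_inv₀, show v (u i) = 1 from h2, inv_one])
    rwa [mul_sub, ← map_mul, inv_mul_cancel₀ hui, map_one] at h3
  have hK : ∀ i, v (C₀ * (c i) ^ a * u i / ((c i) ^ T.e * k₀) - 1) < v η := by
    intro i
    obtain ⟨hci, hcf⟩ := hc i
    have hui : u i ≠ 0 := fun h0 => by
      have := (hu i).1
      rw [h0, map_zero] at this; exact zero_ne_one this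
    set K := C₀ * (c i) ^ a * u i / ((c i) ^ T.e * k₀)
    have hN := T.small η hη i _ hcf
    set P₀ := (algebraMap Qb F (c i)⁻¹ * f) ^ a *
      (algebraMap Qb F (u i)⁻¹ * (φ τ • h' * h'⁻¹)) * (algebraMap Qb F k₀⁻¹ * k₁)⁻¹
    have hP₀ : SmallAt (H.semiFibre hconn) η i (P₀ - 1) := by
      refine SmallAt.mul_sub_one (SmallAt.mul_sub_one ?_ (hu i).2 hη.le)
        (SmallAt.inv_sub_one (hksmall i) hη.le) hη.le
      clear_value P₀
      have hpow : ∀ n : ℕ, SmallAt (H.semiFibre hconn) η i ((algebraMap Qb F (c i)⁻¹ * f) ^ n - 1) := by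
        intro n
        induction n with
        | zero => rw [pow_zero, sub_self]; exact SmallAt.zero hπ₁ hπη
        | succ n ih => rw [pow_succ]; exact SmallAt.mul_sub_one ih hcf hη.le
      exact hpow a
    have e : T.N (algebraMap Qb F (c i)⁻¹ * f) = algebraMap Qb F K * P₀ := by
      rw [T.mul, T.const, hC₀e]
      have h3 := (map_ne_zero (algebraMap Qb F)).2 hci
      have h4 := (map_ne_zero (algebraMap Qb F)).2 hui
      have h5 := (map_ne_zero (algebraMap Qb F)).2 hk₀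
      simp only [K, P₀, Φ, map_inv₀, map_div₀, map_mul, map_pow, mul_pow, inv_pow]
      field_simp
    rw [e] at hN
    have hP₀r := hP₀.red_one hη.le
    have h6 := SmallAt.mul_sub_one hN (SmallAt.inv_sub_one hP₀ hη.le) hη.le
    rw [mul_inv_cancel_right₀ (hP₀r.ne_zero one_ne_zero), ← map_one (algebraMap Qb F),
      ← map_sub] at h6
    exact h6.of_const
  set ρ := tubeEps (C s) D / τ (tubeEps (C s) D)
  have hε : tubeEps (C s) D ≠ 0 := tubeEps_ne_zero (C s) D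
  have hεfix : ∀ g ∈ Hs, g (tubeEps (C s) D) = tubeEps (C s) D := fun g hg =>
    tubeEps_fixed GF hind (C s) (hC s) (hH hg) (hD g hg)
  set z := w 1 / w 0 / tubeEps (C s) D ^ ((T.e : ℤ) - a)
  have hz : z ≠ 0 :=
    div_ne_zero (div_ne_zero (hw 1).1 (hw 0).1) (zpow_ne_zero _ hε)
  refine hzp z hz (fun g hg => by
    simp only [z, map_div₀, map_zpow₀, (hw 1).2.1 g hg, (hw 0).2.1 g hg, hεfix g hg]) ?_
  have h7 := cong_mul (cong_mul (hK 1) (cong_inv (hK 0) hη.le) hη.le)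
    (cong_zpow (hcs s) hη.le ((T.e : ℤ) - a)) hη.le
  have heq : τ z / z = C₀ * (c 1) ^ a * u 1 / ((c 1) ^ T.e * k₀) *
      (C₀ * (c 0) ^ a * u 0 / ((c 0) ^ T.e * k₀))⁻¹ * (c 1 / c 0 * ρ) ^ ((T.e : ℤ) - a) := by
    simp only [z, u, ρ, map_div₀, map_zpow₀, div_zpow, mul_zpow, zpow_sub₀ (hc 1).1,
      zpow_sub₀ (hc 0).1, zpow_natCast]
    have h1 := (hc 1).1
    have h2 := (hc 0).1
    have h3 := (hw 1).1
    have h4 := (hw 0).1
    have h5 : τ (w 1) ≠ 0 := by simpa using h3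
    have h6 : τ (w 0) ≠ 0 := by simpa using h4
    have h8 : τ (tubeEps (C s) D) ≠ 0 := by simpa using hε
    have h9 := zpow_ne_zero ((T.e : ℤ) - a) hε
    have h10 := zpow_ne_zero ((T.e : ℤ) - a) h8
    field_simp
  rw [← heq, div_sub_one hz, map_div₀, div_lt_iff₀ (A.valuation.pos_iff.2 hz)] at h7
  exact h7

end FA.ModField.AtP
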