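import Fermat.Agent.ModField.Semistable.Mono.Kernel
import Fermat.Agent.ModField.Semistable.AtP.Slope
import Fermat.Agent.ModField.Semistable.AtP.LowClass

/-!
# The fibre of `X₀(M q)` with inertia and the norms of `T_ℓ`

The norm of `T_ℓ` carries functions near `1` on a component to functions near `1`.
-/

set_option autoImplicit false
set_option linter.style.haveILetI false
set_option linter.unusedSectionVars false
set_option synthInstance.maxHeartbeats 400000
set_option maxHeartbeats 1600000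

noncomputable section

namespace FA.ModField.AtP

open ModularCurve AlgebraicCurve FA.Curve FA.CurveRed FA.JTorsion FA.Level FA.LocalDef

local notation "Qb" => AlgebraicClosure ℚ
local notation "GQ" => AlgebraicClosure ℚ ≃ₐ[ℚ] AlgebraicClosure ℚ

/-- Products of congruent factors are congruent. -/
theorem exists_prod_eq_add {R ι : Type*} [CommRing R] (s : Finset ι) (c : R) (a b : ι → R) :
    ∃ w, ∏ i ∈ s, (a i + c * b i) = ∏ i ∈ s, a i + c * w := by
  classical
  induction s using Finset.induction_on with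
  | empty => exact ⟨0, by simp⟩
  | insert i s his ih =>
    obtain ⟨w, hw⟩ := ih
    refine ⟨a i * w + b i * ∏ j ∈ s, a j + c * b i * w, ?_⟩
    rw [Finset.prod_insert his, Finset.prod_insert his, hw]
    ring

section Field

variable [Algebra Qb ℂ] (N : ℕ) [NeZero N]

/-- An element of the function field is defined over a number field. -/
theorem exists_field_fix_fn (f : levelField N Qb) :
    ∃ E : IntermediateField ℚ Qb, FiniteDimensional ℚ E ∧
      ∀ g ∈ E.fixingSubgroup, galAut N Qb g • f = f := by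
  suffices h : ∃ E : IntermediateField ℚ Qb, FiniteDimensional ℚ E ∧
      ∀ g ∈ E.fixingSubgroup, coeffMap ((g : GQ) : Qb →+* Qb) (f : LaurentSeries Qb) = f by
    obtain ⟨E, hE, h⟩ := h
    exact ⟨E, hE, fun g hg => Subtype.ext (h g hg)⟩
  have hf : (f : LaurentSeries Qb) ∈ modularFunctionFieldFullC Qb N :=
    (laurentBaseChange_full Qb N).le f.2
  generalize (f : LaurentSeries Qb) = x at hf ⊢
  induction hf using IntermediateField.adjoin_induction with
  | mem y hy =>
    obtain ⟨d, hne, -, rfl⟩ := hy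
    exact ⟨⊥, inferInstance, fun g _ => by rw [coeffMap_qExpand, coeffMap_jqModC]⟩
  | algebraMap c =>
    haveI := IntermediateField.adjoin.finiteDimensional
      (Algebra.IsIntegral.isIntegral (R := ℚ) c)
    refine ⟨IntermediateField.adjoin ℚ {c}, inferInstance, fun g hg => ?_⟩
    rw [algebraMap_laurentSeries_eq_single]
    ext k
    rw [coeffMap_coeff]
    by_cases hk : k = 0
    · subst hk
      rw [HahnSeries.coeff_single_same]
      exact (IntermediateField.mem_fixingSubgroup_iff _ g).1 hg c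
        (IntermediateField.mem_adjoin_simple_self ℚ c)
    · rw [HahnSeries.coeff_single_of_ne hk, map_zero]
  | add y z _ _ hy hz =>
    obtain ⟨E, hE, hy⟩ := hy
    obtain ⟨E', hE', hz⟩ := hz
    haveI := hE; haveI := hE'
    exact ⟨E ⊔ E', inferInstance, fun g hg => by
      rw [map_add, hy g (IntermediateField.fixingSubgroup_le le_sup_left hg),
        hz g (IntermediateField.fixingSubgroup_le le_sup_right hg)]⟩
  | mul y z _ _ hy hz =>
    obtain ⟨E, hE, hy⟩ := hy
    obtain ⟨E', hE', hz⟩ := hz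
    haveI := hE; haveI := hE'
    exact ⟨E ⊔ E', inferInstance, fun g hg => by
      rw [map_mul, hy g (IntermediateField.fixingSubgroup_le le_sup_left hg),
        hz g (IntermediateField.fixingSubgroup_le le_sup_right hg)]⟩
  | inv y _ hy =>
    obtain ⟨E, hE, hy⟩ := hy
    exact ⟨E, hE, fun g hg => by rw [map_inv₀, hy g hg]⟩

end Field

variable [Algebra Qb ℂ] (M q : ℕ) [NeZero M] [hq : Fact q.Prime] [hq0 : NeZero q]
variable (A : ValuationSubring Qb) [IsAlgClosed (IsLocalRing.ResidueField A)]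
  [CharP (IsLocalRing.ResidueField A) q] (hA : A.LiesOverPrime q) (hqM : ¬ q ∣ M)
  (harch : ∀ c : Qb, c ≠ 0 → ∃ m : ℕ, A.valuation ((q : Qb) ^ m) < A.valuation c)

local notation "kA" => IsLocalRing.ResidueField A
local notation "πA" => IsLocalRing.residue A
local notation "Fl" => levelField (M * q) Qb
local notation "Fb" => modularFunctionFieldFullC (IsLocalRing.ResidueField A) M
local notation "CI" => cInf M q A πA IsLocalRing.residue_surjective residueAt_eq_zero hqM harch
local notation "CZ" => cZero M q A πA IsLocalRing.residue_surjective residueAt_eq_zero hqM harch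
local notation "XX" => theSemi M q A hqM harch
local notation "φφ" => arithmeticGalois (modularFunctionFieldFull (M * q)) (L := Qb)

theorem semi_C_zero : (XX).C 0 = CI := rfl

theorem semi_C_one : (XX).C 1 = CZ := rfl

include hA in
/-- The fibre with the action of inertia. -/
theorem galFibre : GalFibre XX φφ where
  base := fun _ _ => rfl
  stable := fun _ hg =>
    (fibreData M q A πA IsLocalRing.residue_surjective residueAt_eq_zero hqM harch).stable
      (inducesOn_inertia hg)
  fixed := fun i => infinite_fix M q A hA hqM harch i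
  cont := exists_field_fix_fn (M * q)

variable (ℓ : ℕ) [hℓ : Fact ℓ.Prime] [NeZero ℓ] (hℓN : ¬ ℓ ∣ M * q)

include hℓN in
/-- The norm preserves congruences to `1` on the component of `∞`. -/
theorem red_normT_sub_one {a : A} (ha : (a : Qb) ≠ 0) {f : Fl} {r : Fb}
    (h : (CI).Red (algebraMap Qb Fl (a : Qb)⁻¹ * (f - 1)) r) :
    ∃ r', (CI).Red (algebraMap Qb Fl (a : Qb)⁻¹ * (normT (M * q) ℓ Qb f - 1)) r' := by
  obtain ⟨Y, Y', hY, hY', hne, hfe, -⟩ :=
    (cInf_red M q A πA IsLocalRing.residue_surjective residueAt_eq_zero hqM harch).1 h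
  set g := algebraMap Qb Fl (a : Qb)⁻¹ * (f - 1)
  set y' : Fl := ⟨_, hY'⟩
  set y : Fl := ⟨_, hY⟩
  have hgy : g * y' = y := Subtype.ext hfe
  obtain ⟨Z', hZ', hZk'⟩ := exists_normT_series ℓ A πA (M * q) hℓN y' Y' rfl
  have hne' : coeffMap πA Z' ≠ 0 := fun h0 => conjProd_ne_zero ℓ (zetaK ℓ A πA) hne
    (by rw [← hZk', h0, map_zero])
  have ha' : (algebraMap Qb Fl (a : Qb)) ≠ 0 := by simpa using ha
  have hfy : f * y' = y' + algebraMap Qb Fl (a : Qb) * y := by
    rw [← hgy]
    simp only [g, map_inv₀]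
    field_simp
    ring
  obtain ⟨W, hW⟩ := exists_prod_eq_add Finset.univ
    (HahnSeries.C a : LaurentSeries A) (fun i => conjMap ℓ (zetaA ℓ A) i Y')
    (fun i => conjMap ℓ (zetaA ℓ A) i Y)
  set z : Fl := algebraMap Qb Fl (a : Qb)⁻¹ *
    (normT (M * q) ℓ Qb (f * y') - normT (M * q) ℓ Qb y')
  have hC : ∀ b : Qb, ((algebraMap Qb Fl b : Fl) : LaurentSeries Qb) = HahnSeries.C b := fun b => by
    rw [HahnSeries.C_apply, ← algebraMap_laurentSeries_eq_single]
    rfl
  have hCA : coeffMap (A.subtype : A →+* Qb) (HahnSeries.C a) = HahnSeries.C (a : Qb) := by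
    ext n
    by_cases hn : n = 0
    · subst hn; simp [HahnSeries.C_apply]
    · simp [HahnSeries.C_apply, hn]
  have hconjC : ∀ i, conjMap ℓ (zetaL ℓ Qb) i (HahnSeries.C (a : Qb)) = HahnSeries.C (a : Qb) := by
    intro i
    haveI : NeZero (ℓ * ℓ) := ⟨mul_ne_zero hℓ.out.ne_zero hℓ.out.ne_zero⟩
    cases i with
    | none => exact qExpand_C (ℓ * ℓ) _
    | some b => exact twist_C _ _
  have hz : coeffMap (A.subtype : A →+* Qb) W = qExpand Qb ℓ (z : LaurentSeries Qb) := by
    have hW' := congrArg (coeffMap (A.subtype : A →+* Qb)) hW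
    simp only [map_prod, map_add, map_mul, coeffMap_conjMap, map_zetaA, hCA] at hW'
    have e1 : qExpand Qb ℓ (normT (M * q) ℓ Qb (f * y') : LaurentSeries Qb) =
        qExpand Qb ℓ (normT (M * q) ℓ Qb y' : LaurentSeries Qb) +
          HahnSeries.C (a : Qb) * coeffMap (A.subtype : A →+* Qb) W := by
      rw [qExpand_normT (M * q) ℓ Qb hℓN (zetaL_spec ℓ Qb),
        qExpand_normT (M * q) ℓ Qb hℓN (zetaL_spec ℓ Qb), ← hW']
      refine Finset.prod_congr rfl fun i _ => ?_
      rw [hfy, AddMemClass.coe_add, MulMemClass.coe_mul, hC, map_add, map_mul, hconjC]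
    simp only [z, MulMemClass.coe_mul, AddSubgroupClass.coe_sub, hC, map_mul, map_sub, e1,
      qExpand_C, add_sub_cancel_left, ← mul_assoc]
    rw [← map_mul, inv_mul_cancel₀ ha, map_one, one_mul]
  obtain ⟨Z, hZ, -⟩ := exists_qExpand_of_coeffMap (ℓ := ℓ) A.subtype_injective hz
  obtain ⟨r1, -, h1⟩ := X0.cInf_series M q A πA IsLocalRing.residue_surjective residueAt_eq_zero
    hqM harch Z (f := z) hZ
  obtain ⟨r2, hr2, h2⟩ := X0.cInf_series M q A πA IsLocalRing.residue_surjective residueAt_eq_zero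
    hqM harch Z' (f := normT (M * q) ℓ Qb y') hZ'
  have hr20 : r2 ≠ 0 := fun h0 => hne' (by rw [← hr2, h0]; rfl)
  refine ⟨r1 * r2⁻¹, ?_⟩
  have := h1.mul (h2.inv hr20)
  convert this using 1
  have hy0 := h2.ne_zero hr20
  simp only [z, normT_mul]
  field_simp

include hℓN in
theorem red_normT_sub_one' {a : A} (ha : (a : Qb) ≠ 0) {f : Fl} {r : Fb}
    (h : (CZ).Red (algebraMap Qb Fl (a : Qb)⁻¹ * (f - 1)) r) :
    ∃ r', (CZ).Red (algebraMap Qb Fl (a : Qb)⁻¹ * (normT (M * q) ℓ Qb f - 1)) r' := by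
  rw [cZero_red, map_mul, AlgEquiv.commutes, map_sub, map_one] at h
  obtain ⟨r', hr'⟩ := red_normT_sub_one M q A hqM harch ℓ hℓN ha h
  refine ⟨r', ?_⟩
  rw [cZero_red, map_mul, AlgEquiv.commutes, map_sub, map_one]
  rwa [normT_wLvl M q ℓ Qb hℓN hqM] at hr'

include hℓN in
/-- The norm preserves congruences to `1`. -/
theorem small_normT (η : Qb) (hη : A.valuation η < 1) (i : Fin 2) (f : Fl)
    (h : SmallAt XX η i (f - 1)) : SmallAt XX η i (normT (M * q) ℓ Qb f - 1) := by
  obtain ⟨a, ha, hav, r, hr⟩ := h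
  have haA : a ∈ A := (A.valuation_le_one_iff a).1 (hav.trans hη).le
  suffices H : ∀ j r, ((XX).C j).Red (algebraMap Qb Fl a⁻¹ * (f - 1)) r →
      SmallAt XX η j (normT (M * q) ℓ Qb f - 1) from H i r hr
  refine Fin.forall_fin_two.2 ⟨?_, ?_⟩ <;> intro r hr
  · exact ⟨a, ha, hav, red_normT_sub_one M q A hqM harch ℓ hℓN (a := ⟨a, haA⟩) ha hr⟩
  · exact ⟨a, ha, hav, red_normT_sub_one' M q A hqM harch ℓ hℓN (a := ⟨a, haA⟩) ha hr⟩

theorem heckeDiv_gal (g : GQ) (D : Divisor Qb Fl) :
    heckeDiv (M * q) Qb ℓ (φφ g • D) = φφ g • heckeDiv (M * q) Qb ℓ D := by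
  have hF := isFunctionField_level Qb (M * q)
  have hF' := isFunctionField_level Qb (M * q * ℓ)
  haveI := hasPrincipalDivisors hF'
  simp only [heckeDiv, heckeDivBar, Divisor.correspondence_apply]
  rw [pullbackAlong_smul _ (intertwines_beta (M * q) ℓ g),
    pushforwardAlong_smul hF hF' _ (intertwines_alpha (M * q) ℓ g)]

/-- The norm of `T_ℓ` as an operator on the fibre. -/
def normOp (hℓN : ¬ ℓ ∣ M * q) : NormOp XX φφ where
  N := normT (M * q) ℓ Qb
  e := ℓ + 1
  TD := heckeDiv (M * q) Qb ℓ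
  mul := normT_mul (M * q) ℓ Qb
  ne_zero := fun _ hf => normT_ne_zero (M * q) ℓ Qb hf
  const := normT_algebraMap (M * q) ℓ hℓN Qb
  ord := fun f hf D hD P => by
    obtain ⟨hα, hβ, hP, hfin, hFI, hN⟩ := heckeInputs_level (L := Qb) (M * q) ℓ
    haveI := hP
    obtain ⟨-, h1⟩ := ord_norm_correspondence (heckeBetaBar Qb (M * q) ℓ)
      (heckeAlphaBar Qb (M * q) ℓ) hβ hα hfin hN hf (n := 1) (D := D)
      (fun Q => by rw [one_mul, hD])
    rw [← one_mul (heckeDiv (M * q) Qb ℓ D P)]
    exact (h1 P).symm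
  gal := fun g _ D => heckeDiv_gal M q ℓ g D
  red := by
    refine Fin.forall_fin_two.2 ⟨fun f r h hr => ?_, fun f r h hr => ?_⟩
    · obtain ⟨r', h', hR⟩ :=
        cInf_normT M q A πA IsLocalRing.residue_surjective residueAt_eq_zero hqM harch ℓ hℓN h
      refine ⟨r', h', hR.ne_zero hr, fun h1 => hR.unique ?_⟩
      subst h1
      simpa using conjRel_const (M := M) (A := A) (π := πA) (ℓ := ℓ) (1 : kA)
    · obtain ⟨r', h', hR⟩ :=
        cZero_normT M q A πA IsLocalRing.residue_surjective residueAt_eq_zero hqM harch ℓ hℓN h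
      refine ⟨r', h', hR.ne_zero hr, fun h1 => hR.unique ?_⟩
      subst h1
      simpa using conjRel_const (M := M) (A := A) (π := πA) (ℓ := ℓ) (1 : kA)
  small := small_normT M q A hqM harch ℓ hℓN

end FA.ModField.AtP
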