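import Fermat.Agent.ModField.Semistable.AtP.FixedCoord

/-!
# Functions with a given divisor in a disc or a tube

Products of differences of a fixed coordinate and its values have a given divisor in a disc or
tube, are fixed as soon as the divisor is, and have known reductions; their ratios under an
automorphism are near constants.
-/

set_option autoImplicit false
set_option linter.style.haveILetI false
set_option linter.unusedSectionVars false

noncomputable section

namespace FA.ModField.AtP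

open AlgebraicCurve FA.Curve FA.CurveRed FA.CurveRed.ConstRed FA.Local FA.LocalDef

local notation "Qb" => AlgebraicClosure ℚ
local notation "GQ" => AlgebraicClosure ℚ ≃ₐ[ℚ] AlgebraicClosure ℚ

section Value

variable {K F : Type*} [Field K] [Field F] [Algebra K F]

open Classical in
/-- The value of a function at a place, `0` if there is none. -/
def valueAt (P : Place K F) (f : F) : K := if h : ∃ c, HasValue P f c then h.choose else 0

theorem hasValue_valueAt {P : Place K F} {f : F} {c : K} (h : HasValue P f c) :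
    HasValue P f (valueAt P f) := by
  have h' : ∃ c, HasValue P f c := ⟨c, h⟩
  rw [valueAt, dif_pos h']
  exact h'.choose_spec

theorem valueAt_eq {P : Place K F} {f : F} {c : K} (h : HasValue P f c) : valueAt P f = c :=
  (hasValue_valueAt h).unique h

theorem smul_zpow_aut (g : SemilinearAut K F) (y : F) (n : ℤ) : g • y ^ n = (g • y) ^ n :=
  map_zpow₀ (SemilinearAut.toRingAut g) y n

end Value

section Smooth

variable {F k : Type*} [Field F] [Algebra Qb F] [Field k] [IsAlgClosed k] {ι : Type*} [Fintype ι]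
  [Nonempty ι] {Fk : ι → Type*} [∀ i, Field (Fk i)] [∀ i, Algebra k (Fk i)]
  {A : ValuationSubring Qb} {β σ : Type*} [Fintype β] [Fintype σ]
  {X : SemiFibre Qb F k Fk A β σ} {φ : GQ →* SemilinearAut Qb F} (GF : GalFibre X φ)
  (hF : IsFunctionField Qb F) (hk : ∀ i, IsFunctionField k (Fk i)) {p : ℕ}
  (hp : p.Prime) (hA : A.LiesOverPrime p)

local notation "v" => ValuationSubring.valuation A

include GF hF hk hp hA

open Classical in
/-- A function with the divisor of `D` in the disc of a smooth point. -/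
theorem GalFibre.exists_disc_prod {i : ι} {Q : Place k (Fk i)} (hQ : ∀ b, X.br b ≠ ⟨i, Q⟩)
    (D : Divisor Qb F) :
    ∃ (G : F) (r : Fk i), G ≠ 0 ∧ (X.C i).Red G r ∧ r ≠ 0 ∧
      (∀ P, X.spl P = some ⟨i, Q⟩ → P.ord G = D P) ∧
      (∀ g ∈ A.inertiaSubgroupIn ℚ, (∀ P, D (φ g • P) = D P) → φ g • G = G) ∧
      (X.push D i Q = 0 → r = 1) := by
  obtain ⟨z, zb, hzfix, hz, hzb0, hord, hnp⟩ := GF.exists_fixed_unif hF hk hp hA hQ
  set S := D.support.filter fun P => X.spl P = some (⟨i, Q⟩ : Σ i, Place k (Fk i)) with hS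
  have hmem : ∀ {P}, P ∈ S → X.spl P = some ⟨i, Q⟩ := fun hP => (Finset.mem_filter.1 hP).2
  have hval : ∀ P, X.spl P = some ⟨i, Q⟩ → ∃ hA' : valueAt P z ∈ A,
      HasValue P z (valueAt P z) ∧ X.π ⟨valueAt P z, hA'⟩ = 0 := fun P hP => by
    obtain ⟨c, hc⟩ := exists_hasValue hF (hnp P hP)
    obtain ⟨hcA, hcv⟩ := X.hasValue_red hF hz hQ hnp hP hc
    rw [valueAt_eq hc]
    refine ⟨hcA, hc, hcv.unique (hasValue_zero_iff.2 ?_)⟩
    rw [atLeast_iff hzb0, hord]
  have hlin : ∀ P, X.spl P = some ⟨i, Q⟩ →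
      (X.C i).Red (z - algebraMap Qb F (valueAt P z)) zb ∧
        ∀ R, X.spl R = some ⟨i, Q⟩ →
          R.ord (z - algebraMap Qb F (valueAt P z)) = if R = P then 1 else 0 := by
    intro P hP
    obtain ⟨hA', hv, hπ⟩ := hval P hP
    have hred : (X.C i).Red (z - algebraMap Qb F (valueAt P z))
        (zb - algebraMap k (Fk i) (X.π ⟨_, hA'⟩)) := hz.sub (X.red_const i ⟨_, hA'⟩)
    rw [hπ, map_zero, sub_zero] at hred
    refine ⟨hred, fun R hR => ?_⟩
    have hne := hred.ne_zero hzb0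
    have hnp' : X.NoPole ⟨i, Q⟩ (z - algebraMap Qb F (valueAt P z)) := fun R' hR' =>
      (hnp R' hR').sub (atLeast_algebraMap _)
    have hP1 : 1 ≤ P.ord (z - algebraMap Qb F (valueAt P z)) := (atLeast_iff hne).1 hv
    split_ifs with hRP
    · subst hRP
      have h := X.sum_le_ord hF hred hzb0 hQ hnp' {R} fun R' hR' => by
        rw [Finset.mem_singleton.1 hR']; exact hR
      rw [Finset.sum_singleton, hord] at h
      omega
    · have h := X.sum_le_ord hF hred hzb0 hQ hnp' {R, P} fun R' hR' => by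
        rcases Finset.mem_insert.1 hR' with rfl | hR'
        · exact hR
        · rw [Finset.mem_singleton.1 hR']; exact hP
      rw [Finset.sum_pair hRP, hord] at h
      have := (atLeast_iff hne).1 (hnp' R hR)
      omega
  have hne : ∀ P ∈ S, z - algebraMap Qb F (valueAt P z) ≠ 0 := fun P hP =>
    (hlin P (hmem hP)).1.ne_zero hzb0
  refine ⟨∏ P ∈ S, (z - algebraMap Qb F (valueAt P z)) ^ D P, zb ^ ∑ P ∈ S, D P,
    Finset.prod_ne_zero_iff.2 fun P hP => zpow_ne_zero _ (hne P hP), ?_, zpow_ne_zero _ hzb0,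
    fun R hR => ?_, fun g hg hD => ?_, fun h0 => ?_⟩
  · rw [FibreHyp.zpow_finsetSum hzb0]
    exact ConstRed.red_prod fun P hP => FibreHyp.red_zpow (hlin P (hmem hP)).1 hzb0 _
  · rw [FibreHyp.ord_finsetProd R _ fun P hP => zpow_ne_zero _ (hne P hP),
      Finset.sum_congr rfl fun P hP => by
        rw [FibreHyp.place_ord_zpow, (hlin P (hmem hP)).2 R hR]]
    simp only [mul_ite, mul_one, mul_zero, Finset.sum_ite_eq]
    rw [ite_eq_left_iff]
    intro hRS
    refine (Finsupp.notMem_support_iff.1 fun h => hRS ?_).symm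
    rw [hS, Finset.mem_filter]
    exact ⟨h, hR⟩
  · have hperm : ∀ g' ∈ A.inertiaSubgroupIn ℚ, (∀ P, D (φ g' • P) = D P) → ∀ P ∈ S,
        φ g' • P ∈ S := fun g' hg' hD' P hP => Finset.mem_filter.2
      ⟨Finsupp.mem_support_iff.2 (by
        rw [hD' P]; exact Finsupp.mem_support_iff.1 (Finset.mem_filter.1 hP).1),
        (GF.stable g' hg').spl_smul hF hk (hmem hP)⟩
    have hD' : ∀ P, D (φ g⁻¹ • P) = D P := fun P => by
      rw [← hD (φ g⁻¹ • P), ← mul_smul, ← map_mul, mul_inv_cancel, map_one, one_smul]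
    rw [Finset.smul_prod']
    refine Finset.prod_nbij' (fun P => φ g • P) (fun P => φ g⁻¹ • P) (hperm g hg hD)
      (hperm _ (inv_mem hg) hD') (fun P _ => ?_) (fun P _ => ?_) fun P hP => ?_
    · rw [← mul_smul, ← map_mul, inv_mul_cancel, map_one, one_smul]
    · rw [← mul_smul, ← map_mul, mul_inv_cancel, map_one, one_smul]
    · obtain ⟨-, hv, -⟩ := hval P (hmem hP)
      have h1 := GF.hasValue (g := g) hv
      rw [hzfix g hg] at h1
      rw [valueAt_eq h1, hD P, smul_zpow_aut, smul_sub, hzfix g hg,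
        SemilinearAut.smul_algebraMap, GF.base]
  · rw [show ∑ P ∈ S, D P = 0 by
      rw [← h0, SemiFibre.push_apply, X.mapDomain_spl, hS, Finset.sum_filter], zpow_zero]

variable {H : Subgroup GQ} (hH : H ≤ A.inertiaSubgroupIn ℚ) {τ : GQ}
  (hτ : τ ∈ A.inertiaSubgroupIn ℚ) {η π₁ : Qb} (hπ₁ : π₁ ≠ 0) (hπη : A.valuation π₁ < A.valuation η) (hη : A.valuation η ≤ 1)
  (hsub : ∀ a : Qb, (∀ g ∈ H, g a = a) → A.valuation a ≤ 1 → A.valuation (τ a - a) < A.valuation η)
  {N₀ : Subgroup GQ} (hN₀ : N₀ ≤ A.inertiaSubgroupIn ℚ)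
  (hle : ∀ c : Qb, (∀ g ∈ N₀, g c = c) → A.valuation c < 1 → A.valuation c ≤ A.valuation π₁)

include hH hτ hπ₁ hπη hη hsub hN₀ hle

open Classical in
/-- **The correction in a disc.** -/
theorem GalFibre.exists_disc_corr {i : ι} {Q : Place k (Fk i)} (hQ : ∀ b, X.br b ≠ ⟨i, Q⟩)
    (D E : Divisor Qb F) (hD : ∀ g ∈ H, ∀ P, D (φ g • P) = D P)
    (hE : ∀ g ∈ N₀, ∀ P, E (φ g • P) = E P) (hE0 : X.push E i Q = 0) :
    ∃ R : F, R ≠ 0 ∧ SmallAt X η i (R - 1) ∧
      ∀ P, X.spl P = some ⟨i, Q⟩ → P.ord R = D P - D ((φ τ)⁻¹ • P) + E P := by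
  obtain ⟨G, r, hG0, hG, hr0, hGord, hGfix, -⟩ := GF.exists_disc_prod hF hk hp hA hQ D
  obtain ⟨G', r', hG'0, hG', -, hG'ord, hG'fix, hr'⟩ := GF.exists_disc_prod hF hk hp hA hQ E
  rw [hr' hE0] at hG'
  have hτG : φ τ • G ≠ 0 := fun h => hG0 (MulAction.injective (φ τ) (h.trans (smul_zero _).symm))
  refine ⟨(φ τ • G * G⁻¹)⁻¹ * G', mul_ne_zero (inv_ne_zero (mul_ne_zero hτG (inv_ne_zero hG0))) hG'0,
    SmallAt.mul_sub_one (SmallAt.inv_sub_one (GF.small_ratio hF hk
      (H := (H : Set GQ)) hH hτ hsub hπ₁ hπη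
      (fun s hs => hGfix s (hH hs) (hD s hs)) hG hr0) hη)
      (GF.small_of_fixed hF hk hπ₁ hπη (N := (N₀ : Set GQ)) hN₀ hle
        (fun g hg => by rw [smul_sub, hG'fix g (hN₀ hg) (hE g hg), smul_one])
        (by simpa using hG'.sub (ConstRed.red_one (C := X.C i)))) hη,
    fun P hP => ?_⟩
  have hP' : X.spl ((φ τ)⁻¹ • P) = some ⟨i, Q⟩ := by
    rw [← map_inv]
    exact (GF.stable _ (inv_mem hτ)).spl_smul hF hk hP
  have h1 := SemilinearAut.ord_smul (φ τ) ((φ τ)⁻¹ • P) G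
  rw [smul_inv_smul] at h1
  rw [P.ord_mul (inv_ne_zero (mul_ne_zero hτG (inv_ne_zero hG0))) hG'0, P.ord_inv,
    P.ord_mul hτG (inv_ne_zero hG0), P.ord_inv, h1, hGord _ hP', hGord _ hP, hG'ord _ hP]
  ring

end Smooth

section Tube

variable {F k : Type*} [Field F] [Algebra Qb F] [Field k] [IsAlgClosed k]
  {Fk : Fin 2 → Type*} [∀ i, Field (Fk i)] [∀ i, Algebra k (Fk i)]
  {A : ValuationSubring Qb} {J : MultiRed Qb F k Fk A} {hF : IsFunctionField Qb F}
  {hk : ∀ i, IsFunctionField k (Fk i)} {x : F} {xb : ∀ i, Fk i}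
  {H : FibreHyp J hF hk x xb}
  {hconn : ∀ c : Fin 2 → k,
    (∀ b b' : H.Br, H.sgPt b = H.sgPt b' → c b.1.1 = c b'.1.1) → ∀ i j, c i = c j}
  {φ : GQ →* SemilinearAut Qb F} (GF : GalFibre (H.semiFibre hconn) φ) {ϖ : Qb}
  {U : H.UnitDatum ϖ}
  (hind : ∀ g ∈ A.inertiaSubgroupIn ℚ, Induced J x (φ g) (fun _ => 1) 1)

local notation "v" => ValuationSubring.valuation A

include hind in
theorem tubeAt_gal {g : GQ} (hg : g ∈ A.inertiaSubgroupIn ℚ) {s : H.Sg} {P : Place Qb F}
    (hP : H.TubeAt s P) : H.TubeAt s (φ g • P) := by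
  refine FibreHyp.tubeAt_smul (hind g hg) ?_ hP
  rw [← map_inv]
  exact hind _ (inv_mem hg)

open Classical in
/-- The product of the values of the coordinate over a divisor in the tube. -/
def tubeEps {s : H.Sg} (C : FibreHyp.Coord U s) (D : Divisor Qb F) : Qb :=
  ∏ P ∈ D.support.filter (fun P => H.TubeAt s P), valueAt P C.T ^ D P

variable {s : H.Sg} (C : FibreHyp.Coord U s)
  (hC : ∀ g ∈ A.inertiaSubgroupIn ℚ, φ g • C.T = C.T)

theorem valueAt_coord {P : Place Qb F} (hP : H.TubeAt s P) :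
    HasValue P C.T (valueAt P C.T) ∧ valueAt P C.T ≠ 0 := by
  obtain ⟨a, ha⟩ := exists_hasValue hF (C.clean.atLeast hP)
  rw [valueAt_eq ha]
  refine ⟨ha, fun h0 => ?_⟩
  have := (C.value_lt hP ha).1
  simp [h0] at this

theorem tubeEps_ne_zero (D : Divisor Qb F) : tubeEps C D ≠ 0 := by
  classical
  exact Finset.prod_ne_zero_iff.2 fun P hP =>
    zpow_ne_zero _ (valueAt_coord C (Finset.mem_filter.1 hP).2).2

include GF hind hC in
theorem tubeEps_fixed {D : Divisor Qb F} {g : GQ} (hg : g ∈ A.inertiaSubgroupIn ℚ)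
    (hD : ∀ P, D (φ g • P) = D P) : g (tubeEps C D) = tubeEps C D := by
  classical
  have hD' : ∀ P, D (φ g⁻¹ • P) = D P := fun P => by
    rw [← hD (φ g⁻¹ • P), ← mul_smul, ← map_mul, mul_inv_cancel, map_one, one_smul]
  have hperm : ∀ g' ∈ A.inertiaSubgroupIn ℚ, (∀ P, D (φ g' • P) = D P) →
      ∀ P ∈ D.support.filter (fun P => H.TubeAt s P),
        φ g' • P ∈ D.support.filter (fun P => H.TubeAt s P) := fun g' hg' hD'' P hP =>
    Finset.mem_filter.2 ⟨Finsupp.mem_support_iff.2 (by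
      rw [hD'' P]; exact Finsupp.mem_support_iff.1 (Finset.mem_filter.1 hP).1),
      tubeAt_gal hind hg' (Finset.mem_filter.1 hP).2⟩
  rw [tubeEps, map_prod]
  refine Finset.prod_nbij' (fun P => φ g • P) (fun P => φ g⁻¹ • P) (hperm g hg hD)
    (hperm _ (inv_mem hg) hD') (fun P _ => ?_) (fun P _ => ?_) fun P hP => ?_
  · rw [← mul_smul, ← map_mul, inv_mul_cancel, map_one, one_smul]
  · rw [← mul_smul, ← map_mul, mul_inv_cancel, map_one, one_smul]
  · have h1 := GF.hasValue (g := g) (valueAt_coord C (Finset.mem_filter.1 hP).2).1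
    rw [hC g hg] at h1
    rw [map_zpow₀, valueAt_eq h1, hD P]

open Classical in
/-- A function with the divisor of `D` in a tube. -/
theorem exists_tube_prod (D : Divisor Qb F) :
    ∃ (G : F) (n : ℤ), G ≠ 0 ∧ n = ∑ P ∈ D.support.filter (fun P => H.TubeAt s P), D P ∧
      (J.C 0).Red G (C.t 0 ^ n) ∧
      (J.C 1).Red (algebraMap Qb F (tubeEps C D)⁻¹ * G) ((-1 : Fk 1) ^ n) ∧
      (∀ P, H.TubeAt s P → P.ord G = D P) ∧
      G = ∏ P ∈ D.support.filter (fun P => H.TubeAt s P),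
        (C.T - algebraMap Qb F (valueAt P C.T)) ^ D P := by
  set S := D.support.filter fun P => H.TubeAt s P with hS
  have hmem : ∀ {P}, P ∈ S → H.TubeAt s P := fun hP => (Finset.mem_filter.1 hP).2
  have hl := fun P (hP : P ∈ S) => C.linear (hmem hP) (valueAt_coord C (hmem hP)).1
  refine ⟨_, _, Finset.prod_ne_zero_iff.2 fun P hP => zpow_ne_zero _ (hl P hP).2.2.1, rfl, ?_, ?_,
    fun R hR => ?_, rfl⟩
  · rw [FibreHyp.zpow_finsetSum (C.t_ne 0)]
    exact ConstRed.red_prod fun P hP => FibreHyp.red_zpow (hl P hP).1 (C.t_ne 0) _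
  · rw [FibreHyp.zpow_finsetSum (neg_ne_zero.2 one_ne_zero)]
    have h := ConstRed.red_prod (C := J.C 1) (s := S)
      (f := fun P => (algebraMap Qb F (valueAt P C.T)⁻¹ *
        (C.T - algebraMap Qb F (valueAt P C.T))) ^ D P)
      (r := fun P => (-1 : Fk 1) ^ D P)
      fun P hP => FibreHyp.red_zpow (hl P hP).2.1 (neg_ne_zero.2 one_ne_zero) _
    convert h using 1
    simp only [mul_zpow, Finset.prod_mul_distrib, tubeEps, ← hS, map_inv₀, map_prod, map_zpow₀,
      inv_zpow, Finset.prod_inv_distrib]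
  · rw [FibreHyp.ord_finsetProd R _ fun P hP => zpow_ne_zero _ (hl P hP).2.2.1,
      Finset.sum_congr rfl fun P hP => by rw [FibreHyp.place_ord_zpow, (hl P hP).2.2.2 R hR]]
    simp only [mul_ite, mul_one, mul_zero, Finset.sum_ite_eq]
    rw [ite_eq_left_iff]
    intro hRS
    refine (Finsupp.notMem_support_iff.1 fun h => hRS ?_).symm
    rw [hS, Finset.mem_filter]
    exact ⟨h, hR⟩

variable {Hs : Subgroup GQ} (hH : Hs ≤ A.inertiaSubgroupIn ℚ) {τ : GQ}
  (hτ : τ ∈ A.inertiaSubgroupIn ℚ) {η π₁ : Qb} (hπ₁ : π₁ ≠ 0) (hπη : A.valuation π₁ < A.valuation η) (hη : A.valuation η ≤ 1)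
  (hsub : ∀ a : Qb, (∀ g ∈ Hs, g a = a) → A.valuation a ≤ 1 → A.valuation (τ a - a) < A.valuation η)

include GF hind hC hH hτ hπ₁ hπη hη hsub

open Classical in
/-- **The correction in a tube.** -/
theorem exists_tube_corr (D : Divisor Qb F) (hD : ∀ g ∈ Hs, ∀ P, D (φ g • P) = D P) :
    ∃ R : F, R ≠ 0 ∧ SmallAt (H.semiFibre hconn) η 0 (R - 1) ∧
      SmallAt (H.semiFibre hconn) η 1
        (R - algebraMap Qb F (tubeEps C D / τ (tubeEps C D))) ∧
      ∀ P, H.TubeAt s P → P.ord R = D P - D ((φ τ)⁻¹ • P) := by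
  obtain ⟨G, n, hG0, -, hr0, hr1, hord, hGdef⟩ := exists_tube_prod C D
  set e := tubeEps C D
  have he : e ≠ 0 := tubeEps_ne_zero C D
  have hefix : ∀ g ∈ Hs, g e = e := fun g hg => tubeEps_fixed GF hind C hC (hH hg) (hD g hg)
  have hGfix : ∀ g ∈ Hs, φ g • G = G := fun g hg => by
    have hgI := hH hg
    have hD' : ∀ P, D (φ g⁻¹ • P) = D P := hD _ (inv_mem hg)
    have hperm : ∀ g' ∈ Hs, ∀ P ∈ D.support.filter (fun P => H.TubeAt s P),
        φ g' • P ∈ D.support.filter (fun P => H.TubeAt s P) := fun g' hg' P hP =>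
      Finset.mem_filter.2 ⟨Finsupp.mem_support_iff.2 (by
        rw [hD g' hg' P]; exact Finsupp.mem_support_iff.1 (Finset.mem_filter.1 hP).1),
        tubeAt_gal hind (hH hg') (Finset.mem_filter.1 hP).2⟩
    rw [hGdef, Finset.smul_prod']
    refine Finset.prod_nbij' (fun P => φ g • P) (fun P => φ g⁻¹ • P) (hperm g hg)
      (hperm _ (inv_mem hg)) (fun P _ => ?_) (fun P _ => ?_) fun P hP => ?_
    · rw [← mul_smul, ← map_mul, inv_mul_cancel, map_one, one_smul]
    · rw [← mul_smul, ← map_mul, mul_inv_cancel, map_one, one_smul]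
    · have h1 := GF.hasValue (g := g) (valueAt_coord C (Finset.mem_filter.1 hP).2).1
      rw [hC g hgI] at h1
      rw [valueAt_eq h1, hD g hg P, smul_zpow_aut, smul_sub, hC g hgI,
        SemilinearAut.smul_algebraMap, GF.base]
  set G' := algebraMap Qb F e⁻¹ * G with hG'
  have hG'fix : ∀ g ∈ Hs, φ g • G' = G' := fun g hg => by
    rw [hG', smul_mul', SemilinearAut.smul_algebraMap, GF.base, map_inv₀, hefix g hg,
      hGfix g hg]
  have hτG : φ τ • G ≠ 0 := fun h => hG0 (MulAction.injective (φ τ) (h.trans (smul_zero _).symm))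
  have h0 := SmallAt.inv_sub_one (GF.small_ratio hF hk (H := (Hs : Set GQ)) hH hτ hsub hπ₁ hπη
    hGfix (i := 0) (show ((H.semiFibre hconn).C 0).Red G _ from hr0)
    (zpow_ne_zero _ (C.t_ne 0))) hη
  have h1 := SmallAt.inv_sub_one (GF.small_ratio hF hk (H := (Hs : Set GQ)) hH hτ hsub hπ₁ hπη
    hG'fix (i := 1) (show ((H.semiFibre hconn).C 1).Red G' _ from hr1)
    (zpow_ne_zero _ (neg_ne_zero.2 one_ne_zero))) hη
  have hτe : v (τ e) = v e := (inert_of_mem_inertiaSubgroupIn A hτ).map_eq e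
  have hτe0 : τ e ≠ 0 := by simpa using he
  have hu : v (e / τ e) = 1 := by
    rw [map_div₀, hτe, div_self (A.valuation.pos_iff.2 he).ne']
  refine ⟨(φ τ • G * G⁻¹)⁻¹, inv_ne_zero (mul_ne_zero hτG (inv_ne_zero hG0)), h0, ?_,
    fun P hP => ?_⟩
  · have h2 := h1.smul (c := e / τ e) hu.le
    rwa [show algebraMap Qb F (e / τ e) * ((φ τ • G' * G'⁻¹)⁻¹ - 1) =
        (φ τ • G * G⁻¹)⁻¹ - algebraMap Qb F (e / τ e) by
      rw [hG', smul_mul', SemilinearAut.smul_algebraMap, GF.base, mul_sub, mul_one, map_inv₀ τ,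
        map_inv₀, map_inv₀, map_div₀]
      have hG := hτG
      have h3 : algebraMap Qb F e ≠ 0 := (map_ne_zero _).2 he
      have h4 : algebraMap Qb F (τ e) ≠ 0 := (map_ne_zero _).2 hτe0
      field_simp] at h2
  · have hP' : H.TubeAt s ((φ τ)⁻¹ • P) := by
      rw [← map_inv]; exact tubeAt_gal hind (inv_mem hτ) hP
    have h1 := SemilinearAut.ord_smul (φ τ) ((φ τ)⁻¹ • P) G
    rw [smul_inv_smul] at h1
    rw [P.ord_inv, P.ord_mul hτG (inv_ne_zero hG0), P.ord_inv, h1, hord _ hP', hord _ hP]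
    ring

end Tube

end FA.ModField.AtP
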