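import Fermat.Agent.ModField.Semistable.Mono.Eta.Datum
import Fermat.Agent.CurveRed.Separable
import Mathlib.FieldTheory.PurelyInseparable.Basic

/-!
# Roots of order `p` of functions downstairs

A series whose `p`-th power is a function of level `M` in characteristic `p` is such a function,
the field being separable over `k(j)` inside Laurent series.  The quotients `Δ(az) / Δ(bz)` are
cubes up to a power of `q`.
-/

set_option autoImplicit false
set_option linter.style.haveILetI false
set_option linter.unusedSectionVars false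
set_option synthInstance.maxHeartbeats 400000
set_option maxHeartbeats 800000

noncomputable section

namespace FA.ModField.AtP

open ModularCurve AlgebraicCurve FA.Curve FA.CurveRed FA.CurveRed.Modular IntermediateField
  HahnSeries

section General

variable {k K : Type*} [Field k] [Field K] [Algebra k K] (F : IntermediateField k K)

/-- `F` with one element more. -/
def insertField (β : K) : IntermediateField k K := adjoin k (insert β (F : Set K))

theorem le_insertField (β : K) : F ≤ insertField F β :=
  fun _ hx => subset_adjoin k _ (Set.mem_insert_of_mem β hx)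

/-- A root of an element of a finite extension of `k(x)` is algebraic over `k(x)`. -/
theorem isAlgebraic_insertField (x : F) [FiniteDimensional k⟮x⟯ F] {β : K} {n : ℕ} (hn : 0 < n)
    (hβ : β ^ n ∈ F) :
    Algebra.IsAlgebraic k⟮inclusion (le_insertField F β) x⟯ (insertField F β) := by
  set F' := insertField F β
  set ι : F →ₐ[k] F' := inclusion (le_insertField F β)
  set y : F' := ι x
  have hint : ∀ z : F, IsIntegral k⟮y⟯ (ι z) := fun z => by
    obtain ⟨P, hP, hPz⟩ := IsIntegral.of_finite k⟮x⟯ z
    have hmap : k⟮x⟯.map ι = k⟮y⟯ := by rw [adjoin_map, Set.image_singleton]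
    let e : k⟮x⟯ →+* k⟮y⟯ :=
      (ι.toRingHom.comp (algebraMap k⟮x⟯ F)).codRestrict k⟮y⟯ fun w => by
        rw [← hmap]
        exact ⟨w.1, w.2, rfl⟩
    refine ⟨P.map e, hP.map e, ?_⟩
    rw [Polynomial.eval₂_map]
    have h1 := congrArg ι.toRingHom hPz
    rw [map_zero, Polynomial.hom_eval₂] at h1
    exact h1
  refine ⟨fun z => (?_ : IsIntegral k⟮y⟯ z).isAlgebraic⟩
  obtain ⟨z, hz⟩ := z
  induction hz using IntermediateField.adjoin_induction with
  | mem w hw =>
    rcases hw with rfl | hw
    · exact IsIntegral.of_pow hn (hint ⟨_, hβ⟩)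
    · exact hint ⟨w, hw⟩
  | algebraMap c => exact isIntegral_algebraMap (x := algebraMap k k⟮y⟯ c)
  | add w w' hw hw' h1 h2 => exact h1.add h2
  | inv w hw h1 => exact (h1.isAlgebraic.inv).isIntegral
  | mul w w' hw hw' h1 h2 => exact h1.mul h2

/-- An element separable over a subfield of `F` inside a larger field is separable over `F`. -/
theorem isSeparable_top {F' : IntermediateField k K} (x : F') (hx : (x : K) ∈ F) {b : F'}
    (hb : IsSeparable k⟮x⟯ b) : IsSeparable F (b : K) := by
  have hle : k⟮x⟯ ≤ F.comap F'.val := by rw [adjoin_simple_le_iff]; exact hx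
  let e : k⟮x⟯ →+* F := ((F'.val.toRingHom.comp (algebraMap k⟮x⟯ F')).codRestrict F fun w => hle w.2)
  refine Polynomial.Separable.of_dvd (Polynomial.Separable.map (f := e) hb) (minpoly.dvd F (b : K) ?_)
  rw [Polynomial.aeval_def, Polynomial.eval₂_map]
  have h1 := congrArg F'.val.toRingHom (minpoly.aeval k⟮x⟯ b)
  rw [map_zero, Polynomial.aeval_def, Polynomial.hom_eval₂] at h1
  exact h1

/-- A root of order `p` separable over `F` lies in `F`. -/
theorem mem_of_isSeparable_pow {p : ℕ} [ExpChar F p] {β : K} (hs : IsSeparable F β)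
    (hβ : β ^ p ∈ F) : β ∈ F := by
  have h1 : β ∈ (F⟮β ^ p⟯ : IntermediateField F K) := by
    rw [← adjoin_simple_eq_adjoin_pow_expChar_of_isSeparable F K hs p]
    exact mem_adjoin_simple_self _ β
  rw [show (F⟮β ^ p⟯ : IntermediateField F K) = ⊥ from
    adjoin_simple_eq_bot_iff.2 (IntermediateField.mem_bot.2 ⟨⟨β ^ p, hβ⟩, rfl⟩),
    IntermediateField.mem_bot] at h1
  obtain ⟨z, rfl⟩ := h1
  exact z.2

end General

section Down

variable {k : Type} [Field k] [IsAlgClosed k] {p : ℕ} [hp : Fact p.Prime] [CharP k p] {M : ℕ}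
  [NeZero M]

/-- **A root of order `p` of a function is a function.** -/
theorem mem_fullC_of_pow_mem {β : LaurentSeries k} (hβ : β ^ p ∈ modularFunctionFieldFullC k M) :
    β ∈ modularFunctionFieldFullC k M := by
  set F := modularFunctionFieldFullC k M
  haveI := (isFunctionField_fullC k M).finiteDimensional (jBar_transcendental k M)
  set F' := insertField F β
  haveI := isAlgebraic_insertField F (jBar k M) hp.out.pos hβ
  haveI := isSeparable_of_theta F' (inclusion (le_insertField F β) (jBar k M))
    (theta_ne_zero_of_coeff jqModC_coeff_neg_one)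
  haveI : CharP F p := charP_of_injective_algebraMap (algebraMap k F).injective p
  haveI : ExpChar F p := ExpChar.prime hp.out
  exact mem_of_isSeparable_pow F
    (isSeparable_top F (inclusion (le_insertField F β) (jBar k M)) (jBar k M).2
      (b := ⟨β, subset_adjoin k _ (Set.mem_insert β _)⟩) (Algebra.IsSeparable.isSeparable _ _)) hβ

/-- The order of a function which is a series to the power `p` is divisible by `p`. -/
theorem dvd_ord_of_series_pow {x : modularFunctionFieldFullC k M} {β : LaurentSeries k}
    (hβ : β ^ p = (x : LaurentSeries k)) (Q : Place k (modularFunctionFieldFullC k M)) :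
    (p : ℤ) ∣ Q.ord x := by
  have hm : β ∈ modularFunctionFieldFullC k M := mem_fullC_of_pow_mem (p := p) (hβ ▸ x.2)
  rw [show x = (⟨β, hm⟩ : modularFunctionFieldFullC k M) ^ p from Subtype.ext hβ.symm,
    place_ord_pow]
  exact dvd_mul_right _ _

end Down

/-- `Δ(az) / Δ(bz)` is a power of `q` times a cube. -/
theorem etaSer_twelve_eq (a b : ℕ) [NeZero a] [NeZero b] (R : Type*) [CommRing R] :
    ∃ β : LaurentSeries R,
      EtaQ.etaSer 12 a b 1 R = single ((a : ℤ) - b) 1 * β ^ 3 := by
  set J : PowerSeries ℤ := (etaProd ^ 8).invOfUnit 1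
  have hJ : dedekindEtaUnitInv = J ^ 3 := by
    have h1 : etaProd ^ 8 * J = 1 := PowerSeries.mul_invOfUnit _ _ (by
      rw [map_pow, constantCoeff_etaProd, one_pow]; rfl)
    have h2 : dedekindEtaUnit * J ^ 3 = 1 := by
      rw [dedekindEtaUnit, show 24 = 8 * 3 from rfl, pow_mul, ← mul_pow, h1, one_pow]
    calc dedekindEtaUnitInv = dedekindEtaUnitInv * (dedekindEtaUnit * J ^ 3) := by rw [h2, mul_one]
      _ = J ^ 3 := by
        rw [← mul_assoc, mul_comm dedekindEtaUnitInv, dedekindEtaUnit_mul_inv, one_mul]
  refine ⟨ofPowerSeries ℤ R ((PowerSeries.expand a (NeZero.ne a) (etaProd ^ 8) *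
    PowerSeries.expand b (NeZero.ne b) J).map (Int.castRingHom R)), ?_⟩
  rw [EtaQ.etaSer, Nat.cast_one, Int.ediv_one, ← map_pow (ofPowerSeries ℤ R), ← map_pow,
    mul_pow, ← map_pow, ← map_pow, ← hJ, ← pow_mul]
  congr 3
  rw [EtaQ.etaTail, Nat.sub_self, mul_zero, pow_zero, one_mul]

end FA.ModField.AtP
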