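import Fermat.Agent.ModField.Semistable.AtP.Corrections
import Fermat.Agent.ModField.Semistable.AtP.PowerScale

/-!
# Local factors in the disc of a smooth point

For a uniformiser `z` of a smooth point without poles over it, `z` minus its value at a place over
the point vanishes only there; the ratio of two of these is near one at the scale of the difference
of the values, with reduction a multiple of the inverse of the uniformiser.
-/

set_option autoImplicit false
set_option linter.style.haveILetI false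
set_option linter.unusedSectionVars false

noncomputable section

namespace FA.ModField.SemiFibre

open AlgebraicCurve FA.Curve FA.CurveRed FA.CurveRed.ConstRed FA.ModField.AtP

variable {K F k : Type*} [Field K] [Field F] [Algebra K F] [Field k] {ι : Type*} [Fintype ι]
  {Fk : ι → Type*} [∀ i, Field (Fk i)] [∀ i, Algebra k (Fk i)] {A : ValuationSubring K}
  {β σ : Type*} [Fintype β] [Fintype σ] (X : SemiFibre K F k Fk A β σ)
variable [IsAlgClosed K] [IsAlgClosed k] [Nonempty ι]

/-- A uniformiser of a smooth point without poles over it. -/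
structure Unif (x : Σ i, Place k (Fk i)) where
  /-- the function -/
  z : F
  /-- its reduction -/
  zb : Fk x.1
  smooth : ∀ b, X.br b ≠ x
  red : (X.C x.1).Red z zb
  ne_zero : zb ≠ 0
  ord : x.2.ord zb = 1
  noPole : X.NoPole x z

variable {X} (hF : IsFunctionField K F) {x : Σ i, Place k (Fk i)} (U : X.Unif x)

include hF

theorem Unif.value {P : Place K F} (hP : X.spl P = some x) :
    ∃ h : valueAt P U.z ∈ A, HasValue P U.z (valueAt P U.z) ∧ X.π ⟨valueAt P U.z, h⟩ = 0 := by
  obtain ⟨c, hc⟩ := exists_hasValue hF (U.noPole P hP)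
  obtain ⟨hcA, hcv⟩ := X.hasValue_red hF U.red (Q := x.2) U.smooth U.noPole hP hc
  rw [valueAt_eq hc]
  refine ⟨hcA, hc, hcv.unique (hasValue_zero_iff.2 ?_)⟩
  rw [atLeast_iff U.ne_zero, U.ord]

theorem Unif.lin {P : Place K F} (hP : X.spl P = some x) :
    (X.C x.1).Red (U.z - algebraMap K F (valueAt P U.z)) U.zb ∧
      ∀ R, X.spl R = some x → (R.ord (U.z - algebraMap K F (valueAt P U.z)) = 0 ∧ R ≠ P) ∨
        (R.ord (U.z - algebraMap K F (valueAt P U.z)) = 1 ∧ R = P) := by
  classical
  obtain ⟨hA', hv, hπ⟩ := U.value hF hP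
  have hred : (X.C x.1).Red (U.z - algebraMap K F (valueAt P U.z))
      (U.zb - algebraMap k (Fk x.1) (X.π ⟨_, hA'⟩)) := U.red.sub (X.red_const x.1 ⟨_, hA'⟩)
  rw [hπ, map_zero, sub_zero] at hred
  refine ⟨hred, fun R hR => ?_⟩
  have hne := hred.ne_zero U.ne_zero
  have hnp : X.NoPole x (U.z - algebraMap K F (valueAt P U.z)) := fun R' hR' =>
    (U.noPole R' hR').sub (atLeast_algebraMap _)
  have hP1 : 1 ≤ P.ord (U.z - algebraMap K F (valueAt P U.z)) := (atLeast_iff hne).1 hv
  by_cases hRP : R = P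
  · subst hRP
    have h := X.sum_le_ord hF hred U.ne_zero (Q := x.2) U.smooth hnp {R} fun R' hR' => by
      rw [Finset.mem_singleton.1 hR']; exact hR
    rw [Finset.sum_singleton, U.ord] at h
    exact Or.inr ⟨by omega, rfl⟩
  · have h := X.sum_le_ord hF hred U.ne_zero (Q := x.2) U.smooth hnp {R, P} fun R' hR' => by
      rcases Finset.mem_insert.1 hR' with rfl | hR'
      · exact hR
      · rw [Finset.mem_singleton.1 hR']; exact hP
    rw [Finset.sum_pair hRP, U.ord] at h
    have := (atLeast_iff hne).1 (hnp R hR)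
    exact Or.inl ⟨by omega, hRP⟩

/-- Places over the point are determined by the value of the uniformiser. -/
theorem Unif.eq_of_value {P P' : Place K F} (hP : X.spl P = some x) (hP' : X.spl P' = some x)
    (h : valueAt P U.z = valueAt P' U.z) : P = P' := by
  rcases (U.lin hF hP').2 P hP with ⟨h0, -⟩ | ⟨-, h1⟩
  · exfalso
    rcases (U.lin hF hP).2 P hP with ⟨-, hne⟩ | ⟨h1, -⟩
    · exact hne rfl
    · rw [h] at h1; omega
  · exact h1

/-- The ratio of the linear functions of two places over the point. -/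
def Unif.ratio (U : X.Unif x) (P P₀ : Place K F) : F :=
  (U.z - algebraMap K F (valueAt P U.z)) / (U.z - algebraMap K F (valueAt P₀ U.z))

theorem Unif.ord_ratio [DecidableEq (Place K F)] {P P₀ : Place K F} (hP : X.spl P = some x)
    (hP₀ : X.spl P₀ = some x) {R : Place K F} (hR : X.spl R = some x) :
    R.ord (U.ratio P P₀) = (if R = P then 1 else 0) - if R = P₀ then 1 else 0 := by
  have h1 := (U.lin hF hP).1.ne_zero U.ne_zero
  have h2 := (U.lin hF hP₀).1.ne_zero U.ne_zero
  rw [Unif.ratio, div_eq_mul_inv, R.ord_mul h1 (inv_ne_zero h2), R.ord_inv]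
  rcases (U.lin hF hP).2 R hR with ⟨e, h⟩ | ⟨e, h⟩ <;>
    rcases (U.lin hF hP₀).2 R hR with ⟨e', h'⟩ | ⟨e', h'⟩ <;>
      rw [e, e'] <;> simp [h, h'] <;> split_ifs <;> simp_all

theorem Unif.red_ratio {P P₀ : Place K F} (hP : X.spl P = some x) (hP₀ : X.spl P₀ = some x)
    {d : K} (hd0 : d ≠ 0) (hm : (valueAt P₀ U.z - valueAt P U.z) / d ∈ A) :
    (X.C x.1).Red (algebraMap K F d⁻¹ * (U.ratio P P₀ - 1))
      (algebraMap k (Fk x.1) (X.π ⟨_, hm⟩) * U.zb⁻¹) := by
  have h2 := (U.lin hF hP₀).1
  have h3 := h2.ne_zero U.ne_zero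
  have h := (X.red_const x.1 ⟨_, hm⟩).mul (h2.inv U.ne_zero)
  convert h using 1
  show _ = algebraMap K F ((valueAt P₀ U.z - valueAt P U.z) / d) * _
  have : algebraMap K F d ≠ 0 := by simpa using hd0
  rw [Unif.ratio, map_div₀, map_sub, map_inv₀]
  field_simp
  ring

omit hF in
/-- Multiples of the inverse of the uniformiser are regular only when zero. -/
theorem Unif.eq_zero_of_regular {a : k}
    (h : AtLeast x.2 0 (algebraMap k (Fk x.1) a * U.zb⁻¹)) : a = 0 := by
  by_contra ha
  have ha' : algebraMap k (Fk x.1) a ≠ 0 := (map_ne_zero _).2 ha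
  rw [atLeast_iff (mul_ne_zero ha' (inv_ne_zero U.ne_zero)), x.2.ord_mul ha'
    (inv_ne_zero U.ne_zero), place_ord_algebraMap, x.2.ord_inv, U.ord] at h
  omega

omit hF in
/-- Multiples of the inverse of the uniformiser have at most a simple pole. -/
theorem Unif.simple (a : k) : AtLeast x.2 (-1) (algebraMap k (Fk x.1) a * U.zb⁻¹) := by
  have h := (atLeast_ord (v := x.2) U.zb⁻¹).smul a
  rwa [x.2.ord_inv, U.ord] at h

end FA.ModField.SemiFibre

namespace FA.ModField.AtP

open AlgebraicCurve FA.Curve FA.CurveRed FA.CurveRed.ConstRed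

local notation "Qb" => AlgebraicClosure ℚ
local notation "GQ" => AlgebraicClosure ℚ ≃ₐ[ℚ] AlgebraicClosure ℚ

variable {F k : Type*} [Field F] [Algebra Qb F] [Field k] [IsAlgClosed k] {ι : Type*} [Fintype ι]
  [Nonempty ι] {Fk : ι → Type*} [∀ i, Field (Fk i)] [∀ i, Algebra k (Fk i)]
  {A : ValuationSubring Qb} {β σ : Type*} [Fintype β] [Fintype σ]
  {X : SemiFibre Qb F k Fk A β σ} {φ : GQ →* SemilinearAut Qb F} (GF : GalFibre X φ)
  (hF : IsFunctionField Qb F) (hk : ∀ i, IsFunctionField k (Fk i))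

include GF hF hk

/-- Uniformisers fixed by inertia. -/
theorem GalFibre.exists_unif {p : ℕ} (hp : p.Prime) (hA : A.LiesOverPrime p)
    {x : Σ i, Place k (Fk i)} (hx : ∀ b, X.br b ≠ x) :
    ∃ U : X.Unif x, ∀ g ∈ A.inertiaSubgroupIn ℚ, φ g • U.z = U.z := by
  obtain ⟨z, zb, hfix, hred, h0, hord, hnp⟩ := GF.exists_fixed_unif hF hk hp hA (i := x.1) hx
  exact ⟨⟨z, zb, hx, hred, h0, hord, hnp⟩, hfix⟩

end FA.ModField.AtP
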