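import Fermat.Agent.ModField.Semistable.Formal.Lift
import Fermat.Agent.ModField.Semistable.Formal.Conn

/-!
# Functions near a constant with zeros and poles in finitely many discs

A function without zeros and poles outside the discs of `S`, reducing to a constant, is at the scale
of given local factors within that scale of a constant; the reduction at that scale is glued, has
no poles outside `S`, and differs at the points of `S` from those of the local factors by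
regular functions.
-/

set_option autoImplicit false
set_option linter.style.haveILetI false
set_option linter.unusedSectionVars false

noncomputable section

namespace FA.ModField.SemiFibre

open AlgebraicCurve FA.Curve FA.CurveRed

variable {K F k : Type*} [Field K] [Field F] [Algebra K F] [Field k] {ι : Type*} [Fintype ι]
  {Fk : ι → Type*} [∀ i, Field (Fk i)] [∀ i, Algebra k (Fk i)] {A : ValuationSubring K}
  {β σ : Type*} [Fintype β] [Fintype σ] (X : SemiFibre K F k Fk A β σ)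
variable [IsAlgClosed K] [IsAlgClosed k] [Nonempty ι] (hF : IsFunctionField K F)
  (hk : ∀ i, IsFunctionField k (Fk i))

omit [IsAlgClosed K] [IsAlgClosed k] in
/-- A scale below `1` kills what it divides. -/
theorem red_one_of_sub_one {i : ι} {h : F} {s : Fk i} {e : K} (he0 : e ≠ 0)
    (he : A.valuation e < 1) (hs : (X.C i).Red (algebraMap K F e⁻¹ * (h - 1)) s) :
    (X.C i).Red h 1 := by
  have heA : e ∈ A := (A.valuation_le_one_iff e).1 he.le
  have h1 := ((X.red_const i ⟨e, heA⟩).mul hs).add (ConstRed.red_one (C := X.C i))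
  rw [(X.π_eq_zero ⟨e, heA⟩).2 he, map_zero, zero_mul, zero_add, ← mul_assoc, ← map_mul,
    mul_inv_cancel₀ he0, map_one, one_mul, sub_add_cancel] at h1
  exact h1

/-- The hypotheses on the local factors at the points of `S`. -/
structure LocalFactors (S : Finset (Σ i, Place k (Fk i))) (g : F) (e : K)
    (ρ : ∀ x : S, Fk x.1.1) : Prop where
  factor : ∀ x : S, ∃ w : F, (X.C x.1.1).Red (algebraMap K F e⁻¹ * (w - 1)) (ρ x) ∧
    ∀ P, X.spl P = some x.1 → P.ord w = P.ord g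

variable {X}

include hF

/-- **The reduction of `g - 1` at the scale of the local factors.** -/
theorem LocalFactors.props {S : Finset (Σ i, Place k (Fk i))}
    (hS : ∀ x ∈ S, ∀ b, X.br b ≠ x) {g : F}
    (hoff : ∀ P, (∀ x ∈ S, X.spl P ≠ some x) → P.ord g = 0)
    (hone : ∀ i, (X.C i).Red g 1) {e : K} (he0 : e ≠ 0) (he : A.valuation e < 1)
    {ρ : ∀ x : S, Fk x.1.1} (hρ : X.LocalFactors S g e ρ) {r : ∀ i, Fk i}
    (hr : X.JRed (algebraMap K F e⁻¹ * (g - 1)) r) :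
    (∃ v : σ → k, ∀ b, HasValue (X.br b).2 (r (X.br b).1) (v (X.pt b))) ∧
      (∀ i (Q : Place k (Fk i)), (∀ b, X.br b ≠ ⟨i, Q⟩) → (⟨i, Q⟩ : Σ i, Place k (Fk i)) ∉ S →
        AtLeast Q 0 (r i)) ∧
      ∀ x : S, AtLeast x.1.2 0 (r x.1.1 - ρ x) := by
  have hg0 : g ≠ 0 := (hone (Classical.arbitrary ι)).ne_zero one_ne_zero
  have hnp : ∀ P, P.ord g = 0 → AtLeast P 0 (algebraMap K F e⁻¹ * (g - 1)) := fun P hP =>
    (AtLeast.sub (Or.inr hP.ge) (Or.inr (by simp))).smul _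
  refine ⟨X.glue _ r hr fun P hP => hnp P (hoff P fun x _ h => by rw [hP] at h; cases h),
    fun i Q hQ hQS => X.red_ord_nonneg hF (hr i) hQ fun P hP => hnp P (hoff P fun x hx h => hQS
      (Option.some_injective _ (h.symm.trans hP) ▸ hx)), fun x => ?_⟩
  obtain ⟨w, hw, hwg⟩ := hρ.factor x
  have hw1 := X.red_one_of_sub_one he0 he hw
  have hw0 := hw1.ne_zero one_ne_zero
  have h1 := ((hr x.1.1).sub hw).mul (hw1.inv one_ne_zero)
  rw [inv_one, mul_one] at h1
  refine X.red_ord_nonneg hF h1 (Q := x.1.2) (hS x.1 x.2) fun P hP => ?_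
  rw [show (algebraMap K F e⁻¹ * (g - 1) - algebraMap K F e⁻¹ * (w - 1)) * w⁻¹ =
      algebraMap K F e⁻¹ * (g * w⁻¹ - 1) by field_simp; ring]
  refine (AtLeast.sub (Or.inr ?_) (Or.inr (by simp))).smul _
  rw [P.ord_mul hg0 (inv_ne_zero hw0), P.ord_inv, hwg P hP]
  omega

include hk

/-- **Functions near a constant.** -/
theorem LocalFactors.exists_near_one {S : Finset (Σ i, Place k (Fk i))}
    (hS : ∀ x ∈ S, ∀ b, X.br b ≠ x) {g₀ : F}
    (hoff : ∀ P, (∀ x ∈ S, X.spl P ≠ some x) → P.ord g₀ = 0)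
    (hone : ∃ b : K, b ≠ 0 ∧ ∀ i, (X.C i).Red (algebraMap K F b⁻¹ * g₀) 1)
    {e : K} (he0 : e ≠ 0) (he : A.valuation e < 1)
    {ρ : ∀ x : S, Fk x.1.1} (hρ : X.LocalFactors S g₀ e ρ) :
    ∃ (b : K) (r : ∀ i, Fk i), b ≠ 0 ∧
      X.JRed (algebraMap K F e⁻¹ * (algebraMap K F b⁻¹ * g₀ - 1)) r ∧
      (∃ v : σ → k, ∀ b, HasValue (X.br b).2 (r (X.br b).1) (v (X.pt b))) ∧
      (∀ i (Q : Place k (Fk i)), (∀ b, X.br b ≠ ⟨i, Q⟩) → (⟨i, Q⟩ : Σ i, Place k (Fk i)) ∉ S →
        AtLeast Q 0 (r i)) ∧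
      ∀ x : S, AtLeast x.1.2 0 (r x.1.1 - ρ x) := by
  classical
  obtain ⟨b₀, hb₀, hred⟩ := hone
  set i₀ := Classical.arbitrary ι
  haveI := infinite_places (hk i₀)
  obtain ⟨Q, hQ⟩ := ((S.finite_toSet.union (Set.finite_range X.br)).preimage
    (f := Sigma.mk i₀) sigma_mk_injective.injOn).infinite_compl.nonempty
  simp only [Set.mem_compl_iff, Set.mem_preimage, Set.mem_union, SetLike.mem_coe, Set.mem_range,
    not_or, not_exists] at hQ
  obtain ⟨hQS, hQb⟩ := hQ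
  obtain ⟨Ps, hPs⟩ := X.spl_surj ⟨i₀, Q⟩ hQb
  have hord : ∀ c : K, c ≠ 0 → ∀ P, (∀ x ∈ S, X.spl P ≠ some x) →
      P.ord (algebraMap K F c * g₀) = 0 := fun c hc P hP => by
    have hg0 : g₀ ≠ 0 := fun h0 => by
      have h1 := (hred i₀).ne_zero one_ne_zero
      rw [h0, mul_zero] at h1
      exact h1 rfl
    rw [P.ord_mul (by simpa using hc) hg0, place_ord_algebraMap, zero_add, hoff P hP]
  have hover : ∀ P, X.spl P = some ⟨i₀, Q⟩ → ∀ x ∈ S, X.spl P ≠ some x := fun P hP x hx h =>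
    hQS (Option.some_injective _ (h.symm.trans hP) ▸ hx)
  have hnp₀ : X.NoPole ⟨i₀, Q⟩ (algebraMap K F b₀⁻¹ * g₀) := fun P hP =>
    Or.inr (hord _ (inv_ne_zero hb₀) P (hover P hP)).ge
  obtain ⟨c, hc⟩ := exists_hasValue hF (hnp₀ Ps hPs)
  obtain ⟨hcA, hcv⟩ := X.hasValue_red hF (hred i₀) hQb hnp₀ hPs hc
  have hc1 : X.π ⟨c, hcA⟩ = 1 := hcv.unique (by simpa using hasValue_algebraMap Q (1 : k))
  have hc0 : c ≠ 0 := fun h => one_ne_zero (hc1.symm.trans (by
    rw [show (⟨c, hcA⟩ : A) = 0 from Subtype.ext h, map_zero]))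
  set b := b₀ * c with hb
  set g := algebraMap K F b⁻¹ * g₀ with hgdef
  have hbne : b ≠ 0 := mul_ne_zero hb₀ hc0
  have hgone : ∀ i, (X.C i).Red g 1 := fun i => by
    have h1 := ((X.red_const i ⟨c, hcA⟩).inv (by rw [hc1, map_one]; exact one_ne_zero)).mul (hred i)
    rw [hc1, map_one, inv_one, one_mul] at h1
    rwa [hgdef, hb, mul_inv_rev, map_mul, mul_assoc, map_inv₀]
  have hgoff : ∀ P, (∀ x ∈ S, X.spl P ≠ some x) → P.ord g = 0 := hord _ (inv_ne_zero hbne)
  have hgρ : X.LocalFactors S g e ρ := ⟨fun x => by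
    obtain ⟨w, hw, hwg⟩ := hρ.factor x
    refine ⟨w, hw, fun P hP => ?_⟩
    rw [hwg P hP]
    rcases eq_or_ne g₀ 0 with h0 | h0
    · rw [hgdef, h0, mul_zero]
    · rw [hgdef, P.ord_mul (by simpa using hbne) h0, place_ord_algebraMap, zero_add]⟩
  suffices hex : ∃ r, X.JRed (algebraMap K F e⁻¹ * (g - 1)) r by
    obtain ⟨r, hr⟩ := hex
    exact ⟨b, r, hbne, hr, hgρ.props hF hS hgoff hgone he0 he hr⟩
  rcases eq_or_ne (g - 1) 0 with h1 | h1
  · exact ⟨0, fun i => by rw [h1, mul_zero]; exact ConstRed.red_zero⟩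
  obtain ⟨a, H, ha, hH, j, hj⟩ := X.exists_joint_scale (f := fun _ : ι => g - 1) fun _ => h1
  by_cases hle : A.valuation a⁻¹ ≤ A.valuation e
  · have hm : e⁻¹ * a⁻¹ ∈ A := (A.valuation_le_one_iff _).1 (by
      rw [map_mul, map_inv₀ A.valuation e, inv_mul_le_one₀ (A.valuation.pos_iff.2 he0)]
      exact hle)
    refine ⟨fun i => algebraMap k (Fk i) (X.π ⟨_, hm⟩) * H i, fun i => ?_⟩
    have h2 := (X.red_const i ⟨_, hm⟩).mul (hH i)
    rwa [← mul_assoc, ← map_mul,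
      show ((⟨e⁻¹ * a⁻¹, hm⟩ : A) : K) * a = e⁻¹ from inv_mul_cancel_right₀ ha _] at h2
  exfalso
  rw [not_le] at hle
  have ha1 : A.valuation a⁻¹ < 1 := by
    by_contra hge
    rw [not_lt] at hge
    have haA : a ∈ A := (A.valuation_le_one_iff _).1 (by
      rw [← inv_inv a, map_inv₀]
      exact inv_le_one_of_one_le₀ hge)
    have h2 := (X.red_const j ⟨a, haA⟩).mul ((hgone j).sub (ConstRed.red_one (C := X.C j)))
    rw [sub_self, mul_zero] at h2
    exact hj ((hH j).unique h2)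
  have hzero : X.LocalFactors S g a⁻¹ (fun x => 0) := ⟨fun x => by
    obtain ⟨w, hw, hwg⟩ := hgρ.factor x
    refine ⟨w, ?_, hwg⟩
    have hm : a * e ∈ A := (A.valuation_le_one_iff _).1 (by
      rw [map_mul, ← inv_inv a, map_inv₀, inv_mul_le_one₀ (A.valuation.pos_iff.2 (inv_ne_zero ha))]
      exact hle.le)
    have h2 := (X.red_const x.1.1 ⟨_, hm⟩).mul hw
    rw [(X.π_eq_zero ⟨_, hm⟩).2 (by
      show A.valuation (a * e) < 1
      rw [map_mul, ← inv_inv a, map_inv₀, inv_mul_lt_one₀ (A.valuation.pos_iff.2 (inv_ne_zero ha))]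
      exact hle), map_zero, zero_mul, ← mul_assoc, ← map_mul] at h2
    rw [inv_inv]
    rwa [show ((⟨a * e, hm⟩ : A) : K) * e⁻¹ = a from mul_inv_cancel_right₀ he0 _] at h2⟩
  have hH' : X.JRed (algebraMap K F a⁻¹⁻¹ * (g - 1)) H := fun i => by rw [inv_inv]; exact hH i
  obtain ⟨⟨v, hv⟩, hreg, hregS⟩ := hzero.props hF hS hgoff hgone (inv_ne_zero ha) ha1 hH'
  have hall : ∀ i, ∀ R : Place k (Fk i), AtLeast R 0 (H i) := fun i R => by
    by_cases hb' : ∀ b, X.br b ≠ ⟨i, R⟩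
    · by_cases hRS : (⟨i, R⟩ : Σ i, Place k (Fk i)) ∈ S
      · have h2 := hregS ⟨_, hRS⟩
        rwa [sub_zero] at h2
      · exact hreg i R hb' hRS
    · push Not at hb'
      obtain ⟨b', hb'⟩ := hb'
      have h2 := (hv b').atLeast
      rwa [hb'] at h2
  obtain ⟨a', ha'⟩ := X.exists_eq_const hk (T := fun _ => 0) (H := H)
    ⟨fun i => FA.Curve.mem_riemannRochSpace.2 fun R => by simpa using hall i R,
      fun b => v (X.pt b), X.mem_gluedVals.2 ⟨v, fun _ => rfl⟩, hv⟩ hall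
  have hcP : HasValue Ps g 1 := by
    have h2 := hc.smul c⁻¹
    rwa [inv_mul_cancel₀ hc0, ← mul_assoc, ← map_mul, ← mul_inv_rev] at h2
  have hval : HasValue Ps (algebraMap K F a * (g - 1)) 0 := by
    simpa using (hcP.sub (hasValue_algebraMap Ps (1 : K))).smul a
  obtain ⟨h0A, h0v⟩ := X.hasValue_red hF (hH i₀) hQb (fun P hP => (AtLeast.sub (Or.inr
    (hgoff P (hover P hP)).ge) (Or.inr (by simp))).smul _) hPs hval
  rw [ha' i₀, show (⟨0, h0A⟩ : A) = 0 from rfl, map_zero] at h0v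
  exact hj (by rw [ha' j, (hasValue_algebraMap Q a').unique h0v, map_zero])

omit hF in
/-- Glued functions with at most simple poles on a rigid set are constant. -/
theorem exists_const_of_simple {S : Finset (Σ i, Place k (Fk i))}
    (hS : ∀ x ∈ S, ∀ b, X.br b ≠ x)
    (hrigid : ∀ H ∈ X.gluedSpace (compDiv S), ∃ a, ∀ i, H i = algebraMap k (Fk i) a)
    {r : ∀ i, Fk i} {v : σ → k} (hv : ∀ b, HasValue (X.br b).2 (r (X.br b).1) (v (X.pt b)))
    (hreg : ∀ i (Q : Place k (Fk i)), (∀ b, X.br b ≠ ⟨i, Q⟩) →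
      (⟨i, Q⟩ : Σ i, Place k (Fk i)) ∉ S → AtLeast Q 0 (r i))
    (hsimple : ∀ x : S, AtLeast x.1.2 (-1) (r x.1.1)) :
    ∃ a, ∀ i, r i = algebraMap k (Fk i) a := by
  classical
  refine hrigid r ⟨fun i => FA.Curve.mem_riemannRochSpace.2 fun Q => ?_, fun b => v (X.pt b),
    X.mem_gluedVals.2 ⟨v, fun _ => rfl⟩, hv⟩
  rw [compDiv_apply]
  by_cases hb : ∀ b, X.br b ≠ ⟨i, Q⟩
  · split_ifs with hQ
    · exact hsimple ⟨_, hQ⟩
    · simpa using hreg i Q hb hQ
  · push Not at hb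
    obtain ⟨b, hb⟩ := hb
    rw [if_neg fun hQ => hS _ hQ b hb, neg_zero]
    have h2 := (hv b).atLeast
    rwa [hb] at h2

end FA.ModField.SemiFibre
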