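import Fermat.Agent.ModField.Semistable.AtP.BranchOrd
import Fermat.Agent.ModField.Semistable.AtP.DiscFactor
import Fermat.Agent.ModField.Semistable.AtP.NearOne

/-!
# Finite groups of connected classes killed by `p`

On a group of classes killed by `p` with zero reductions, either inertia acts through the
cyclotomic character, or some class has a function whose difference from one is, at a scale above
that of `ζ - 1`, not a `p`-th power on some component.
-/

set_option autoImplicit false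
set_option linter.style.haveILetI false
set_option linter.unusedSectionVars false
set_option maxHeartbeats 1600000

noncomputable section

namespace FA.ModField.AtP

open AlgebraicCurve FA.Curve FA.CurveRed FA.CurveRed.ConstRed FA.Local FA.LocalDef

local notation "Qb" => AlgebraicClosure ℚ
local notation "GQ" => AlgebraicClosure ℚ ≃ₐ[ℚ] AlgebraicClosure ℚ

/-- Orders of roots. -/
theorem atLeast_of_pow {K F : Type*} [Field K] [Field F] [Algebra K F] {P : Place K F} {y : F}
    {p : ℕ} (hp : p ≠ 0) {m n : ℤ} (h : AtLeast P m (y ^ p)) (hm : (p : ℤ) * (n - 1) < m) :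
    AtLeast P n y := by
  rcases eq_or_ne y 0 with rfl | hy
  · exact atLeast_zero
  rw [atLeast_iff (pow_ne_zero p hy), place_ord_pow] at h
  refine Or.inr ?_
  have h1 : (p : ℤ) * (n - 1) < p * P.ord y := by omega
  have := lt_of_mul_lt_mul_left h1 (Int.natCast_nonneg p)
  omega

/-- Values of roots in characteristic `p`. -/
theorem hasValue_of_pow {K F : Type*} [Field K] [Field F] [Algebra K F] {P : Place K F} {y : F}
    {p : ℕ} [hp : Fact p.Prime] [CharP F p] {c : K} (h : HasValue P (y ^ p) (c ^ p)) :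
    HasValue P y c := by
  refine atLeast_of_pow hp.out.ne_zero (m := 1) ?_ (by simp)
  rw [sub_pow_char]
  rwa [HasValue, map_pow] at h

variable {F k : Type*} [Field F] [Algebra Qb F] [Field k] [IsAlgClosed k] {ι : Type*} [Fintype ι]
  [Nonempty ι] {Fk : ι → Type*} [∀ i, Field (Fk i)] [∀ i, Algebra k (Fk i)]
  {A : ValuationSubring Qb} {β σ : Type*} [Fintype β] [Fintype σ]
  {X : SemiFibre Qb F k Fk A β σ} {φ : GQ →* SemilinearAut Qb F} (GF : GalFibre X φ)
  (hF : IsFunctionField Qb F) (hk : ∀ i, IsFunctionField k (Fk i)) {p : ℕ} [hp : Fact p.Prime]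
  [CharP k p] (hA : A.LiesOverPrime p)

local notation "v" => ValuationSubring.valuation A

include GF hF hk hA

/-- **The trichotomy of connected classes.** -/
theorem GalFibre.dichotomy_connected {ζ : Qb} (hζ : IsPrimitiveRoot ζ p)
    (hone : ∀ g : F, g ≠ 0 → X.Clean (divOf hF g) → (∀ i, X.push (divOf hF g) i = 0) →
      ∃ b : Qb, b ≠ 0 ∧ ∀ i, (X.C i).Red (algebraMap Qb F b⁻¹ * g) 1)
    {V : Type} [AddCommGroup V] (hpV : ∀ x : V, p • x = 0) (ι' : V →+ Pic0 Qb F)
    (hι : Function.Injective ι')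
    (hV : ∀ x, ∃ y : X.toricKer hF p, ((y : Pic0.torsion Qb F p) : Pic0 Qb F) = ι' x) :
    (∃ (x : V) (D : Divisor.degZero (K := Qb) (F := F)) (g : F) (d : Qb) (r : ∀ i, Fk i),
      Pic0.mk D = ι' x ∧ g ≠ 0 ∧ (∀ P, P.ord g = (p : ℤ) * (D : Divisor Qb F) P) ∧ d ≠ 0 ∧
      A.valuation d < 1 ∧ A.valuation (p : Qb) < A.valuation d ^ (p - 1) ∧
      X.JRed (algebraMap Qb F (d ^ p)⁻¹ * (g - 1)) r ∧ ∃ i, ∀ u, r i ≠ u ^ p) ∨
    ∀ s ∈ A.inertiaSubgroupIn ℚ, ∀ m : ℕ, s ζ = ζ ^ m →
      ∀ x y : V, ι' y = φ s • ι' x → y = m • x := by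
  classical
  have hp' := hp.out
  haveI : ∀ i, CharP (Fk i) p := fun i =>
    charP_of_injective_algebraMap (algebraMap k (Fk i)).injective p
  have hroot : ∀ a : k, a ^ p = 1 → a = 1 := fun a ha => sub_eq_zero.1 (eq_zero_of_pow_eq_zero
    (n := p) (by rw [sub_pow_char, ha, one_pow, sub_self]))
  have hp0 : (p : Qb) ≠ 0 := Nat.cast_ne_zero.2 hp'.ne_zero
  have hvp : v (p : Qb) < 1 := by
    have h1 : X.π (p : A) = 0 := by rw [map_natCast]; exact CharP.cast_eq_zero k p
    rw [X.π_eq_zero] at h1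
    rwa [show (((p : A)) : Qb) = (p : Qb) from map_natCast A.subtype p] at h1
  set π₁ : Qb := 1 - ζ with hπ₁
  have hπp : v π₁ ^ (p - 1) = v (p : Qb) := pow_map_one_sub A.valuation hp' hζ
  have hp1 : p - 1 ≠ 0 := by have := hp'.two_le; omega
  have hπ1 : v π₁ < 1 := by
    by_contra hge
    rw [not_lt] at hge
    exact (hπp ▸ hvp).not_ge (one_le_pow₀ hge)
  have hπ0 : π₁ ≠ 0 := fun h0 => hp0 ((map_eq_zero A.valuation).1 (by
    rw [← hπp, h0, map_zero, zero_pow hp1]))
  -- the chart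
  obtain ⟨G, -, -, av₀, hoff⟩ := SemiFibre.exists_ambient hF hk (T := φ '' (A.inertiaSubgroupIn ℚ : Set GQ))
    (by rintro _ ⟨g, hg, rfl⟩; exact GF.stable g hg) GF.fixed
  obtain ⟨C, -, P₀, hP₀, hfix⟩ := SemiFibre.exists_fixed_chart hF hk G GF.fixed av₀ hoff
  choose U hU using fun x : C.S => GF.exists_unif hF hk hp' hA (x := x.1) (C.smooth x.1 x.2)
  set E₁ := ∑ Q, Finsupp.single (P₀ Q) (1 : ℤ) with hE₁def
  have hE₁ : X.DiscDiv C.S E₁ := ⟨P₀, hP₀, rfl⟩
  -- the representatives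
  have hex : ∀ x : V, ∃ P : C.S → Place Qb F, (∀ Q, X.spl (P Q) = some Q.1) ∧
      ∃ h : (∑ Q, Finsupp.single (P Q) (1 : ℤ)) - E₁ ∈ Divisor.degZero (K := Qb) (F := F),
        Pic0.mk ⟨_, h⟩ = ι' x := by
    intro x
    obtain ⟨y, hy⟩ := hV x
    obtain ⟨D₀, g, hD₀, hg, hgD⟩ := exists_torsion_fn p (y : Pic0.torsion Qb F p)
    obtain ⟨t, htD, ht⟩ := SemiFibre.exists_glued_twist hF hk hp'.ne_zero
      (SemiFibre.toricHom_eq_zero hF hk hp'.ne_zero hroot y) hD₀ hg hgD
    obtain ⟨P, f, hP, hf, he⟩ := SemiFibre.exists_disc_divisor hF hk hp'.ne_zero ht C.smooth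
      C.card_S C.rigid hP₀ hE₁.clean hE₁.push_eq
    have hD : X.DiscDiv C.S (∑ Q, Finsupp.single (P Q) (1 : ℤ)) := ⟨P, hP, rfl⟩
    have hdeg : (∑ Q, Finsupp.single (P Q) (1 : ℤ)) - E₁ ∈
        Divisor.degZero (K := Qb) (F := F) := by
      show Divisor.degree _ = 0
      rw [map_sub, hD.degree hF, hE₁.degree hF, sub_self]
    refine ⟨P, hP, hdeg, ?_⟩
    rw [← hy, ← hD₀, Pic0.mk, Pic0.mk, QuotientAddGroup.eq, AddSubgroup.mem_addSubgroupOf]
    refine ⟨f⁻¹, inv_ne_zero hf, fun w => ?_⟩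
    have := congrArg (fun D : Divisor Qb F => D w) he
    simp only [Finsupp.add_apply, divOf_apply, htD] at this
    simp only [hE₁def, AddSubgroup.coe_add, AddSubgroup.coe_neg, Finsupp.add_apply,
      Finsupp.neg_apply, Finsupp.sub_apply, w.ord_inv]
    omega
  choose P hP hdeg hcls using hex
  have hDisc : ∀ x : V, X.DiscDiv C.S (∑ Q, Finsupp.single (P x Q) (1 : ℤ)) := fun x =>
    ⟨P x, hP x, rfl⟩
  let D : V → Divisor.degZero (K := Qb) (F := F) := fun x => ⟨_, hdeg x⟩
  have hcls' : ∀ x, Pic0.mk (D x) = ι' x := hcls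
  have hover : ∀ (x : V) (Q : C.S) (R : Place Qb F), X.spl R = some Q.1 →
      (D x : Divisor Qb F) R = (if R = P x Q then 1 else 0) - if R = P₀ Q then 1 else 0 :=
    fun x Q R hR => by
      show ((∑ Q, Finsupp.single (P x Q) (1 : ℤ)) - E₁) R = _
      rw [Finsupp.sub_apply, hE₁def, X.sum_single_over Subtype.val_injective (hP x) hR,
        X.sum_single_over Subtype.val_injective hP₀ hR]
  have hout : ∀ (x : V) (R : Place Qb F), (∀ Q ∈ C.S, X.spl R ≠ some Q) →
      (D x : Divisor Qb F) R = 0 := fun x R hR => by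
    show ((∑ Q, Finsupp.single (P x Q) (1 : ℤ)) - E₁) R = 0
    rw [Finsupp.sub_apply, (hDisc x).eq_zero hR, hE₁.eq_zero hR,
      sub_zero]
  have hpushD : ∀ (x : V) i, X.push (D x : Divisor Qb F) i = 0 := fun x i => by
    show X.push ((∑ Q, Finsupp.single (P x Q) (1 : ℤ)) - E₁) i = 0
    rw [X.push_sub', (hDisc x).push_eq, hE₁.push_eq, sub_self]
  -- the coordinates
  let t : V → C.S → Qb := fun x Q => valueAt (P x Q) (U Q).z
  let t₀ : C.S → Qb := fun Q => valueAt (P₀ Q) (U Q).z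
  have htlt : ∀ x Q, v (t₀ Q - t x Q) < 1 := fun x Q => by
    obtain ⟨h, -, hπ⟩ := (U Q).value hF (hP x Q)
    obtain ⟨h', -, hπ'⟩ := (U Q).value hF (hP₀ Q)
    have h1 : X.π (⟨_, h'⟩ - ⟨_, h⟩) = 0 := by rw [map_sub, hπ, hπ', sub_zero]
    rwa [X.π_eq_zero] at h1
  have hzero : ∀ x, (∀ Q, t x Q = t₀ Q) → x = 0 := fun x hx => hι (by
    have hPP : P x = P₀ := funext fun Q => (U Q).eq_of_value hF (hP x Q) (hP₀ Q) (hx Q)
    rw [← hcls' x, map_zero, show D x = 0 from Subtype.ext (by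
      show (∑ Q, Finsupp.single (P x Q) (1 : ℤ)) - E₁ = 0
      rw [hPP, hE₁def, sub_self])]
    rfl)
  -- the functions
  have hfn : ∀ x, ∃ g : F, g ≠ 0 ∧ ∀ R, R.ord g = (p : ℤ) * (D x : Divisor Qb F) R := fun x =>
    exists_fn_of_nsmul (by rw [hcls', ← map_nsmul, hpV, map_zero])
  choose f hf hford using hfn
  have hred1 : ∀ g : F, g ≠ 0 → (∀ R, (∀ Q ∈ C.S, X.spl R ≠ some Q) → R.ord g = 0) →
      (∀ i, X.push (divOf hF g) i = 0) →
      ∃ b : Qb, b ≠ 0 ∧ ∀ i, (X.C i).Red (algebraMap Qb F b⁻¹ * g) 1 := fun g hg ho hpu =>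
    hone g hg (fun R hR => by
      rw [divOf_apply]
      exact ho R fun Q _ h => by rw [hR] at h; cases h) hpu
  have hfout : ∀ x R, (∀ Q ∈ C.S, X.spl R ≠ some Q) → R.ord (f x) = 0 := fun x R hR => by
    rw [hford, hout x R hR, mul_zero]
  have hfpush : ∀ x i, X.push (divOf hF (f x)) i = 0 := fun x i => by
    rw [show divOf hF (f x) = p • (D x : Divisor Qb F) from Finsupp.ext fun R => by
      rw [divOf_apply, hford, Finsupp.smul_apply, nsmul_eq_mul], X.push_nsmul, hpushD, smul_zero]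
  -- vanishing of simple poles
  have hsimple : ∀ (g : F), g ≠ 0 → (∀ R, (∀ Q ∈ C.S, X.spl R ≠ some Q) → R.ord g = 0) →
      (∀ i, X.push (divOf hF g) i = 0) → ∀ (e : Qb), e ≠ 0 → v e < 1 → ∀ a : C.S → k,
      X.LocalFactors C.S g e (fun Q => algebraMap k (Fk Q.1.1) (a Q) * (U Q).zb⁻¹) →
      ∀ Q, a Q = 0 := by
    intro g hg ho hpu e he0 he a hfac Q
    obtain ⟨b, r, -, -, ⟨w, hw⟩, hreg, hregS⟩ := hfac.exists_near_one hF hk C.smooth ho
      (hred1 g hg ho hpu) he0 he
    obtain ⟨c, hc⟩ := SemiFibre.exists_const_of_simple hk C.smooth C.rigid hw hreg fun Q' => by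
      have h := ((hregS Q').mono (by norm_num : (-1 : ℤ) ≤ 0)).add ((U Q').simple (a Q'))
      rwa [sub_add_cancel] at h
    refine (U Q).eq_zero_of_regular ?_
    have h := (atLeast_algebraMap c).sub (hregS Q)
    rwa [hc, sub_sub_cancel] at h
  by_cases hbig : ∃ x Q, v π₁ < v (t₀ Q - t x Q)
  · left
    obtain ⟨x, Q₁, hQ₁⟩ := hbig
    obtain ⟨Qm, -, hmax⟩ := Finset.exists_max_image Finset.univ (fun Q => v (t₀ Q - t x Q))
      ⟨Q₁, Finset.mem_univ _⟩
    set d := t₀ Qm - t x Qm with hd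
    have hπd : v π₁ < v d := hQ₁.trans_le (hmax Q₁ (Finset.mem_univ _))
    have hd0 : d ≠ 0 := fun h0 => by
      rw [h0, map_zero] at hπd
      exact not_lt_zero hπd
    have hd1 : v d < 1 := htlt x Qm
    have hpd : v (p : Qb) < v d ^ (p - 1) := hπp ▸ pow_lt_pow_left₀ hπd zero_le hp1
    have hm : ∀ Q, (t₀ Q - t x Q) / d ∈ A := fun Q => (A.valuation_le_one_iff _).1 (by
      rw [map_div₀, div_le_one₀ (A.valuation.pos_iff.2 hd0)]
      exact hmax Q (Finset.mem_univ _))
    let a : C.S → k := fun Q => X.π ⟨_, hm Q⟩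
    have hfac : X.LocalFactors C.S (f x) (d ^ p)
        (fun Q => (algebraMap k (Fk Q.1.1) (a Q) * (U Q).zb⁻¹) ^ p) := ⟨fun Q =>
      ⟨(U Q).ratio (P x Q) (P₀ Q) ^ p,
        ((U Q).red_ratio hF (hP x Q) (hP₀ Q) hd0 (hm Q)).pow_sub_one_big hp' hd0 hd1 hpd,
        fun R hR => by
          rw [place_ord_pow, (U Q).ord_ratio hF (hP x Q) (hP₀ Q) hR, hford, hover x Q R hR]⟩⟩
    have he : v (d ^ p) < 1 := by rw [map_pow]; exact pow_lt_one₀ zero_le hd1 hp'.ne_zero
    obtain ⟨b, r, hb, hr, ⟨w, hw⟩, hreg, hregS⟩ := hfac.exists_near_one hF hk C.smooth (hfout x)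
      (hred1 _ (hf x) (hfout x) (hfpush x)) (pow_ne_zero p hd0) he
    refine ⟨x, D x, algebraMap Qb F b⁻¹ * f x, d, r, hcls' x,
      mul_ne_zero (by simpa using hb) (hf x), fun R => by
        rw [R.ord_mul (by simpa using hb) (hf x), place_ord_algebraMap, zero_add, hford],
      hd0, hd1, hpd, hr, ?_⟩
    by_contra hall
    push Not at hall
    choose u hu using hall
    choose w' hw' using fun s => IsAlgClosed.exists_pow_nat_eq (w s) hp'.pos
    obtain ⟨c, hc⟩ := SemiFibre.exists_const_of_simple (r := u) hk C.smooth C.rigid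
      (fun b' => hasValue_of_pow (p := p) (by rw [hw', ← hu]; exact hw b'))
      (fun i R hR hRS => atLeast_of_pow hp'.ne_zero (m := 0) (by rw [← hu]; exact hreg i R hR hRS)
        (by have := hp'.pos; omega))
      fun Q => by
        have h1 : AtLeast Q.1.2 0 (u Q.1.1 - algebraMap k (Fk Q.1.1) (a Q) * (U Q).zb⁻¹) :=
          atLeast_of_pow hp'.ne_zero (m := 0) (by rw [sub_pow_char, ← hu]; exact hregS Q)
            (by have := hp'.pos; omega)
        have h := (h1.mono (by norm_num : (-1 : ℤ) ≤ 0)).add ((U Q).simple (a Q))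
        rwa [sub_add_cancel] at h
    have h1 : a Qm = 0 := (U Qm).eq_zero_of_regular (by
      have h1 : AtLeast Qm.1.2 0 (u Qm.1.1 - algebraMap k (Fk Qm.1.1) (a Qm) * (U Qm).zb⁻¹) :=
        atLeast_of_pow hp'.ne_zero (m := 0) (by rw [sub_pow_char, ← hu]; exact hregS Qm)
          (by have := hp'.pos; omega)
      have h := (atLeast_algebraMap c).sub h1
      rwa [hc, sub_sub_cancel] at h)
    refine one_ne_zero (α := k) ?_
    rw [← h1, ← map_one X.π]
    exact congrArg X.π (Subtype.ext (div_self hd0).symm)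
  right
  push Not at hbig
  have hmem : ∀ x Q, (t₀ Q - t x Q) / π₁ ∈ A := fun x Q => (A.valuation_le_one_iff _).1 (by
    rw [map_div₀, div_le_one₀ (A.valuation.pos_iff.2 hπ0)]; exact hbig x Q)
  let a : V → C.S → k := fun x Q => X.π ⟨_, hmem x Q⟩
  have hinj : ∀ x, (∀ Q, a x Q = 0) → x = 0 := by
    intro x hx
    refine hzero x fun Q₀ => ?_
    by_contra hne
    obtain ⟨Qm, -, hmax⟩ := Finset.exists_max_image Finset.univ (fun Q => v (t₀ Q - t x Q))
      ⟨Q₀, Finset.mem_univ _⟩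
    set d := t₀ Qm - t x Qm with hd
    have hd0 : d ≠ 0 := fun h0 => hne (by
      have h := hmax Q₀ (Finset.mem_univ _)
      rw [h0, map_zero] at h
      exact (sub_eq_zero.1 ((map_eq_zero A.valuation).1 (le_antisymm h zero_le))).symm)
    have hdπ : v d < v π₁ := by
      have h := hx Qm
      rw [X.π_eq_zero] at h
      change v (d / π₁) < 1 at h
      rwa [map_div₀, div_lt_one₀ (A.valuation.pos_iff.2 hπ0)] at h
    have hd1 : v d < 1 := hdπ.trans hπ1
    have hdp : v d ^ (p - 1) < v (p : Qb) := hπp ▸ pow_lt_pow_left₀ hdπ zero_le hp1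
    have hm : ∀ Q, (t₀ Q - t x Q) / d ∈ A := fun Q => (A.valuation_le_one_iff _).1 (by
      rw [map_div₀, div_le_one₀ (A.valuation.pos_iff.2 hd0)]
      exact hmax Q (Finset.mem_univ _))
    have h := hsimple (f x) (hf x) (hfout x) (hfpush x) ((p : Qb) * d) (mul_ne_zero hp0 hd0)
      (by rw [map_mul]; exact (mul_le_of_le_one_left' hvp.le).trans_lt hd1)
      (fun Q => X.π ⟨_, hm Q⟩) ⟨fun Q => ⟨(U Q).ratio (P x Q) (P₀ Q) ^ p,
        ((U Q).red_ratio hF (hP x Q) (hP₀ Q) hd0 (hm Q)).pow_sub_one_small hp' hd0 hd1 hp0 hvp.le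
          hdp,
        fun R hR => by
          rw [place_ord_pow, (U Q).ord_ratio hF (hP x Q) (hP₀ Q) hR, hford, hover x Q R hR]⟩⟩ Qm
    refine one_ne_zero (α := k) ?_
    rw [← h, ← map_one X.π]
    exact congrArg X.π (Subtype.ext (div_self hd0).symm)
  have hadd : ∀ x y Q, a (x + y) Q = a x Q + a y Q := by
    intro x y Q
    obtain ⟨h, hh, hord⟩ := exists_fn_of_mk_eq (D := D (x + y)) (D' := D x + D y)
      (by rw [Pic0.mk_add, hcls', hcls', hcls', map_add])
    have hord' : ∀ R, R.ord h = (D (x + y) : Divisor Qb F) R -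
        ((D x : Divisor Qb F) R + (D y : Divisor Qb F) R) := fun R => by
      rw [hord, AddSubgroup.coe_add, Finsupp.add_apply]
    have hsum := hsimple h hh
      (fun R hR => by rw [hord', hout _ R hR, hout _ R hR, hout _ R hR]; norm_num)
      (fun i => by
        rw [show divOf hF h = (D (x + y) : Divisor Qb F) - ((D x : Divisor Qb F) + D y) from
          Finsupp.ext fun R => by rw [divOf_apply, hord']; simp,
          X.push_sub', X.push_add, hpushD, hpushD, hpushD, add_zero, sub_zero])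
      π₁ hπ0 hπ1 (fun Q => a (x + y) Q + -(a x Q + a y Q)) ⟨fun Q =>
        ⟨(U Q).ratio (P (x + y) Q) (P₀ Q) *
          ((U Q).ratio (P x Q) (P₀ Q) * (U Q).ratio (P y Q) (P₀ Q))⁻¹, by
          have hr := fun z => (U Q).red_ratio hF (hP z Q) (hP₀ Q) hπ0 (hmem z Q)
          have h := (hr (x + y)).mul_sub_one hπ0 hπ1
            (((hr x).mul_sub_one hπ0 hπ1 (hr y)).inv_sub_one hπ0 hπ1)
          convert h using 1
          show algebraMap k _ (a (x + y) Q + -(a x Q + a y Q)) * _ = _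
          rw [map_add, map_neg, map_add]
          ring,
        fun R hR => by
          have hne : ∀ z, (U Q).ratio (P z Q) (P₀ Q) ≠ 0 := fun z =>
            div_ne_zero (((U Q).lin hF (hP z Q)).1.ne_zero (U Q).ne_zero)
              (((U Q).lin hF (hP₀ Q)).1.ne_zero (U Q).ne_zero)
          rw [R.ord_mul (hne _) (inv_ne_zero (mul_ne_zero (hne _) (hne _))), R.ord_inv,
            R.ord_mul (hne _) (hne _), hord', hover _ Q R hR, hover _ Q R hR, hover _ Q R hR,
            (U Q).ord_ratio hF (hP _ Q) (hP₀ Q) hR, (U Q).ord_ratio hF (hP _ Q) (hP₀ Q) hR,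
            (U Q).ord_ratio hF (hP _ Q) (hP₀ Q) hR]
          ring⟩⟩ Q
    rwa [← sub_eq_add_neg, sub_eq_zero] at hsum
  intro s hs m hm x y hy
  haveI : Algebra.IsAlgebraic ℚ Qb := AlgebraicClosure.isAlgebraic ℚ
  have hin := inert_of_mem_inertiaSubgroupIn A hs
  have hPy : ∀ Q, P y Q = φ s • P x Q := by
    set D' : Divisor Qb F := ∑ Q, Finsupp.single (φ s • P x Q) (1 : ℤ) with hD'
    have hspl : ∀ Q, X.spl (φ s • P x Q) = some Q.1 := fun Q =>
      (GF.stable s hs).spl_smul hF hk (hP x Q)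
    have hDD : X.DiscDiv C.S D' := ⟨_, hspl, rfl⟩
    have hsE : φ s • E₁ = E₁ := by
      simp only [hE₁def, Finset.smul_sum]
      exact Finset.sum_congr rfl fun Q _ => by
        rw [SemilinearAut.smul_single, hfix _ ⟨s, hs, rfl⟩]
    have hmk : Pic0.mk (SemilinearAut.degZeroSMulHom (φ s) (D x)) = Pic0.mk (D y) := by
      rw [← SemilinearAut.pic0_smul_mk, hcls', hcls', hy]
    obtain ⟨z, hz, hzord⟩ := exists_fn_of_mk_eq hmk
    have hzord' : ∀ R, R.ord z = D' R - (∑ Q, Finsupp.single (P y Q) (1 : ℤ)) R := fun R => by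
      rw [hzord, SemilinearAut.coe_degZeroSMulHom]
      show (φ s • ((∑ Q, Finsupp.single (P x Q) (1 : ℤ)) - E₁)) R -
        ((∑ Q, Finsupp.single (P y Q) (1 : ℤ)) - E₁) R = _
      rw [smul_sub, hsE, Finset.smul_sum, Finsupp.sub_apply, Finsupp.sub_apply, hD']
      simp only [SemilinearAut.smul_single]
      ring
    set Dy : Divisor Qb F := ∑ Q, Finsupp.single (P y Q) (1 : ℤ) with hDy
    have hDyd : X.DiscDiv C.S Dy := ⟨_, hP y, rfl⟩
    have hzD : z ∈ riemannRochSpace Dy := by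
      rw [FA.Curve.mem_riemannRochSpace]
      intro w
      refine Or.inr ?_
      have h2 := Finsupp.le_def.1 hDD.nonneg w
      have h1 := hzord' w
      simp only [Finsupp.coe_zero, Pi.zero_apply] at h2
      omega
    have h1D : (1 : F) ∈ riemannRochSpace Dy := by
      rw [FA.Curve.mem_riemannRochSpace]
      intro w
      refine Or.inr ?_
      rw [w.ord_one]
      have := Finsupp.le_def.1 hDyd.nonneg w
      simp only [Finsupp.coe_zero, Pi.zero_apply] at this
      omega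
    haveI := finite_riemannRochSpace hF Dy
    have heq := Submodule.eq_of_le_of_finrank_le
      ((Submodule.span_singleton_le_iff_mem (R := Qb) _ _).2 h1D) (by
      rw [finrank_span_singleton (K := Qb) (one_ne_zero : (1 : F) ≠ 0)]
      have := SemiFibre.ell_discDiv_le hF hk C.rigid hDyd
      rw [ell] at this
      omega)
    rw [← heq, Submodule.mem_span_singleton] at hzD
    obtain ⟨c, rfl⟩ := hzD
    intro Q
    have h1 := hzord' (φ s • P x Q)
    rw [Algebra.smul_def, mul_one, place_ord_algebraMap, hD', hDy,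
      X.sum_single_over Subtype.val_injective hspl (hspl Q),
      X.sum_single_over Subtype.val_injective (hP y) (hspl Q), if_pos rfl] at h1
    by_contra hne
    rw [if_neg (Ne.symm hne)] at h1
    omega
  have hval : ∀ (Q : C.S) (R : Place Qb F), X.spl R = some Q.1 →
      valueAt (φ s • R) (U Q).z = s (valueAt R (U Q).z) := fun Q R hR => by
    have h := GF.hasValue (g := s) ((U Q).value hF hR).2.1
    rw [hU Q s hs] at h
    exact valueAt_eq h
  have hζA : ζ ∈ A := (A.valuation_le_one_iff _).1 (by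
    rw [show ζ = 1 - π₁ by rw [hπ₁]; ring]
    exact A.valuation.map_sub_le (map_one _).le hπ1.le)
  have hζπ : X.π ⟨ζ, hζA⟩ = 1 := by
    rw [← sub_eq_zero, ← map_one X.π, ← map_sub, X.π_eq_zero]
    show v (ζ - 1) < 1
    rwa [A.valuation.map_sub_swap]
  have hkey : ∀ Q, a y Q = (m : k) * a x Q := by
    intro Q
    have hty : t₀ Q - t y Q = s (t₀ Q - t x Q) := by
      show valueAt (P₀ Q) (U Q).z - valueAt (P y Q) (U Q).z = _
      rw [hPy, hval Q _ (hP x Q), map_sub]
      congr 1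
      conv_lhs => rw [← hfix (φ s) ⟨s, hs, rfl⟩ Q]
      exact hval Q _ (hP₀ Q)
    have hsA : s ((t₀ Q - t x Q) / π₁) ∈ A := (A.valuation_le_one_iff _).1 (by
      rw [hin.map_eq]; exact (A.valuation_le_one_iff _).2 (hmem x Q))
    have e : (⟨_, hmem y Q⟩ : A) = ⟨_, hsA⟩ * ∑ i ∈ Finset.range m, (⟨ζ, hζA⟩ : A) ^ i :=
      Subtype.ext (by
        show (t₀ Q - t y Q) / π₁ = s ((t₀ Q - t x Q) / π₁) * A.subtype (∑ i ∈ _, _)
        rw [hty, map_div₀, map_sum]
        simp only [map_pow]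
        show s (t₀ Q - t x Q) / π₁ = _ / s π₁ * ∑ i ∈ Finset.range m, ζ ^ i
        have hsπ : s π₁ = (∑ i ∈ Finset.range m, ζ ^ i) * π₁ := by
          rw [hπ₁, geom_sum_mul_neg, map_sub, map_one, hm]
        have hs0 : s π₁ ≠ 0 := (map_ne_zero_iff _ s.injective).2 hπ0
        have hg0 : (∑ i ∈ Finset.range m, ζ ^ i) ≠ 0 := fun h0 => hs0 (by rw [hsπ, h0, zero_mul])
        rw [hsπ]
        field_simp)
    have hres : X.π ⟨_, hsA⟩ = a x Q := by
      rw [← sub_eq_zero, ← map_sub, X.π_eq_zero]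
      exact hin.sub_lt _ ((A.valuation_le_one_iff _).2 (hmem x Q))
    show X.π ⟨_, hmem y Q⟩ = _
    rw [e, map_mul, map_sum, hres]
    simp only [map_pow, hζπ, one_pow, Finset.sum_const, Finset.card_range, nsmul_eq_mul, mul_one]
    exact mul_comm _ _
  let aHom : V →+ (C.S → k) := AddMonoidHom.mk' a fun x y => funext (hadd x y)
  refine sub_eq_zero.1 (hinj _ fun Q => ?_)
  show aHom (y - m • x) Q = 0
  rw [map_sub, map_nsmul, Pi.sub_apply, Pi.smul_apply, nsmul_eq_mul]
  exact sub_eq_zero.2 (hkey Q)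

end FA.ModField.AtP
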