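import Fermat.Agent.ModField.Semistable.AtP.Small
import Mathlib.FieldTheory.Normal.Closure

/-!
# The fixed part of a function

A function is a polynomial in a uniformizer of a layer with coefficients fixed by inertia.  The
terms have different sizes on every component, so the constant term keeps the bounds and the
regularity of the function, and its reduction where the function is integral.
-/

set_option autoImplicit false
set_option linter.style.haveILetI false
set_option linter.unusedSectionVars false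

noncomputable section

namespace FA.ModField.AtP

open AlgebraicCurve FA.Curve FA.CurveRed FA.CurveRed.ConstRed FA.Local FA.LocalDef Polynomial

local notation "Qb" => AlgebraicClosure ℚ
local notation "GQ" => AlgebraicClosure ℚ ≃ₐ[ℚ] AlgebraicClosure ℚ

variable {F k : Type*} [Field F] [Algebra Qb F] [Field k] [IsAlgClosed k] {ι : Type*} [Fintype ι]
  [Nonempty ι] {Fk : ι → Type*} [∀ i, Field (Fk i)] [∀ i, Algebra k (Fk i)]
  {A : ValuationSubring Qb} {β σ : Type*} [Fintype β] [Fintype σ]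
  {X : SemiFibre Qb F k Fk A β σ} {φ : GQ →* SemilinearAut Qb F} (GF : GalFibre X φ)
  (hF : IsFunctionField Qb F) (hk : ∀ i, IsFunctionField k (Fk i)) {p : ℕ}

local notation "v" => ValuationSubring.valuation A

include GF in
/-- Every function is fixed by a layer. -/
theorem GalFibre.exists_layer_fixing (hp : p.Prime) (hA : A.LiesOverPrime p) (T : F) :
    ∃ Λ : Layer A p, ∀ g ∈ Λ.N, φ g • T = T := by
  obtain ⟨E, hEf, hE⟩ := GF.cont T
  let E' : IntermediateField ℚ Qb := IntermediateField.normalClosure ℚ E Qb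
  have : FiniteDimensional ℚ E' := normalClosure.is_finiteDimensional ℚ E Qb
  have hle : E ≤ E' := E.le_normalClosure
  have hn : E'.fixingSubgroup.Normal := by
    have : Normal ℚ E' := normalClosure.normal ℚ E Qb
    infer_instance
  obtain ⟨Λ, hΛ⟩ := exists_layer hp hA (A.inertiaSubgroupIn ℚ ⊓ E'.fixingSubgroup) inf_le_left
    (fun g hg h hh => Subgroup.mem_inf.2 ⟨mul_mem (mul_mem (inv_mem hg) (Subgroup.mem_inf.1 hh).1) hg,
      by simpa using hn.conj_mem h (Subgroup.mem_inf.1 hh).2 g⁻¹⟩) E' le_rfl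
  refine ⟨Λ, fun g hg => hE g ?_⟩
  rw [hΛ] at hg
  exact IntermediateField.fixingSubgroup_le hle hg.2

variable (φ) in
/-- The polynomial in the conjugates of `π` taking the conjugates of `T`. -/
def interpPoly (s : Finset Qb) (val : Qb → F) : F[X] :=
  ∑ r ∈ s, Polynomial.C (val r) * (Lagrange.basis s id r).map (algebraMap Qb F)

theorem eval_interpPoly {s : Finset Qb} (val : Qb → F) {r : Qb} (hr : r ∈ s) :
    (interpPoly s val).eval (algebraMap Qb F r) = val r := by
  classical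
  rw [interpPoly, eval_finsetSum, Finset.sum_eq_single r]
  · rw [eval_mul, eval_C, eval_map_apply, show Polynomial.eval r (Lagrange.basis s id r) = 1 from
      Lagrange.eval_basis_self Function.injective_id.injOn hr, map_one, mul_one]
  · intro j hj hjr
    rw [eval_mul, eval_map_apply, show Polynomial.eval r (Lagrange.basis s id j) = 0 from
      @Lagrange.eval_basis_of_ne _ _ _ _ s id _ _ hjr hr, map_zero, mul_zero]
  · exact fun h => absurd hr h

theorem natDegree_interpPoly {s : Finset Qb} (hs : s.Nonempty) (val : Qb → F) :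
    (interpPoly s val).natDegree < s.card := by
  classical
  have hc : 0 < s.card := Finset.card_pos.2 hs
  refine lt_of_le_of_lt (natDegree_sum_le_of_forall_le (n := s.card - 1) _ _ fun r hr => ?_)
    (Nat.sub_lt hc one_pos)
  refine (natDegree_C_mul_le _ _).trans (natDegree_map_le.trans ?_)
  rw [Lagrange.natDegree_basis Function.injective_id.injOn hr]

theorem atLeast_coeff_interpPoly {s : Finset Qb} (val : Qb → F) (n : ℕ) {P : Place Qb F}
    (h : ∀ r ∈ s, AtLeast P 0 (val r)) : AtLeast P 0 ((interpPoly s val).coeff n) := by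
  classical
  rw [interpPoly, finsetSum_coeff]
  suffices key : ∀ (u : Finset Qb), (∀ r ∈ u, AtLeast P 0 (val r)) → AtLeast P 0
      (∑ r ∈ u, (Polynomial.C (val r) *
        (Lagrange.basis s id r).map (algebraMap Qb F)).coeff n) from key _ h
  intro u
  induction u using Finset.induction with
  | empty => intro _; rw [Finset.sum_empty]; exact atLeast_zero
  | @insert b u hb ih =>
    intro hu
    rw [Finset.sum_insert hb, coeff_C_mul, coeff_map, mul_comm]
    exact ((hu b (Finset.mem_insert_self b u)).smul _).add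
      (ih fun r hr => hu r (Finset.mem_insert_of_mem hr))

include GF hF hk in
open Classical in
/-- **The fixed part.** -/
theorem GalFibre.exists_fixed_part (hp : p.Prime) (hA : A.LiesOverPrime p) (T : F) :
    ∃ f : F, (∀ g ∈ A.inertiaSubgroupIn ℚ, φ g • f = f) ∧
      (∀ P : Place Qb F, (∀ g ∈ A.inertiaSubgroupIn ℚ, AtLeast (φ g • P) 0 T) → AtLeast P 0 f) ∧
      ∀ (i : ι) (c : Qb) (r : Fk i), c ≠ 0 → (X.C i).Red (algebraMap Qb F c⁻¹ * T) r →
        ∃ r', (X.C i).Red (algebraMap Qb F c⁻¹ * f) r' ∧ (c = 1 → r' = r) := by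
  obtain ⟨Λ, hΛT⟩ := GF.exists_layer_fixing hp hA T
  set s := (Layer.orb_finite (A := A) Λ.π).toFinset with hs
  have hmem : ∀ {r}, r ∈ s ↔ ∃ g ∈ A.inertiaSubgroupIn ℚ, g Λ.π = r := fun {r} =>
    Set.Finite.mem_toFinset _
  have hwd : ∀ r ∈ s, ∃ y, ∀ g ∈ A.inertiaSubgroupIn ℚ, g Λ.π = r → φ g • T = y := fun r hr => by
    obtain ⟨g₀, hg₀, rfl⟩ := hmem.1 hr
    refine ⟨φ g₀ • T, fun g hg he => ?_⟩
    have hm : g₀⁻¹ * g ∈ Λ.N := by
      refine (Λ.mem_N_iff (mul_mem (inv_mem hg₀) hg)).mpr ?_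
      rw [AlgEquiv.mul_apply, he, AlgEquiv.aut_inv, AlgEquiv.symm_apply_apply]
    have h := hΛT _ hm
    rw [map_mul, map_inv, mul_smul, inv_smul_eq_iff] at h
    exact h
  choose! val hval using hwd
  set R := interpPoly s val with hR
  have hπs : Λ.π ∈ s := hmem.2 ⟨1, one_mem _, rfl⟩
  have hcard : s.card = Λ.D := by
    rw [← Λ.ncard_orb_π, Set.ncard_eq_toFinset_card _ (Layer.orb_finite (A := A) Λ.π)]
  have hdeg : R.natDegree < Λ.D := hcard ▸ natDegree_interpPoly ⟨_, hπs⟩ val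
  have hinj : Function.Injective (algebraMap Qb F) := (algebraMap Qb F).injective
  have hfix : ∀ g ∈ A.inertiaSubgroupIn ℚ, ∀ n, φ g • R.coeff n = R.coeff n := fun g hg n => by
    set ψ : F →+* F := (SemilinearAut.toRingAut (φ g)).toRingHom
    have hψ : ∀ y, ψ y = φ g • y := fun y => rfl
    have hψc : ∀ c, ψ (algebraMap Qb F c) = algebraMap Qb F (g c) := fun c => by
      rw [hψ, SemilinearAut.smul_algebraMap, GF.base]
    have e : R.map ψ = R := by
      refine Polynomial.eq_of_natDegree_lt_card_of_eval_eq' _ _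
        (s.image (algebraMap Qb F)) (fun y hy => ?_) ?_
      · obtain ⟨r, hr, rfl⟩ := Finset.mem_image.1 hy
        obtain ⟨g₁, hg₁, rfl⟩ := hmem.1 hr
        have hm : g⁻¹ * g₁ ∈ A.inertiaSubgroupIn ℚ := mul_mem (inv_mem hg) hg₁
        have hpre : (g⁻¹ * g₁) Λ.π ∈ s := hmem.2 ⟨_, hm, rfl⟩
        have h1 : algebraMap Qb F (g₁ Λ.π) = ψ (algebraMap Qb F ((g⁻¹ * g₁) Λ.π)) := by
          rw [hψc]; simp [AlgEquiv.aut_inv]
        conv_lhs => rw [h1]
        rw [eval_map_apply, hR, eval_interpPoly val hpre, eval_interpPoly val hr, hψ,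
          ← hval _ hpre _ hm rfl, ← hval _ hr _ hg₁ rfl, ← mul_smul, ← map_mul,
          mul_inv_cancel_left]
      · rw [Finset.card_image_of_injective _ hinj, hcard]
        exact max_lt (lt_of_le_of_lt natDegree_map_le hdeg) hdeg
    conv_rhs => rw [← e, coeff_map, hψ]
  refine ⟨R.coeff 0, fun g hg => hfix g hg 0, fun P hP => atLeast_coeff_interpPoly val 0 ?_, ?_⟩
  · intro r hr
    obtain ⟨g, hg, rfl⟩ := hmem.1 hr
    rw [← hval _ hr g hg rfl]
    have h := hP g⁻¹ (inv_mem hg)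
    rcases h with h | h
    · exact Or.inl (by rw [h, smul_zero])
    · refine Or.inr ?_
      have h2 := SemilinearAut.ord_smul (φ g) (φ g⁻¹ • P) T
      rw [map_inv, smul_inv_smul] at h2
      rw [h2, ← map_inv]
      exact h
  intro i c r hc hcr
  have hsum : T = ∑ n ∈ Finset.range Λ.D, R.coeff n * algebraMap Qb F Λ.π ^ n := by
    rw [← eval_eq_sum_range' hdeg, hR, eval_interpPoly val hπs,
      ← hval _ hπs 1 (one_mem _) rfl, map_one, one_smul]
  set I := A.inertiaSubgroupIn ℚ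
  have hsc : ∀ n, R.coeff n ≠ 0 → ∃ (w : Qb) (rn : Fk i) (e : ℤ), w ≠ 0 ∧ rn ≠ 0 ∧
      (X.C i).Red (algebraMap Qb F (w * Λ.π ^ n)⁻¹ * (R.coeff n * algebraMap Qb F Λ.π ^ n)) rn ∧
      v (w * Λ.π ^ n) = v Λ.π ^ ((Λ.D : ℤ) * e + n) := by
    intro n hn
    obtain ⟨w, rn, hw, hwfix, hrn, hred⟩ := GF.exists_fixed_scale hF hk (H := (I : Set GQ))
      subset_rfl (τ := 1) (one_mem _) hn (fun g hg => hfix g hg n)
    obtain ⟨e, he⟩ := Λ.exists_term_val (β := Λ.π) rfl
      (mem_kur.2 fun g hg => hwfix g hg) hw n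
    refine ⟨w, rn, e, hw, hrn, ?_, he⟩
    rwa [show algebraMap Qb F (w * Λ.π ^ n)⁻¹ * (R.coeff n * algebraMap Qb F Λ.π ^ n) =
      algebraMap Qb F w⁻¹ * R.coeff n by
        rw [mul_inv, map_mul, map_inv₀ (algebraMap Qb F) (Λ.π ^ n), map_pow]
        field_simp [Λ.π_ne_zero]]
  choose! w rn e hw hrn hred hev using hsc
  set S := (Finset.range Λ.D).filter fun n => R.coeff n ≠ 0
  have hS : ∀ {n}, n ∈ S → n < Λ.D ∧ R.coeff n ≠ 0 := fun h =>
    ⟨Finset.mem_range.1 (Finset.mem_filter.1 h).1, (Finset.mem_filter.1 h).2⟩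
  have hsumS : T = ∑ n ∈ S, R.coeff n * algebraMap Qb F Λ.π ^ n := by
    rw [hsum]
    exact (Finset.sum_filter_of_ne fun n _ h => left_ne_zero_of_mul h).symm
  have hdist : ∀ {a b}, a ∈ S → b ∈ S → v (w a * Λ.π ^ a) = v (w b * Λ.π ^ b) → a = b := by
    intro a b ha hb h
    rw [hev a (hS ha).2, hev b (hS hb).2] at h
    have h1 := congrArg (fun t : ℤ => t % (Λ.D : ℤ)) (Λ.zpow_inj h)
    simp only [Int.add_emod, Int.mul_emod_right, zero_add, Int.emod_emod_of_dvd _ dvd_rfl] at h1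
    rw [Int.emod_eq_of_lt (by positivity) (by exact_mod_cast (hS ha).1),
      Int.emod_eq_of_lt (by positivity) (by exact_mod_cast (hS hb).1)] at h1
    exact_mod_cast h1
  have hne : ∀ {a}, a ∈ S → w a * Λ.π ^ a ≠ 0 := fun ha =>
    mul_ne_zero (hw _ (hS ha).2) (pow_ne_zero _ Λ.π_ne_zero)
  -- no term is bigger than `c`
  have hbound : ∀ a ∈ S, v (w a * Λ.π ^ a) ≤ v c := by
    intro a ha
    obtain ⟨j, hj, hmax⟩ := S.exists_max_image (fun n => v (w n * Λ.π ^ n)) ⟨a, ha⟩
    refine (hmax a ha).trans (le_of_not_gt fun hlt => ?_)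
    obtain ⟨s0, hs0, hz⟩ := SmallAt.of_le hc (hne hj) hlt.le hcr
    rw [hz hlt] at hs0
    have hterm : ∀ n ∈ S, (X.C i).Red (algebraMap Qb F (w j * Λ.π ^ j)⁻¹ *
        (R.coeff n * algebraMap Qb F Λ.π ^ n)) (if n = j then rn j else 0) := by
      intro n hn
      split_ifs with hnj
      · subst hnj; exact hred n (hS hn).2
      · obtain ⟨t, ht, ht0⟩ := SmallAt.of_le (hne hn) (hne hj) (hmax n hn) (hred n (hS hn).2)
        rwa [ht0 (lt_of_le_of_ne (hmax n hn) fun h => hnj (hdist hn hj h))] at ht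
    have h1 := ConstRed.red_sum hterm
    rw [← Finset.mul_sum, ← hsumS, Finset.sum_ite_eq', if_pos hj] at h1
    exact hrn j (hS hj).2 (h1.unique hs0)
  have hterm : ∀ n ∈ S, ∃ t, (X.C i).Red (algebraMap Qb F c⁻¹ *
      (R.coeff n * algebraMap Qb F Λ.π ^ n)) t ∧ (c = 1 → n ≠ 0 → t = 0) := by
    intro n hn
    obtain ⟨t, ht, ht0⟩ := SmallAt.of_le (hne hn) hc (hbound n hn) (hred n (hS hn).2)
    refine ⟨t, ht, fun hc1 hn0 => ht0 (lt_of_le_of_ne (hbound n hn) fun h => ?_)⟩
    subst hc1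
    rw [map_one, hev n (hS hn).2, ← zpow_zero (v Λ.π)] at h
    have h1 := Λ.zpow_inj h
    have h2 := congrArg (fun t : ℤ => t % (Λ.D : ℤ)) h1
    simp only [Int.add_emod, Int.mul_emod_right, zero_add, Int.emod_emod_of_dvd _ dvd_rfl,
      Int.zero_emod] at h2
    rw [Int.emod_eq_of_lt (by positivity) (by exact_mod_cast (hS hn).1)] at h2
    exact hn0 (by exact_mod_cast h2)
  choose! t ht ht0 using hterm
  have htot : (X.C i).Red (algebraMap Qb F c⁻¹ * T) (∑ n ∈ S, t n) := by
    rw [hsumS, Finset.mul_sum]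
    exact ConstRed.red_sum ht
  by_cases h0 : R.coeff 0 = 0
  · refine ⟨0, by rw [h0, mul_zero]; exact ConstRed.red_zero, fun hc1 => ?_⟩
    rw [hcr.unique htot, Finset.sum_eq_zero fun n hn => ht0 n hn hc1 fun hn0 =>
      (hS hn).2 (hn0 ▸ h0)]
  · have h0S : 0 ∈ S := Finset.mem_filter.2 ⟨Finset.mem_range.2 Λ.D_pos, h0⟩
    refine ⟨t 0, by simpa using ht 0 h0S, fun hc1 => ?_⟩
    rw [hcr.unique htot, Finset.sum_eq_single 0 (fun n hn hn0 => ht0 n hn hc1 hn0)
      (fun h => absurd h0S h)]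

end FA.ModField.AtP
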