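import Fermat.Agent.ModField.Semistable.AtP.Wild
import Fermat.Agent.LocalDef.Connected
import Fermat.Agent.FlatModel.Modular
import Fermat.Agent.RT.Tame
import Fermat.Agent.Frob.Charpoly
import Fermat.Agent.LocalDef.Kummer

/-!
# The field of a point of a finite flat plane over the `p`-th roots of unity

In a group with a model at a place over `p`, let inertia at `ζ` move `x` by multiples of a fixed
`ℓ ≠ 0`, moved to `x + ℓ` by `τ`.  Then integral elements of the field of `x` move under `τ` by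
less than some `η` larger than `ζ - 1`, and those moving by less than `η` times themselves have
the valuation of a power of `ζ - 1`.
-/

set_option autoImplicit false
set_option linter.unusedSectionVars false

noncomputable section

open FA.Local FA.LocalDef
open scoped Pointwise

namespace FA.ModField.AtP

local notation "Qb" => AlgebraicClosure ℚ
local notation "GQ" => AlgebraicClosure ℚ ≃ₐ[ℚ] AlgebraicClosure ℚ

variable {A : ValuationSubring Qb} {p : ℕ} [hp : Fact p.Prime]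

local notation "v" => ValuationSubring.valuation A

/-- The consequence of peu ramification used on the special fibre. -/
structure Peu (A : ValuationSubring Qb) (π₁ : Qb) (H : Set GQ) (τ : GQ) (η : Qb) : Prop where
  η_lt : A.valuation η < 1
  η_gt : A.valuation π₁ < A.valuation η
  sub_lt : ∀ a : Qb, (∀ σ ∈ H, σ a = a) → A.valuation a ≤ 1 →
    A.valuation (τ a - a) < A.valuation η
  exists_zpow : ∀ a : Qb, a ≠ 0 → (∀ σ ∈ H, σ a = a) →
    A.valuation (τ a - a) < A.valuation η * A.valuation a →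
      ∃ n : ℤ, A.valuation a = A.valuation π₁ ^ n

theorem Peu.η_ne {π₁ η : Qb} {H : Set GQ} {τ : GQ} (P : Peu A π₁ H τ η) : η ≠ 0 := fun h => by
  have := P.η_gt
  rw [h, map_zero] at this
  exact not_lt_zero this

variable (Λ : Layer A p) (τ : GQ) (H : Set GQ)

/-- The fixed field of a layer. -/
def layerField : IntermediateField ℚ Qb := IntermediateField.fixedField Λ.N

theorem mem_layerField {a : Qb} : a ∈ layerField Λ ↔ ∀ σ ∈ Λ.N, σ a = a :=
  IntermediateField.mem_fixedField_iff _ _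

/-- Data of a degree `p` step over a layer give the estimates. -/
theorem wild_bounds (hτ : τ ∈ Λ.N) {π η : Qb} (hπ0 : π ≠ 0) (hη : v η < 1) (hη0 : η ≠ 0)
    (hπτ : τ π = π * (1 + η)) (hindep : ∀ n : ℤ, v π ≠ v Λ.π ^ n)
    {Q : Polynomial (layerField Λ)} (hQm : Q.Monic) (hQd : Q.natDegree = p)
    (hQ : Polynomial.aeval π Q = 0) (hπp : ∃ n : ℤ, v π ^ p = v Λ.π ^ n)
    (hH : ∀ a : Qb, (∀ σ ∈ H, σ a = a) →
      a ∈ IntermediateField.adjoin (layerField Λ) ({π} : Set Qb))
    (a : Qb) (ha : ∀ σ ∈ H, σ a = a) :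
    (v a ≤ 1 → v (τ a - a) < v η) ∧
      (a ≠ 0 → v (τ a - a) < v η * v a → ∃ n : ℤ, v a = v Λ.π ^ n) := by
  classical
  have hval : ∀ c ∈ layerField Λ, c ≠ 0 → ∃ n : ℤ, v c = v Λ.π ^ n := fun c hc hc0 =>
    Λ.exists_zpow ((mem_layerField Λ).1 hc) hc0
  have W : WildStep A (layerField Λ).toSubfield (τ : Qb →+* Qb) p π η := by
    refine ⟨fun c hc => (mem_layerField Λ).1 hc τ hτ, hπ0, fun i hi hip c hc h => ?_, hπτ, hη,
      fun i hi hip => ?_⟩
    · have hc0 : c ≠ 0 := fun h0 => by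
        rw [h0, map_zero, map_eq_zero] at h
        exact pow_ne_zero _ hπ0 h
      obtain ⟨m, hm⟩ := hval c hc hc0
      obtain ⟨n, hn⟩ := hπp
      rw [map_pow, hm] at h
      have h2 : v Λ.π ^ (n * i) = v Λ.π ^ (m * p) := by
        rw [zpow_mul, ← hn, zpow_mul, ← h]
        simp only [zpow_natCast, ← pow_mul, mul_comm]
      have h3 := Λ.zpow_inj h2
      have hdvd : (p : ℤ) ∣ n := by
        have : (p : ℤ) ∣ n * i := ⟨m, by rw [h3, mul_comm]⟩
        refine ((Nat.prime_iff_prime_int.1 hp.out).dvd_or_dvd this).resolve_right fun hd => ?_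
        exact absurd (Nat.le_of_dvd hi (Int.natCast_dvd_natCast.1 hd)) (not_le.2 hip)
      obtain ⟨n', rfl⟩ := hdvd
      refine hindep n' ((pow_left_inj₀ zero_le zero_le hp.out.ne_zero).1 ?_)
      rw [hn, mul_comm, zpow_mul, zpow_natCast]
    · refine le_antisymm (natCast_le_one i) (not_lt.1 fun hlt => ?_)
      have h1 := FA.Frob.valuation_intCast_of_liesOverPrime hp.out Λ.lies (n := (i : ℤ)) (by
        rw [Int.natCast_dvd_natCast]
        exact fun hd => absurd (Nat.le_of_dvd hi hd) (not_le.2 hip))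
      rw [Int.cast_natCast] at h1
      exact hlt.ne h1
  obtain ⟨P, hP⟩ : ∃ P : Polynomial (layerField Λ), Polynomial.aeval π P = a := by
    have h := hH a ha
    rw [← IntermediateField.mem_toSubalgebra,
      IntermediateField.adjoin_simple_toSubalgebra_of_isAlgebraic
        (Algebra.IsAlgebraic.isAlgebraic π),
      Algebra.adjoin_singleton_eq_range_aeval] at h
    exact h
  set R := P %ₘ Q with hR
  have hd : R.natDegree < p := lt_of_lt_of_eq (Polynomial.natDegree_modByMonic_lt P hQm (fun h1 => by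
    rw [h1, Polynomial.natDegree_one] at hQd
    exact hp.out.ne_zero hQd.symm)) hQd
  have hRa : Polynomial.aeval π R = a := by
    rw [hR, Polynomial.modByMonic_eq_sub_mul_div P Q, map_sub, map_mul, hQ, zero_mul, sub_zero, hP]
  set c : ℕ → Qb := fun i => (R.coeff i : Qb)
  have hc : ∀ i, c i ∈ (layerField Λ).toSubfield := fun i => (R.coeff i).2
  have e : a = ∑ i ∈ Finset.range p, c i * π ^ i := by
    rw [← hRa, Polynomial.aeval_eq_sum_range' hd]
    exact Finset.sum_congr rfl fun i _ => rfl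
  refine ⟨fun h => ?_, fun h0 h => ?_⟩
  · rw [e] at h ⊢
    exact W.sub_lt hη0 c hc h
  · have h' : v (τ (∑ i ∈ Finset.range p, c i * π ^ i) - ∑ i ∈ Finset.range p, c i * π ^ i) <
        v η * v (∑ i ∈ Finset.range p, c i * π ^ i) := by rwa [← e]
    obtain ⟨b, hb, hbv⟩ := W.exists_valuation_eq c hc h'
    rw [← e] at hbv
    obtain ⟨n, hn⟩ := hval b hb fun hb0 => h0 ((map_eq_zero A.valuation).1 (by
      rw [hbv, hb0, map_zero]))
    exact ⟨n, hbv.trans hn⟩

/-- An element fixed by inertia at `ζ` and by a Kummer element lies in its field. -/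
theorem mem_adjoin_of_fixed (hA : A.LiesOverPrime p) {ζ π : Qb}
    (hN : Λ.N = Layer.stab A ζ) {a : Qb}
    (ha : ∀ σ ∈ Λ.N, σ π = π → σ a = a) :
    a ∈ IntermediateField.adjoin (layerField Λ) ({π} : Set Qb) := by
  set L' := (IntermediateField.adjoin (layerField Λ) ({π} : Set Qb)).restrictScalars ℚ
  have hclosed : IsClosed (Λ.N : Set GQ) := by
    rw [hN]
    exact (RT.isClosed_inertia hp.out hA).inter
      ⟨RT.isOpen_setOf_apply ζ fun y => ¬ y = ζ⟩
  show a ∈ L'
  rw [← InfiniteGalois.fixedField_fixingSubgroup L']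
  intro ⟨σ, hσ⟩
  have hσN : σ ∈ Λ.N := by
    have h1 : σ ∈ (layerField Λ).fixingSubgroup := fun x => hσ ⟨x.1,
      (IntermediateField.adjoin (layerField Λ) ({π} : Set Qb)).algebraMap_mem x⟩
    rwa [layerField, InfiniteGalois.fixingSubgroup_fixedField ⟨Λ.N, hclosed⟩] at h1
  exact ha σ hσN (hσ ⟨π, IntermediateField.mem_adjoin_simple_self (layerField Λ) π⟩)

variable {V : Type} [AddCommGroup V] [Module (ZMod p) V] [Fintype V]

include hp in
/-- Points differing by a point away from the origin differ by at least `ζ - 1` somewhere. -/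
theorem exists_ge_of_model (M : Model A.valuation V) (hA : A.LiesOverPrime p) {ζ : Qb}
    (hζ : IsPrimitiveRoot ζ p) (x l : V) (hl : l ≠ 0) :
    ∃ i, v (1 - ζ) ≤ v (M.a i (x + l) - M.a i x) := by
  by_contra hno
  push Not at hno
  have hsmall : ∀ i, v (M.a i l - M.a i 0) < v (1 - ζ) := fun i => by
    obtain ⟨c, hc, he⟩ := M.comul i
    have h : ∀ z : V, M.a i (z + -x) = ∑ j, ∑ k, c j k * M.a j z * M.a k (-x) := fun z => he z (-x)
    have h1 := h (x + l)
    have h0 := h x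
    rw [show x + l + -x = l by abel] at h1
    rw [show x + -x = (0 : V) by abel] at h0
    rw [h1, h0, ← Finset.sum_sub_distrib]
    have hpos : 0 < v (1 - ζ) := A.valuation.pos_iff.2 (sub_ne_zero.2 (hζ.ne_one hp.out.one_lt).symm)
    refine A.valuation.map_sum_lt hpos.ne' fun j _ => ?_
    rw [← Finset.sum_sub_distrib]
    refine A.valuation.map_sum_lt hpos.ne' fun k _ => ?_
    rw [← sub_mul, ← mul_sub, map_mul, map_mul]
    refine lt_of_le_of_lt (le_trans (mul_le_of_le_one_right' (M.int k _))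
      (mul_le_of_le_one_left' (hc j k))) (hno j)
  have hv := valuation_p_lt_one hA
  obtain ⟨i₀, -, hmax⟩ := Finset.exists_max_image Finset.univ
    (fun i => v (M.a i l - M.a i 0)) Finset.univ_nonempty
  have h1 : v (1 - ζ) < 1 := by
    by_contra h
    rw [not_lt] at h
    exact absurd hv (not_lt.mpr (pow_map_one_sub A.valuation hp.out hζ ▸ one_le_pow_of_one_le' h _))
  refine hl (Model.eq_of_cong (M := M) hζ hv (c := v (M.a i₀ l - M.a i₀ 0))
    ((hsmall i₀).trans h1) ?_ fun i => hmax i (Finset.mem_univ i))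
  rw [← pow_map_one_sub A.valuation hp.out hζ]
  exact pow_lt_pow_left₀ (hsmall i₀) zero_le (by have := hp.out.two_le; omega)

/-- **The estimates for the field of a point of a plane with a model.** -/
theorem exists_peu (hA : A.LiesOverPrime p) (M : Model A.valuation V)
    {ζ : Qb} (hζ : IsPrimitiveRoot ζ p) (act : GQ → V →+ V)
    (hmul : ∀ σ ∈ A.inertiaSubgroupIn ℚ, ∀ τ ∈ A.inertiaSubgroupIn ℚ, ∀ z,
      act (σ * τ) z = act σ (act τ z))
    (heq : ∀ σ ∈ A.inertiaSubgroupIn ℚ, ∀ i z, σ (M.a i z) = M.a i (act σ z))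
    (E : IntermediateField ℚ Qb) [FiniteDimensional ℚ E]
    (hE : ∀ σ ∈ A.inertiaSubgroupIn ℚ, σ ∈ E.fixingSubgroup → ∀ z, act σ z = z)
    (x l : V) (hl : l ≠ 0) {τ : GQ} (hτI : τ ∈ A.inertiaSubgroupIn ℚ) (hτζ : τ ζ = ζ)
    (hτx : act τ x = x + l)
    (hline : ∀ σ ∈ A.inertiaSubgroupIn ℚ, σ ζ = ζ →
      act σ l = l ∧ ∃ c : ZMod p, act σ x = x + c • l) :
    ∃ η, Peu A (1 - ζ) {σ | σ ∈ A.inertiaSubgroupIn ℚ ∧ σ ζ = ζ ∧ act σ x = x} τ η := by
  classical
  obtain ⟨Λ, hN, hΛπ, -⟩ := exists_cyclo_layer hp.out hA hζ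
  have hmem : ∀ σ, σ ∈ Λ.N ↔ σ ∈ A.inertiaSubgroupIn ℚ ∧ σ ζ = ζ := fun σ => by rw [hN]; rfl
  set H : Set GQ := {σ | σ ∈ A.inertiaSubgroupIn ℚ ∧ σ ζ = ζ ∧ act σ x = x}
  -- the cocycle
  let c : GQ → ZMod p := fun σ =>
    if h : σ ∈ A.inertiaSubgroupIn ℚ ∧ σ ζ = ζ then (hline σ h.1 h.2).2.choose else 0
  have hcspec : ∀ σ ∈ Λ.N, act σ x = x + c σ • l := fun σ hσ => by
    have h := (hmem σ).1 hσ
    simp only [c, dif_pos h]
    exact (hline σ h.1 h.2).2.choose_spec
  have huniq : ∀ a b : ZMod p, x + a • l = x + b • l → a = b := fun a b h => by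
    rw [add_right_inj, ← sub_eq_zero, ← sub_smul, smul_eq_zero] at h
    exact sub_eq_zero.1 (h.resolve_right hl)
  have hadd : ∀ σ ∈ Λ.N, ∀ σ' ∈ Λ.N, c (σ * σ') = c σ + c σ' := fun σ hσ σ' hσ' => by
    refine huniq _ _ ?_
    rw [← hcspec _ (mul_mem hσ hσ'), hmul σ ((hmem σ).1 hσ).1 σ' ((hmem σ').1 hσ').1,
      hcspec σ' hσ', map_add, hcspec σ hσ]
    have hl' := (hline σ ((hmem σ).1 hσ).1 ((hmem σ).1 hσ).2).1
    rw [show act σ (c σ' • l) = c σ' • act σ l from
      map_smul ((act σ).toZModLinearMap p) (c σ') l, hl', add_smul, add_assoc]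
  have hτN : τ ∈ Λ.N := (hmem τ).2 ⟨hτI, hτζ⟩
  have hcτ : c τ = 1 := huniq _ _ (by rw [← hcspec τ hτN, hτx, one_smul])
  obtain ⟨y, hy0, hy⟩ := exists_eq_div hζ Λ.N c (fun σ hσ σ' hσ' m hm => by
      rw [hadd σ hσ σ' hσ']
      have hζ1 : ζ ^ m = ζ ^ 1 := by rw [pow_one, ← hm, ((hmem σ).1 hσ).2]
      rw [(ZMod.natCast_eq_natCast_iff' m 1 p).2 (by
        rw [Nat.mod_eq_of_lt hp.out.one_lt]
        exact hζ.pow_inj (Nat.mod_lt _ hp.out.pos) hp.out.one_lt
          (by rw [← pow_eq_pow_mod m hζ.pow_eq_one, hζ1])), Nat.cast_one, one_mul]) E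
    (fun σ hσ hσE => huniq _ _ (by
      rw [← hcspec σ hσ, hE σ ((hmem σ).1 hσ).1 hσE x, zero_smul, add_zero]))
  have hzp : ∀ a : ZMod p, zp hζ a ^ p = 1 := fun a => by
    rw [zp_apply, ← pow_mul, mul_comm, pow_mul, hζ.pow_eq_one, one_pow]
  have hu : y ^ p ∈ layerField Λ := (mem_layerField Λ).2 fun σ hσ => by
    rw [map_pow, hy σ hσ, mul_pow, hzp, one_mul]
  set e : Qb := zp hζ (-1) - 1 with he
  have hπ1 : v Λ.π = v (1 - ζ) := by rw [hΛπ]
  have hev : v e = v (1 - ζ) := by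
    rw [he, A.valuation.map_sub_swap, zp_apply]
    exact map_one_sub_pow A.valuation hp.out hζ fun hd => by
      have hlt := ZMod.val_lt (-1 : ZMod p)
      have h0 := Nat.eq_zero_of_dvd_of_lt hd hlt
      rw [ZMod.val_eq_zero, neg_eq_zero] at h0
      exact one_ne_zero h0
  have hπ₁lt : v (1 - ζ) < 1 := hπ1 ▸ Λ.π_lt_one
  have hπ₁0 : 0 < v (1 - ζ) := hπ1 ▸ Λ.π_pos
  -- a fixed element of the Kummer field containing `H`-fixed elements
  have hfield : ∀ t : Qb, t ≠ 0 → (∀ σ ∈ Λ.N, σ t = zp hζ (-c σ) * t) → ∀ π : Qb,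
      (∀ σ : GQ, σ π = π → σ ∈ Λ.N → σ t = t) → ∀ a : Qb, (∀ σ ∈ H, σ a = a) →
        a ∈ IntermediateField.adjoin (layerField Λ) ({π} : Set Qb) := by
    intro t ht htσ π hπt a ha
    refine mem_adjoin_of_fixed Λ hA hN fun σ hσ hσπ => ha σ ⟨((hmem σ).1 hσ).1, ((hmem σ).1 hσ).2, ?_⟩
    have h1 := hπt σ hσπ hσ
    rw [htσ σ hσ, mul_left_eq_self₀, or_iff_left ht,
      ← AddChar.map_zero_eq_one (zp hζ)] at h1
    rw [hcspec σ hσ, neg_eq_zero.1 (zp_injective hζ h1), zero_smul, add_zero]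
  obtain ⟨m, hm⟩ := Λ.exists_zpow ((mem_layerField Λ).1 hu) (pow_ne_zero _ hy0)
  rw [map_pow] at hm
  have hτy : τ y = y * (1 + e) := by rw [hy τ hτN, hcτ, he]; ring
  by_cases hdvd : (p : ℤ) ∣ m
  swap
  · exfalso
    have key := wild_bounds Λ τ H hτN hy0 (hev.trans_lt hπ₁lt)
      (fun h0 => by rw [h0, map_zero] at hev; exact hπ₁0.ne hev) hτy
      (fun n hn => hdvd ⟨n, by
        have : v Λ.π ^ m = v Λ.π ^ ((p : ℤ) * n) := by
          rw [← hm, hn, mul_comm, zpow_mul, zpow_natCast]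
        exact Λ.zpow_inj this⟩)
      (Q := Polynomial.X ^ p - Polynomial.C ⟨y ^ p, hu⟩)
      (Polynomial.monic_X_pow_sub_C _ hp.out.ne_zero) Polynomial.natDegree_X_pow_sub_C
      (by simp [IntermediateField.algebraMap_apply]) ⟨m, hm⟩
      (hfield y hy0 hy y fun σ hσ _ => hσ)
    obtain ⟨i, hi⟩ := exists_ge_of_model M hA hζ x l hl
    have h := (key (M.a i x) fun σ hσ => by rw [heq σ hσ.1, hσ.2.2]).1 (M.int i x)
    rw [heq τ hτI, hτx, hev] at h
    exact not_lt.2 hi h
  obtain ⟨n, rfl⟩ := hdvd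
  set t := y / Λ.π ^ n with ht
  have ht0 : t ≠ 0 := div_ne_zero hy0 (zpow_ne_zero _ Λ.π_ne_zero)
  have htv : v t = 1 := by
    refine (pow_left_inj₀ zero_le zero_le hp.out.ne_zero).1 ?_
    rw [one_pow, ht, map_div₀, map_zpow₀, div_pow, hm, ← zpow_natCast (v Λ.π ^ n), ← zpow_mul,
      mul_comm, div_self (zpow_ne_zero _ Λ.π_pos.ne')]
  have htσ : ∀ σ ∈ Λ.N, σ t = zp hζ (-c σ) * t := fun σ hσ => by
    rw [ht, map_div₀, map_zpow₀, hy σ hσ, Λ.fixed σ hσ, mul_div_assoc]
  -- a residue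
  have := res_charP hp.out hA
  obtain ⟨r, hr, hrfix⟩ := FlatModel.exists_root_lift hp.out hA
    (IsLocalRing.residue A ⟨t, (A.valuation_le_one_iff t).1 htv.le⟩)
  have hrt : v ((r : Qb) - t) < 1 := by
    have h := sub_eq_zero.2 hr
    rw [← map_sub, IsLocalRing.residue_eq_zero_iff] at h
    exact (A.valuation_lt_one_iff _).1 h
  have hrv : v (r : Qb) = 1 := by
    have := A.valuation.map_add_eq_of_lt_left (show v ((r : Qb) - t) < v t by rw [htv]; exact hrt)
    rwa [add_sub_cancel, htv] at this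
  have hr0 : (r : Qb) ≠ 0 := fun h => by rw [h, map_zero] at hrv; exact zero_ne_one hrv
  set π := t / r - 1 with hπ
  have hπlt : v π < 1 := by
    rw [hπ, div_sub_one hr0, map_div₀, hrv, div_one, A.valuation.map_sub_swap]
    exact hrt
  have h1π : v (1 + π) = 1 := by
    rw [A.valuation.map_add_eq_of_lt_left (by rwa [map_one]), map_one]
  have hτπ : τ π - π = e * (1 + π) := by
    rw [hπ, map_sub, map_div₀, map_one, htσ τ hτN, hcτ, hrfix τ hτI, he]
    ring
  have hbig : v (1 - ζ) < v π := by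
    by_contra hle
    rw [not_lt] at hle
    have hz : v (π / (1 - ζ)) ≤ 1 := by rwa [map_div₀, div_le_one₀ hπ₁0]
    have h := (inert_of_mem_inertiaSubgroupIn A hτI).sub_lt _ hz
    rw [map_div₀, show τ (1 - ζ) = 1 - ζ by rw [map_sub, map_one, hτζ], ← sub_div, hτπ, map_div₀, map_mul, hev, h1π, mul_one,
      div_self hπ₁0.ne'] at h
    exact lt_irrefl _ h
  have hπ0 : π ≠ 0 := fun h => by rw [h, map_zero] at hbig; exact not_lt_zero hbig
  set η := e * (1 + π) / π with hη
  have hηv : v η = v (1 - ζ) / v π := by rw [hη, map_div₀, map_mul, hev, h1π, mul_one]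
  -- the `p`-th power of `π` has the valuation of a fixed element
  have hv0 : (t / r) ^ p - 1 ∈ layerField Λ := (mem_layerField Λ).2 fun σ hσ => by
    rw [map_sub, map_pow, map_div₀, map_one, htσ σ hσ, hrfix σ ((hmem σ).1 hσ).1, div_pow,
      mul_pow, hzp, one_mul]
    simp only [ht, div_pow]
  have hpow : v π ^ p = v ((t / r) ^ p - 1) := by
    have e1 : (t / r) ^ p = (1 + π) ^ p := by rw [hπ]; ring
    rw [e1, LocalDef.one_add_pow (p := p), add_assoc, add_sub_cancel_left,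
      Finset.sum_Ico_succ_top (by have := hp.out.two_le; omega), Nat.choose_self, Nat.cast_one, one_mul,
      ← add_assoc, A.valuation.map_add_eq_of_lt_right, map_pow]
    have hpπ : v ((p : Qb) * π) < v (π ^ p) := by
      rw [map_mul, map_pow, ← pow_map_one_sub A.valuation hp.out hζ]
      calc v (1 - ζ) ^ (p - 1) * v π < v π ^ (p - 1) * v π :=
            mul_lt_mul_of_pos_right (pow_lt_pow_left₀ hbig zero_le (by have := hp.out.two_le; omega))
              (A.valuation.pos_iff.2 hπ0)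
        _ = v π ^ p := by rw [← pow_succ, Nat.sub_add_cancel hp.out.one_le]
    refine lt_of_le_of_lt (A.valuation.map_add_le le_rfl (A.valuation.map_sum_le fun i hi => ?_)) hpπ
    rw [Finset.mem_Ico] at hi
    rw [map_mul, map_mul]
    refine mul_le_mul' (map_choose_le (by omega) (by omega)) ?_
    rw [map_pow]
    calc v π ^ i ≤ v π ^ 1 := pow_le_pow_right_of_le_one' hπlt.le (by omega)
      _ = v π := pow_one _
  have hv00 : (t / r) ^ p - 1 ≠ 0 := fun h => by
    rw [h, map_zero] at hpow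
    exact pow_ne_zero p (A.valuation.pos_iff.2 hπ0).ne' hpow
  obtain ⟨k, hk⟩ := Λ.exists_zpow ((mem_layerField Λ).1 hv0) hv00
  have key := fun a => wild_bounds Λ τ H hτN hπ0 (by
      rw [hηv, div_lt_one₀ (A.valuation.pos_iff.2 hπ0)]; exact hbig)
    (show η ≠ 0 from fun h => by
      rw [h, map_zero] at hηv
      exact div_ne_zero hπ₁0.ne' (A.valuation.pos_iff.2 hπ0).ne' hηv.symm)
    (by rw [hη, mul_add, mul_one, mul_div_cancel₀ _ hπ0, ← hτπ]; ring)
    (fun n hn => by
      rw [hπ1] at hn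
      rcases le_or_gt n 0 with hn0 | hn0
      · exact absurd (hn ▸ one_le_zpow_of_nonpos₀ hπ₁0 hπ₁lt.le hn0) (not_le.2 hπlt)
      · refine absurd hbig (not_lt.2 ?_)
        rw [hn]
        calc v (1 - ζ) ^ n ≤ v (1 - ζ) ^ (1 : ℤ) :=
              zpow_le_zpow_right_of_le_one₀ hπ₁0 hπ₁lt.le hn0
          _ = v (1 - ζ) := zpow_one _)
    (Q := (Polynomial.X + Polynomial.C 1) ^ p - Polynomial.C (⟨_, hv0⟩ + 1))
    (((Polynomial.monic_X_add_C 1).pow p).sub_of_left (lt_of_le_of_lt Polynomial.degree_C_le (by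
      rw [Polynomial.degree_pow, Polynomial.degree_X_add_C, nsmul_one]
      exact_mod_cast hp.out.pos)))
    (by rw [Polynomial.natDegree_sub_C, Polynomial.natDegree_pow, Polynomial.natDegree_X_add_C,
      mul_one])
    (by
      simp only [map_sub, map_pow, map_add, Polynomial.aeval_X, Polynomial.aeval_C, map_one]
      rw [show (algebraMap (layerField Λ) Qb) ⟨_, hv0⟩ = (t / r) ^ p - 1 from rfl, hπ]
      ring)
    ⟨k, hpow.trans hk⟩
    (hfield t ht0 htσ π fun σ hσ hσN => by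
      have h : σ (t / r) = t / r := by
        have := congrArg (fun z => z + 1) hσ
        simpa [hπ, map_sub] using this
      rwa [map_div₀, hrfix σ ((hmem σ).1 hσN).1, div_left_inj' hr0] at h) a
  refine ⟨η, by rw [hηv, div_lt_one₀ (A.valuation.pos_iff.2 hπ0)]; exact hbig, ?_,
    fun a ha h => (key a ha).1 h, fun a ha0 ha h => ?_⟩
  · rw [hηv, lt_div_iff₀ (A.valuation.pos_iff.2 hπ0)]
    exact mul_lt_of_lt_one_right hπ₁0 hπlt
  · obtain ⟨n, hn⟩ := (key a ha).2 ha0 h
    exact ⟨n, hπ1 ▸ hn⟩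

end FA.ModField.AtP
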