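import Fermat.Agent.ModField.Semistable.AtP.LowValue
import Fermat.Agent.ModField.Semistable.Mono.LowRed
import Fermat.Agent.ModField.Semistable.Push
import Fermat.Agent.ModField.Congruence.Divisors
import Fermat.Agent.ModField.Semistable.Joint.Select

/-!
# The specialisation of `T_ℓ` of a point of level `M` depends only on its specialisation

The value of the norm of a regular function at a generic point is the product of its values at
the images of the point, and it reduces to the value of a function downstairs; this determines the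
specialisations of the images.
-/

set_option autoImplicit false
set_option linter.style.haveILetI false
set_option linter.unusedSectionVars false
set_option synthInstance.maxHeartbeats 200000
set_option maxHeartbeats 1600000

noncomputable section

namespace FA.ModField.AtP

open ModularCurve AlgebraicCurve FA.Curve FA.CurveRed FA.CurveRed.Modular FA.Level

/-- A nonzero `k` separates two exponents. -/
theorem nat_eq_of_forall_pow {k : Type*} [Field k] [Infinite k] {m n : ℕ}
    (h : ∀ t : k, t ≠ 0 → t ^ m = t ^ n) : m = n := by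
  by_contra hne
  obtain ⟨a, b, hab, hp⟩ : ∃ a b : ℕ, a < b ∧ ∀ t : k, t ≠ 0 → t ^ a = t ^ b := by
    rcases Nat.lt_or_gt_of_ne hne with h' | h'
    · exact ⟨m, n, h', h⟩
    · exact ⟨n, m, h', fun t ht => (h t ht).symm⟩
  have hq : (Polynomial.X ^ (b - a) - 1 : Polynomial k) ≠ 0 :=
    (Polynomial.monic_X_pow_sub_C (1 : k) (by omega)).ne_zero
  obtain ⟨t, ht⟩ :=
    ((Polynomial.finite_setOfPred_isRoot hq).insert 0).infinite_compl.nonempty
  simp only [Set.mem_compl_iff, Set.mem_insert_iff, Set.mem_ofPred_eq, not_or,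
    Polynomial.IsRoot, Polynomial.eval_sub, Polynomial.eval_pow, Polynomial.eval_X,
    Polynomial.eval_one] at ht
  refine ht.2 (sub_eq_zero.2 (mul_left_cancel₀ (pow_ne_zero a ht.1) ?_))
  rw [mul_one, ← pow_add, Nat.add_sub_cancel' hab.le, hp t ht.1]

/-- A finite set is determined by the sum of its points. -/
theorem eq_of_sum_single_eq {α : Type*} {U V : Finset α}
    (h : (∑ x ∈ U, Finsupp.single x (1 : ℤ)) = ∑ x ∈ V, Finsupp.single x 1) : U = V := by
  classical
  have key : ∀ (U : Finset α) x,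
      (∑ y ∈ U, Finsupp.single y (1 : ℤ)) x = if x ∈ U then 1 else 0 := fun U x => by
    rw [Finset.sum_apply']
    simp [Finsupp.single_apply]
  ext x
  have := DFunLike.congr_fun h x
  rw [key, key] at this
  by_cases h1 : x ∈ U <;> by_cases h2 : x ∈ V <;> simp [h1, h2] at this ⊢

variable (M : ℕ) [NeZero M] (q : ℕ) [hq : Fact q.Prime] [hq0 : NeZero q]
variable {L : Type} [Field L] [Algebra ℚ L] [Algebra L ℂ] [IsAlgClosed L]
variable (A : ValuationSubring L) {k : Type} [Field k] [IsAlgClosed k] [CharP k q] (π : A →+* k)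
  (hπs : Function.Surjective π) (hπ0 : ∀ a : A, π a = 0 ↔ A.valuation a < 1) (hqM : ¬ q ∣ M)
  (harch : ∀ c : L, c ≠ 0 → ∃ m : ℕ, A.valuation ((q : L) ^ m) < A.valuation c)
  (ℓ : ℕ) [hℓ : Fact ℓ.Prime] [hℓ0 : NeZero ℓ] (hℓN : ¬ ℓ ∣ M * q)

local notation "Fb" => modularFunctionFieldFullC k M
local notation "RR" => lowRed M q A π hπs hπ0 hqM

/-- The reduction of functions is that of `lowRed`. -/
theorem lowRed_of_cLow {f : levelField M L} {r : Fb} (h : (cLow M A π hπs hπ0).Red f r)
    (hr : r ≠ 0) : (RR).Red f r := by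
  obtain ⟨c, f', r', hc, e, hf', hr'⟩ := Reduction.exists_scale' (R := RR) (h.ne_zero hr)
  rw [e] at h
  obtain ⟨hcA, e2⟩ := (lowRed_compat M q A π hπs hπ0 hqM hf').smul_cancel hr' h
  rw [e, e2]
  exact (Reduction.red_const (⟨c, hcA⟩ : A)).mul hf'

omit hℓN in
include hℓN in
theorem not_dvd_low : ¬ ℓ ∣ M := fun h => hℓN (h.mul_right q)

include hℓN in
/-- The norm of `T_ℓ` on the reduction of level `M`. -/
theorem exists_red_normT {f : levelField M L} {r : Fb} (h : (RR).Red f r) (hr : r ≠ 0)
    (harch : ∀ c : L, c ≠ 0 → ∃ m : ℕ, A.valuation ((q : L) ^ m) < A.valuation c) :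
    ∃ r', r' ≠ 0 ∧ (RR).Red (normT M ℓ L f) r' ∧ ConjRel M A π ℓ r r' := by
  obtain ⟨r', h1, h2⟩ := cLow_normT M q A π hπs hπ0 hqM harch ℓ hℓN
    (lowRed_compat M q A π hπs hπ0 hqM h) hr
  exact ⟨r', h2.ne_zero hr, lowRed_of_cLow M q A π hπs hπ0 hqM h1 (h2.ne_zero hr), h2⟩

section Upstairs

variable (L)

/-- The norm of `T_ℓ` is also the norm along `β` of the image under `α`. -/
theorem normT_eq_norm_beta (hℓM : ¬ ℓ ∣ M) (f : levelField M L) :
    normT M ℓ L f = (letI := algebraAlong (heckeBetaBar L M ℓ);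
      Algebra.norm (levelField M L) (heckeAlphaBar L M ℓ f)) := by
  have h := normDownBeta_wLvl M ℓ L hℓM (heckeBetaBar L M ℓ f)
  rw [wLvl_beta] at h
  exact h.symm

theorem atLeast_alpha_of_beta (hℓM : ¬ ℓ ∣ M) {w : Place L (levelField (M * ℓ) L)}
    (hw : AtLeast (w.restrictAlong (heckeBetaBar L M ℓ)
      (isIntegral_toRingHom (isFunctionField_level L M) (isFunctionField_level L (M * ℓ)) _)) 0
      (levelJ M L)) :
    AtLeast (w.restrictAlong (heckeAlphaBar L M ℓ)
      (isIntegral_toRingHom (isFunctionField_level L M) (isFunctionField_level L (M * ℓ)) _)) 0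
      (levelJ M L) := by
  have hα := isIntegral_toRingHom (isFunctionField_level L M) (isFunctionField_level L (M * ℓ))
    (heckeAlphaBar L M ℓ)
  have hmem : heckeAlphaBar L M ℓ (levelJ M L) ∈ w.toValuationSubring := by
    letI := algebraAlong (heckeBetaBar L M ℓ)
    haveI := isScalarTower_along (heckeBetaBar L M ℓ)
    haveI := isIntegral_along (heckeBetaBar L M ℓ)
      (isIntegral_toRingHom (isFunctionField_level L M) (isFunctionField_level L (M * ℓ)) _)
    have h0 : powComb (algebraMap L (levelField M L) 0) (levelGen M L) = levelJ M L := by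
      rw [← levelGen_zero M L, map_zero, powComb, Finset.sum_eq_single 0]
      · simp
      · intro i _ hi
        rw [zero_pow (fun h => hi (Fin.ext h)), zero_mul]
      · simp
    refine mem_of_root (P := heckePoly M ℓ L (levelJ M L)) (heckePoly_monic M ℓ L _)
      (fun i => ?_) (eval₂_heckePoly M ℓ hℓM L _)
    have := atLeast_coeff_heckePoly M ℓ L (0 : L) (v := w.restrict (levelField M L)) hw i
    rw [h0] at this
    exact atLeast_zero_iff_mem.1 this
  letI := algebraAlong (heckeAlphaBar L M ℓ)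
  haveI := isScalarTower_along (heckeAlphaBar L M ℓ)
  haveI := isIntegral_along (heckeAlphaBar L M ℓ) hα
  exact atLeast_zero_of_mem ((Place.mem_restrict_iff w).2 hmem)

/-- The images of a point under `T_ℓ`, each taken once, and the values of the norms there. -/
theorem exists_generic (hℓM : ¬ ℓ ∣ M) :
    ∃ B : Set (Place L (levelField M L)), B.Finite ∧ ∀ P ∉ B, AtLeast P 0 (levelJ M L) →
      ∃ W : Finset (Place L (levelField M L)),
        heckeDiv M L ℓ (Finsupp.single P 1) = ∑ R ∈ W, Finsupp.single R 1 ∧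
        (∀ R ∈ W, AtLeast R 0 (levelJ M L)) ∧
        ∀ (f : levelField M L) (a : Place L (levelField M L) → L),
          (∀ R ∈ W, HasValue R f (a R)) → HasValue P (normT M ℓ L f) (∏ R ∈ W, a R) := by
  classical
  have hF := isFunctionField_level L M
  have hF' := isFunctionField_level L (M * ℓ)
  haveI := hasPrincipalDivisors hF'
  set φα := heckeAlphaBar L M ℓ
  have hα := isIntegral_toRingHom hF hF' φα
  have hβ := isIntegral_toRingHom hF hF' (heckeBetaBar L M ℓ)
  letI := algebraAlong (heckeBetaBar L M ℓ)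
  haveI := isScalarTower_along (heckeBetaBar L M ℓ)
  haveI := isIntegral_along (heckeBetaBar L M ℓ) hβ
  haveI : FiniteDimensional (levelField M L) (levelField (M * ℓ) L) :=
    finiteAlong hF hF' (heckeBetaBar L M ℓ)
  haveI : CharZero (levelField M L) := charZero_levelField L M
  obtain ⟨B, hB, hgood⟩ := finite_bad_fibres hF hF'
    (Set.range fun i => φα (levelGen M L i)) (adjoin_alpha_gens M ℓ L)
  refine ⟨B, hB, fun P hP hj => ?_⟩
  obtain ⟨hcard, hram, hsep⟩ := hgood P hP
  set αP : Place L (levelField (M * ℓ) L) → Place L (levelField M L) :=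
    fun w => w.restrictAlong φα hα with hαP
  set Wf := P.fiber (levelField (M * ℓ) L)
  have hval : ∀ (w : Place L (levelField (M * ℓ) L)) (f : levelField M L) (c : L),
      HasValue (αP w) f c → HasValue w (φα f) c := by
    intro w f c h
    letI := algebraAlong φα
    haveI := isScalarTower_along φα
    haveI := isIntegral_along φα hα
    exact hasValue_of_restrict (F := levelField M L) h
  have hreg : ∀ w ∈ Wf, AtLeast (αP w) 0 (levelJ M L) := fun w hw => by
    refine atLeast_alpha_of_beta M L ℓ hℓM ?_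
    have : w.restrict (levelField M L) = P := Place.mem_fiber.1 hw
    show AtLeast (w.restrict (levelField M L)) 0 (levelJ M L)
    rw [this]
    exact hj
  choose u hu using fun (w : Wf) (i : Fin M) => exists_hasValue hF
    (atLeast_of_mem_alg M L (hreg w.1 w.2) (levelGen_mem_alg M L i))
  obtain ⟨s, hs⟩ := ((finite_collisions (Set.range u) (Set.finite_range u))).infinite_compl.nonempty
  set z := powComb (algebraMap L (levelField M L) s) (levelGen M L)
  let b : Place L (levelField (M * ℓ) L) → L := fun w =>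
    if hw : w ∈ Wf then powComb s (u ⟨w, hw⟩) else 0
  have hb : ∀ w ∈ Wf, HasValue w (φα z) (b w) := fun w hw => by
    refine hval w z _ ?_
    simp only [b, dif_pos hw, z, powComb]
    exact hasValue_sum _ fun i _ =>
      hasValue_mul (hasValue_pow (hasValue_algebraMap _ s) _) (hu ⟨w, hw⟩ i)
  have hbinj : Set.InjOn b (Wf : Set (Place L (levelField (M * ℓ) L))) := by
    intro x hx y hy hxy
    by_contra hne
    simp only [b, dif_pos (Finset.mem_coe.1 hx), dif_pos (Finset.mem_coe.1 hy)] at hxy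
    refine hs ⟨u ⟨x, hx⟩, ⟨_, rfl⟩, u ⟨y, hy⟩, ⟨_, rfl⟩, fun he => ?_, hxy⟩
    refine hsep x hx y hy hne ?_
    rintro _ ⟨i, rfl⟩
    exact ⟨u ⟨x, hx⟩ i, hval _ _ _ (hu ⟨x, hx⟩ i), congrFun he i ▸ hval _ _ _ (hu ⟨y, hy⟩ i)⟩
  have hinj : Set.InjOn αP (Wf : Set (Place L (levelField (M * ℓ) L))) := by
    intro x hx y hy hxy
    refine hbinj hx hy ?_
    have h1 : ∀ w (hw : w ∈ Wf), HasValue (αP w) z (powComb s (u ⟨w, hw⟩)) := fun w hw =>
      hasValue_sum _ fun i _ =>
        hasValue_mul (hasValue_pow (hasValue_algebraMap _ s) _) (hu ⟨w, hw⟩ i)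
    simp only [b, dif_pos (Finset.mem_coe.1 hx), dif_pos (Finset.mem_coe.1 hy)]
    exact (h1 x hx).unique (hxy ▸ h1 y hy)
  refine ⟨Wf.image αP, ?_, ?_, fun f a ha => ?_⟩
  · show Divisor.pushforwardAlong φα hα
      (Divisor.pullback (levelField (M * ℓ) L) (Finsupp.single P 1)) = _
    rw [Divisor.pullback_single, map_sum, Finset.sum_image hinj]
    refine Finset.sum_congr rfl fun w hw => ?_
    rw [hram w hw, Divisor.pushforwardAlong_single]
    have : w.inertiaDegAlong φα hα = 1 := by
      letI := algebraAlong φα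
      haveI := isScalarTower_along φα
      haveI := isIntegral_along φα hα
      exact inertiaDeg_eq_one hF' w
    rw [this]
    simp
    rfl
  · intro R hR
    obtain ⟨w, hw, rfl⟩ := Finset.mem_image.1 hR
    exact hreg w hw
  · rw [normT_eq_norm_beta M L ℓ hℓM, Finset.prod_image hinj]
    exact hasValue_norm hF hF' hcard hb hbinj fun w hw =>
      hval w f _ (ha _ (Finset.mem_image_of_mem _ hw))

end Upstairs

/-- Values prescribed at one of finitely many regular places, one at the others. -/
theorem exists_indicator (T : Finset (Place k Fb)) (hT : ∀ Q ∈ T, 0 ≤ Q.ord (jBar k M))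
    {Q₀ : Place k Fb} (hQ₀ : Q₀ ∈ T) (t : k) :
    ∃ ρ ∈ regSub (K := k) (jBar k M), HasValue Q₀ ρ t ∧
      ∀ Q ∈ T, Q ≠ Q₀ → HasValue Q ρ 1 := by
  classical
  have hk := isFunctionField_fullC k M
  have hy := jBar_transcendental k M
  obtain ⟨c, hc⟩ := MultiRed.exists_exact hk
  obtain ⟨m, hm⟩ : ∃ m : ℕ, c + T.card ≤ (m : ℤ) :=
    ⟨(c + T.card).toNat, Int.self_le_toNat _⟩
  set Z := ∑ Q ∈ T.erase Q₀, Finsupp.single Q (1 : ℤ)
  have hZ : ∀ R, Z R = if R ∈ T.erase Q₀ then 1 else 0 := fun R => by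
    simp only [Z, Finset.sum_apply']
    simp [Finsupp.single_apply]
  obtain ⟨r, hr, hr0, hord⟩ := hc (m • poleDiv hk (jBar k M) - Z) (by
    rw [map_sub, map_sum]
    simp only [Divisor.degree_single, hk.deg_eq_one, Nat.cast_one, mul_one, Finset.sum_const,
      nsmul_eq_mul]
    have h1 := MultiRed.le_degree_nB hk hy m
    have h2 : (T.erase Q₀).card ≤ T.card := Finset.card_le_card (Finset.erase_subset _ _)
    omega) {Q₀}
  have hrm : r ∈ riemannRochSpace (m • poleDiv hk (jBar k M)) :=
    riemannRochSpace_mono (sub_le_self _ (Finset.sum_nonneg fun Q _ =>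
      Finsupp.single_nonneg.2 zero_le_one)) hr
  have hreg := ((mem_riemannRoch_nB hk hy).1 hrm).1
  have hQr : Q₀.ord r = 0 := by
    rw [hord Q₀ (Finset.mem_singleton_self _), Finsupp.sub_apply, hZ,
      if_neg (Finset.notMem_erase _ _), MultiRed.nsmul_poleDiv_of_nonneg hk (hT _ hQ₀)]
    simp
  obtain ⟨a, ha⟩ := exists_hasValue hk (hreg Q₀ (hT _ hQ₀))
  have ha0 : a ≠ 0 := fun h0 => by
    have := (atLeast_iff hr0).1 (hasValue_zero_iff.1 (h0 ▸ ha))
    omega
  refine ⟨1 + algebraMap k Fb ((t - 1) / a) * r, ?_, ?_, fun Q hQ hne => ?_⟩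
  · exact add_mem (one_mem _) (mul_mem (Subalgebra.algebraMap_mem _ _) hreg)
  · have := (hasValue_algebraMap Q₀ (1 : k)).add (hasValue_mul (hasValue_algebraMap Q₀ ((t - 1) / a)) ha)
    rwa [map_one, div_mul_cancel₀ _ ha0, add_sub_cancel] at this
  · have h0 : HasValue Q r 0 := by
      refine hasValue_zero_iff.2 ((atLeast_iff hr0).2 ?_)
      have h1 := (atLeast_iff hr0).1 (FA.Curve.mem_riemannRochSpace.1 hr Q)
      rw [Finsupp.sub_apply, hZ, if_pos (Finset.mem_erase.2 ⟨hne, hQ⟩),
        MultiRed.nsmul_poleDiv_of_nonneg hk (hT _ hQ)] at h1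
      omega
    have := (hasValue_algebraMap Q (1 : k)).add (hasValue_mul (hasValue_algebraMap Q ((t - 1) / a)) h0)
    rwa [map_one, mul_zero, add_zero] at this

include hℓN harch in
/-- **Outside finitely many discs the specialisation of `T_ℓ` of a point depends only on that of
the point.** -/
theorem exists_push_heckeDiv_congr :
    ∃ S : Set (Place k Fb), S.Finite ∧ ∀ P P' : Place L (levelField M L),
      (RR).spl P = (RR).spl P' → (RR).spl P ∉ S →
        (RR).push (heckeDiv M L ℓ (Finsupp.single P 1)) =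
          (RR).push (heckeDiv M L ℓ (Finsupp.single P' 1)) := by
  classical
  haveI : CharZero L := charZero_of_injective_algebraMap (algebraMap ℚ L).injective
  haveI := IsAlgClosed.instInfinite (K := k)
  have hℓM := not_dvd_low M q ℓ hℓN
  have hF := isFunctionField_level L M
  have hk := isFunctionField_fullC k M
  have hin := lowInputs M q A π hπs hπ0 hqM
  obtain ⟨B, hB, hgen⟩ := exists_generic M L ℓ hℓM
  refine ⟨{Q | ¬ AtLeast Q 0 (redGen M k 0)} ∪ (RR).spl '' B,
    ((finite_not_mem hk (redGen M k 0)).subset fun Q hQ h => (show ¬ AtLeast Q 0 (redGen M k 0) from hQ) (atLeast_zero_of_mem h)).union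
      (hB.image _), fun P P' hPP' hP => ?_⟩
  simp only [Set.mem_union, Set.mem_ofPred_eq, not_or, not_not, Set.mem_image, not_exists,
    not_and] at hP
  obtain ⟨hQ, hPB⟩ := hP
  set Q := (RR).spl P
  have hjup : ∀ {R : Place L (levelField M L)}, AtLeast ((RR).spl R) 0 (redGen M k 0) →
      AtLeast R 0 (levelJ M L) := fun h => regular_levelJ M q hqM L hπs hπ0 hin h
  -- values of reductions of norms
  have hN : ∀ (h : levelField M L) (ρ : Fb), (RR).Red h ρ → ρ ≠ 0 →
      h ∈ regSub (K := L) (levelJ M L) → ∀ R, (RR).spl R = Q → R ∉ B →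
      ∃ (W : Finset (Place L (levelField M L))) (θ : Fb), ConjRel M A π ℓ ρ θ ∧
        heckeDiv M L ℓ (Finsupp.single R 1) = ∑ R' ∈ W, Finsupp.single R' 1 ∧
        (∀ R' ∈ W, AtLeast R' 0 (levelJ M L)) ∧
        ∀ a : Place L (levelField M L) → L, (∀ R' ∈ W, HasValue R' h (a R')) →
          ∃ hA : (∏ R' ∈ W, a R') ∈ A, HasValue Q θ (π ⟨_, hA⟩) := by
    intro h ρ hρ hρ0 hh R hR hRB
    obtain ⟨θ, hθ0, hθ, hθc⟩ := exists_red_normT M q A π hπs hπ0 hqM ℓ hℓN hρ hρ0 harch
    obtain ⟨W, hW, hWreg, hWval⟩ := hgen R hRB (hjup (hR.symm ▸ hQ))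
    refine ⟨W, θ, hθc, hW, hWreg, fun a ha => ?_⟩
    have hnp : Reduction.NoPole RR Q (normT M ℓ L h) := fun R₁ hR₁ => by
      rw [normT_eq_norm_beta M L ℓ hℓM]
      have hF' := isFunctionField_level L (M * ℓ)
      haveI := hasPrincipalDivisors hF'
      letI := algebraAlong (heckeBetaBar L M ℓ)
      haveI := isScalarTower_along (heckeBetaBar L M ℓ)
      haveI := isIntegral_along (heckeBetaBar L M ℓ) (isIntegral_toRingHom hF hF' _)
      haveI : FiniteDimensional (levelField M L) (levelField (M * ℓ) L) :=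
        finiteAlong hF hF' (heckeBetaBar L M ℓ)
      refine atLeast_norm hF hF' fun w hw => ?_
      have hα := isIntegral_toRingHom hF hF' (heckeAlphaBar L M ℓ)
      have h1 := atLeast_alpha_of_beta M L ℓ hℓM (w := w) (by
        show AtLeast (w.restrict (levelField M L)) 0 (levelJ M L)
        rw [Place.mem_fiber.1 hw]
        exact hjup (hR₁.symm ▸ hQ))
      have hj0 : levelJ M L ≠ 0 := fun h0 =>
        levelJ_transcendental M L (h0 ▸ isAlgebraic_zero)
      have h2 := hh _ ((atLeast_iff hj0).1 h1)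
      letI := algebraAlong (heckeAlphaBar L M ℓ)
      haveI := isScalarTower_along (heckeAlphaBar L M ℓ)
      haveI := isIntegral_along (heckeAlphaBar L M ℓ) hα
      exact atLeast_zero_of_mem ((Place.mem_restrict_iff w).1 (atLeast_zero_iff_mem.1 h2))
    obtain ⟨hA, hv⟩ := Reduction.hasValue_red hF hθ hnp (P := R) hR (hWval h a ha)
    exact ⟨hA, hv⟩
  -- the images are regular downstairs
  have hP'Q : (RR).spl P' = Q := hPP'.symm
  have hregW : ∀ R, (RR).spl R = Q → R ∉ B → ∀ W : Finset (Place L (levelField M L)),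
      heckeDiv M L ℓ (Finsupp.single R 1) = ∑ R' ∈ W, Finsupp.single R' 1 →
      (∀ R' ∈ W, AtLeast R' 0 (levelJ M L)) →
        ∀ R' ∈ W, AtLeast ((RR).spl R') 0 (redGen M k 0) := by
    intro R hR hRB W hW hWreg
    choose v hv using fun R' : W => exists_hasValue hF (hWreg R' R'.2)
    suffices hall : ∀ R' : W, v R' ∈ A by
      intro R' hR'
      exact regular_of_integral_value M q hqM L hπs hπ0 hin R' ⟨_, hall ⟨R', hR'⟩⟩
        (by rw [levelGen_zero]; exact hv ⟨R', hR'⟩)
    by_contra hbad
    push Not at hbad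
    obtain ⟨cb, hcb⟩ := ((Set.finite_range fun R' : {R' : W // v R' ∈ A} =>
      π ⟨v R'.1, R'.2⟩)).infinite_compl.nonempty
    obtain ⟨c, hc⟩ := hπs cb
    set f := algebraMap L (levelField M L) c - levelJ M L
    have hfr : (RR).Red f (algebraMap k Fb cb - redGen M k 0) := by
      have h1 := red_levelGen M L hπs hπ0 hin 0
      rw [levelGen_zero] at h1
      rw [← hc]
      exact (Reduction.red_const c).sub h1
    have hne : algebraMap k Fb cb - redGen M k 0 ≠ 0 := fun h0 =>
      redGen_zero_transcendental M (k := k) (sub_eq_zero.1 h0 ▸ isAlgebraic_algebraMap cb)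
    obtain ⟨W', θ, -, hW', -, hval⟩ := hN f _ hfr hne
      (sub_mem (Subalgebra.algebraMap_mem _ _) (self_mem_regSub _)) R hR hRB
    have hWW : W' = W := by
      exact eq_of_sum_single_eq (hW'.symm.trans hW)
    subst hWW
    let a : Place L (levelField M L) → L := fun R' => if h : R' ∈ W' then (c : L) - v ⟨R', h⟩ else 1
    obtain ⟨hA, -⟩ := hval a fun R' hR' => by
      simp only [a, dif_pos hR']
      exact (hasValue_algebraMap R' (c : L)).sub (hv ⟨R', hR'⟩)
    have hge : ∀ R' ∈ W', 1 ≤ A.valuation (a R') := fun R' hR' => by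
      simp only [a, dif_pos hR']
      by_cases hmem : v ⟨R', hR'⟩ ∈ A
      · refine not_lt.1 fun hlt => hcb ⟨⟨⟨R', hR'⟩, hmem⟩, ?_⟩
        have h0 := (hπ0 (c - ⟨_, hmem⟩)).2 hlt
        rw [map_sub, hc, sub_eq_zero] at h0
        exact h0.symm
      · have h1 : 1 < A.valuation (v ⟨R', hR'⟩) :=
          not_le.1 fun h => hmem ((A.valuation_le_one_iff _).1 h)
        rw [A.valuation.map_sub_eq_of_lt_right (((A.valuation_le_one_iff _).2 c.2).trans_lt h1)]
        exact h1.le
    obtain ⟨R₀, hR₀⟩ := hbad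
    have h1 : 1 < A.valuation (a R₀) := by
      simp only [a, dif_pos R₀.2]
      have h1 : 1 < A.valuation (v R₀) := not_le.1 fun h => hR₀ ((A.valuation_le_one_iff _).1 h)
      rw [A.valuation.map_sub_eq_of_lt_right (((A.valuation_le_one_iff _).2 c.2).trans_lt h1)]
      exact h1
    have h2 := (A.valuation_le_one_iff _).2 hA
    rw [map_prod, ← Finset.mul_prod_erase _ _ R₀.2] at h2
    have h3 : 1 ≤ ∏ R' ∈ W'.erase R₀.1, A.valuation (a R') :=
      Finset.one_le_prod' fun R' hR' => hge R' (Finset.mem_of_mem_erase hR')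
    exact not_lt.2 h2 (h1.trans_le (le_mul_of_one_le_right' h3))
  obtain ⟨W, hW, hWreg, -⟩ := hgen P (fun h => hPB P h rfl) (hjup hQ)
  obtain ⟨W', hW', hW'reg, -⟩ := hgen P' (fun h => hPB P' h hP'Q) (hjup (hP'Q.symm ▸ hQ))
  have hr1 := hregW P rfl (fun h => hPB P h rfl) W hW hWreg
  have hr2 := hregW P' hP'Q (fun h => hPB P' h hP'Q) W' hW' hW'reg
  set T := (W ∪ W').image (RR).spl
  have hTreg : ∀ R ∈ T, 0 ≤ R.ord (jBar k M) := by
    intro R hR
    obtain ⟨R', hR', rfl⟩ := Finset.mem_image.1 hR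
    have := (Finset.mem_union.1 hR').elim (hr1 R') (hr2 R')
    rw [redGen_zero] at this
    exact (atLeast_iff fun h0 => jBar_transcendental k M (by rw [h0]; exact isAlgebraic_zero)).1 this
  have hcount : ∀ Q₀ ∈ T, (W.filter fun R => (RR).spl R = Q₀).card =
      (W'.filter fun R => (RR).spl R = Q₀).card := by
    intro Q₀ hQ₀
    refine nat_eq_of_forall_pow (k := k) fun t ht => ?_
    obtain ⟨ρ, hρreg, hρ0, hρ1⟩ := exists_indicator M T hTreg hQ₀ t
    obtain ⟨f, hfreg, hfred⟩ := X0.exists_lift_regular M q A π hπs hπ0 hqM hρreg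
    have hρne : ρ ≠ 0 := fun h0 => by
      rw [h0] at hρ0
      exact ht ((hρ0).unique (by simpa using hasValue_algebraMap Q₀ (0 : k)))
    have hfR : (RR).Red f ρ := lowRed_of_cLow M q A π hπs hπ0 hqM hfred hρne
    have hvals : ∀ V : Finset (Place L (levelField M L)), V ⊆ W ∪ W' →
        ∀ R ∈ V, ∃ a : A, HasValue R f (a : L) ∧
          π a = if (RR).spl R = Q₀ then t else 1 := by
      intro V hV R hR
      have hmem : (RR).spl R ∈ T := Finset.mem_image_of_mem _ (hV hR)
      have hnp : Reduction.NoPole RR ((RR).spl R) f := fun R₁ hR₁ => by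
        have hj : AtLeast R₁ 0 (levelJ M L) := hjup (hR₁.symm ▸ by
          rw [redGen_zero]; exact Or.inr (hTreg _ hmem))
        refine hfreg R₁ ?_
        exact (atLeast_iff fun h0 => levelJ_transcendental M L (by rw [h0]; exact isAlgebraic_zero)).1 hj
      obtain ⟨c, hc⟩ := exists_hasValue hF (hnp R rfl)
      obtain ⟨hcA, hc'⟩ := Reduction.hasValue_red hF hfR hnp (P := R) rfl hc
      refine ⟨⟨c, hcA⟩, hc, ?_⟩
      split_ifs with h
      · exact (h ▸ hc').unique hρ0
      · exact hc'.unique (hρ1 _ hmem h)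
    have hprod : ∀ R, (RR).spl R = Q → R ∉ B → ∀ V : Finset (Place L (levelField M L)),
        V ⊆ W ∪ W' → heckeDiv M L ℓ (Finsupp.single R 1) = ∑ R' ∈ V, Finsupp.single R' 1 →
        ∃ θ, ConjRel M A π ℓ ρ θ ∧ HasValue Q θ (t ^ (V.filter fun R' => (RR).spl R' = Q₀).card) := by
      intro R hR hRB V hV hVd
      obtain ⟨V', θ, hθ, hV', -, hval⟩ := hN f ρ hfR hρne hfreg R hR hRB
      have hVV : V' = V := by
        exact eq_of_sum_single_eq (hV'.symm.trans hVd)
      subst hVV
      choose a ha haπ using hvals V' hV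
      let a' : Place L (levelField M L) → A := fun R' => if h : R' ∈ V' then a R' h else 1
      obtain ⟨hA, hv⟩ := hval (fun R' => (a' R' : L)) fun R' hR' => by
        simp only [a', dif_pos hR']
        exact ha R' hR'
      refine ⟨θ, hθ, ?_⟩
      convert hv using 1
      rw [show (⟨∏ R' ∈ V', (a' R' : L), hA⟩ : A) = ∏ R' ∈ V', a' R' from
        Subtype.ext (by simp), map_prod, Finset.prod_congr rfl fun R' hR' => by
          show π (a' R') = if (RR).spl R' = Q₀ then t else 1
          simp only [a', dif_pos hR']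
          exact haπ R' hR', Finset.prod_ite, Finset.prod_const, Finset.prod_const_one, mul_one]
    obtain ⟨θ₁, hθ₁, h1⟩ := hprod P rfl (fun h => hPB P h rfl) W Finset.subset_union_left hW
    obtain ⟨θ₂, hθ₂, h2⟩ := hprod P' hP'Q (fun h => hPB P' h hP'Q) W' Finset.subset_union_right hW'
    exact h1.unique (hθ₂.unique hθ₁ ▸ h2)
  refine Finsupp.ext fun Q₀ => ?_
  have hpush : ∀ V : Finset (Place L (levelField M L)),
      (RR).push (∑ R ∈ V, Finsupp.single R (1 : ℤ)) Q₀ =
        ((V.filter fun R => (RR).spl R = Q₀).card : ℤ) := fun V => by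
    rw [Reduction.push, Finsupp.mapDomain_finsetSum, Finset.sum_apply']
    simp only [Finsupp.mapDomain_single, Finsupp.single_apply]
    rw [Finset.sum_boole]
  rw [hW, hW', hpush, hpush]
  by_cases hQ₀ : Q₀ ∈ T
  · rw [hcount Q₀ hQ₀]
  · have hnil : ∀ V : Finset (Place L (levelField M L)), V ⊆ W ∪ W' →
        (V.filter fun R => (RR).spl R = Q₀) = ∅ := fun V hV =>
      Finset.filter_eq_empty_iff.2 fun R hR h => hQ₀ (h ▸ Finset.mem_image_of_mem _ (hV hR))
    rw [hnil W Finset.subset_union_left, hnil W' Finset.subset_union_right]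

end FA.ModField.AtP
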