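import Fermat.Agent.ModField.Congruence.Fibre
import Fermat.Agent.Curve.TraceLocal

/-!
# The value of a norm at a generic point

At a point over which a finite map of curves is unramified, with the points of the fibre separated
by some regular function, the value of a norm is the product of the values on the fibre.
-/

set_option autoImplicit false
set_option linter.style.haveILetI false
set_option linter.unusedSectionVars false

noncomputable section

namespace FA.ModField

open AlgebraicCurve FA.Curve Polynomial

variable {K F F' : Type*} [Field K] [IsAlgClosed K] [Field F] [Field F'] [Algebra K F]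
  [Algebra K F'] [Algebra F F'] [IsScalarTower K F F'] [Algebra.IsIntegral F F']
  [FiniteDimensional F F'] [HasPrincipalDivisors K F']
  (hF : IsFunctionField K F) (hF' : IsFunctionField K F') {P : Place K F}
  (hcard : (P.fiber F').card = Module.finrank F F')

include hF hF'

/-- The norm of a function regular on a fibre is regular. -/
theorem atLeast_norm {g : F'} (hg : ∀ w ∈ P.fiber F', AtLeast w 0 g) :
    AtLeast P 0 (Algebra.norm F g) := by
  rcases eq_or_ne g 0 with rfl | h
  · rw [Algebra.norm_zero]; exact atLeast_zero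
  · refine Or.inr ?_
    rw [← sum_fiber_ord hF hF' P h]
    exact Finset.sum_nonneg fun w hw => (atLeast_iff h).1 (hg w hw)

/-- A function vanishing at one point of a fibre, regular on it, has norm vanishing there. -/
theorem hasValue_norm_zero {g : F'} (hg : ∀ w ∈ P.fiber F', AtLeast w 0 g) {w : Place K F'}
    (hw : w ∈ P.fiber F') (h0 : HasValue w g 0) : HasValue P (Algebra.norm F g) 0 := by
  rcases eq_or_ne g 0 with rfl | h
  · rw [Algebra.norm_zero]; simpa using hasValue_algebraMap P (0 : K)
  · refine hasValue_zero_iff.2 (Or.inr ?_)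
    rw [← sum_fiber_ord hF hF' P h]
    exact ((atLeast_iff h).1 (hasValue_zero_iff.1 h0)).trans
      (Finset.single_le_sum (fun x hx => (atLeast_iff h).1 (hg x hx)) hw)

include hcard

theorem hasValue_norm_of_injOn {g : F'} {a : Place K F' → K}
    (ha : ∀ w ∈ P.fiber F', HasValue w g (a w))
    (hinj : Set.InjOn a (P.fiber F' : Set (Place K F'))) :
    HasValue P (Algebra.norm F g) (∏ w ∈ P.fiber F', a w) := by
  classical
  set W := P.fiber F'
  set d := Module.finrank F F'
  set Q := mulCharpoly F g with hQdef
  have hsub : ∀ c : K, ∀ w ∈ W,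
      HasValue w (algebraMap F F' (algebraMap K F c) - g) (c - a w) := fun c w hw => by
    rw [← IsScalarTower.algebraMap_apply K F F']
    exact (hasValue_algebraMap w c).sub (ha w hw)
  have hreg : ∀ c : K, AtLeast P 0 (Q.eval (algebraMap K F c)) := fun c => by
    rw [hQdef, eval_mulCharpoly]
    exact atLeast_norm hF hF' fun w hw => (hsub c w hw).atLeast
  choose r hr using fun l => exists_hasValue hF (atLeast_coeff_of_eval P Q (fun c _ => hreg c) l)
  have hQd : Q.natDegree = d := natDegree_mulCharpoly g
  set p : K[X] := ∑ l ∈ Finset.range (d + 1), monomial l (r l) with hp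
  have hpc : ∀ l, l ≤ d → p.coeff l = r l := fun l hl => by
    rw [hp, finsetSum_coeff, Finset.sum_eq_single l
      (fun i _ hi => coeff_monomial_of_ne _ hi.symm)
      (fun h => absurd (Finset.mem_range.2 (Nat.lt_succ_of_le hl)) h), coeff_monomial_same]
  have hrd : r d = 1 := by
    refine (hr d).unique ?_
    rw [← hQd, (mulCharpoly_monic g).coeff_natDegree]
    simpa using hasValue_algebraMap P (1 : K)
  have hple : p.natDegree ≤ d :=
    natDegree_sum_le_of_forall_le _ _ fun l hl =>
      (natDegree_monomial_le _).trans (Nat.lt_succ_iff.1 (Finset.mem_range.1 hl))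
  have hpm : p.Monic :=
    monic_of_natDegree_le_of_coeff_eq_one d hple (by rw [hpc d le_rfl, hrd])
  have hval : ∀ c : K, HasValue P (Q.eval (algebraMap K F c)) (p.eval c) := fun c => by
    rw [eval_eq_sum_range' (n := d + 1) (by omega), eval_eq_sum_range' (p := p) (n := d + 1)
      (by omega)]
    refine hasValue_sum _ fun l hl => hasValue_mul ?_ (hasValue_pow (hasValue_algebraMap P c) l)
    rw [hpc l (Nat.lt_succ_iff.1 (Finset.mem_range.1 hl))]
    exact hr l
  have hroot : ∀ w ∈ W, p.eval (a w) = 0 := fun w hw => by
    refine (hval (a w)).unique ?_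
    rw [hQdef, eval_mulCharpoly]
    refine hasValue_norm_zero hF hF' (fun x hx => (hsub _ x hx).atLeast) hw ?_
    have := hsub (a w) w hw
    rwa [sub_self] at this
  have hdvd : (∏ w ∈ W, (X - C (a w))) ∣ p := by
    refine Finset.prod_dvd_of_coprime (fun x hx y hy hne => ?_) fun w hw =>
      dvd_iff_isRoot.2 (hroot w hw)
    exact isCoprime_X_sub_C_of_isUnit_sub
      (sub_ne_zero.2 fun h => hne (hinj hx hy h)).isUnit
  have hprod : p = ∏ w ∈ W, (X - C (a w)) := by
    refine eq_of_monic_of_dvd_of_natDegree_le (monic_prod_X_sub_C _ _) hpm hdvd ?_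
    rw [natDegree_finsetProd_X_sub_C_eq_card, hcard]
    exact hple
  have h0 := hval 0
  rw [map_zero, hQdef, eval_mulCharpoly, map_zero, zero_sub,
    show -g = algebraMap F F' (-1) * g by rw [map_neg, map_one, neg_one_mul], map_mul,
    Algebra.norm_algebraMap, hprod, eval_prod] at h0
  simp only [eval_sub, eval_X, eval_C, zero_sub, Finset.prod_neg, hcard] at h0
  have h1 := hasValue_mul (hasValue_algebraMap P ((-1 : K) ^ d)) h0
  rw [map_pow, map_neg, map_one, ← mul_assoc, ← mul_pow, neg_one_mul, neg_neg, one_pow, one_mul,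
    ← mul_assoc, ← mul_pow, neg_one_mul, neg_neg, one_pow, one_mul] at h1
  exact h1

/-- **The value of a norm is the product of the values on the fibre.** -/
theorem hasValue_norm {z : F'} {b : Place K F' → K}
    (hb : ∀ w ∈ P.fiber F', HasValue w z (b w))
    (hbinj : Set.InjOn b (P.fiber F' : Set (Place K F'))) {g : F'} {a : Place K F' → K}
    (ha : ∀ w ∈ P.fiber F', HasValue w g (a w)) :
    HasValue P (Algebra.norm F g) (∏ w ∈ P.fiber F', a w) := by
  classical
  set W := P.fiber F'
  by_cases h0 : ∃ w ∈ W, a w = 0
  · obtain ⟨w, hw, hw0⟩ := h0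
    rw [Finset.prod_eq_zero hw hw0]
    exact hasValue_norm_zero hF hF' (fun x hx => (ha x hx).atLeast) hw (hw0 ▸ ha w hw)
  push Not at h0
  obtain ⟨c, hc⟩ := ((W.finite_toSet.image fun w => -b w).union
    ((W.finite_toSet.prod W.finite_toSet).image fun e : Place K F' × Place K F' =>
      (a e.2 * b e.2 - a e.1 * b e.1) / (a e.1 - a e.2))).infinite_compl.nonempty
  simp only [Set.mem_compl_iff, Set.mem_union, Set.mem_image, Finset.mem_coe, Set.mem_prod,
    not_or, not_exists, not_and, Prod.forall, and_imp] at hc
  obtain ⟨hc1, hc2⟩ := hc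
  set zc := z + algebraMap K F' c
  have hzc : ∀ w ∈ W, HasValue w zc (b w + c) := fun w hw =>
    (hb w hw).add (hasValue_algebraMap w c)
  have hne : ∀ w ∈ W, b w + c ≠ 0 := fun w hw h => hc1 w hw (neg_eq_of_add_eq_zero_right h)
  have hf := hasValue_norm_of_injOn hF hF' hcard (g := g * zc) (a := fun w => a w * (b w + c))
    (fun w hw => hasValue_mul (ha w hw) (hzc w hw)) fun x hx y hy he => by
      by_contra hxy
      rcases eq_or_ne (a x) (a y) with hab | hab
      · simp only [hab] at he
        exact hxy (hbinj hx hy (add_right_cancel (mul_left_cancel₀ (h0 y hy) he)))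
      · exact hc2 x y hx hy (by rw [div_eq_iff (sub_ne_zero.2 hab)]; simp only at he; linear_combination -he)
  have hz := hasValue_norm_of_injOn hF hF' hcard (g := zc) (a := fun w => b w + c) hzc
    fun x hx y hy he => hbinj hx hy (add_right_cancel he)
  obtain ⟨x, hx⟩ := exists_hasValue hF (atLeast_norm hF hF' fun w hw => (ha w hw).atLeast)
  have h1 := hasValue_mul hx hz
  rw [← map_mul] at h1
  have h2 := h1.unique hf
  rw [Finset.prod_mul_distrib] at h2
  exact (mul_right_cancel₀ (Finset.prod_ne_zero_iff.2 hne) h2) ▸ hx

end FA.ModField
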