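import Fermat.Agent.ModField.Semistable.AtP.Corrections
import Fermat.Agent.ModField.Semistable.Formal.Lift

/-!
# The maximum principle for near constant functions

If the divisor of `f` is that of a fixed divisor moved by `τ` minus itself, up to a fixed divisor
specialising to zero, then `f` is within `η` of a constant on each component, and the constants
differ by the ratios of the products of coordinate values in each tube.
-/

set_option autoImplicit false
set_option linter.style.haveILetI false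
set_option linter.unusedSectionVars false

noncomputable section

namespace FA.ModField.AtP

open AlgebraicCurve FA.Curve FA.CurveRed FA.CurveRed.ConstRed FA.Local FA.LocalDef

local notation "Qb" => AlgebraicClosure ℚ
local notation "GQ" => AlgebraicClosure ℚ ≃ₐ[ℚ] AlgebraicClosure ℚ

variable {F k : Type*} [Field F] [Algebra Qb F] [Field k] [IsAlgClosed k]
  {Fk : Fin 2 → Type*} [∀ i, Field (Fk i)] [∀ i, Algebra k (Fk i)]
  {A : ValuationSubring Qb} {J : MultiRed Qb F k Fk A} {hF : IsFunctionField Qb F}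
  {hk : ∀ i, IsFunctionField k (Fk i)} {x : F} {xb : ∀ i, Fk i}
  {H : FibreHyp J hF hk x xb}
  {hconn : ∀ c : Fin 2 → k,
    (∀ b b' : H.Br, H.sgPt b = H.sgPt b' → c b.1.1 = c b'.1.1) → ∀ i j, c i = c j}
  {φ : GQ →* SemilinearAut Qb F} (GF : GalFibre (H.semiFibre hconn) φ) {p : ℕ}
  (hp : p.Prime) (hA : A.LiesOverPrime p) {ϖ : Qb}
  (hind : ∀ g ∈ A.inertiaSubgroupIn ℚ, Induced J x (φ g) (fun _ => 1) 1)
  {U : H.UnitDatum ϖ} (C : ∀ s, FibreHyp.Coord U s)
  (hC : ∀ s, ∀ g ∈ A.inertiaSubgroupIn ℚ, φ g • (C s).T = (C s).T)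

local notation "v" => ValuationSubring.valuation A

variable {Hs : Subgroup GQ} (hH : Hs ≤ A.inertiaSubgroupIn ℚ) {τ : GQ}
  (hτ : τ ∈ A.inertiaSubgroupIn ℚ) {η π₁ : Qb} (hπ₁ : π₁ ≠ 0) (hπη : A.valuation π₁ < A.valuation η) (hη : A.valuation η < 1)
  (hsub : ∀ a : Qb, (∀ g ∈ Hs, g a = a) → A.valuation a ≤ 1 → A.valuation (τ a - a) < A.valuation η)
  {N₀ : Subgroup GQ} (hN₀ : N₀ ≤ A.inertiaSubgroupIn ℚ)
  (hle : ∀ c : Qb, (∀ g ∈ N₀, g c = c) → A.valuation c < 1 → A.valuation c ≤ A.valuation π₁)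

include GF hp hA hind hC hH hτ hπ₁ hπη hη hsub hN₀ hle

open Classical in
/-- **The maximum principle.** -/
theorem exists_near_const (D E : Divisor Qb F) (hD : ∀ g ∈ Hs, ∀ P, D (φ g • P) = D P)
    (hE : ∀ g ∈ N₀, ∀ P, E (φ g • P) = E P) (hEc : (H.semiFibre hconn).Clean E)
    (hE0 : ∀ i, (H.semiFibre hconn).push E i = 0) {f : F} (hf : f ≠ 0)
    (hfd : ∀ P, P.ord f = D ((φ τ)⁻¹ • P) - D P - E P) :
    ∃ c : Fin 2 → Qb, (∀ i, c i ≠ 0 ∧
        SmallAt (H.semiFibre hconn) η i (algebraMap Qb F (c i)⁻¹ * f - 1)) ∧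
      ∀ s, v (c 1 / c 0 * (tubeEps (C s) D / τ (tubeEps (C s) D)) - 1) < v η := by
  set X := H.semiFibre hconn with hX
  -- values at general places
  have hpick : ∀ i, ∃ (Q : Place k (Fk i)) (P : Place Qb F) (c : Qb),
      (∀ b, X.br b ≠ ⟨i, Q⟩) ∧ X.spl P = some ⟨i, Q⟩ ∧
      (∀ P', X.spl P' = some ⟨i, Q⟩ → P'.ord f = 0) ∧ HasValue P f c ∧ c ≠ 0 := fun i => by
    obtain ⟨Q, ⟨hQb, P, hP, -⟩, hQ⟩ := (GF.fixed i).exists_notMem_finset
      (((FA.Curve.finite_support hF f).toFinset.image X.spl).preimage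
        (fun Q : Place k (Fk i) => some (⟨i, Q⟩ : Σ i, Place k (Fk i)))
        (fun _ _ _ _ h => eq_of_heq (Sigma.mk.inj (Option.some_injective _ h)).2))
    have hzero : ∀ P', X.spl P' = some ⟨i, Q⟩ → P'.ord f = 0 := fun P' hP' => by
      by_contra hne
      exact hQ (Finset.mem_preimage.2 (Finset.mem_image.2
        ⟨P', (FA.Curve.finite_support hF f).mem_toFinset.2 hne, hP'⟩))
    obtain ⟨c, hc⟩ := exists_hasValue hF (Or.inr (hzero P hP).ge : AtLeast P 0 f)
    refine ⟨Q, P, c, hQb, hP, hzero, hc, fun h0 => ?_⟩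
    rw [h0, hasValue_zero_iff, atLeast_iff hf, hzero P hP] at hc
    omega
  choose Qi Pi ci hQi hPi hzi hci hci0 using hpick
  obtain ⟨m, -, hm⟩ := Finset.exists_max_image Finset.univ (fun i => v (ci i)) Finset.univ_nonempty
  set cm := ci m with hcm
  have hcm0 : cm ≠ 0 := hci0 m
  set f' := algebraMap Qb F cm⁻¹ * f with hf'
  set d : Fin 2 → Qb := fun i => ci i / cm with hd
  have hd1 : ∀ i, v (d i) ≤ 1 := fun i => by
    rw [hd, map_div₀, div_le_one₀ (A.valuation.pos_iff.2 hcm0)]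
    exact hm i (Finset.mem_univ i)
  have hf'0 : f' ≠ 0 := mul_ne_zero (by simpa using hcm0) hf
  have hf'ord : ∀ P : Place Qb F, P.ord f' = P.ord f := fun P => by
    rw [hf', P.ord_mul (by simpa using hcm0) hf, place_ord_algebraMap, zero_add]
  set e : H.Sg → Qb := fun s => tubeEps (C s) D / τ (tubeEps (C s) D) with he
  set κ : H.Sg → Qb := fun s => d 1 * e s - d 0 with hκ
  have hsc : ∀ i, ∃ (a : Qb) (r : Fk i), (a = 0 ∧ f' - algebraMap Qb F (d i) = 0) ∨
      (a ≠ 0 ∧ r ≠ 0 ∧ (X.C i).Red (algebraMap Qb F a⁻¹ * (f' - algebraMap Qb F (d i))) r) := by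
    intro i
    rcases eq_or_ne (f' - algebraMap Qb F (d i)) 0 with h | h
    · exact ⟨0, 0, Or.inl ⟨rfl, h⟩⟩
    · obtain ⟨a, g, r, ha, hg, hgr, hr⟩ := exists_scaled (X.scaled i) h
      refine ⟨a, r, Or.inr ⟨ha, hr, ?_⟩⟩
      rwa [hg, ← mul_assoc, ← map_mul, inv_mul_cancel₀ ha, map_one, one_mul]
  choose a ra hra using hsc
  set w : Fin 2 ⊕ H.Sg → Qb := Sum.elim a κ with hw
  suffices key : ∀ z, v (w z) < v η by
    have hs : ∀ i, SmallAt X η i (f' - algebraMap Qb F (d i)) := fun i => by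
      rcases hra i with ⟨-, h⟩ | ⟨ha, -, hr⟩
      · rw [h]; exact SmallAt.zero hπ₁ hπη
      · exact ⟨a i, ha, key (Sum.inl i), _, hr⟩
    have hd01 : ∀ i, v (d i) = 1 := by
      have hmax : v (d m) = 1 := by
        rw [hd, map_div₀, div_self (A.valuation.pos_iff.2 hcm0).ne']
      obtain ⟨s⟩ := (show Nonempty H.Sg from by
        obtain ⟨b, -⟩ := SemiFibre.exists_branch (X := X) 0
        exact ⟨H.sgPt b⟩)
      have hu : v (e s) = 1 := by
        rw [he, map_div₀, (inert_of_mem_inertiaSubgroupIn A hτ).map_eq,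
          div_self (A.valuation.pos_iff.2 (tubeEps_ne_zero (C s) D)).ne']
      have hk1 : v (d 1 * e s - d 0) < 1 := (key (Sum.inr s)).trans hη
      have hde : v (d 1 * e s) = v (d 1) := by rw [map_mul, hu, mul_one]
      have heq : v (d 1) = v (d 0) := by
        by_contra hne
        have h2 : v (d 1) < 1 ∧ v (d 0) < 1 := by
          rcases lt_or_gt_of_ne hne with h | h
          · rw [A.valuation.map_sub_eq_of_lt_right (hde ▸ h)] at hk1
            exact ⟨h.trans hk1, hk1⟩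
          · rw [A.valuation.map_sub_eq_of_lt_left (hde.symm ▸ h), hde] at hk1
            exact ⟨hk1, h.trans hk1⟩
        have : ∀ i, v (d i) < 1 := Fin.forall_fin_two.2 ⟨h2.2, h2.1⟩
        exact (this m).ne hmax
      have h1 : ∀ i j, v (d i) = v (d j) := by
        intro i j
        fin_cases i <;> fin_cases j <;> first | rfl | exact heq | exact heq.symm
      exact fun i => (h1 i m).trans hmax
    refine ⟨ci, fun i => ⟨hci0 i, ?_⟩, fun s => ?_⟩
    · have hdi : d i ≠ 0 := div_ne_zero (hci0 i) hcm0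
      have h := (hs i).smul (c := (d i)⁻¹) (by rw [map_inv₀, hd01 i, inv_one])
      rwa [mul_sub, ← map_mul, inv_mul_cancel₀ hdi, map_one, hf', ← mul_assoc, ← map_mul,
        show (d i)⁻¹ * cm⁻¹ = (ci i)⁻¹ by rw [hd]; field_simp] at h
    · have h := key (Sum.inr s)
      change v (κ s) < v η at h
      have hd0 : d 0 ≠ 0 := div_ne_zero (hci0 0) hcm0
      rw [show ci 1 / ci 0 * (tubeEps (C s) D / τ (tubeEps (C s) D)) - 1 = κ s / d 0 by
        rw [hκ, he]
        simp only [hd]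
        have h1 := hci0 0
        field_simp, map_div₀, hd01 0, div_one]
      exact h
  by_contra hno
  push Not at hno
  obtain ⟨z₀, hz₀⟩ := hno
  obtain ⟨zb, -, hmax⟩ := Finset.exists_max_image Finset.univ (fun z => v (w z))
    ⟨z₀, Finset.mem_univ _⟩
  set b := w zb with hb
  have hηb : v η ≤ v b := hz₀.trans (hmax z₀ (Finset.mem_univ _))
  have hb0 : b ≠ 0 := fun h => by
    rw [h, map_zero] at hηb
    exact not_lt_zero (hπη.trans_le hηb)
  have hmax' : ∀ z, v (w z) ≤ v b := fun z => hmax z (Finset.mem_univ z)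
  -- the reductions of the differences
  have hred : ∀ i, ∃ r, (X.C i).Red (algebraMap Qb F b⁻¹ * (f' - algebraMap Qb F (d i))) r ∧
      (r = 0 → v (a i) < v b) := by
    intro i
    rcases hra i with ⟨ha, h⟩ | ⟨ha, hr0, hr⟩
    · refine ⟨0, by rw [h, mul_zero]; exact ConstRed.red_zero, fun _ => ?_⟩
      rw [ha, map_zero]
      exact A.valuation.pos_iff.2 hb0
    · obtain ⟨t, ht, ht0⟩ := SmallAt.of_le ha hb0 (hmax' (Sum.inl i)) hr
      refine ⟨t, ht, fun h0 => lt_of_le_of_ne (hmax' (Sum.inl i)) fun heq => ?_⟩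
      obtain ⟨t', ht', -⟩ := SmallAt.of_le hb0 ha heq.ge ht
      rw [h0] at ht
      have hz := (X.red_const i ⟨(a i)⁻¹ * b, (A.valuation_le_one_iff _).1 (by
        change v ((a i)⁻¹ * b) ≤ 1
        rw [map_mul, map_inv₀, show v (a i) = v b from heq,
          inv_mul_cancel₀ (A.valuation.pos_iff.2 hb0).ne'])⟩).mul ht
      rw [mul_zero] at hz
      refine hr0 (hr.unique ?_)
      convert hz using 1
      show _ = algebraMap Qb F ((a i)⁻¹ * b) * _
      rw [map_mul, mul_assoc, SmallAt.cast_eq hb0]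
  choose r hr hr0 using hred
  have hκA : ∀ s, b⁻¹ * κ s ∈ A := fun s => by
    rw [← A.valuation_le_one_iff, map_mul, map_inv₀,
      inv_mul_le_one₀ (A.valuation.pos_iff.2 hb0)]
    exact hmax' (Sum.inr s)
  -- regular at smooth points
  have hsmooth : ∀ i (Q : Place k (Fk i)), (∀ b', X.br b' ≠ ⟨i, Q⟩) → AtLeast Q 0 (r i) := by
    intro i Q hQ
    obtain ⟨R, hR0, hR, hRord⟩ := GF.exists_disc_corr hF hk hp hA hH hτ hπ₁ hπη hη.le hsub hN₀ hle
      hQ D E hD hE (by rw [hE0 i]; rfl)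
    have h1 : (X.C i).Red (algebraMap Qb F b⁻¹ * (f' * R - algebraMap Qb F (d i))) (r i) := by
      have h := ((hr i).mul (hR.red_one hη.le)).add ((hR.smul (hd1 i)).red_div hηb)
      rw [mul_one, add_zero] at h
      convert h using 1
      ring
    refine X.red_ord_nonneg hF h1 hQ fun P hP => ?_
    refine (AtLeast.sub (Or.inr ?_ : AtLeast P 0 (f' * R)) (atLeast_algebraMap _)).smul _
    rw [P.ord_mul hf'0 hR0, hf'ord, hfd, hRord P hP]
    omega
  -- the tubes
  have htube : ∀ s, ∃ (u : k) (cK : k),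
      HasValue (H.brPl s 0) (r 0) u ∧
      HasValue (H.brPl s 1) (r 1 * algebraMap k (Fk 1) cK +
        algebraMap k (Fk 1) (X.π ⟨_, hκA s⟩)) u ∧ cK ≠ 0 := by
    intro s
    obtain ⟨R, hR0, hRs0, hRs1, hRord⟩ := exists_tube_corr GF hind (C s) (hC s) hH hτ hπ₁ hπη
      hη.le hsub D hD
    have hu : v (e s) = 1 := by
      rw [he, map_div₀, (inert_of_mem_inertiaSubgroupIn A hτ).map_eq,
        div_self (A.valuation.pos_iff.2 (tubeEps_ne_zero (C s) D)).ne']
    have heA : e s ∈ A := (A.valuation_le_one_iff _).1 hu.le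
    have hR1 : (X.C 1).Red R (algebraMap k (Fk 1) (X.π ⟨e s, heA⟩)) := by
      have h := (hRs1.red_zero hη.le).add (X.red_const 1 ⟨e s, heA⟩)
      rw [sub_add_cancel, zero_add] at h
      exact h
    have hρ0 : X.π ⟨e s, heA⟩ ≠ 0 := fun h0 => by
      rw [X.π_eq_zero] at h0
      exact h0.ne hu
    set ψ := algebraMap Qb F b⁻¹ * (f' * R - algebraMap Qb F (d 0)) with hψ
    have h0 : (X.C 0).Red ψ (r 0) := by
      have h := ((hr 0).mul (hRs0.red_one hη.le)).add ((hRs0.smul (hd1 0)).red_div hηb)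
      rw [mul_one, add_zero] at h
      convert h using 1
      rw [hψ]; ring
    have h1 : (X.C 1).Red ψ (r 1 * algebraMap k (Fk 1) (X.π ⟨e s, heA⟩) +
        algebraMap k (Fk 1) (X.π ⟨_, hκA s⟩)) := by
      have h := (((hr 1).mul hR1).add ((hRs1.smul (hd1 1)).red_div hηb)).add
        (X.red_const 1 ⟨_, hκA s⟩)
      rw [add_zero] at h
      convert h using 1
      show _ = _ + algebraMap Qb F (b⁻¹ * κ s)
      rw [hψ, hκ, map_mul, map_sub, map_mul]
      ring
    obtain ⟨u, hu1, -⟩ := H.value_at (f := ψ)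
      (r := FibreHyp.mkTwo (r 0) (r 1 * algebraMap k (Fk 1) (X.π ⟨e s, heA⟩) +
        algebraMap k (Fk 1) (X.π ⟨_, hκA s⟩)))
      (Fin.forall_fin_two.2 ⟨h0, h1⟩) s fun P hP => by
        refine (AtLeast.sub (Or.inr ?_ : AtLeast P 0 (f' * R)) (atLeast_algebraMap _)).smul _
        rw [P.ord_mul hf'0 hR0, hf'ord, hfd, hRord P hP, hEc P (H.tubeAt_iff_none.2 ⟨s, hP⟩)]
        omega
    exact ⟨u, _, hu1 _ (H.sgPt_brAt s 0), hu1 _ (H.sgPt_brAt s 1), hρ0⟩
  -- regular everywhere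
  have hall : ∀ i (Q : Place k (Fk i)), AtLeast Q 0 (r i) := by
    intro i Q
    by_cases hQ : ∀ b', X.br b' ≠ ⟨i, Q⟩
    · exact hsmooth i Q hQ
    push Not at hQ
    obtain ⟨⟨⟨i', Q'⟩, hb'⟩, hbe⟩ := hQ
    obtain ⟨rfl, hQQ⟩ := Sigma.mk.inj hbe
    obtain rfl := eq_of_heq hQQ
    obtain ⟨u, cK, hu0, hu1, hcK⟩ := htube (H.sgPt ⟨⟨i', Q'⟩, hb'⟩)
    have hQe : H.brPl (H.sgPt ⟨⟨i', Q'⟩, hb'⟩) i' = Q' := FibreHyp.InCls.subsingleton H
      (H.brPl_spec _ i') (s := H.sgPt ⟨⟨i', Q'⟩, hb'⟩) ⟨hb', rfl⟩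
    generalize H.sgPt ⟨⟨i', Q'⟩, hb'⟩ = s at hu0 hu1 hQe
    subst hQe
    fin_cases i'
    · exact hu0.atLeast
    · have h := (hu1.atLeast.sub (atLeast_algebraMap (X.π ⟨_, hκA s⟩))).smul cK⁻¹
      rw [add_sub_cancel_right, mul_comm (r 1), ← mul_assoc, ← map_mul, inv_mul_cancel₀ hcK,
        map_one, one_mul] at h
      exact h
  have hzero : ∀ i, r i = 0 := fun i => by
    obtain ⟨c, hc⟩ : ∃ c, r i = algebraMap k (Fk i) c := by
      by_contra hno
      push Not at hno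
      obtain ⟨Q, hQ⟩ := exists_ord_neg (hk i) (transcendental_of_not_const hno)
      rcases hall i Q with h | h
      · exact hno 0 (by rw [h, map_zero])
      · omega
    have hval : HasValue (Pi i) (algebraMap Qb F b⁻¹ * (f' - algebraMap Qb F (d i))) 0 := by
      have h := (((hci i).smul cm⁻¹).sub (hasValue_algebraMap (Pi i) (d i))).smul b⁻¹
      rwa [← hf', show cm⁻¹ * ci i - d i = 0 by rw [hd]; ring, mul_zero] at h
    obtain ⟨h0A, hv⟩ := X.hasValue_red hF (hr i) (hQi i) (fun P' hP' => by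
      refine (AtLeast.sub (Or.inr ?_ : AtLeast P' 0 f') (atLeast_algebraMap _)).smul _
      rw [hf'ord, hzi i P' hP']) (hPi i) hval
    rw [hc] at hv ⊢
    rw [(hasValue_algebraMap (Qi i) c).unique hv,
      show (⟨(0 : Qb), h0A⟩ : A) = 0 from rfl, map_zero, map_zero]
  have hlt : ∀ z, v (w z) < v b := by
    rintro (i | s)
    · exact hr0 i (hzero i)
    · refine lt_of_le_of_ne (hmax' (Sum.inr s)) fun heq => ?_
      obtain ⟨u, cK, hu0, hu1, -⟩ := htube s
      rw [hzero 0] at hu0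
      rw [hzero 1, zero_mul, zero_add] at hu1
      have h1 := hu0.unique (by simpa using hasValue_algebraMap (H.brPl s 0) (0 : k))
      have h2 := (hu1.unique (hasValue_algebraMap (H.brPl s 1) _)).symm.trans h1
      rw [X.π_eq_zero] at h2
      change v (b⁻¹ * κ s) < 1 at h2
      rw [map_mul, map_inv₀, show v (κ s) = v b from heq,
        inv_mul_cancel₀ (A.valuation.pos_iff.2 hb0).ne'] at h2
      exact lt_irrefl _ h2
  exact lt_irrefl _ (hlt zb)

end FA.ModField.AtP
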