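import Mathlib.RingTheory.Valuation.ValuationSubring
import Mathlib.Algebra.Field.Subfield.Basic

/-!
# An element of valuation outside the value group of a subfield

If `π ^ i` for `0 < i < n` has valuation outside the values of a subfield `L`, the terms of a sum
`∑ cᵢ πⁱ` have distinct valuations.  For an automorphism fixing `L` with `σ π = π (1 + η)`, `η`
small, this controls `σ a - a` from both sides.
-/

set_option autoImplicit false
set_option linter.unusedSectionVars false

noncomputable section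

namespace FA.ModField.AtP

variable {K : Type*} [Field K] (A : ValuationSubring K)

/-- The data of a wild step over `L`. -/
structure WildStep (L : Subfield K) (σ : K →+* K) (n : ℕ) (π η : K) : Prop where
  fixes : ∀ a ∈ L, σ a = a
  ne_zero : π ≠ 0
  indep : ∀ i, 0 < i → i < n → ∀ a ∈ L, A.valuation (π ^ i) ≠ A.valuation a
  map_pi : σ π = π * (1 + η)
  small : A.valuation η < 1
  unit_nat : ∀ i : ℕ, 0 < i → i < n → A.valuation (i : K) = 1

variable {A} {L : Subfield K} {σ : K →+* K} {n : ℕ} {π η : K} (W : WildStep A L σ n π η)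

include W

namespace WildStep

theorem valuation_one_add_pow_sub (i : ℕ) :
    ∃ r : K, A.valuation r ≤ 1 ∧ (1 + η) ^ i - 1 = η * ((i : K) + η * r) := by
  induction i with
  | zero => exact ⟨0, by simp, by simp⟩
  | succ i ih =>
    obtain ⟨r, hr, he⟩ := ih
    have hηA : η ∈ A := (A.valuation_le_one_iff η).1 W.small.le
    refine ⟨(i : K) + (1 + η) * r, (A.valuation_le_one_iff _).2 (add_mem (natCast_mem A i)
      (mul_mem (add_mem (one_mem A) hηA) ((A.valuation_le_one_iff r).1 hr))), ?_⟩
    rw [pow_succ, show (1 + η) ^ i = 1 + η * ((i : K) + η * r) by rw [← he]; ring]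
    push_cast
    ring

/-- The variation of a term. -/
theorem valuation_sub_term {i : ℕ} (hi : 0 < i) (hin : i < n) {c : K} (hc : c ∈ L) :
    A.valuation (σ (c * π ^ i) - c * π ^ i) = A.valuation η * A.valuation (c * π ^ i) := by
  obtain ⟨r, hr, he⟩ := W.valuation_one_add_pow_sub i
  have e : σ (c * π ^ i) - c * π ^ i = c * π ^ i * (η * ((i : K) + η * r)) := by
    rw [map_mul, map_pow, W.fixes c hc, W.map_pi, mul_pow, ← he]
    ring
  have hu : A.valuation ((i : K) + η * r) = 1 := by
    rw [A.valuation.map_add_eq_of_lt_left (by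
      rw [W.unit_nat i hi hin, map_mul]
      exact mul_lt_one_of_lt_of_le W.small hr), W.unit_nat i hi hin]
  rw [e, map_mul, map_mul A.valuation η, hu, mul_one, mul_comm]

theorem valuation_ne {c d : K} (hc : c ∈ L) (hd : d ∈ L) (hc0 : c ≠ 0) {i j : ℕ} (hij : i < j)
    (hjn : j < n) : A.valuation (c * π ^ i) ≠ A.valuation (d * π ^ j) := by
  intro h
  have hd0 : d ≠ 0 := fun h0 => by
    rw [h0, zero_mul, map_zero, map_eq_zero] at h
    exact mul_ne_zero hc0 (pow_ne_zero _ W.ne_zero) h
  refine W.indep (j - i) (by omega) (by omega) (c / d) (div_mem hc hd) ?_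
  rw [map_div₀, eq_div_iff ((map_ne_zero _).2 hd0)]
  apply mul_right_cancel₀ ((map_ne_zero A.valuation).2 (pow_ne_zero i W.ne_zero))
  rw [← map_mul, ← map_mul, ← map_mul, mul_right_comm, ← pow_add, Nat.sub_add_cancel hij.le,
    mul_comm, h]

/-- A sum with coefficients in `L` has the valuation of one of its terms and dominates all. -/
theorem exists_top (c : ℕ → K) (hc : ∀ i, c i ∈ L)
    (h0 : ∑ i ∈ Finset.range n, c i * π ^ i ≠ 0) :
    ∃ j < n, A.valuation (∑ i ∈ Finset.range n, c i * π ^ i) = A.valuation (c j * π ^ j) ∧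
      ∀ i < n, i ≠ j → A.valuation (c i * π ^ i) < A.valuation (c j * π ^ j) := by
  classical
  have hne : (Finset.range n).Nonempty := Finset.nonempty_of_sum_ne_zero h0
  obtain ⟨j, hj, hmax⟩ := Finset.exists_max_image (Finset.range n)
    (fun i => A.valuation (c i * π ^ i)) hne
  have hcj : c j ≠ 0 := fun hz => h0 (Finset.sum_eq_zero fun i hi => (map_eq_zero A.valuation).1
    (le_antisymm ((hmax i hi).trans (by rw [hz, zero_mul, map_zero])) zero_le))
  have hlt : ∀ i < n, i ≠ j → A.valuation (c i * π ^ i) < A.valuation (c j * π ^ j) := by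
    intro i hi hij
    refine lt_of_le_of_ne (hmax i (Finset.mem_range.2 hi)) fun he => ?_
    rcases lt_or_gt_of_ne hij with h | h
    · refine W.valuation_ne (hc i) (hc j) (fun hz => ?_) h (Finset.mem_range.1 hj) he
      rw [hz, zero_mul, map_zero] at he
      exact mul_ne_zero hcj (pow_ne_zero _ W.ne_zero) ((map_eq_zero _).1 he.symm)
    · exact W.valuation_ne (hc j) (hc i) hcj h hi he.symm
  refine ⟨j, Finset.mem_range.1 hj, A.valuation.map_sum_eq_of_lt hj fun i hi => ?_, hlt⟩
  rw [Finset.mem_sdiff, Finset.mem_singleton] at hi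
  exact hlt i (Finset.mem_range.1 hi.1) hi.2

theorem map_sum_sub (c : ℕ → K) :
    σ (∑ i ∈ Finset.range n, c i * π ^ i) - ∑ i ∈ Finset.range n, c i * π ^ i =
      ∑ i ∈ Finset.range n, (σ (c i * π ^ i) - c i * π ^ i) := by
  rw [map_sum, ← Finset.sum_sub_distrib]

/-- An integral element moves by less than `η`. -/
theorem sub_lt (hη : η ≠ 0) (c : ℕ → K) (hc : ∀ i, c i ∈ L)
    (ha : A.valuation (∑ i ∈ Finset.range n, c i * π ^ i) ≤ 1) :
    A.valuation (σ (∑ i ∈ Finset.range n, c i * π ^ i) - ∑ i ∈ Finset.range n, c i * π ^ i) <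
      A.valuation η := by
  rcases eq_or_ne (∑ i ∈ Finset.range n, c i * π ^ i) 0 with h0 | h0
  · rw [h0, map_zero, sub_zero, map_zero]
    exact A.valuation.pos_iff.2 hη
  obtain ⟨j, -, hj, hlt⟩ := W.exists_top c hc h0
  rw [W.map_sum_sub c]
  refine A.valuation.map_sum_lt ((map_ne_zero _).2 hη) fun i hi => ?_
  rcases Nat.eq_zero_or_pos i with rfl | hi0
  · rw [pow_zero, mul_one, W.fixes _ (hc 0), sub_self, map_zero]
    exact A.valuation.pos_iff.2 hη
  rw [W.valuation_sub_term hi0 (Finset.mem_range.1 hi) (hc i)]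
  refine mul_lt_of_lt_one_right (A.valuation.pos_iff.2 hη) (lt_of_le_of_ne ?_ fun h1 => ?_)
  · rcases eq_or_ne i j with rfl | hij
    · exact hj ▸ ha
    · exact (hlt i (Finset.mem_range.1 hi) hij).le.trans (hj ▸ ha)
  · have hci : c i ≠ 0 := fun hz => by rw [hz, zero_mul, map_zero] at h1; exact zero_ne_one h1
    refine W.indep i hi0 (Finset.mem_range.1 hi) (c i)⁻¹ (inv_mem (hc i)) ?_
    rw [map_inv₀]
    rw [map_mul] at h1
    exact eq_inv_of_mul_eq_one_right h1

/-- An element moving by less than `η` times itself has the valuation of an element of `L`. -/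
theorem exists_valuation_eq (c : ℕ → K) (hc : ∀ i, c i ∈ L)
    (h : A.valuation (σ (∑ i ∈ Finset.range n, c i * π ^ i) - ∑ i ∈ Finset.range n, c i * π ^ i) <
      A.valuation η * A.valuation (∑ i ∈ Finset.range n, c i * π ^ i)) :
    ∃ a ∈ L, A.valuation (∑ i ∈ Finset.range n, c i * π ^ i) = A.valuation a := by
  classical
  rcases eq_or_ne (∑ i ∈ Finset.range n, c i * π ^ i) 0 with h0 | h0
  · exact ⟨0, zero_mem L, by rw [h0]⟩
  obtain ⟨j, hjn, hj, hlt⟩ := W.exists_top c hc h0
  rcases Nat.eq_zero_or_pos j with rfl | hj0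
  · exact ⟨c 0, hc 0, by rw [hj, pow_zero, mul_one]⟩
  exfalso
  have hη : η ≠ 0 := fun hz => not_lt_zero (lt_of_lt_of_eq h (by rw [hz, map_zero, zero_mul]))
  have htop : A.valuation (∑ i ∈ Finset.range n, (σ (c i * π ^ i) - c i * π ^ i)) =
      A.valuation (σ (c j * π ^ j) - c j * π ^ j) := by
    refine A.valuation.map_sum_eq_of_lt (Finset.mem_range.2 hjn) fun i hi => ?_
    rw [Finset.mem_sdiff, Finset.mem_singleton, Finset.mem_range] at hi
    rw [W.valuation_sub_term hj0 hjn (hc j)]
    rcases Nat.eq_zero_or_pos i with rfl | hi0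
    · rw [pow_zero, mul_one, W.fixes _ (hc 0), sub_self, map_zero]
      refine mul_pos (A.valuation.pos_iff.2 hη) ?_
      exact lt_of_le_of_lt zero_le (hlt 0 hi.1 hi.2)
    rw [W.valuation_sub_term hi0 hi.1 (hc i)]
    exact mul_lt_mul_of_pos_left (hlt i hi.1 hi.2) (A.valuation.pos_iff.2 hη)
  rw [W.map_sum_sub c, htop, W.valuation_sub_term hj0 hjn (hc j), hj] at h
  exact lt_irrefl _ h

end WildStep

end FA.ModField.AtP
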